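import Mathlib

/-!
# S14: shared definitions (tiny, frozen once landed)

* `UnramifiedEverywhere F E` : every inertia group of `E/F` at a nonzero prime of `𝓞 E` is trivial.
* `ord v x` : the additive `v`-adic valuation of `x : E` (junk value `0` at `x = 0`).
-/

set_option autoImplicit false

namespace Fermat.Agent.S14

open NumberField IsDedekindDomain
open scoped nonZeroDivisors Pointwise

/-- Every inertia group of `E/F` at a nonzero prime of `𝓞 E` is trivial. -/
def UnramifiedEverywhere (F E : Type*) [Field F] [Field E] [Algebra F E] : Prop :=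
  ∀ P : Ideal (𝓞 E), P.IsPrime → P ≠ ⊥ →
    ∀ σ : E ≃ₐ[F] E, (∀ x : 𝓞 E, σ • x - x ∈ P) → σ = 1

/-- The additive valuation of `x : E` at the height-one prime `v` of `𝓞 E`. -/
noncomputable def ord {E : Type*} [Field E] [NumberField E] (v : HeightOneSpectrum (𝓞 E))
    (x : E) : ℤ :=
  FractionalIdeal.count E v (FractionalIdeal.spanSingleton (𝓞 E)⁰ x)

end Fermat.Agent.S14
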