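import Mathlib
import Fermat.Agent.S14.Defs

/-!
# S14 / CrossGlobal : the global norm congruence (skeleton item X4)

`global_norm`: let `K/ℚ` be a Galois number field in which the prime `r` has all its primes of
residue degree one, and let `c ∈ Kˣ` be such that at every prime `v ∣ r` the element
`c * r ^ (-ord v c)` is a `v`-unit congruent to `1` mod `v`.  If `g` is a primitive root mod `r`
and `u v` is a discrete logarithm of `N v` (for `v ∤ r`), then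
`(r - 1) ∣ 2 * ∑ᶠ v, u v * ord v c`.

Proof: `N(c) = ∏_τ τ(c)`; conjugating the local data at the primes `τ⁻¹ v0` (for one fixed prime
`v0 ∣ r`) and multiplying gives `N(c) * r ^ S ≡ 1` multiplicatively mod `v0`, hence mod `r`;
on the other hand `|N(c)| = r ^ k * ∏_{v ∤ r} (N v) ^ (ord v c)`.  Comparing mod `r` and squaring
(to kill the sign) gives `g ^ (2 Σ⁺) = g ^ (2 Σ⁻)`.

All auxiliary lemmas live in the namespace `Fermat.Agent.S14.CrossGlobal`.
-/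

set_option autoImplicit false
set_option linter.unusedSectionVars false
set_option linter.unusedVariables false

namespace Fermat.Agent.S14

open NumberField IsDedekindDomain
open scoped nonZeroDivisors Pointwise

namespace CrossGlobal

variable {K : Type*} [Field K] [NumberField K]

theorem spanSingleton_ne_zero' {c : K} (hc : c ≠ 0) :
    FractionalIdeal.spanSingleton (𝓞 K)⁰ c ≠ 0 := by
  rwa [Ne, FractionalIdeal.spanSingleton_eq_zero_iff]

/-- `ord` is additive on nonzero elements. -/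
theorem ord_mul' (v : HeightOneSpectrum (𝓞 K)) {x y : K} (hx : x ≠ 0) (hy : y ≠ 0) :
    ord v (x * y) = ord v x + ord v y := by
  unfold ord
  rw [← FractionalIdeal.spanSingleton_mul_spanSingleton,
    FractionalIdeal.count_mul K v (spanSingleton_ne_zero' hx) (spanSingleton_ne_zero' hy)]

/-- finite support of `ord`. -/
theorem finite_ord_support {c : K} (hc : c ≠ 0) :
    {v : HeightOneSpectrum (𝓞 K) | ord v c ≠ 0}.Finite := by
  have h := FractionalIdeal.finite_factors (K := K)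
    (FractionalIdeal.spanSingleton (𝓞 K)⁰ c)
  exact h

/-- `|N(c)| = ∏_v (N v)^{ord_v c}`. -/
theorem abs_norm_eq_prod {c : K} (hc : c ≠ 0) (s : Finset (HeightOneSpectrum (𝓞 K)))
    (hs : ∀ v, ord v c ≠ 0 → v ∈ s) :
    |Algebra.norm ℚ c| = ∏ v ∈ s, ((Ideal.absNorm v.asIdeal : ℕ) : ℚ) ^ ord v c := by
  have hI := spanSingleton_ne_zero' hc
  have h1 := FractionalIdeal.finprod_heightOneSpectrum_factorization' (K := K) hI
  have h2 : ∏ᶠ v : HeightOneSpectrum (𝓞 K),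
      (v.asIdeal : FractionalIdeal (𝓞 K)⁰ K) ^ (FractionalIdeal.count K v
        (FractionalIdeal.spanSingleton (𝓞 K)⁰ c)) =
      ∏ v ∈ s, (v.asIdeal : FractionalIdeal (𝓞 K)⁰ K) ^ ord v c := by
    apply finprod_eq_prod_of_mulSupport_subset
    intro v hv
    rw [Function.mem_mulSupport] at hv
    apply hs
    intro h0
    apply hv
    unfold ord at h0
    rw [h0, zpow_zero]
  rw [← FractionalIdeal.absNorm_span_singleton (𝓞 K), ← h1, h2, map_prod]
  refine Finset.prod_congr rfl fun v _ => ?_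
  rw [map_zpow₀, FractionalIdeal.coeIdeal_absNorm]

/-- integers lying in a proper ideal containing the prime `r` are multiples of `r`. -/
theorem dvd_of_intCast_mem {r : ℕ} (hr : r.Prime) (P : Ideal (𝓞 K)) (hP : P ≠ ⊤)
    (hrP : (r : 𝓞 K) ∈ P) {z : ℤ} (hz : (z : 𝓞 K) ∈ P) : (r : ℤ) ∣ z := by
  by_contra hnd
  have hcop : IsCoprime (r : ℤ) z :=
    (Nat.prime_iff_prime_int.mp hr).coprime_iff_not_dvd.mpr hnd
  obtain ⟨a, b, hab⟩ := hcop
  apply hP
  rw [Ideal.eq_top_iff_one]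
  have h1 : ((a * r + b * z : ℤ) : 𝓞 K) ∈ P := by
    push_cast
    exact P.add_mem (P.mul_mem_left _ hrP) (P.mul_mem_left _ hz)
  rw [hab] at h1
  simpa using h1

theorem eq_of_pow_mul_eq_aux {R : Type*} [CommRing R] [IsDomain R] (P : Ideal R) [P.IsPrime]
    {r p q : R} (hr0 : r ≠ 0) (hrP : r ∈ P) (hp : p ∉ P) {a b : ℕ} (hab : a ≤ b)
    (h : r ^ a * p = r ^ b * q) : p = q := by
  obtain ⟨d, rfl⟩ := Nat.exists_eq_add_of_le hab
  rw [pow_add, mul_assoc] at h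
  have h2 : p = r ^ d * q := mul_left_cancel₀ (pow_ne_zero a hr0) h
  rcases Nat.eq_zero_or_pos d with hd | hd
  · subst hd
    simpa using h2
  · exfalso
    apply hp
    rw [h2]
    exact P.mul_mem_right _ (P.pow_mem_of_mem hrP d hd)

theorem eq_of_pow_mul_eq {R : Type*} [CommRing R] [IsDomain R] (P : Ideal R) [P.IsPrime]
    {r p q : R} (hr0 : r ≠ 0) (hrP : r ∈ P) (hp : p ∉ P) (hq : q ∉ P) {a b : ℕ}
    (h : r ^ a * p = r ^ b * q) : p = q := by
  rcases le_total a b with hab | hab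
  · exact eq_of_pow_mul_eq_aux P hr0 hrP hp hab h
  · exact (eq_of_pow_mul_eq_aux P hr0 hrP hq hab h.symm).symm

/-- product of local congruence data. -/
theorem exists_prod_loc (r : ℕ) (hr0 : (r : K) ≠ 0) (v0 : Ideal (𝓞 K)) [v0.IsPrime]
    {ι : Type*} [DecidableEq ι] (T : Finset ι) (f : ι → K)
    (h : ∀ i ∈ T, ∃ (e : ℤ) (x y : 𝓞 K), y ∉ v0 ∧ x - y ∈ v0 ∧
      f i * (r : K) ^ e * (y : K) = (x : K)) :
    ∃ (S : ℤ) (X Y : 𝓞 K), Y ∉ v0 ∧ X - Y ∈ v0 ∧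
      (∏ i ∈ T, f i) * (r : K) ^ S * (Y : K) = (X : K) := by
  induction T using Finset.induction_on with
  | empty =>
    refine ⟨0, 1, 1, ?_, ?_, ?_⟩
    · rw [← Ideal.eq_top_iff_one]
      exact Ideal.IsPrime.ne_top'
    · simp
    · simp
  | insert i T hi ih =>
    obtain ⟨S, X, Y, hY, hXY, hE⟩ := ih (fun j hj => h j (Finset.mem_insert_of_mem hj))
    obtain ⟨e, x, y, hy, hxy, hE'⟩ := h i (Finset.mem_insert_self i T)
    refine ⟨e + S, x * X, y * Y, ?_, ?_, ?_⟩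
    · intro hmem
      rcases Ideal.IsPrime.mem_or_mem ‹v0.IsPrime› hmem with h1 | h1
      · exact hy h1
      · exact hY h1
    · have : x * X - y * Y = (x - y) * X + y * (X - Y) := by ring
      rw [this]
      exact v0.add_mem (v0.mul_mem_right _ hxy) (v0.mul_mem_left _ hXY)
    · have hm1 : ((x * X : 𝓞 K) : K) = (x : K) * (X : K) := map_mul (algebraMap (𝓞 K) K) x X
      have hm2 : ((y * Y : 𝓞 K) : K) = (y : K) * (Y : K) := map_mul (algebraMap (𝓞 K) K) y Y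
      rw [Finset.prod_insert hi, zpow_add₀ hr0, hm1, hm2]
      linear_combination ((∏ j ∈ T, f j) * (r : K) ^ S * (Y : K)) * hE' + (x : K) * hE

/-- conjugating the local datum at the prime `τ⁻¹ v0` by `τ`. -/
theorem exists_loc_conj (r : ℕ) (c : K)
    (hloc : ∀ v : HeightOneSpectrum (𝓞 K), (r : 𝓞 K) ∈ v.asIdeal →
      ∃ x y : 𝓞 K, y ∉ v.asIdeal ∧ x - y ∈ v.asIdeal ∧
        c * (r : K) ^ (- ord v c) * (y : K) = (x : K))
    (v0 : HeightOneSpectrum (𝓞 K)) (hv0 : (r : 𝓞 K) ∈ v0.asIdeal) (τ : K ≃ₐ[ℚ] K) :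
    ∃ (e : ℤ) (x y : 𝓞 K), y ∉ v0.asIdeal ∧ x - y ∈ v0.asIdeal ∧
      τ c * (r : K) ^ e * (y : K) = (x : K) := by
  set τ' : 𝓞 K ≃+* 𝓞 K := RingOfIntegers.mapRingEquiv (τ : K ≃+* K) with hτ'
  set v' : HeightOneSpectrum (𝓞 K) :=
    HeightOneSpectrum.comap (τ' : 𝓞 K →+* 𝓞 K) τ'.surjective v0 with hv'
  have hr' : (r : 𝓞 K) ∈ v'.asIdeal := by
    show (r : 𝓞 K) ∈ Ideal.comap (τ' : 𝓞 K →+* 𝓞 K) v0.asIdeal
    rw [Ideal.mem_comap, map_natCast]
    exact hv0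
  obtain ⟨x, y, hy, hxy, hE⟩ := hloc v' hr'
  refine ⟨- ord v' c, τ' x, τ' y, ?_, ?_, ?_⟩
  · exact hy
  · have : τ' x - τ' y = τ' (x - y) := (map_sub τ' x y).symm
    rw [this]
    exact hxy
  · have h1 : ((τ' x : 𝓞 K) : K) = τ (x : K) := rfl
    have h2 : ((τ' y : 𝓞 K) : K) = τ (y : K) := rfl
    rw [h1, h2, ← hE, map_mul, map_mul, map_zpow₀, map_natCast]

theorem exists_prime_above (r : ℕ) (hr : r.Prime) :
    ∃ v0 : HeightOneSpectrum (𝓞 K), (r : 𝓞 K) ∈ v0.asIdeal := by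
  have : Fact r.Prime := ⟨hr⟩
  obtain ⟨P, hPmax, hPover⟩ :=
    Ideal.exists_ideal_over_maximal_of_isIntegral (S := 𝓞 K) (Ideal.span {(r : ℤ)})
      (by
        rw [(RingHom.injective_iff_ker_eq_bot _).mp
          (FaithfulSMul.algebraMap_injective ℤ (𝓞 K))]
        exact bot_le)
  have hrP : (r : 𝓞 K) ∈ P := by
    have h1 : (r : ℤ) ∈ Ideal.comap (algebraMap ℤ (𝓞 K)) P := by
      rw [hPover]
      exact Ideal.subset_span rfl
    rw [Ideal.mem_comap] at h1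
    simpa using h1
  refine ⟨⟨P, hPmax.isPrime, ?_⟩, hrP⟩
  rintro rfl
  rw [Ideal.mem_bot] at hrP
  have : (r : 𝓞 K) ≠ 0 := Nat.cast_ne_zero.mpr hr.ne_zero
  exact this hrP

theorem sq_eq_sq_of_norm {r : ℕ} (hr : r.Prime) (v0 : Ideal (𝓞 K)) [v0.IsPrime]
    (hv0 : (r : 𝓞 K) ∈ v0)
    (n : ℚ) (S : ℤ) (X Y : 𝓞 K) (hY : Y ∉ v0) (hXY : X - Y ∈ v0)
    (hE : algebraMap ℚ K n * (r : K) ^ S * (Y : K) = (X : K))
    (k : ℤ) (P Q : ℕ) (hP : ¬ r ∣ P) (hQ : ¬ r ∣ Q) (hn : |n| * Q = (r : ℚ) ^ k * P) :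
    (P : ZMod r) ^ 2 = (Q : ZMod r) ^ 2 := by
  have hr0 : (r : K) ≠ 0 := Nat.cast_ne_zero.mpr hr.ne_zero
  have hr0' : (r : 𝓞 K) ≠ 0 := Nat.cast_ne_zero.mpr hr.ne_zero
  have hv0top : v0 ≠ ⊤ := Ideal.IsPrime.ne_top'
  obtain ⟨ε, hε, hnε⟩ : ∃ ε : ℤ, (ε = 1 ∨ ε = -1) ∧ n = ε * |n| := by
    rcases le_total 0 n with h | h
    · exact ⟨1, Or.inl rfl, by rw [abs_of_nonneg h]; simp⟩
    · exact ⟨-1, Or.inr rfl, by rw [abs_of_nonpos h]; simp⟩
  have hX : X ∉ v0 := by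
    intro hX
    apply hY
    have : Y = X - (X - Y) := by ring
    rw [this]
    exact v0.sub_mem hX hXY
  set t : ℤ := k + S with ht
  have htab : ((t.toNat : ℕ) : ℤ) - (((-t).toNat : ℕ) : ℤ) = t := Int.toNat_sub_toNat_neg t
  set a : ℕ := t.toNat with ha
  set b : ℕ := (-t).toNat with hb
  -- the key identity in `K`
  have hK : (r : K) ^ a * ((ε : K) * (P : K) * (Y : K)) = (r : K) ^ b * ((Q : K) * (X : K)) := by
    have h1 : (r : K) ^ t * (r : K) ^ b = (r : K) ^ a := by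
      rw [← zpow_natCast, ← zpow_natCast, ← zpow_add₀ hr0]
      congr 1
      omega
    have h2 : (r : K) ^ t = (r : K) ^ k * (r : K) ^ S := zpow_add₀ hr0 k S
    have h3 : algebraMap ℚ K n * (Q : K) = (ε : K) * (r : K) ^ k * (P : K) := by
      have h4 : n * (Q : ℚ) = (ε : ℚ) * (r : ℚ) ^ k * (P : ℚ) := by
        calc n * (Q : ℚ) = (ε : ℚ) * (|n| * Q) := by rw [← mul_assoc, ← hnε]
          _ = _ := by rw [hn]; ring
      have h5 := congrArg (algebraMap ℚ K) h4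
      simpa [map_mul, map_zpow₀] using h5
    rw [← h1, h2]
    linear_combination ((r : K) ^ b * (Q : K)) * hE - ((r : K) ^ b * (r : K) ^ S * (Y : K)) * h3
  -- the same identity in `𝓞 K`
  have hO : (r : 𝓞 K) ^ a * (((ε * P : ℤ) : 𝓞 K) * Y) = (r : 𝓞 K) ^ b * (((Q : ℤ) : 𝓞 K) * X) := by
    apply RingOfIntegers.coe_injective
    simp only [map_mul, map_pow, map_natCast, map_intCast, Int.cast_mul, Int.cast_natCast]
    rw [← hK]
  have hεP : ¬ (r : ℤ) ∣ ε * P := by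
    intro h
    apply hP
    rcases hε with h1 | h1
    · rw [h1, one_mul] at h
      exact Int.natCast_dvd_natCast.mp h
    · rw [h1, neg_one_mul, dvd_neg] at h
      exact Int.natCast_dvd_natCast.mp h
  have hQ' : ¬ (r : ℤ) ∣ (Q : ℤ) := fun h => hQ (Int.natCast_dvd_natCast.mp h)
  have hp : ((ε * P : ℤ) : 𝓞 K) * Y ∉ v0 := by
    intro hmem
    rcases Ideal.IsPrime.mem_or_mem ‹v0.IsPrime› hmem with h1 | h1
    · exact hεP (dvd_of_intCast_mem hr v0 hv0top hv0 h1)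
    · exact hY h1
  have hq : ((Q : ℤ) : 𝓞 K) * X ∉ v0 := by
    intro hmem
    rcases Ideal.IsPrime.mem_or_mem ‹v0.IsPrime› hmem with h1 | h1
    · exact hQ' (dvd_of_intCast_mem hr v0 hv0top hv0 h1)
    · exact hX h1
  have hpq := eq_of_pow_mul_eq v0 hr0' hv0 hp hq hO
  have hmem : ((ε * P - Q : ℤ) : 𝓞 K) * Y ∈ v0 := by
    have : ((ε * P - Q : ℤ) : 𝓞 K) * Y = ((Q : ℤ) : 𝓞 K) * (X - Y) := by
      push_cast
      push_cast at hpq
      linear_combination hpq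
    rw [this]
    exact v0.mul_mem_left _ hXY
  have hdvd : (r : ℤ) ∣ ε * P - Q := by
    rcases Ideal.IsPrime.mem_or_mem ‹v0.IsPrime› hmem with h1 | h1
    · exact dvd_of_intCast_mem hr v0 hv0top hv0 h1
    · exact absurd h1 hY
  have hz : ((ε * P - Q : ℤ) : ZMod r) = 0 := (ZMod.intCast_zmod_eq_zero_iff_dvd _ _).mpr hdvd
  have hz' : (Q : ZMod r) = (ε : ZMod r) * (P : ZMod r) := by
    push_cast at hz
    linear_combination -hz
  rw [hz', mul_pow]
  have : (ε : ZMod r) ^ 2 = 1 := by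
    rcases hε with h | h <;> simp [h]
  rw [this, one_mul]

theorem prod_zpow_eq {ι : Type*} [DecidableEq ι] (a : ℚ) (ha : a ≠ 0) (T : Finset ι)
    (f : ι → ℤ) : ∏ i ∈ T, a ^ f i = a ^ ∑ i ∈ T, f i := by
  induction T using Finset.induction_on with
  | empty => simp
  | insert i T hi ih => rw [Finset.prod_insert hi, Finset.sum_insert hi, zpow_add₀ ha, ih]

end CrossGlobal

theorem global_norm (r : ℕ) [Fact r.Prime] (K : Type*) [Field K] [NumberField K] [IsGalois ℚ K]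
    (hr1 : ∀ v : HeightOneSpectrum (𝓞 K), (r : 𝓞 K) ∈ v.asIdeal → Ideal.absNorm v.asIdeal = r)
    (hr2 : ∀ v : HeightOneSpectrum (𝓞 K), (r : 𝓞 K) ∈ v.asIdeal → (r : 𝓞 K) ∉ v.asIdeal ^ 2)
    (c : K) (hc : c ≠ 0)
    (hloc : ∀ v : HeightOneSpectrum (𝓞 K), (r : 𝓞 K) ∈ v.asIdeal →
      ∃ x y : 𝓞 K, y ∉ v.asIdeal ∧ x - y ∈ v.asIdeal ∧
        c * (r : K) ^ (- ord v c) * (y : K) = (x : K))
    (g : ℕ) (hg : orderOf (g : ZMod r) = r - 1) (u : HeightOneSpectrum (𝓞 K) → ℕ)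
    (hu : ∀ v : HeightOneSpectrum (𝓞 K), (r : 𝓞 K) ∉ v.asIdeal →
      (g : ZMod r) ^ u v = (Ideal.absNorm v.asIdeal : ℕ))
    (hu0 : ∀ v : HeightOneSpectrum (𝓞 K), (r : 𝓞 K) ∈ v.asIdeal → u v = 0) :
    ((r : ℤ) - 1) ∣ 2 * ∑ᶠ v : HeightOneSpectrum (𝓞 K), (u v : ℤ) * ord v c := by
  classical
  have hrp : r.Prime := Fact.out
  have hr0 : (r : K) ≠ 0 := Nat.cast_ne_zero.mpr hrp.ne_zero
  have hr0q : (r : ℚ) ≠ 0 := Nat.cast_ne_zero.mpr hrp.ne_zero
  -- `g` is a unit mod `r`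
  have hgfin : IsOfFinOrder (g : ZMod r) := by
    rw [← orderOf_pos_iff, hg]
    have := hrp.two_le
    omega
  have hg0 : (g : ZMod r) ≠ 0 := by
    intro h0
    obtain ⟨m, hm, hm1⟩ := hgfin.exists_pow_eq_one
    rw [h0, zero_pow hm.ne'] at hm1
    exact zero_ne_one hm1
  obtain ⟨v0, hv0⟩ := CrossGlobal.exists_prime_above (K := K) r hrp
  -- the product of the local data over the Galois group
  obtain ⟨S, X, Y, hY, hXY, hE⟩ := CrossGlobal.exists_prod_loc r hr0 v0.asIdeal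
    (Finset.univ : Finset (K ≃ₐ[ℚ] K)) (fun τ => τ c)
    (fun τ _ => CrossGlobal.exists_loc_conj r c hloc v0 hv0 τ)
  rw [← Algebra.norm_eq_prod_automorphisms ℚ c] at hE
  -- the prime factorisation of the norm
  set s : Finset (HeightOneSpectrum (𝓞 K)) :=
    (CrossGlobal.finite_ord_support hc).toFinset with hs
  have hsmem : ∀ v, ord v c ≠ 0 → v ∈ s := fun v hv => by
    rw [hs, Set.Finite.mem_toFinset]
    exact hv
  have hnorm := CrossGlobal.abs_norm_eq_prod hc s hsmem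
  set s1 := s.filter (fun v => (r : 𝓞 K) ∈ v.asIdeal) with hs1
  set s2 := s.filter (fun v => ¬ (r : 𝓞 K) ∈ v.asIdeal) with hs2
  have hsplit : ∏ v ∈ s, ((Ideal.absNorm v.asIdeal : ℕ) : ℚ) ^ ord v c =
      (∏ v ∈ s1, ((Ideal.absNorm v.asIdeal : ℕ) : ℚ) ^ ord v c) *
      ∏ v ∈ s2, ((Ideal.absNorm v.asIdeal : ℕ) : ℚ) ^ ord v c :=
    (Finset.prod_filter_mul_prod_filter_not s _ _).symm
  have hk : ∏ v ∈ s1, ((Ideal.absNorm v.asIdeal : ℕ) : ℚ) ^ ord v c =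
      (r : ℚ) ^ ∑ v ∈ s1, ord v c := by
    rw [← CrossGlobal.prod_zpow_eq (r : ℚ) hr0q]
    refine Finset.prod_congr rfl fun v hv => ?_
    rw [hr1 v (Finset.mem_filter.mp hv).2]
  set P : ℕ := ∏ v ∈ s2, (Ideal.absNorm v.asIdeal) ^ (ord v c).toNat with hPdef
  set Q : ℕ := ∏ v ∈ s2, (Ideal.absNorm v.asIdeal) ^ (- ord v c).toNat with hQdef
  have hN0 : ∀ v : HeightOneSpectrum (𝓞 K), ((Ideal.absNorm v.asIdeal : ℕ) : ℚ) ≠ 0 := by
    intro v
    rw [Nat.cast_ne_zero, Ne, Ideal.absNorm_eq_zero_iff]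
    exact v.ne_bot
  have hQ0 : (Q : ℚ) ≠ 0 := by
    rw [hQdef, Nat.cast_prod]
    refine Finset.prod_ne_zero_iff.mpr fun v _ => ?_
    rw [Nat.cast_pow]
    exact pow_ne_zero _ (hN0 v)
  have hPQ : (∏ v ∈ s2, ((Ideal.absNorm v.asIdeal : ℕ) : ℚ) ^ ord v c) * (Q : ℚ) = (P : ℚ) := by
    rw [hQdef, hPdef, Nat.cast_prod, Nat.cast_prod, ← Finset.prod_mul_distrib]
    refine Finset.prod_congr rfl fun v _ => ?_
    rw [Nat.cast_pow, Nat.cast_pow, ← zpow_natCast, ← zpow_natCast, ← zpow_add₀ (hN0 v)]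
    congr 1
    have := Int.toNat_sub_toNat_neg (ord v c)
    omega
  have hn : |Algebra.norm ℚ c| * (Q : ℚ) = (r : ℚ) ^ (∑ v ∈ s1, ord v c) * (P : ℚ) := by
    rw [hnorm, hsplit, hk, mul_assoc, hPQ]
  -- reduction mod `r`
  have hPg : (P : ZMod r) = (g : ZMod r) ^ ∑ v ∈ s2, u v * (ord v c).toNat := by
    rw [hPdef, Nat.cast_prod, ← Finset.prod_pow_eq_pow_sum]
    refine Finset.prod_congr rfl fun v hv => ?_
    rw [Nat.cast_pow, ← hu v (Finset.mem_filter.mp hv).2, pow_mul]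
  have hQg : (Q : ZMod r) = (g : ZMod r) ^ ∑ v ∈ s2, u v * (- ord v c).toNat := by
    rw [hQdef, Nat.cast_prod, ← Finset.prod_pow_eq_pow_sum]
    refine Finset.prod_congr rfl fun v hv => ?_
    rw [Nat.cast_pow, ← hu v (Finset.mem_filter.mp hv).2, pow_mul]
  have hP : ¬ r ∣ P := by
    rw [← ZMod.natCast_eq_zero_iff, hPg]
    exact pow_ne_zero _ hg0
  have hQ : ¬ r ∣ Q := by
    rw [← ZMod.natCast_eq_zero_iff, hQg]
    exact pow_ne_zero _ hg0
  have hsq := CrossGlobal.sq_eq_sq_of_norm hrp v0.asIdeal hv0 (Algebra.norm ℚ c) S X Y hY hXY hE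
    (∑ v ∈ s1, ord v c) P Q hP hQ hn
  rw [hPg, hQg, ← pow_mul, ← pow_mul, hgfin.pow_eq_pow_iff_modEq, hg] at hsq
  have hdvd := (Nat.modEq_iff_dvd.mp hsq)
  -- the final sum
  have hfin : ∑ᶠ v : HeightOneSpectrum (𝓞 K), (u v : ℤ) * ord v c =
      ∑ v ∈ s, (u v : ℤ) * ord v c := by
    apply finsum_eq_sum_of_support_subset
    intro v hv
    rw [Function.mem_support] at hv
    exact Finset.mem_coe.mpr (hsmem v (fun h0 => hv (by rw [h0, mul_zero])))
  have hsum : ∑ v ∈ s, (u v : ℤ) * ord v c =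
      ((∑ v ∈ s2, u v * (ord v c).toNat : ℕ) : ℤ) -
        ((∑ v ∈ s2, u v * (- ord v c).toNat : ℕ) : ℤ) := by
    rw [← Finset.sum_filter_add_sum_filter_not s (fun v => (r : 𝓞 K) ∈ v.asIdeal)]
    have h1 : ∑ v ∈ s with (r : 𝓞 K) ∈ v.asIdeal, (u v : ℤ) * ord v c = 0 := by
      refine Finset.sum_eq_zero fun v hv => ?_
      rw [hu0 v (Finset.mem_filter.mp hv).2]
      simp
    rw [h1, zero_add, Nat.cast_sum, Nat.cast_sum, ← Finset.sum_sub_distrib]
    refine Finset.sum_congr rfl fun v _ => ?_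
    have := Int.toNat_sub_toNat_neg (ord v c)
    push_cast
    rw [← mul_sub, this]
  rw [hfin, hsum]
  have hcast : ((r - 1 : ℕ) : ℤ) = (r : ℤ) - 1 := by
    rw [Nat.cast_sub hrp.one_le]
    simp
  rw [hcast] at hdvd
  have : (2 : ℤ) * (((∑ v ∈ s2, u v * (ord v c).toNat : ℕ) : ℤ) -
        ((∑ v ∈ s2, u v * (- ord v c).toNat : ℕ) : ℤ)) =
      -((((∑ v ∈ s2, u v * (- ord v c).toNat) * 2 : ℕ) : ℤ) -
        (((∑ v ∈ s2, u v * (ord v c).toNat) * 2 : ℕ) : ℤ)) := by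
    push_cast
    ring
  rw [this, dvd_neg]
  exact hdvd

end Fermat.Agent.S14
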