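import Fermat.Agent.S14.Defs

/-!
# S14: the data of the crossing argument

`K ⊆ L ⊆ M = L(ζ_r)`.  `CrossData p r K L M τ0` packages two commuting generators
`τ'` (fixing `ζ_r`, restricting to `τ0` on `L`) and `ρ'` (fixing `L`, `ζ ↦ ζ ^ g` with `g` a
primitive root mod `r`) of `Gal(M/K)`.
-/

set_option autoImplicit false

namespace Fermat.Agent.S14

/-- Two commuting generators of `Gal(M/K)`, `M = L(ζ_r)`. -/
structure CrossData (p r : ℕ) (K L M : Type*) [Field K] [Field L] [Field M]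
    [Algebra K L] [Algebra L M] [Algebra K M] [IsScalarTower K L M] (τ0 : L ≃ₐ[K] L) where
  /-- a primitive `r`-th root of unity -/
  ζ : M
  hζ : IsPrimitiveRoot ζ r
  /-- the lift of `τ0` fixing `ζ` -/
  τ' : M ≃ₐ[K] M
  /-- a generator of `Gal(M/L)` -/
  ρ' : M ≃ₐ[K] M
  /-- a primitive root mod `r` -/
  g : ℕ
  comm : τ' * ρ' = ρ' * τ'
  τ'_pow : τ' ^ p = 1
  ρ'_pow : ρ' ^ (r - 1) = 1
  τ'_ζ : τ' ζ = ζ
  τ'_L : ∀ x : L, τ' (algebraMap L M x) = algebraMap L M (τ0 x)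
  ρ'_L : ∀ x : L, ρ' (algebraMap L M x) = algebraMap L M x
  ρ'_ζ : ρ' ζ = ζ ^ g
  hg : orderOf (g : ZMod r) = r - 1
  gen : ∀ σ : M ≃ₐ[K] M, ∃ i j : ℕ, σ = τ' ^ i * ρ' ^ j

end Fermat.Agent.S14
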