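import Mathlib
import Fermat.Agent.S14.Defs

/-!
# S14 / DivCl : divisors and the class group of a number field

Main statements (namespace `Fermat.Agent.S14`):

* `ord_mul`, `ord_finite_support` : basic properties of the additive valuation `ord`.
* `divHom M : Additive Mˣ →+ (HeightOneSpectrum (𝓞 M) →₀ ℤ)` : the divisor of an element.
* `clHom M : (HeightOneSpectrum (𝓞 M) →₀ ℤ) →+ Additive (ClassGroup (𝓞 M))` : class of a divisor.
* `ker_clHom : (clHom M).ker = (divHom M).range`, `clHom_surjective`.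

Auxiliary statements (namespace `Fermat.Agent.S14.DivCl`): `divIdeal M`, the divisor of an
invertible fractional ideal, its inverse `idealOfDiv M`, the class of the divisor of an ideal
(`clHom_divIdeal`, `clHom_mk0`), finiteness of divisors modulo principal divisors and a few
elementary facts on `ord`.
-/

set_option autoImplicit false

namespace Fermat.Agent.S14

open NumberField IsDedekindDomain
open scoped nonZeroDivisors

section DivCl
variable (M : Type*) [Field M] [NumberField M]

theorem ord_mul (v : HeightOneSpectrum (𝓞 M)) {x y : M} (hx : x ≠ 0) (hy : y ≠ 0) :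
    ord v (x * y) = ord v x + ord v y := by
  unfold ord
  rw [← FractionalIdeal.spanSingleton_mul_spanSingleton, FractionalIdeal.count_mul]
  · exact FractionalIdeal.spanSingleton_ne_zero_iff.mpr hx
  · exact FractionalIdeal.spanSingleton_ne_zero_iff.mpr hy

set_option linter.unusedVariables false in
theorem ord_finite_support {x : M} (hx : x ≠ 0) :
    {v : HeightOneSpectrum (𝓞 M) | ord v x ≠ 0}.Finite :=
  FractionalIdeal.finite_factors (FractionalIdeal.spanSingleton (𝓞 M)⁰ x)

namespace DivCl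

/-- The divisor of an invertible fractional ideal. -/
noncomputable def divIdeal :
    Additive (FractionalIdeal (𝓞 M)⁰ M)ˣ →+ (HeightOneSpectrum (𝓞 M) →₀ ℤ) :=
  AddMonoidHom.mk'
    (fun I => Finsupp.ofSupportFinite
      (fun v => FractionalIdeal.count M v ((Additive.toMul I : (FractionalIdeal (𝓞 M)⁰ M)ˣ) :
        FractionalIdeal (𝓞 M)⁰ M))
      (FractionalIdeal.finite_factors _))
    (by
      intro I J
      ext v
      simp only [Finsupp.ofSupportFinite_coe, Finsupp.coe_add, Pi.add_apply, toMul_add,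
        Units.val_mul]
      exact FractionalIdeal.count_mul M v (Units.ne_zero _) (Units.ne_zero _))

theorem divIdeal_apply (I : (FractionalIdeal (𝓞 M)⁰ M)ˣ) (v : HeightOneSpectrum (𝓞 M)) :
    divIdeal M (Additive.ofMul I) v = FractionalIdeal.count M v (I : FractionalIdeal (𝓞 M)⁰ M) :=
  rfl

/-- The invertible fractional ideal with a given divisor. -/
noncomputable def idealOfDiv :
    (HeightOneSpectrum (𝓞 M) →₀ ℤ) →+ Additive (FractionalIdeal (𝓞 M)⁰ M)ˣ :=
  Finsupp.liftAddHom (fun v => zmultiplesHom _ (Additive.ofMul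
    (FractionalIdeal.mk0 M ⟨v.asIdeal, mem_nonZeroDivisors_of_ne_zero v.ne_bot⟩)))

theorem idealOfDiv_single (v : HeightOneSpectrum (𝓞 M)) (n : ℤ) :
    idealOfDiv M (Finsupp.single v n) = n • Additive.ofMul
      (FractionalIdeal.mk0 M ⟨v.asIdeal, mem_nonZeroDivisors_of_ne_zero v.ne_bot⟩) := by
  simp [idealOfDiv]

theorem divIdeal_mk0_prime (v : HeightOneSpectrum (𝓞 M)) :
    divIdeal M (Additive.ofMul
      (FractionalIdeal.mk0 M ⟨v.asIdeal, mem_nonZeroDivisors_of_ne_zero v.ne_bot⟩)) =
      Finsupp.single v 1 := by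
  classical
  ext w
  rw [divIdeal_apply, FractionalIdeal.coe_mk0, FractionalIdeal.count_maximal,
    Finsupp.single_apply]

theorem divIdeal_idealOfDiv (e : HeightOneSpectrum (𝓞 M) →₀ ℤ) :
    divIdeal M (idealOfDiv M e) = e := by
  have h : (divIdeal M).comp (idealOfDiv M) = AddMonoidHom.id _ := by
    refine Finsupp.addHom_ext fun v n => ?_
    simp only [AddMonoidHom.comp_apply, AddMonoidHom.id_apply, idealOfDiv_single, map_zsmul,
      divIdeal_mk0_prime]
    simp
  exact DFunLike.congr_fun h e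

theorem divIdeal_injective : Function.Injective (divIdeal M) := by
  rw [injective_iff_map_eq_zero]
  intro I hI
  have h := FractionalIdeal.finprod_heightOneSpectrum_factorization' (K := M)
    (I := ((Additive.toMul I : (FractionalIdeal (𝓞 M)⁰ M)ˣ) : FractionalIdeal (𝓞 M)⁰ M))
    (Units.ne_zero _)
  have h0 : ∀ v : HeightOneSpectrum (𝓞 M), FractionalIdeal.count M v
      ((Additive.toMul I : (FractionalIdeal (𝓞 M)⁰ M)ˣ) : FractionalIdeal (𝓞 M)⁰ M) = 0 :=
    fun v => DFunLike.congr_fun hI v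
  simp only [h0, zpow_zero, finprod_one] at h
  apply Additive.toMul.injective
  exact Units.ext h.symm

theorem idealOfDiv_divIdeal (I : Additive (FractionalIdeal (𝓞 M)⁰ M)ˣ) :
    idealOfDiv M (divIdeal M I) = I :=
  divIdeal_injective M (divIdeal_idealOfDiv M _)

end DivCl

open DivCl

noncomputable def divHom : Additive Mˣ →+ (HeightOneSpectrum (𝓞 M) →₀ ℤ) :=
  (divIdeal M).comp (MonoidHom.toAdditive (toPrincipalIdeal (𝓞 M) M))

theorem DivCl.divHom_eq_divIdeal (x : Mˣ) :
    divHom M (Additive.ofMul x) = divIdeal M (Additive.ofMul (toPrincipalIdeal (𝓞 M) M x)) :=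
  rfl

theorem divHom_apply (x : Mˣ) (v : HeightOneSpectrum (𝓞 M)) :
    divHom M (Additive.ofMul x) v = ord v (x : M) := by
  rw [divHom_eq_divIdeal, divIdeal_apply, coe_toPrincipalIdeal]
  rfl

theorem divHom_eq_zero_iff (x : Mˣ) :
    divHom M (Additive.ofMul x) = 0 ↔ ∃ u : (𝓞 M)ˣ, ((u : 𝓞 M) : M) = x := by
  have h1 : divHom M (Additive.ofMul x) = 0 ↔
      FractionalIdeal.spanSingleton (𝓞 M)⁰ (x : M) = 1 := by
    rw [divHom_eq_divIdeal, ← map_zero (divIdeal M), (divIdeal_injective M).eq_iff]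
    constructor
    · intro h
      have h' := congrArg (fun I : Additive (FractionalIdeal (𝓞 M)⁰ M)ˣ =>
        ((Additive.toMul I : (FractionalIdeal (𝓞 M)⁰ M)ˣ) : FractionalIdeal (𝓞 M)⁰ M)) h
      simpa using h'
    · intro h
      apply Additive.toMul.injective
      apply Units.ext
      simpa using h
  rw [h1]
  constructor
  · intro h
    have hx1 : (x : M) ∈ (1 : FractionalIdeal (𝓞 M)⁰ M) := by
      rw [← h]; exact FractionalIdeal.mem_spanSingleton_self _ _
    obtain ⟨a, ha⟩ := (FractionalIdeal.mem_one_iff _).mp hx1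
    have h1x : (1 : M) ∈ FractionalIdeal.spanSingleton (𝓞 M)⁰ (x : M) := by
      rw [h]; exact FractionalIdeal.one_mem_one _
    obtain ⟨b, hb⟩ := (FractionalIdeal.mem_spanSingleton _).mp h1x
    have hab : b * a = 1 := by
      apply FaithfulSMul.algebraMap_injective (𝓞 M) M
      rw [map_mul, map_one, ha, ← hb, Algebra.smul_def]
    exact ⟨⟨a, b, by rw [mul_comm]; exact hab, hab⟩, ha⟩
  · rintro ⟨u, hu⟩
    rw [← hu]
    have hcoe : (((u : 𝓞 M) : M)) = algebraMap (𝓞 M) M (u : 𝓞 M) := rfl
    rw [hcoe, ← FractionalIdeal.coeIdeal_span_singleton,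
      Ideal.span_singleton_eq_top.mpr u.isUnit, FractionalIdeal.coeIdeal_top]

noncomputable def clHom : (HeightOneSpectrum (𝓞 M) →₀ ℤ) →+ Additive (ClassGroup (𝓞 M)) :=
  (MonoidHom.toAdditive (ClassGroup.mk M)).comp (idealOfDiv M)

theorem DivCl.clHom_apply (e : HeightOneSpectrum (𝓞 M) →₀ ℤ) :
    clHom M e = Additive.ofMul (ClassGroup.mk M (Additive.toMul (idealOfDiv M e))) :=
  rfl

/-- `clHom` of the divisor of an invertible fractional ideal is its class. -/
theorem DivCl.clHom_divIdeal (I : (FractionalIdeal (𝓞 M)⁰ M)ˣ) :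
    clHom M (divIdeal M (Additive.ofMul I)) = Additive.ofMul (ClassGroup.mk M I) := by
  rw [clHom_apply, idealOfDiv_divIdeal]
  rfl

/-- `clHom` of the divisor of a nonzero integral ideal is its class. -/
theorem DivCl.clHom_mk0 (I : (Ideal (𝓞 M))⁰) :
    clHom M (divIdeal M (Additive.ofMul (FractionalIdeal.mk0 M I))) =
      Additive.ofMul (ClassGroup.mk0 I) := by
  rw [clHom_divIdeal, ClassGroup.mk_mk0]

theorem clHom_single (v : HeightOneSpectrum (𝓞 M)) :
    clHom M (Finsupp.single v 1) =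
      Additive.ofMul (ClassGroup.mk0 ⟨v.asIdeal, mem_nonZeroDivisors_of_ne_zero v.ne_bot⟩) := by
  rw [← divIdeal_mk0_prime, clHom_mk0]

theorem clHom_surjective : Function.Surjective (clHom M) := by
  intro c
  obtain ⟨I, hI⟩ := ClassGroup.mk0_surjective (Additive.toMul c)
  refine ⟨divIdeal M (Additive.ofMul (FractionalIdeal.mk0 M I)), ?_⟩
  rw [clHom_mk0, hI]
  rfl

theorem ker_clHom : (clHom M).ker = (divHom M).range := by
  ext e
  rw [AddMonoidHom.mem_ker, AddMonoidHom.mem_range]
  constructor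
  · intro h
    have h1 : ClassGroup.mk M (Additive.toMul (idealOfDiv M e)) = 1 := by
      rw [clHom_apply] at h
      exact Additive.ofMul.injective h
    rw [ClassGroup.mk_eq_one_iff] at h1
    obtain ⟨x, hx⟩ := h1.principal
    have hx' : ((Additive.toMul (idealOfDiv M e) : (FractionalIdeal (𝓞 M)⁰ M)ˣ) :
        FractionalIdeal (𝓞 M)⁰ M) = FractionalIdeal.spanSingleton (𝓞 M)⁰ x := by
      apply Subtype.coe_injective
      simp only [FractionalIdeal.val_eq_coe, hx, FractionalIdeal.coe_spanSingleton]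
    have hx0 : x ≠ 0 := by
      intro x_eq
      apply Units.ne_zero (Additive.toMul (idealOfDiv M e))
      simp [hx', x_eq]
    refine ⟨Additive.ofMul (Units.mk0 x hx0), ?_⟩
    rw [divHom_eq_divIdeal]
    have hI : toPrincipalIdeal (𝓞 M) M (Units.mk0 x hx0) = Additive.toMul (idealOfDiv M e) := by
      apply Units.ext
      rw [coe_toPrincipalIdeal, hx', Units.val_mk0]
    rw [hI]
    exact divIdeal_idealOfDiv M e
  · rintro ⟨x, rfl⟩
    obtain ⟨x, rfl⟩ := Additive.ofMul.surjective x
    rw [divHom_eq_divIdeal, clHom_divIdeal]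
    have h1 : ClassGroup.mk M (toPrincipalIdeal (𝓞 M) M x) = 1 := by
      rw [ClassGroup.mk_eq_one_iff]
      exact ⟨⟨(x : M), by rw [coe_toPrincipalIdeal, FractionalIdeal.coe_spanSingleton]⟩⟩
    rw [h1]
    rfl

namespace DivCl

/-- Divisors modulo principal divisors form a finite group (the class group). -/
theorem finite_quotient_range_divHom :
    Finite ((HeightOneSpectrum (𝓞 M) →₀ ℤ) ⧸ (divHom M).range) := by
  rw [← ker_clHom]
  exact Finite.of_equiv _
    (QuotientAddGroup.quotientKerEquivOfSurjective (clHom M) (clHom_surjective M)).symm.toEquiv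

variable {M}

theorem ord_zero (v : HeightOneSpectrum (𝓞 M)) : ord v (0 : M) = 0 := by
  unfold ord
  rw [FractionalIdeal.spanSingleton_zero, FractionalIdeal.count_zero]

theorem ord_one (v : HeightOneSpectrum (𝓞 M)) : ord v (1 : M) = 0 := by
  unfold ord
  rw [FractionalIdeal.spanSingleton_one, FractionalIdeal.count_one]

theorem ord_inv (v : HeightOneSpectrum (𝓞 M)) (x : M) : ord v x⁻¹ = - ord v x := by
  by_cases hx : x = 0
  · simp [hx, ord_zero]
  · have h := ord_mul M v hx (inv_ne_zero hx)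
    rw [mul_inv_cancel₀ hx, ord_one] at h
    linarith

theorem ord_pow (v : HeightOneSpectrum (𝓞 M)) (x : M) (n : ℕ) :
    ord v (x ^ n) = n * ord v x := by
  by_cases hx : x = 0
  · rcases Nat.eq_zero_or_pos n with rfl | hn
    · simp [ord_one]
    · simp [hx, zero_pow hn.ne', ord_zero]
  · induction n with
    | zero => simp [ord_one]
    | succ n ih =>
      rw [pow_succ, ord_mul M v (pow_ne_zero n hx) hx, ih]
      push_cast
      ring

theorem ord_div (v : HeightOneSpectrum (𝓞 M)) {x y : M} (hx : x ≠ 0) (hy : y ≠ 0) :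
    ord v (x / y) = ord v x - ord v y := by
  rw [div_eq_mul_inv, ord_mul M v hx (inv_ne_zero hy), ord_inv]
  ring

/-- Elements of `𝓞 M` have nonnegative valuation. -/
theorem ord_nonneg (v : HeightOneSpectrum (𝓞 M)) (a : 𝓞 M) : 0 ≤ ord v (a : M) := by
  unfold ord
  have hcoe : (a : M) = algebraMap (𝓞 M) M a := rfl
  rw [hcoe, ← FractionalIdeal.coeIdeal_span_singleton]
  exact FractionalIdeal.count_coe_nonneg M v _

/-- Units of `𝓞 M` have valuation `0`. -/
theorem ord_unit (v : HeightOneSpectrum (𝓞 M)) (u : (𝓞 M)ˣ) : ord v ((u : 𝓞 M) : M) = 0 := by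
  unfold ord
  have hcoe : (((u : 𝓞 M) : M)) = algebraMap (𝓞 M) M (u : 𝓞 M) := rfl
  rw [hcoe, ← FractionalIdeal.coeIdeal_span_singleton,
    Ideal.span_singleton_eq_top.mpr u.isUnit, FractionalIdeal.coeIdeal_top,
    FractionalIdeal.count_one]

/-- For `a ∈ 𝓞 M` nonzero: `n ≤ ord v a ↔ a ∈ v ^ n`. -/
theorem le_ord_iff_mem_pow (v : HeightOneSpectrum (𝓞 M)) {a : 𝓞 M} (ha : a ≠ 0) (n : ℕ) :
    (n : ℤ) ≤ ord v (a : M) ↔ a ∈ v.asIdeal ^ n := by
  classical
  unfold ord
  have hcoe : (a : M) = algebraMap (𝓞 M) M a := rfl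
  have hspan : Ideal.span {a} ≠ (0 : Ideal (𝓞 M)) := by
    rw [Ne, Ideal.zero_eq_bot, Ideal.span_singleton_eq_bot]
    exact ha
  rw [hcoe, ← FractionalIdeal.coeIdeal_span_singleton, FractionalIdeal.count_coe M v hspan,
    Nat.cast_le, ← Associates.prime_pow_dvd_iff_le (Associates.mk_ne_zero.mpr hspan)
      v.associates_irreducible, ← Associates.mk_pow, Associates.mk_le_mk_iff_dvd,
    Ideal.dvd_span_singleton]

theorem ord_pos_iff_mem (v : HeightOneSpectrum (𝓞 M)) {a : 𝓞 M} (ha : a ≠ 0) :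
    0 < ord v (a : M) ↔ a ∈ v.asIdeal := by
  have h := le_ord_iff_mem_pow v ha 1
  rw [pow_one] at h
  rw [← h]
  norm_num
  omega

theorem ord_eq_zero_iff_notMem (v : HeightOneSpectrum (𝓞 M)) {a : 𝓞 M} (ha : a ≠ 0) :
    ord v (a : M) = 0 ↔ a ∉ v.asIdeal := by
  rw [← ord_pos_iff_mem v ha]
  have := ord_nonneg v a
  omega

end DivCl

end DivCl

end Fermat.Agent.S14
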