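/-
S14, package GalDiv: Galois action on the primes of a number field and its compatibility with
the additive valuations `ord` (blueprint of helper2, statements verbatim).

* `galPrime F E σ v` : the prime `σ(v)`; `ord_galPrime : ord (σ v) (σ x) = ord v x`.
* `primeBelow F E w` : the prime of `F` below `w`; existence of primes above, transitivity of the
  Galois action on the primes above a given prime.
* `ord_algebraMap` : at a prime with trivial inertia group, `ord_w = ord_v` on `F`;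
  `ord_algebraMap_eq_zero` : a unit below is a unit above (no hypothesis);
  `GalDiv.ord_algebraMap_eq_mul` : in general `ord_w = e * ord_v` on `F`.
Owner: helper12.
-/
import Mathlib
import Fermat.Agent.S14.Defs

set_option autoImplicit false

namespace Fermat.Agent.S14

open NumberField IsDedekindDomain
open scoped nonZeroDivisors Pointwise

namespace GalDiv

section Ord

variable {E : Type*} [Field E] [NumberField E]

theorem ord_zero (v : HeightOneSpectrum (𝓞 E)) : ord v (0 : E) = 0 := by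
  unfold ord
  rw [FractionalIdeal.spanSingleton_zero, FractionalIdeal.count_zero]

open Classical in
/-- The exponent of `v` in the factorisation of the principal ideal `(a)`. -/
noncomputable def cnt (v : HeightOneSpectrum (𝓞 E)) (a : 𝓞 E) : ℕ :=
  (Associates.mk v.asIdeal).count (Associates.mk (Ideal.span {a})).factors

theorem le_cnt_iff (v : HeightOneSpectrum (𝓞 E)) {a : 𝓞 E} (ha : a ≠ 0) (n : ℕ) :
    n ≤ cnt v a ↔ a ∈ v.asIdeal ^ n := by
  classical
  rw [← v.intValuation_le_pow_iff_mem, v.intValuation_if_neg ha, WithZero.exp_le_exp,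
    neg_le_neg_iff, Nat.cast_le]
  rfl

theorem cnt_eq_of_forall {E' : Type*} [Field E'] [NumberField E']
    (v : HeightOneSpectrum (𝓞 E)) (v' : HeightOneSpectrum (𝓞 E')) {a : 𝓞 E} {a' : 𝓞 E'}
    (ha : a ≠ 0) (ha' : a' ≠ 0) (h : ∀ n : ℕ, a ∈ v.asIdeal ^ n ↔ a' ∈ v'.asIdeal ^ n) :
    cnt v a = cnt v' a' := by
  apply le_antisymm
  · rw [le_cnt_iff v' ha', ← h, ← le_cnt_iff v ha]
  · rw [le_cnt_iff v ha, h, ← le_cnt_iff v' ha']

theorem ord_div (v : HeightOneSpectrum (𝓞 E)) {a b : 𝓞 E} (ha : a ≠ 0) (hb : b ≠ 0) :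
    ord v ((a : E) / (b : E)) = (cnt v a : ℤ) - (cnt v b : ℤ) := by
  classical
  have ha' : (a : E) ≠ 0 := by
    simpa using (RingOfIntegers.coe_ne_zero_iff (K := E)).mpr ha
  have hb' : (b : E) ≠ 0 := by
    simpa using (RingOfIntegers.coe_ne_zero_iff (K := E)).mpr hb
  have hI : FractionalIdeal.spanSingleton (𝓞 E)⁰ ((a : E) / (b : E)) ≠ 0 := by
    rw [Ne, FractionalIdeal.spanSingleton_eq_zero_iff]
    exact div_ne_zero ha' hb'
  unfold ord
  rw [FractionalIdeal.count_well_defined E v hI (a := b) (J := Ideal.span {a})]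
  · rfl
  · rw [FractionalIdeal.coeIdeal_span_singleton,
      FractionalIdeal.spanSingleton_mul_spanSingleton, inv_mul_eq_div]

/-- If `(a) = v ^ k * R` with `R ⊄ v`, then the exponent of `v` in `(a)` is `k`. -/
theorem cnt_eq_of_span_eq (v : HeightOneSpectrum (𝓞 E)) {a : 𝓞 E} (ha : a ≠ 0) (k : ℕ)
    (R : Ideal (𝓞 E)) (hR : ¬ R ≤ v.asIdeal) (h : Ideal.span {a} = v.asIdeal ^ k * R) :
    cnt v a = k := by
  have hprime : v.asIdeal.IsPrime := v.isPrime
  have hmem : ∀ n : ℕ, a ∈ v.asIdeal ^ n ↔ n ≤ k := by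
    intro n
    rw [← Ideal.span_singleton_le_iff_mem, h]
    constructor
    · intro hle
      by_contra hlt
      rw [not_le] at hlt
      have h1 : v.asIdeal ^ k * R ≤ v.asIdeal ^ (k + 1) :=
        hle.trans (Ideal.pow_le_pow_right hlt)
      rw [← Ideal.dvd_iff_le, pow_succ] at h1
      have hk0 : v.asIdeal ^ k ≠ 0 := pow_ne_zero k v.ne_bot
      have h2 : v.asIdeal ∣ R := (mul_dvd_mul_iff_left hk0).mp h1
      exact hR (Ideal.dvd_iff_le.mp h2)
    · intro hle
      exact Ideal.mul_le_left.trans (Ideal.pow_le_pow_right hle)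
  apply le_antisymm
  · rw [← hmem, ← le_cnt_iff v ha]
  · rw [le_cnt_iff v ha, hmem]

/-- The principal ideal `(a)` is `v ^ cnt v a` times an ideal coprime to `v`. -/
theorem exists_span_eq (v : HeightOneSpectrum (𝓞 E)) {a : 𝓞 E} (ha : a ≠ 0) :
    ∃ R : Ideal (𝓞 E), ¬ R ≤ v.asIdeal ∧ Ideal.span {a} = v.asIdeal ^ cnt v a * R := by
  have hne : Ideal.span {a} ≠ (⊥ : Ideal (𝓞 E)) := by
    rw [Ne, Ideal.span_singleton_eq_bot]
    exact ha
  have hmax : v.asIdeal.IsMaximal := v.isMaximal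
  obtain ⟨R, hR, h⟩ := Ideal.eq_prime_pow_mul_coprime hne v.asIdeal
  have hR' : ¬ R ≤ v.asIdeal := by
    intro hle
    rw [sup_of_le_left hle] at hR
    exact hmax.ne_top hR
  refine ⟨R, hR', ?_⟩
  rw [cnt_eq_of_span_eq v ha _ R hR' h]
  exact h

/-- Transport of `ord` along a field homomorphism which is compatible with the powers of the
primes on integers. -/
theorem ord_map {E' : Type*} [Field E'] [NumberField E']
    (v : HeightOneSpectrum (𝓞 E)) (v' : HeightOneSpectrum (𝓞 E')) (f : E →+* E')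
    (g : 𝓞 E → 𝓞 E') (hg : ∀ a : 𝓞 E, ((g a : 𝓞 E') : E') = f (a : E))
    (hmem : ∀ (a : 𝓞 E) (n : ℕ), a ≠ 0 → (a ∈ v.asIdeal ^ n ↔ g a ∈ v'.asIdeal ^ n))
    (x : E) : ord v' (f x) = ord v x := by
  by_cases hx : x = 0
  · rw [hx, map_zero, ord_zero, ord_zero]
  obtain ⟨a, b, hb, rfl⟩ := IsFractionRing.div_surjective (A := 𝓞 E) x
  have hb0 : b ≠ 0 := nonZeroDivisors.ne_zero hb
  have ha0 : a ≠ 0 := by
    rintro rfl
    apply hx
    simp
  have hg0 : ∀ c : 𝓞 E, c ≠ 0 → g c ≠ 0 := by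
    intro c hc h0
    have h1 : f (c : E) = 0 := by rw [← hg, h0]; simp
    have h2 : (c : E) = 0 := by
      rwa [map_eq_zero] at h1
    exact hc ((RingOfIntegers.coe_eq_zero_iff (K := E)).mp h2)
  have hfx : f (algebraMap (𝓞 E) E a / algebraMap (𝓞 E) E b) =
      algebraMap (𝓞 E') E' (g a) / algebraMap (𝓞 E') E' (g b) := by
    rw [map_div₀]
    congr 1
    · exact (hg a).symm
    · exact (hg b).symm
  rw [hfx, ord_div v' (hg0 a ha0) (hg0 b hb0), ord_div v ha0 hb0,
    cnt_eq_of_forall v v' ha0 (hg0 a ha0) (fun n => hmem a n ha0),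
    cnt_eq_of_forall v v' hb0 (hg0 b hb0) (fun n => hmem b n hb0)]

end Ord

end GalDiv

section GalDiv

variable (F E : Type*) [Field F] [NumberField F] [Field E] [NumberField E] [Algebra F E]

/-- the prime `σ(v)` -/
noncomputable def galPrime (σ : E ≃ₐ[F] E) (v : HeightOneSpectrum (𝓞 E)) :
    HeightOneSpectrum (𝓞 E) where
  asIdeal := σ • v.asIdeal
  isPrime := by
    have h := v.isPrime
    rw [Ideal.pointwise_smul_def]
    exact Ideal.map_isPrime_of_equiv (MulSemiringAction.toRingEquiv (E ≃ₐ[F] E) (𝓞 E) σ)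
  ne_bot := by
    intro h
    apply v.ne_bot
    have h1 : σ⁻¹ • (σ • v.asIdeal) = σ⁻¹ • (⊥ : Ideal (𝓞 E)) := by rw [h]
    rw [inv_smul_smul] at h1
    rw [h1, Ideal.pointwise_smul_def, Ideal.map_bot]

theorem galPrime_asIdeal (σ : E ≃ₐ[F] E) (v : HeightOneSpectrum (𝓞 E)) :
    (galPrime F E σ v).asIdeal = σ • v.asIdeal := rfl

theorem galPrime_one (v : HeightOneSpectrum (𝓞 E)) : galPrime F E 1 v = v := by
  apply HeightOneSpectrum.ext
  rw [galPrime_asIdeal, one_smul]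

theorem galPrime_mul (σ τ : E ≃ₐ[F] E) (v : HeightOneSpectrum (𝓞 E)) :
    galPrime F E (σ * τ) v = galPrime F E σ (galPrime F E τ v) := by
  apply HeightOneSpectrum.ext
  rw [galPrime_asIdeal, galPrime_asIdeal, galPrime_asIdeal, mul_smul]

theorem galPrime_inv_galPrime (σ : E ≃ₐ[F] E) (v : HeightOneSpectrum (𝓞 E)) :
    galPrime F E σ⁻¹ (galPrime F E σ v) = v := by
  rw [← galPrime_mul, inv_mul_cancel, galPrime_one]

theorem galPrime_galPrime_inv (σ : E ≃ₐ[F] E) (v : HeightOneSpectrum (𝓞 E)) :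
    galPrime F E σ (galPrime F E σ⁻¹ v) = v := by
  rw [← galPrime_mul, mul_inv_cancel, galPrime_one]

theorem smul_mem_galPrime_pow_iff (σ : E ≃ₐ[F] E) (v : HeightOneSpectrum (𝓞 E)) (a : 𝓞 E)
    (n : ℕ) : σ • a ∈ (galPrime F E σ v).asIdeal ^ n ↔ a ∈ v.asIdeal ^ n := by
  have h : (galPrime F E σ v).asIdeal ^ n = σ • (v.asIdeal ^ n) := by
    rw [galPrime_asIdeal, Ideal.pointwise_smul_def, Ideal.pointwise_smul_def, Ideal.map_pow]
  rw [h, Ideal.smul_mem_pointwise_smul_iff]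

theorem ord_galPrime (σ : E ≃ₐ[F] E) (v : HeightOneSpectrum (𝓞 E)) (x : E) :
    ord (galPrime F E σ v) (σ x) = ord v x :=
  GalDiv.ord_map v (galPrime F E σ v) (σ : E →+* E) (fun a => σ • a) (fun _ => rfl)
    (fun a n _ => (smul_mem_galPrime_pow_iff F E σ v a n).symm) x

/-- Variant of `ord_galPrime`: `ord (σ v) x = ord v (σ⁻¹ x)`. -/
theorem ord_galPrime_symm (σ : E ≃ₐ[F] E) (v : HeightOneSpectrum (𝓞 E)) (x : E) :
    ord (galPrime F E σ v) x = ord v (σ.symm x) := by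
  rw [← ord_galPrime F E σ v (σ.symm x), AlgEquiv.apply_symm_apply]

/-- the prime of `F` below `w` -/
noncomputable def primeBelow (w : HeightOneSpectrum (𝓞 E)) : HeightOneSpectrum (𝓞 F) where
  asIdeal := w.asIdeal.comap (algebraMap (𝓞 F) (𝓞 E))
  isPrime := by
    have h := w.isPrime
    exact Ideal.comap_isPrime _ _
  ne_bot := Ideal.IsIntegral.comap_ne_bot (𝓞 F) w.ne_bot

theorem primeBelow_asIdeal (w : HeightOneSpectrum (𝓞 E)) :
    (primeBelow F E w).asIdeal = w.asIdeal.comap (algebraMap (𝓞 F) (𝓞 E)) := rfl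

theorem liesOver_primeBelow (w : HeightOneSpectrum (𝓞 E)) :
    w.asIdeal.LiesOver (primeBelow F E w).asIdeal := ⟨rfl⟩

theorem mem_primeBelow_iff (w : HeightOneSpectrum (𝓞 E)) (a : 𝓞 F) :
    a ∈ (primeBelow F E w).asIdeal ↔ algebraMap (𝓞 F) (𝓞 E) a ∈ w.asIdeal := Iff.rfl

theorem primeBelow_galPrime (σ : E ≃ₐ[F] E) (w : HeightOneSpectrum (𝓞 E)) :
    primeBelow F E (galPrime F E σ w) = primeBelow F E w := by
  apply HeightOneSpectrum.ext
  ext a
  rw [mem_primeBelow_iff, mem_primeBelow_iff]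
  have h : algebraMap (𝓞 F) (𝓞 E) a = σ • algebraMap (𝓞 F) (𝓞 E) a := by
    apply Subtype.ext
    show (algebraMap (𝓞 F) (𝓞 E) a : E) = σ (algebraMap (𝓞 F) (𝓞 E) a : E)
    have h1 : (algebraMap (𝓞 F) (𝓞 E) a : E) = algebraMap F E (a : F) := rfl
    rw [h1, AlgEquiv.commutes]
  rw [galPrime_asIdeal]
  conv_lhs => rw [h]
  exact Ideal.smul_mem_pointwise_smul_iff

theorem exists_primeBelow_eq (v : HeightOneSpectrum (𝓞 F)) :
    ∃ w : HeightOneSpectrum (𝓞 E), primeBelow F E w = v := by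
  have hvp : v.asIdeal.IsPrime := v.isPrime
  obtain ⟨⟨P, hP, hPv⟩⟩ := (inferInstance : Nonempty (Ideal.primesOver v.asIdeal (𝓞 E)))
  have hP0 : P ≠ ⊥ := by
    intro h
    apply v.ne_bot
    have h1 := hPv.over
    rw [h1, h, Ideal.under_def, Ideal.comap_bot_of_injective _
      (FaithfulSMul.algebraMap_injective (𝓞 F) (𝓞 E))]
  refine ⟨⟨P, hP, hP0⟩, ?_⟩
  apply HeightOneSpectrum.ext
  exact hPv.over.symm

theorem exists_galPrime_eq [IsGalois F E] (w w' : HeightOneSpectrum (𝓞 E))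
    (h : primeBelow F E w = primeBelow F E w') : ∃ σ : E ≃ₐ[F] E, galPrime F E σ w = w' := by
  have hGG : IsGaloisGroup (E ≃ₐ[F] E) (𝓞 F) (𝓞 E) :=
    IsGaloisGroup.of_isFractionRing (E ≃ₐ[F] E) (𝓞 F) (𝓞 E) F E
  have hw : w.asIdeal.IsPrime := w.isPrime
  have hw' : w'.asIdeal.IsPrime := w'.isPrime
  have hl : w.asIdeal.LiesOver (primeBelow F E w).asIdeal := liesOver_primeBelow F E w
  have hl' : w'.asIdeal.LiesOver (primeBelow F E w).asIdeal := by
    rw [h]
    exact liesOver_primeBelow F E w'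
  obtain ⟨σ, hσ⟩ := Ideal.exists_smul_eq_of_isGaloisGroup (primeBelow F E w).asIdeal
    w.asIdeal w'.asIdeal (E ≃ₐ[F] E)
  exact ⟨σ, HeightOneSpectrum.ext hσ⟩

end GalDiv

namespace GalDiv

section Ramification

variable (F E : Type*) [Field F] [NumberField F] [Field E] [NumberField E] [Algebra F E]

open Classical in
/-- The exponent of `w` in the factorisation of `v 𝓞_E`, `v` the prime below `w`
(the ramification index of `w`). -/
noncomputable def ramIdx (w : HeightOneSpectrum (𝓞 E)) : ℕ :=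
  Multiset.count w.asIdeal (UniqueFactorizationMonoid.normalizedFactors
    (Ideal.map (algebraMap (𝓞 F) (𝓞 E)) (primeBelow F E w).asIdeal))

theorem map_primeBelow_ne_bot (w : HeightOneSpectrum (𝓞 E)) :
    Ideal.map (algebraMap (𝓞 F) (𝓞 E)) (primeBelow F E w).asIdeal ≠ ⊥ := by
  intro h
  apply (primeBelow F E w).ne_bot
  rw [Ideal.map_eq_bot_iff_of_injective (FaithfulSMul.algebraMap_injective (𝓞 F) (𝓞 E))] at h
  exact h

/-- `cnt_w (a) = e * cnt_v (a)` for `a ∈ 𝓞 F`. -/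
theorem cnt_algebraMap (w : HeightOneSpectrum (𝓞 E)) {a : 𝓞 F} (ha : a ≠ 0) :
    cnt w (algebraMap (𝓞 F) (𝓞 E) a) = ramIdx F E w * cnt (primeBelow F E w) a := by
  classical
  have hinj : Function.Injective (algebraMap (𝓞 F) (𝓞 E)) :=
    FaithfulSMul.algebraMap_injective (𝓞 F) (𝓞 E)
  have ha' : algebraMap (𝓞 F) (𝓞 E) a ≠ 0 := by
    intro h
    exact ha (hinj (by rw [h, map_zero]))
  have hwp : w.asIdeal.IsPrime := w.isPrime
  have hwmax : w.asIdeal.IsMaximal := w.isMaximal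
  obtain ⟨J, hJ, hspan⟩ := exists_span_eq (primeBelow F E w) ha
  obtain ⟨Q, hQ, hmap⟩ := Ideal.eq_prime_pow_mul_coprime (map_primeBelow_ne_bot F E w) w.asIdeal
  have hQ' : ¬ Q ≤ w.asIdeal := by
    intro hle
    rw [sup_of_le_left hle] at hQ
    exact hwmax.ne_top hQ
  have hJ' : ¬ Ideal.map (algebraMap (𝓞 F) (𝓞 E)) J ≤ w.asIdeal := by
    intro hle
    exact hJ (Ideal.map_le_iff_le_comap.mp hle)
  set m := cnt (primeBelow F E w) a with hm
  have hR : ¬ Q ^ m * Ideal.map (algebraMap (𝓞 F) (𝓞 E)) J ≤ w.asIdeal := by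
    intro hle
    rcases (Ideal.IsPrime.mul_le hwp).mp hle with h1 | h1
    · by_cases hm0 : m = 0
      · rw [hm0, pow_zero, Ideal.one_eq_top, top_le_iff] at h1
        exact hwp.ne_top h1
      · exact hQ' ((Ideal.IsPrime.pow_le_iff hm0).mp h1)
    · exact hJ' h1
  apply cnt_eq_of_span_eq w ha' _ _ hR
  have h1 : Ideal.span {algebraMap (𝓞 F) (𝓞 E) a} =
      Ideal.map (algebraMap (𝓞 F) (𝓞 E)) (Ideal.span {a}) := by
    rw [Ideal.map_span, Set.image_singleton]
  rw [h1, hspan, Ideal.map_mul, Ideal.map_pow, hmap]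
  show (w.asIdeal ^ ramIdx F E w * Q) ^ m * Ideal.map (algebraMap (𝓞 F) (𝓞 E)) J = _
  rw [mul_pow, ← pow_mul, mul_assoc]

/-- In general `ord_w = e * ord_v` on `F`. -/
theorem ord_algebraMap_eq_mul (w : HeightOneSpectrum (𝓞 E)) (x : F) :
    ord w (algebraMap F E x) = (ramIdx F E w : ℤ) * ord (primeBelow F E w) x := by
  by_cases hx : x = 0
  · rw [hx, map_zero, ord_zero, ord_zero, mul_zero]
  obtain ⟨a, b, hb, rfl⟩ := IsFractionRing.div_surjective (A := 𝓞 F) x
  have hb0 : b ≠ 0 := nonZeroDivisors.ne_zero hb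
  have ha0 : a ≠ 0 := by
    rintro rfl
    apply hx
    simp
  have hinj : Function.Injective (algebraMap (𝓞 F) (𝓞 E)) :=
    FaithfulSMul.algebraMap_injective (𝓞 F) (𝓞 E)
  have ha' : algebraMap (𝓞 F) (𝓞 E) a ≠ 0 := fun h => ha0 (hinj (by rw [h, map_zero]))
  have hb' : algebraMap (𝓞 F) (𝓞 E) b ≠ 0 := fun h => hb0 (hinj (by rw [h, map_zero]))
  have hfx : algebraMap F E (algebraMap (𝓞 F) F a / algebraMap (𝓞 F) F b) =
      algebraMap (𝓞 E) E (algebraMap (𝓞 F) (𝓞 E) a) /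
        algebraMap (𝓞 E) E (algebraMap (𝓞 F) (𝓞 E) b) := by
    rw [map_div₀]
    rfl
  rw [hfx, ord_div w ha' hb', ord_div _ ha0 hb0, cnt_algebraMap F E w ha0,
    cnt_algebraMap F E w hb0]
  push_cast
  ring

/-- Trivial inertia group at `w` implies ramification index one. -/
theorem ramIdx_eq_one [IsGalois F E] (w : HeightOneSpectrum (𝓞 E))
    (hw : ∀ σ : E ≃ₐ[F] E, (∀ x : 𝓞 E, σ • x - x ∈ w.asIdeal) → σ = 1) :
    ramIdx F E w = 1 := by
  classical
  have hGG : IsGaloisGroup (E ≃ₐ[F] E) (𝓞 F) (𝓞 E) :=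
    IsGaloisGroup.of_isFractionRing (E ≃ₐ[F] E) (𝓞 F) (𝓞 E) F E
  have hwp : w.asIdeal.IsPrime := w.isPrime
  have hvp : (primeBelow F E w).asIdeal.IsPrime := (primeBelow F E w).isPrime
  have hvmax : (primeBelow F E w).asIdeal.IsMaximal := (primeBelow F E w).isMaximal
  have hl : w.asIdeal.LiesOver (primeBelow F E w).asIdeal := liesOver_primeBelow F E w
  have hcard := Ideal.card_inertia_eq_ramificationIdxIn (G := E ≃ₐ[F] E)
    (primeBelow F E w).asIdeal w.asIdeal
  rw [Ideal.ramificationIdxIn_eq_ramificationIdx (primeBelow F E w).asIdeal w.asIdeal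
    (E ≃ₐ[F] E)] at hcard
  have hbot : Ideal.inertia (E ≃ₐ[F] E) w.asIdeal = ⊥ := by
    rw [Subgroup.eq_bot_iff_forall]
    intro σ hσ
    exact hw σ hσ
  rw [hbot] at hcard
  have h1 : w.asIdeal.ramificationIdx (𝓞 F) = 1 := by
    rw [← hcard]
    exact Subgroup.card_bot
  unfold ramIdx
  rw [← Ideal.IsDedekindDomain.ramificationIdx_eq_normalizedFactors_count
    (primeBelow F E w).asIdeal w.asIdeal (map_primeBelow_ne_bot F E w)]
  exact h1

end Ramification

end GalDiv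

section GalDiv

variable (F E : Type*) [Field F] [NumberField F] [Field E] [NumberField E] [Algebra F E]

/-- unramified at `w`: `ord_w = ord_v` on `F` -/
theorem ord_algebraMap [IsGalois F E] (w : HeightOneSpectrum (𝓞 E))
    (hw : ∀ σ : E ≃ₐ[F] E, (∀ x : 𝓞 E, σ • x - x ∈ w.asIdeal) → σ = 1) (x : F) :
    ord w (algebraMap F E x) = ord (primeBelow F E w) x := by
  rw [GalDiv.ord_algebraMap_eq_mul, GalDiv.ramIdx_eq_one F E w hw, Nat.cast_one, one_mul]

/-- in general: a unit below is a unit above -/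
theorem ord_algebraMap_eq_zero (w : HeightOneSpectrum (𝓞 E)) (x : F)
    (hx : ord (primeBelow F E w) x = 0) : ord w (algebraMap F E x) = 0 := by
  rw [GalDiv.ord_algebraMap_eq_mul, hx, mul_zero]

end GalDiv

end Fermat.Agent.S14
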