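/-
S14, package CrossLocal, SECOND HALF (helper11): from the ramification facts at a prime `W` of
`M = L(ζ_r)` above `v | r` to the local congruence of `local_at_r`.

* `CrossLocalB.IntAt v x`, `CrossLocalB.MemAt v x` : `x` lies in the local ring at `v`, resp. in
  its maximal ideal (fractions with denominator prime to `v`), with the calculus needed for
  congruences modulo `v` between elements of the field, and the relation with `ord`.
* `CrossLocalB.memAt_map_sub_pow` : Frobenius-type congruences extend to the local ring.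
* `CrossLocalB.prod_rho_one_sub_zeta` : `∏_j ρ'^j (1 - ζ) = r`.
* `CrossData.local_at_r_of_ram` : the conclusion of `local_at_r` from
  `ord_W (1 - ζ) = 1`, `ρ'` in the inertia group of `W`, and `ord_W = (r - 1) ord_v` on `K`.
-/
import Fermat.Agent.S14.GalDiv
import Fermat.Agent.S14.DivCl
import Fermat.Agent.S14.CrossDefs

set_option autoImplicit false
set_option linter.unusedSectionVars false

namespace Fermat.Agent.S14

open NumberField IsDedekindDomain
open scoped nonZeroDivisors Pointwise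

namespace CrossLocalB

section Loc

variable {E : Type*} [Field E] [NumberField E] (v : HeightOneSpectrum (𝓞 E))

/-- `x` is integral at `v`: a fraction with denominator prime to `v`. -/
def IntAt (x : E) : Prop := ∃ a s : 𝓞 E, s ∉ v.asIdeal ∧ x * (s : E) = (a : E)

/-- `x` lies in the maximal ideal of the local ring at `v`. -/
def MemAt (x : E) : Prop :=
  ∃ a s : 𝓞 E, a ∈ v.asIdeal ∧ s ∉ v.asIdeal ∧ x * (s : E) = (a : E)

variable {v}

theorem MemAt.intAt {x : E} (h : MemAt v x) : IntAt v x := by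
  obtain ⟨a, s, -, hs, h⟩ := h
  exact ⟨a, s, hs, h⟩

theorem one_notMem : (1 : 𝓞 E) ∉ v.asIdeal := fun h =>
  v.isPrime.ne_top ((Ideal.eq_top_iff_one _).mpr h)

theorem mul_notMem {s t : 𝓞 E} (hs : s ∉ v.asIdeal) (ht : t ∉ v.asIdeal) :
    s * t ∉ v.asIdeal := fun h => (v.isPrime.mem_or_mem h).elim hs ht

theorem pow_notMem {s : 𝓞 E} (hs : s ∉ v.asIdeal) (n : ℕ) : s ^ n ∉ v.asIdeal := fun h =>
  hs (v.isPrime.mem_of_pow_mem n h)

theorem coe_ne_zero_of_notMem {s : 𝓞 E} (hs : s ∉ v.asIdeal) : (s : E) ≠ 0 := by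
  intro h
  have : s = 0 := by simpa using h
  exact hs (this ▸ v.asIdeal.zero_mem)

theorem intAt_coe (a : 𝓞 E) : IntAt v (a : E) := ⟨a, 1, one_notMem, by simp⟩

theorem intAt_zero : IntAt v (0 : E) := ⟨0, 1, one_notMem, by simp⟩

theorem intAt_one : IntAt v (1 : E) := ⟨1, 1, one_notMem, by simp⟩

theorem memAt_zero : MemAt v (0 : E) := ⟨0, 1, v.asIdeal.zero_mem, one_notMem, by simp⟩

theorem memAt_coe {a : 𝓞 E} (ha : a ∈ v.asIdeal) : MemAt v (a : E) :=
  ⟨a, 1, ha, one_notMem, by simp⟩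

theorem IntAt.add {x y : E} (hx : IntAt v x) (hy : IntAt v y) : IntAt v (x + y) := by
  obtain ⟨a, s, hs, h1⟩ := hx
  obtain ⟨b, t, ht, h2⟩ := hy
  refine ⟨a * t + b * s, s * t, mul_notMem hs ht, ?_⟩
  push_cast
  linear_combination (t : E) * h1 + (s : E) * h2

theorem IntAt.mul {x y : E} (hx : IntAt v x) (hy : IntAt v y) : IntAt v (x * y) := by
  obtain ⟨a, s, hs, h1⟩ := hx
  obtain ⟨b, t, ht, h2⟩ := hy
  refine ⟨a * b, s * t, mul_notMem hs ht, ?_⟩
  push_cast
  linear_combination (y * (t : E)) * h1 + (a : E) * h2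

theorem IntAt.neg {x : E} (hx : IntAt v x) : IntAt v (-x) := by
  obtain ⟨a, s, hs, h1⟩ := hx
  refine ⟨-a, s, hs, ?_⟩
  push_cast
  linear_combination -h1

theorem IntAt.sub {x y : E} (hx : IntAt v x) (hy : IntAt v y) : IntAt v (x - y) := by
  rw [sub_eq_add_neg]
  exact hx.add hy.neg

theorem IntAt.pow {x : E} (hx : IntAt v x) (n : ℕ) : IntAt v (x ^ n) := by
  induction n with
  | zero => rw [pow_zero]; exact intAt_one
  | succ n ih => rw [pow_succ]; exact ih.mul hx

theorem MemAt.add {x y : E} (hx : MemAt v x) (hy : MemAt v y) : MemAt v (x + y) := by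
  obtain ⟨a, s, ha, hs, h1⟩ := hx
  obtain ⟨b, t, hb, ht, h2⟩ := hy
  refine ⟨a * t + b * s, s * t, v.asIdeal.add_mem (v.asIdeal.mul_mem_right _ ha)
    (v.asIdeal.mul_mem_right _ hb), mul_notMem hs ht, ?_⟩
  push_cast
  linear_combination (t : E) * h1 + (s : E) * h2

theorem MemAt.neg {x : E} (hx : MemAt v x) : MemAt v (-x) := by
  obtain ⟨a, s, ha, hs, h1⟩ := hx
  refine ⟨-a, s, v.asIdeal.neg_mem ha, hs, ?_⟩
  push_cast
  linear_combination -h1

theorem MemAt.sub {x y : E} (hx : MemAt v x) (hy : MemAt v y) : MemAt v (x - y) := by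
  rw [sub_eq_add_neg]
  exact hx.add hy.neg

theorem MemAt.mul_intAt {x y : E} (hx : MemAt v x) (hy : IntAt v y) : MemAt v (x * y) := by
  obtain ⟨a, s, ha, hs, h1⟩ := hx
  obtain ⟨b, t, ht, h2⟩ := hy
  refine ⟨a * b, s * t, v.asIdeal.mul_mem_right _ ha, mul_notMem hs ht, ?_⟩
  push_cast
  linear_combination (y * (t : E)) * h1 + (a : E) * h2

theorem IntAt.mul_memAt {x y : E} (hx : IntAt v x) (hy : MemAt v y) : MemAt v (x * y) := by
  rw [mul_comm]
  exact hy.mul_intAt hx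

theorem not_memAt_one : ¬ MemAt v (1 : E) := by
  rintro ⟨a, s, ha, hs, h⟩
  rw [one_mul] at h
  have : s = a := RingOfIntegers.ext h
  exact hs (this ▸ ha)

theorem memAt_coe_iff (a : 𝓞 E) : MemAt v (a : E) ↔ a ∈ v.asIdeal := by
  constructor
  · rintro ⟨b, s, hb, hs, h⟩
    have h' : a * s = b := RingOfIntegers.ext (by push_cast; exact h)
    rw [← h'] at hb
    exact (v.isPrime.mem_or_mem hb).resolve_right hs
  · exact memAt_coe

/-- A congruence of products. -/
theorem memAt_prod_sub_prod {ι : Type*} (s : Finset ι) (f g : ι → E)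
    (hf : ∀ i ∈ s, IntAt v (f i)) (hg : ∀ i ∈ s, IntAt v (g i))
    (h : ∀ i ∈ s, MemAt v (f i - g i)) :
    IntAt v (∏ i ∈ s, f i) ∧ IntAt v (∏ i ∈ s, g i) ∧ MemAt v (∏ i ∈ s, f i - ∏ i ∈ s, g i) := by
  classical
  induction s using Finset.induction_on with
  | empty => simp [intAt_one, memAt_zero]
  | insert a s ha ih =>
    have ih' := ih (fun i hi => hf i (Finset.mem_insert_of_mem hi))
      (fun i hi => hg i (Finset.mem_insert_of_mem hi))
      (fun i hi => h i (Finset.mem_insert_of_mem hi))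
    rw [Finset.prod_insert ha, Finset.prod_insert ha]
    have hfa := hf a (Finset.mem_insert_self a s)
    have hga := hg a (Finset.mem_insert_self a s)
    refine ⟨hfa.mul ih'.1, hga.mul ih'.2.1, ?_⟩
    have e : f a * ∏ i ∈ s, f i - g a * ∏ i ∈ s, g i =
        (f a - g a) * ∏ i ∈ s, f i + g a * (∏ i ∈ s, f i - ∏ i ∈ s, g i) := by ring
    rw [e]
    exact ((h a (Finset.mem_insert_self a s)).mul_intAt ih'.1).add (hga.mul_memAt ih'.2.2)

/-! ### Relation with `ord` -/

theorem ord_eq_of_mul_eq {x : E} {a s : 𝓞 E} (hs : s ∉ v.asIdeal) (h : x * (s : E) = (a : E))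
    (hx : x ≠ 0) : ord v x = ord v (a : E) := by
  have hs0 : (s : E) ≠ 0 := coe_ne_zero_of_notMem hs
  have hs0' : s ≠ 0 := fun h0 => hs0 (by simp [h0])
  rw [← h, ord_mul E v hx hs0, (DivCl.ord_eq_zero_iff_notMem v hs0').mpr hs, add_zero]

theorem MemAt.ord_pos {x : E} (h : MemAt v x) (hx : x ≠ 0) : 0 < ord v x := by
  obtain ⟨a, s, ha, hs, h⟩ := h
  have hs0 : (s : E) ≠ 0 := coe_ne_zero_of_notMem hs
  have ha0 : a ≠ 0 := by
    rintro rfl
    have : x * (s : E) = 0 := by simpa using h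
    rcases mul_eq_zero.mp this with h1 | h1
    · exact hx h1
    · exact hs0 h1
  rw [ord_eq_of_mul_eq hs h hx]
  exact (DivCl.ord_pos_iff_mem v ha0).mpr ha

theorem IntAt.ord_nonneg {x : E} (h : IntAt v x) : 0 ≤ ord v x := by
  by_cases hx : x = 0
  · rw [hx, DivCl.ord_zero]
  obtain ⟨a, s, hs, h⟩ := h
  rw [ord_eq_of_mul_eq hs h hx]
  exact DivCl.ord_nonneg v a

theorem intAt_of_ord_nonneg {x : E} (h : 0 ≤ ord v x) : IntAt v x := by
  by_cases hx : x = 0
  · rw [hx]; exact intAt_zero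
  obtain ⟨a, b, hb, rfl⟩ := IsFractionRing.div_surjective (A := 𝓞 E) x
  have hb0 : b ≠ 0 := nonZeroDivisors.ne_zero hb
  have ha0 : a ≠ 0 := by
    rintro rfl
    apply hx
    simp
  have hord : ord v ((a : E) / (b : E)) = (GalDiv.cnt v a : ℤ) - (GalDiv.cnt v b : ℤ) :=
    GalDiv.ord_div v ha0 hb0
  have hcoe : algebraMap (𝓞 E) E a / algebraMap (𝓞 E) E b = (a : E) / (b : E) := rfl
  rw [hcoe, hord] at h
  have hle : GalDiv.cnt v b ≤ GalDiv.cnt v a := by omega
  obtain ⟨R, hR, hspan⟩ := GalDiv.exists_span_eq v hb0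
  obtain ⟨t, htR, htv⟩ := SetLike.not_le_iff_exists.mp hR
  have hamem : a ∈ v.asIdeal ^ GalDiv.cnt v b := (GalDiv.le_cnt_iff v ha0 _).mp hle
  have hmem : a * t ∈ Ideal.span {b} := by
    rw [hspan]
    exact Ideal.mul_mem_mul hamem htR
  obtain ⟨c, hc⟩ := Ideal.mem_span_singleton'.mp hmem
  refine ⟨c, t, htv, ?_⟩
  have hb0' : (b : E) ≠ 0 := by
    intro h0
    exact hb0 (by simpa using h0)
  rw [hcoe]
  have hc' : (c : E) * (b : E) = (a : E) * (t : E) := by
    have := congrArg (fun z : 𝓞 E => (z : E)) hc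
    simpa using this
  field_simp
  linear_combination -hc'

theorem memAt_of_ord_pos {x : E} (h : 0 < ord v x) : MemAt v x := by
  have hx : x ≠ 0 := by
    rintro rfl
    rw [DivCl.ord_zero] at h
    exact lt_irrefl _ h
  obtain ⟨a, s, hs, hxs⟩ := intAt_of_ord_nonneg h.le
  have hs0 : (s : E) ≠ 0 := coe_ne_zero_of_notMem hs
  have ha0 : a ≠ 0 := by
    rintro rfl
    have : x * (s : E) = 0 := by simpa using hxs
    rcases mul_eq_zero.mp this with h1 | h1
    · exact hx h1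
    · exact hs0 h1
  refine ⟨a, s, ?_, hs, hxs⟩
  rw [ord_eq_of_mul_eq hs hxs hx] at h
  exact (DivCl.ord_pos_iff_mem v ha0).mp h

theorem ord_zpow (x : E) (n : ℤ) : ord v (x ^ n) = n * ord v x := by
  cases n with
  | ofNat n => simp [DivCl.ord_pow]
  | negSucc n =>
    rw [zpow_negSucc, DivCl.ord_inv, DivCl.ord_pow]
    push_cast
    rw [Int.negSucc_eq]
    ring

/-- An element with `ord ≡ 1` mod `v` is a fraction `x / y` with `x ≡ y`, `y ∉ v`. -/
theorem exists_int_of_memAt_sub_one {u : E} (h : MemAt v (u - 1)) :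
    ∃ x y : 𝓞 E, y ∉ v.asIdeal ∧ x - y ∈ v.asIdeal ∧ u * (y : E) = (x : E) := by
  obtain ⟨a, s, ha, hs, h⟩ := h
  refine ⟨a + s, s, hs, by simpa using ha, ?_⟩
  push_cast
  linear_combination h

theorem ord_prod {ι : Type*} (s : Finset ι) (f : ι → E) (hf : ∀ i ∈ s, f i ≠ 0) :
    ord v (∏ i ∈ s, f i) = ∑ i ∈ s, ord v (f i) := by
  classical
  induction s using Finset.induction_on with
  | empty => simp [DivCl.ord_one]
  | insert a s ha ih =>
    rw [Finset.prod_insert ha, Finset.sum_insert ha,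
      ord_mul E v (hf a (Finset.mem_insert_self a s))
        (Finset.prod_ne_zero_iff.mpr fun i hi => hf i (Finset.mem_insert_of_mem hi)),
      ih fun i hi => hf i (Finset.mem_insert_of_mem hi)]

end Loc

section Gal

variable {F E : Type*} [Field F] [NumberField F] [Field E] [NumberField E] [Algebra F E]
  {v : HeightOneSpectrum (𝓞 E)}

theorem smul_mem_iff_of_stab {σ : E ≃ₐ[F] E} (hσ : σ • v.asIdeal = v.asIdeal) (a : 𝓞 E) :
    σ • a ∈ v.asIdeal ↔ a ∈ v.asIdeal := by
  conv_lhs => rw [← hσ]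
  exact Ideal.smul_mem_pointwise_smul_iff

theorem stab_of_smul_mem_iff {σ : E ≃ₐ[F] E}
    (hσ : ∀ a : 𝓞 E, σ • a ∈ v.asIdeal ↔ a ∈ v.asIdeal) : σ • v.asIdeal = v.asIdeal := by
  ext x
  rw [Ideal.mem_pointwise_smul_iff_inv_smul_mem, ← hσ (σ⁻¹ • x), smul_inv_smul]

theorem stab_of_frob {σ : E ≃ₐ[F] E} {n : ℕ} (hσ : ∀ a : 𝓞 E, σ • a - a ^ n ∈ v.asIdeal) :
    σ • v.asIdeal = v.asIdeal := by
  by_cases hn : n = 0
  · exfalso
    subst hn
    have h0 := hσ 0
    have h1 := hσ 1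
    simp only [smul_zero, pow_zero, zero_sub, smul_one, sub_self] at h0 h1
    exact one_notMem (by simpa using v.asIdeal.neg_mem h0)
  apply stab_of_smul_mem_iff
  intro a
  constructor
  · intro h
    have h2 := v.asIdeal.sub_mem h (hσ a)
    rw [sub_sub_cancel] at h2
    exact v.isPrime.mem_of_pow_mem n h2
  · intro h
    have h2 := v.asIdeal.add_mem (hσ a) (v.asIdeal.pow_mem_of_mem h n (Nat.pos_of_ne_zero hn))
    rwa [sub_add_cancel] at h2

theorem stab_of_inertia {σ : E ≃ₐ[F] E} (hσ : ∀ a : 𝓞 E, σ • a - a ∈ v.asIdeal) :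
    σ • v.asIdeal = v.asIdeal :=
  stab_of_frob (n := 1) (by simpa using hσ)

theorem inertia_pow {σ : E ≃ₐ[F] E} (hσ : ∀ a : 𝓞 E, σ • a - a ∈ v.asIdeal) (j : ℕ) :
    ∀ a : 𝓞 E, (σ ^ j) • a - a ∈ v.asIdeal := by
  induction j with
  | zero => intro a; simp
  | succ j ih =>
    intro a
    have e : (σ ^ (j + 1)) • a - a = ((σ ^ j) • (σ • a) - σ • a) + (σ • a - a) := by
      rw [pow_succ, mul_smul]; ring
    rw [e]
    exact v.asIdeal.add_mem (ih _) (hσ a)

theorem galPrime_eq_of_stab {σ : E ≃ₐ[F] E} (hσ : σ • v.asIdeal = v.asIdeal) :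
    galPrime F E σ v = v :=
  HeightOneSpectrum.ext (by rw [galPrime_asIdeal, hσ])

theorem ord_map_of_stab {σ : E ≃ₐ[F] E} (hσ : σ • v.asIdeal = v.asIdeal) (x : E) :
    ord v (σ x) = ord v x := by
  have := ord_galPrime F E σ v x
  rwa [galPrime_eq_of_stab hσ] at this

theorem IntAt.map_of_stab {σ : E ≃ₐ[F] E} (hσ : σ • v.asIdeal = v.asIdeal) {x : E}
    (hx : IntAt v x) : IntAt v (σ x) := by
  obtain ⟨a, s, hs, h⟩ := hx
  refine ⟨σ • a, σ • s, fun h' => hs ((smul_mem_iff_of_stab hσ s).mp h'), ?_⟩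
  have := congrArg σ h
  rw [map_mul] at this
  exact this

theorem MemAt.map_of_stab {σ : E ≃ₐ[F] E} (hσ : σ • v.asIdeal = v.asIdeal) {x : E}
    (hx : MemAt v x) : MemAt v (σ x) := by
  obtain ⟨a, s, ha, hs, h⟩ := hx
  refine ⟨σ • a, σ • s, (smul_mem_iff_of_stab hσ a).mpr ha,
    fun h' => hs ((smul_mem_iff_of_stab hσ s).mp h'), ?_⟩
  have := congrArg σ h
  rw [map_mul] at this
  exact this

/-- Frobenius-type congruences extend from `𝓞 E` to the local ring at `v`. -/
theorem memAt_map_sub_pow {σ : E ≃ₐ[F] E} {n : ℕ} (hσ : ∀ a : 𝓞 E, σ • a - a ^ n ∈ v.asIdeal)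
    {x : E} (hx : IntAt v x) : MemAt v (σ x - x ^ n) := by
  obtain ⟨a, s, hs, h⟩ := hx
  have hs' : σ • s ∉ v.asIdeal := by
    intro h'
    have h2 := v.asIdeal.sub_mem h' (hσ s)
    rw [sub_sub_cancel] at h2
    exact pow_notMem hs n h2
  refine ⟨(σ • a - a ^ n) * s ^ n - a ^ n * (σ • s - s ^ n), (σ • s) * s ^ n, ?_,
    mul_notMem hs' (pow_notMem hs n), ?_⟩
  · exact v.asIdeal.sub_mem (v.asIdeal.mul_mem_right _ (hσ a)) (v.asIdeal.mul_mem_left _ (hσ s))
  · have h1 : σ x * σ (s : E) = σ (a : E) := by rw [← map_mul, h]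
    have h2 : x ^ n * (s : E) ^ n = (a : E) ^ n := by rw [← mul_pow, h]
    push_cast
    simp only [AlgEquiv.smul_def]
    linear_combination ((s : E) ^ n) * h1 - (σ (s : E)) * h2

theorem memAt_map_sub {σ : E ≃ₐ[F] E} (hσ : ∀ a : 𝓞 E, σ • a - a ∈ v.asIdeal)
    {x : E} (hx : IntAt v x) : MemAt v (σ x - x) := by
  have := memAt_map_sub_pow (n := 1) (σ := σ) (v := v) (by simpa using hσ) hx
  simpa using this

end Gal

section Cross

variable {p r : ℕ} [Fact p.Prime] [Fact r.Prime]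
  {K L M : Type*} [Field K] [NumberField K] [Field L] [NumberField L] [Field M] [NumberField M]
  [Algebra K L] [Algebra L M] [Algebra K M] [IsScalarTower K L M]
  {τ0 : L ≃ₐ[K] L} (D : CrossData p r K L M τ0)

theorem rho_pow_zeta (j : ℕ) : (D.ρ' ^ j) D.ζ = D.ζ ^ (D.g ^ j) := by
  induction j with
  | zero => simp
  | succ j ih =>
    rw [pow_succ', AlgEquiv.mul_apply, ih, map_pow, D.ρ'_ζ, ← pow_mul, ← pow_succ']

theorem g_ne_zero : (D.g : ZMod r) ≠ 0 := by
  have hr : r.Prime := Fact.out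
  intro h0
  have h1 : (D.g : ZMod r) ^ (r - 1) = 1 := by
    rw [← D.hg]; exact pow_orderOf_eq_one _
  rw [h0, zero_pow (Nat.sub_ne_zero_of_lt hr.one_lt)] at h1
  exact zero_ne_one h1

/-- `∏_j ρ'^j (1 - ζ) = r`. -/
theorem prod_rho_one_sub_zeta :
    ∏ j ∈ Finset.range (r - 1), (D.ρ' ^ j) (1 - D.ζ) = (r : M) := by
  classical
  have hr : r.Prime := Fact.out
  have hζ := D.hζ
  have hζr : D.ζ ^ r = 1 := hζ.pow_eq_one
  set φ : ℕ → ℕ := fun j => D.g ^ j % r - 1 with hφ
  have hpos : ∀ j : ℕ, 1 ≤ D.g ^ j % r := by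
    intro j
    rw [Nat.one_le_iff_ne_zero]
    intro h0
    have h1 : ((D.g ^ j : ℕ) : ZMod r) = 0 := by
      rw [ZMod.natCast_eq_zero_iff]
      exact Nat.dvd_of_mod_eq_zero h0
    rw [Nat.cast_pow] at h1
    exact absurd h1 (pow_ne_zero j (g_ne_zero D))
  have hterm : ∀ j, (D.ρ' ^ j) (1 - D.ζ) = 1 - D.ζ ^ (φ j + 1) := by
    intro j
    rw [map_sub, map_one, rho_pow_zeta, hφ]
    simp only
    rw [Nat.sub_add_cancel (hpos j), ← pow_eq_pow_mod _ hζr]
  have hmaps : ∀ j ∈ Finset.range (r - 1), φ j ∈ Finset.range (r - 1) := by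
    intro j _
    rw [Finset.mem_range, hφ]
    simp only
    have := Nat.mod_lt (D.g ^ j) hr.pos
    have := hpos j
    omega
  have hinj : Set.InjOn φ (Finset.range (r - 1) : Set ℕ) := by
    intro j hj j' hj' h
    rw [Finset.coe_range, Set.mem_Iio] at hj hj'
    simp only [hφ] at h
    have h1 := hpos j
    have h2 := hpos j'
    have h3 : D.g ^ j % r = D.g ^ j' % r := by omega
    have h4 : ((D.g ^ j : ℕ) : ZMod r) = ((D.g ^ j' : ℕ) : ZMod r) :=
      (ZMod.natCast_eq_natCast_iff' _ _ _).mpr h3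
    rw [Nat.cast_pow, Nat.cast_pow] at h4
    exact pow_injOn_Iio_orderOf (by rw [Set.mem_Iio, D.hg]; exact hj)
      (by rw [Set.mem_Iio, D.hg]; exact hj') h4
  have himg : (Finset.range (r - 1)).image φ = Finset.range (r - 1) := by
    apply Finset.eq_of_subset_of_card_le
    · intro k hk
      obtain ⟨j, hj, rfl⟩ := Finset.mem_image.mp hk
      exact hmaps j hj
    · rw [Finset.card_image_of_injOn hinj]
  calc ∏ j ∈ Finset.range (r - 1), (D.ρ' ^ j) (1 - D.ζ)
      = ∏ j ∈ Finset.range (r - 1), (1 - D.ζ ^ (φ j + 1)) :=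
        Finset.prod_congr rfl fun j _ => hterm j
    _ = ∏ k ∈ (Finset.range (r - 1)).image φ, (1 - D.ζ ^ (k + 1)) :=
        (Finset.prod_image (f := fun k => 1 - D.ζ ^ (k + 1)) hinj).symm
    _ = ∏ k ∈ Finset.range (r - 1), (1 - D.ζ ^ (k + 1)) := by rw [himg]
    _ = (r : M) := by
        have hζ' : IsPrimitiveRoot D.ζ (r - 1 + 1) := by
          rwa [Nat.sub_add_cancel hr.one_le]
        rw [hζ'.prod_one_sub_pow_eq_order]
        have : ((r - 1 : ℕ) : M) + 1 = ((r - 1 + 1 : ℕ) : M) := by push_cast; ring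
        rw [this, Nat.sub_add_cancel hr.one_le]

end Cross

end CrossLocalB

section CrossLocalBMain

open CrossLocalB

variable {p r : ℕ} [Fact p.Prime] [Fact r.Prime]
  {K L M : Type*} [Field K] [NumberField K] [Field L] [NumberField L] [Field M] [NumberField M]
  [Algebra K L] [Algebra L M] [Algebra K M] [IsScalarTower K L M]
  {τ0 : L ≃ₐ[K] L} (D : CrossData p r K L M τ0)

/-- The second half of `local_at_r`: from the ramification facts at a prime `W` of `M` above `v`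
(`1 - ζ` is a uniformiser, `ρ'` lies in the inertia group, `e(W|v) = r - 1`) to the congruence
`c * r ^ (- ord v c) ≡ 1 mod v`. -/
theorem CrossData.local_at_r_of_ram [IsGalois K M]
    (v : HeightOneSpectrum (𝓞 K)) (hv1 : Ideal.absNorm v.asIdeal = r)
    (W : HeightOneSpectrum (𝓞 M))
    (hW : W.asIdeal.comap (algebraMap (𝓞 K) (𝓞 M)) = v.asIdeal)
    (h1 : ord W (1 - D.ζ) = 1)
    (h2 : ∀ x : 𝓞 M, D.ρ' • x - x ∈ W.asIdeal)
    (h3 : ∀ x : K, ord W (algebraMap K M x) = ((r : ℤ) - 1) * ord v x)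
    (b c : K) (_hb : b ≠ 0) (hc : c ≠ 0) (hbv : ord v b = 0)
    (γ δ : M) (hγ : γ ≠ 0) (hδ : δ ≠ 0)
    (hbγ : ∏ i ∈ Finset.range p, (D.τ' ^ i) γ = algebraMap K M b)
    (hrel : D.ρ' γ / γ = D.τ' δ / δ)
    (hcδ : ∏ j ∈ Finset.range (r - 1), (D.ρ' ^ j) δ = algebraMap K M c) :
    ∃ x y : 𝓞 K, y ∉ v.asIdeal ∧ x - y ∈ v.asIdeal ∧
      c * (r : K) ^ (- ord v c) * (y : K) = (x : K) := by
  classical
  have hp : p.Prime := Fact.out
  have hr : r.Prime := Fact.out
  have hr1 : (1 : ℤ) < r := by exact_mod_cast hr.one_lt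
  set π : M := 1 - D.ζ with hπ
  have hπ0 : π ≠ 0 := by
    intro h0
    rw [h0, DivCl.ord_zero] at h1
    exact zero_ne_one h1
  set k : ℤ := ord W δ with hk
  set ε : M := δ * π ^ (-k) with hε
  have hε0 : ε ≠ 0 := mul_ne_zero hδ (zpow_ne_zero _ hπ0)
  have hordε : ord W ε = 0 := by
    rw [hε, ord_mul M W hδ (zpow_ne_zero _ hπ0), ord_zpow, h1]
    ring
  have hεint : IntAt W ε := intAt_of_ord_nonneg hordε.ge
  have hεinv : IntAt W ε⁻¹ := intAt_of_ord_nonneg (by rw [DivCl.ord_inv, hordε]; simp)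
  -- the powers of `ρ'` are inertia elements
  have hρj : ∀ j : ℕ, ∀ a : 𝓞 M, (D.ρ' ^ j) • a - a ∈ W.asIdeal := fun j => inertia_pow h2 j
  have hρstab : ∀ j : ℕ, (D.ρ' ^ j) • W.asIdeal = W.asIdeal := fun j => stab_of_inertia (hρj j)
  -- the product formula
  have hprodπ : ∏ j ∈ Finset.range (r - 1), (D.ρ' ^ j) π = (r : M) := prod_rho_one_sub_zeta D
  have hP : ∏ j ∈ Finset.range (r - 1), (D.ρ' ^ j) ε = algebraMap K M c * (r : M) ^ (-k) := by
    simp only [hε, map_mul, map_zpow₀, Finset.prod_mul_distrib, Finset.prod_zpow, hcδ, hprodπ]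
  -- `P ≡ ε ^ (r - 1)`
  have hcong := memAt_prod_sub_prod (v := W) (Finset.range (r - 1)) (fun j => (D.ρ' ^ j) ε)
    (fun _ => ε) (fun j _ => hεint.map_of_stab (hρstab j)) (fun _ _ => hεint)
    (fun j _ => memAt_map_sub (hρj j) hεint)
  rw [Finset.prod_const, Finset.card_range] at hcong
  -- a Frobenius element
  obtain ⟨Φ, hΦ⟩ := IsArithFrobAt.exists_of_isInvariant (𝓞 K) (M ≃ₐ[K] M) W.asIdeal
  have hcard : Nat.card (𝓞 K ⧸ W.asIdeal.under (𝓞 K)) = r := by
    rw [Ideal.under_def, hW, ← hv1, Ideal.absNorm_apply]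
    rfl
  have hΦ' : ∀ a : 𝓞 M, Φ • a - a ^ r ∈ W.asIdeal := by
    intro a
    have := hΦ a
    rw [hcard] at this
    exact this
  obtain ⟨i, j, hij⟩ := D.gen Φ
  have hΦε : MemAt W (Φ ε - ε) := by
    by_cases hτ : D.τ' • W.asIdeal = W.asIdeal
    · -- `τ'` fixes `W`
      have hτmem : D.τ' ∈ MulAction.stabilizer (M ≃ₐ[K] M) W.asIdeal := hτ
      have hτi : ∀ n : ℕ, (D.τ' ^ n) • W.asIdeal = W.asIdeal := fun n =>
        Subgroup.pow_mem _ hτmem n
      have hordγ : ord W γ = 0 := by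
        have h4 : ord W (∏ i ∈ Finset.range p, (D.τ' ^ i) γ) = p * ord W γ := by
          rw [ord_prod _ _ (fun i _ => (map_ne_zero _).mpr hγ)]
          simp only [ord_map_of_stab (hτi _), Finset.sum_const, Finset.card_range, nsmul_eq_mul]
        rw [hbγ, h3, hbv, mul_zero] at h4
        have hp0 : (p : ℤ) ≠ 0 := by exact_mod_cast hp.ne_zero
        rcases mul_eq_zero.mp h4.symm with h | h
        · exact absurd h hp0
        · exact h
      have hγint : IntAt W γ := intAt_of_ord_nonneg hordγ.ge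
      have hγinv : IntAt W γ⁻¹ := intAt_of_ord_nonneg (by rw [DivCl.ord_inv, hordγ]; simp)
      have hτπ : D.τ' π = π := by rw [hπ, map_sub, map_one, D.τ'_ζ]
      have hτε : MemAt W (D.τ' ε - ε) := by
        have e : D.τ' ε - ε = (D.ρ' γ - γ) * (γ⁻¹ * ε) := by
          have h5 : D.τ' δ = δ * (D.ρ' γ / γ) := by
            rw [hrel]; field_simp
          rw [hε, map_mul, map_zpow₀, hτπ, h5]
          field_simp
        rw [e]
        exact (memAt_map_sub h2 hγint).mul_intAt (hγinv.mul hεint)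
      have hτn : ∀ n : ℕ, MemAt W ((D.τ' ^ n) ε - ε) := by
        intro n
        induction n with
        | zero => simpa using memAt_zero
        | succ n ih =>
          have e : (D.τ' ^ (n + 1)) ε - ε = (D.τ' ^ n) (D.τ' ε - ε) + ((D.τ' ^ n) ε - ε) := by
            rw [pow_succ, AlgEquiv.mul_apply, map_sub]; ring
          rw [e]
          exact (hτε.map_of_stab (hτi n)).add ih
      have e : Φ ε - ε = (D.τ' ^ i) ((D.ρ' ^ j) ε - ε) + ((D.τ' ^ i) ε - ε) := by
        rw [hij, AlgEquiv.mul_apply, map_sub]; ring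
      rw [e]
      exact ((memAt_map_sub (hρj j) hεint).map_of_stab (hτi i)).add (hτn i)
    · -- `τ'` moves `W`: then `τ' ^ i = 1`
      have hΦstab : Φ ∈ MulAction.stabilizer (M ≃ₐ[K] M) W.asIdeal := stab_of_frob hΦ'
      have hρmem : D.ρ' ^ j ∈ MulAction.stabilizer (M ≃ₐ[K] M) W.asIdeal := hρstab j
      have hτi : D.τ' ^ i ∈ MulAction.stabilizer (M ≃ₐ[K] M) W.asIdeal := by
        have e : D.τ' ^ i = Φ * (D.ρ' ^ j)⁻¹ := by rw [hij, mul_inv_cancel_right]
        rw [e]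
        exact Subgroup.mul_mem _ hΦstab (Subgroup.inv_mem _ hρmem)
      have hτ1 : D.τ' ^ i = 1 := by
        by_cases hpi : p ∣ i
        · obtain ⟨m, rfl⟩ := hpi
          rw [pow_mul, D.τ'_pow, one_pow]
        · exfalso
          have hcop : Nat.Coprime i p := ((Nat.Prime.coprime_iff_not_dvd hp).mpr hpi).symm
          obtain ⟨m, -, hm⟩ := Nat.exists_mul_mod_eq_one_of_coprime hcop hp.one_lt
          have e : D.τ' = (D.τ' ^ i) ^ m := by
            rw [← pow_mul, pow_eq_pow_mod _ D.τ'_pow, hm, pow_one]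
          apply hτ
          have : D.τ' ∈ MulAction.stabilizer (M ≃ₐ[K] M) W.asIdeal := by
            rw [e]
            exact Subgroup.pow_mem _ hτi m
          exact this
      have e : Φ ε - ε = (D.ρ' ^ j) ε - ε := by
        rw [hij, hτ1, one_mul]
      rw [e]
      exact memAt_map_sub (hρj j) hεint
  -- `ε ^ (r - 1) ≡ 1`
  have hfrob : MemAt W (Φ ε - ε ^ r) := memAt_map_sub_pow hΦ' hεint
  have h6 : MemAt W (ε ^ (r - 1) - 1) := by
    have e : ε ^ (r - 1) - 1 = ((Φ ε - ε) - (Φ ε - ε ^ r)) * ε⁻¹ := by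
      have : ε ^ r = ε ^ (r - 1) * ε := by rw [← pow_succ, Nat.sub_add_cancel hr.one_le]
      rw [this]
      field_simp
      ring
    rw [e]
    exact (hΦε.sub hfrob).mul_intAt hεinv
  have h7 : MemAt W (algebraMap K M c * (r : M) ^ (-k) - 1) := by
    rw [← hP]
    have := hcong.2.2.add h6
    rwa [sub_add_sub_cancel] at this
  -- `k = ord v c`
  have hordr : ord W (r : M) = (r : ℤ) - 1 := by
    rw [← hprodπ, ord_prod _ _ (fun j _ => (map_ne_zero _).mpr hπ0)]
    simp only [ord_map_of_stab (hρstab _), h1, Finset.sum_const, Finset.card_range]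
    rw [nsmul_eq_mul, mul_one, Nat.cast_sub hr.one_le, Nat.cast_one]
  have hkc : k = ord v c := by
    have hP0 : ord W (algebraMap K M c * (r : M) ^ (-k)) = 0 := by
      rw [← hP, ord_prod _ _ (fun j _ => (map_ne_zero _).mpr hε0)]
      simp only [ord_map_of_stab (hρstab _), hordε, Finset.sum_const, smul_zero]
    have hcM : algebraMap K M c ≠ 0 := (map_ne_zero _).mpr hc
    have hrM : (r : M) ≠ 0 := Nat.cast_ne_zero.mpr hr.ne_zero
    rw [ord_mul M W hcM (zpow_ne_zero _ hrM), ord_zpow, h3, hordr] at hP0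
    have h8 : ((r : ℤ) - 1) * (ord v c - k) = 0 := by linarith
    rcases mul_eq_zero.mp h8 with h | h
    · omega
    · omega
  -- descent to `K`
  set u : K := c * (r : K) ^ (- ord v c) with hu
  have huM : algebraMap K M u = algebraMap K M c * (r : M) ^ (-k) := by
    rw [hu, map_mul, map_zpow₀, map_natCast, hkc]
  have hmem : MemAt v (u - 1) := by
    by_cases hu1 : u - 1 = 0
    · rw [hu1]; exact memAt_zero
    · apply memAt_of_ord_pos
      have h9 : algebraMap K M (u - 1) ≠ 0 := (map_ne_zero _).mpr hu1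
      have h10 : 0 < ord W (algebraMap K M (u - 1)) := by
        apply MemAt.ord_pos _ h9
        rw [map_sub, map_one, huM]
        exact h7
      rw [h3] at h10
      have hr0 : (0 : ℤ) < (r : ℤ) - 1 := by linarith
      exact (mul_pos_iff_of_pos_left hr0).mp h10
  obtain ⟨x, y, hy, hxy, hxyu⟩ := exists_int_of_memAt_sub_one hmem
  exact ⟨x, y, hy, hxy, hxyu⟩

end CrossLocalBMain

end Fermat.Agent.S14
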