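import Fermat.Agent.S14.CrossGal

/-!
# S14 / CrossSetup (A): existence of the crossing data

`K ⊆ L ⊆ M = L(ζ_r)`, `L/K` cyclic of degree `p` generated by `τ0`, `r` unramified in `L`.
Then `Φ_r` is irreducible over `L` (Eisenstein at a prime above `r`), `Gal(M/L) ≅ (ℤ/r)ˣ` and
`Gal(M/K)` is generated by two commuting elements `τ'` (fixing `ζ_r`, lifting `τ0`) and `ρ'`
(fixing `L`, `ζ ↦ ζ ^ g`).

* `CrossSetup.irreducible_cyclotomic`
* `CrossSetup.algEquiv_ext_of`
* `exists_crossData`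
-/

set_option autoImplicit false

namespace Fermat.Agent.S14

open NumberField IsDedekindDomain Polynomial
open scoped nonZeroDivisors Pointwise

namespace CrossSetup

/-- There is a prime of `𝓞 L` containing the prime number `r`. -/
theorem exists_prime_over (r : ℕ) [Fact r.Prime] (L : Type*) [Field L] [NumberField L] :
    ∃ w : HeightOneSpectrum (𝓞 L), (r : 𝓞 L) ∈ w.asIdeal := by
  have hmax : (Ideal.span {(r : ℤ)}).IsMaximal :=
    Int.ideal_span_isMaximal_of_prime r
  have hker : RingHom.ker (algebraMap ℤ (𝓞 L)) ≤ Ideal.span {(r : ℤ)} := by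
    have hinj : Function.Injective (algebraMap ℤ (𝓞 L)) := (algebraMap ℤ (𝓞 L)).injective_int
    rw [(RingHom.injective_iff_ker_eq_bot _).mp hinj]
    exact bot_le
  obtain ⟨Q, hQ, hQr⟩ :=
    Ideal.exists_ideal_over_maximal_of_isIntegral (S := 𝓞 L) (Ideal.span {(r : ℤ)}) hker
  have hQ0 : Q ≠ ⊥ := Ring.ne_bot_of_isMaximal_of_not_isField hQ (RingOfIntegers.not_isField L)
  refine ⟨⟨Q, hQ.isPrime, hQ0⟩, ?_⟩
  have h1 : (r : ℤ) ∈ Q.comap (algebraMap ℤ (𝓞 L)) := by
    rw [hQr]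
    exact Ideal.subset_span rfl
  simpa using h1

/-- `Φ_r` is irreducible over a number field in which `r` is unramified at some prime. -/
theorem irreducible_cyclotomic (r : ℕ) [Fact r.Prime] (L : Type*) [Field L] [NumberField L]
    (hr : ∀ w : HeightOneSpectrum (𝓞 L), (r : 𝓞 L) ∈ w.asIdeal → (r : 𝓞 L) ∉ w.asIdeal ^ 2) :
    Irreducible (cyclotomic r L) := by
  have hrp : r.Prime := Fact.out
  obtain ⟨w, hw⟩ := exists_prime_over r L
  have hE0 := cyclotomic_comp_X_add_one_isEisensteinAt r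
  set f0 : ℤ[X] := (cyclotomic r ℤ).comp (X + 1) with hf0
  set f : (𝓞 L)[X] := (cyclotomic r (𝓞 L)).comp (X + 1) with hf
  have hff0 : f = f0.map (Int.castRingHom (𝓞 L)) := by
    rw [hf, hf0, Polynomial.map_comp, map_cyclotomic]
    simp
  have hmonic0 : f0.Monic := by
    rw [hf0]
    have h1 : (X + 1 : ℤ[X]) = X + C 1 := by simp
    rw [h1]
    exact (cyclotomic.monic r ℤ).comp_X_add_C 1
  have hmonic : f.Monic := by
    rw [hff0]
    exact hmonic0.map _
  have hdeg : f.natDegree = f0.natDegree := by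
    rw [hff0]
    exact hmonic0.natDegree_map _
  have hdeg0 : 0 < f0.natDegree := by
    have h1 : (X + 1 : ℤ[X]) = X + C 1 := by simp
    rw [hf0, h1, natDegree_comp, natDegree_X_add_C, mul_one, natDegree_cyclotomic,
      Nat.totient_prime hrp]
    have := hrp.two_le
    omega
  have hcoeff0 : f.coeff 0 = (r : 𝓞 L) := by
    rw [hf, coeff_zero_eq_eval_zero, eval_comp]
    simp [eval_one_cyclotomic_prime]
  have hE : f.IsEisensteinAt w.asIdeal := by
    refine ⟨?_, ?_, ?_⟩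
    · rw [hmonic.leadingCoeff]
      exact fun h => w.isPrime.ne_top ((Ideal.eq_top_iff_one _).mpr h)
    · intro n hn
      rw [hdeg] at hn
      have h1 := hE0.mem hn
      rw [hff0, coeff_map]
      obtain ⟨k, hk⟩ := Ideal.mem_span_singleton.mp h1
      rw [hk]
      have h2 : (Int.castRingHom (𝓞 L)) ((r : ℤ) * k) = (r : 𝓞 L) * (k : 𝓞 L) := by simp
      rw [h2]
      exact Ideal.mul_mem_right _ _ hw
    · rw [hcoeff0]
      exact hr w hw
  have hirr : Irreducible f := hE.irreducible w.isPrime hmonic.isPrimitive (by rw [hdeg]; exact hdeg0)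
  have h2 : Irreducible (f.map (algebraMap (𝓞 L) L)) :=
    (Monic.irreducible_iff_irreducible_map_fraction_map hmonic).mp hirr
  have h3 : f.map (algebraMap (𝓞 L) L) = (cyclotomic r L).comp (X + C 1) := by
    rw [hf, Polynomial.map_comp, map_cyclotomic]
    simp
  rw [h3] at h2
  have h4 : (algEquivAevalXAddC (1 : L)) (cyclotomic r L) = (cyclotomic r L).comp (X + C 1) := by
    simp [algEquivAevalXAddC, aeval_def, comp, eval₂_eq_eval_map]
  rw [← h4] at h2
  exact (MulEquiv.irreducible_iff (algEquivAevalXAddC (1 : L))).mp h2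

/-- Two `K`-automorphisms of `M = L(ζ)` agreeing on `L` and at `ζ` are equal. -/
theorem algEquiv_ext_of (r : ℕ) [NeZero r] {K L M : Type*} [Field K] [Field L] [Field M]
    [Algebra K L] [Algebra L M] [Algebra K M] [IsScalarTower K L M]
    [IsCyclotomicExtension {r} L M]
    {ζ : M} (hζ : IsPrimitiveRoot ζ r) (σ σ' : M ≃ₐ[K] M)
    (hL : ∀ x : L, σ (algebraMap L M x) = σ' (algebraMap L M x)) (hz : σ ζ = σ' ζ) : σ = σ' := by
  ext x
  have hx : x ∈ Algebra.adjoin L {ζ} := by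
    rw [IsCyclotomicExtension.adjoin_primitive_root_eq_top hζ]
    trivial
  induction hx using Algebra.adjoin_induction with
  | mem y hy => rw [Set.mem_singleton_iff.mp hy]; exact hz
  | algebraMap y => exact hL y
  | add y z _ _ hy hz' => rw [map_add, map_add, hy, hz']
  | mul y z _ _ hy hz' => rw [map_mul, map_mul, hy, hz']

/-- powers of a primitive root only depend on the exponent mod `r` -/
theorem pow_eq_of_zmod {M : Type*} [Field M] {r : ℕ} {ζ : M} (hζ : IsPrimitiveRoot ζ r)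
    {a b : ℕ} (h : (a : ZMod r) = (b : ZMod r)) : ζ ^ a = ζ ^ b := by
  have h1 : a % r = b % r := (ZMod.natCast_eq_natCast_iff a b r).mp h
  rw [← pow_mod_orderOf ζ a, ← pow_mod_orderOf ζ b, ← hζ.eq_orderOf, h1]

end CrossSetup

open CrossSetup in
/-- **X1 (A)**: existence of the crossing data for `M = L(ζ_r)` over a cyclic `L/K` of degree `p`
in which `r` is unramified. -/
theorem exists_crossData (p r : ℕ) [Fact p.Prime] [Fact r.Prime]
    (K L M : Type*) [Field K] [NumberField K] [Field L] [NumberField L] [Field M] [NumberField M]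
    [Algebra K L] [Algebra L M] [Algebra K M] [IsScalarTower K L M]
    [IsGalois K L] [IsCyclotomicExtension {r} L M]
    (hdeg : Module.finrank K L = p)
    (hr : ∀ w : HeightOneSpectrum (𝓞 L), (r : 𝓞 L) ∈ w.asIdeal → (r : 𝓞 L) ∉ w.asIdeal ^ 2)
    (τ0 : L ≃ₐ[K] L) (hτ0 : ∀ σ : L ≃ₐ[K] L, σ ∈ Subgroup.zpowers τ0) :
    Nonempty (CrossData p r K L M τ0) := by
  have hrp : r.Prime := Fact.out
  have hr' : NeZero r := ⟨hrp.ne_zero⟩
  have hgal : IsGalois K M := isGalois_top r K L M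
  have hirr : Irreducible (cyclotomic r L) := irreducible_cyclotomic r L hr
  set ζ : M := IsCyclotomicExtension.zeta r L M with hζdef
  have hζ : IsPrimitiveRoot ζ r := IsCyclotomicExtension.zeta_spec r L M
  -- a generator of `(ZMod r)ˣ`
  obtain ⟨u, hu⟩ := IsCyclic.exists_generator (α := (ZMod r)ˣ)
  have hucard : orderOf u = r - 1 := by
    rw [orderOf_eq_card_of_forall_mem_zpowers hu, Nat.card_eq_fintype_card,
      ZMod.card_units_eq_totient, Nat.totient_prime hrp]
  set g : ℕ := (u : ZMod r).val with hgdef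
  have hgu : (g : ZMod r) = (u : ZMod r) := ZMod.natCast_zmod_val _
  have hg : orderOf (g : ZMod r) = r - 1 := by rw [hgu, orderOf_units, hucard]
  -- `ρ0 ∈ Gal(M/L)` with `ρ0 ζ = ζ ^ g`
  have hμ0 : IsPrimitiveRoot (ζ ^ g) r := by
    refine hζ.pow_of_coprime g ?_
    rw [Nat.coprime_comm, Nat.Prime.coprime_iff_not_dvd hrp]
    intro hdvd
    have h0 : (g : ZMod r) = 0 := (ZMod.natCast_eq_zero_iff g r).mpr hdvd
    rw [hgu] at h0
    exact u.ne_zero h0
  let ρ0 : M ≃ₐ[L] M := IsCyclotomicExtension.fromZetaAut hμ0 hirr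
  have hρ0 : ρ0 ζ = ζ ^ g := IsCyclotomicExtension.fromZetaAut_spec hμ0 hirr
  let τ1 : M ≃ₐ[K] M := τ0.liftNormal M
  have hτ1 : ∀ x : L, τ1 (algebraMap L M x) = algebraMap L M (τ0 x) :=
    fun x => τ0.liftNormal_commutes M x
  have hμ : IsPrimitiveRoot (τ1 ζ) r := hζ.map_of_injective τ1.injective
  let η : M ≃ₐ[L] M := IsCyclotomicExtension.fromZetaAut hμ hirr
  have hη : η ζ = τ1 ζ := IsCyclotomicExtension.fromZetaAut_spec hμ hirr
  let τ' : M ≃ₐ[K] M := (η.symm.restrictScalars K) * τ1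
  let ρ' : M ≃ₐ[K] M := ρ0.restrictScalars K
  have hτ'ζ : τ' ζ = ζ := by
    change η.symm (τ1 ζ) = ζ
    rw [← hη, AlgEquiv.symm_apply_apply]
  have hτ'L : ∀ x : L, τ' (algebraMap L M x) = algebraMap L M (τ0 x) := by
    intro x
    change η.symm (τ1 (algebraMap L M x)) = _
    rw [hτ1, AlgEquiv.commutes]
  have hρ'L : ∀ x : L, ρ' (algebraMap L M x) = algebraMap L M x := fun x => ρ0.commutes x
  have hρ'ζ : ρ' ζ = ζ ^ g := hρ0
  clear_value τ' ρ'
  -- powers
  have hτ'powL : ∀ (n : ℕ) (x : L),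
      (τ' ^ n) (algebraMap L M x) = algebraMap L M ((τ0 ^ n) x) := by
    intro n
    induction n with
    | zero => intro x; simp
    | succ n ih =>
      intro x
      rw [pow_succ, AlgEquiv.mul_apply, hτ'L, ih, pow_succ, AlgEquiv.mul_apply]
  have hτ'powζ : ∀ n : ℕ, (τ' ^ n) ζ = ζ := by
    intro n
    induction n with
    | zero => simp
    | succ n ih => rw [pow_succ, AlgEquiv.mul_apply, hτ'ζ, ih]
  have hρ'powL : ∀ (n : ℕ) (x : L), (ρ' ^ n) (algebraMap L M x) = algebraMap L M x := by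
    intro n
    induction n with
    | zero => intro x; simp
    | succ n ih => intro x; rw [pow_succ, AlgEquiv.mul_apply, hρ'L, ih]
  have hρ'powζ : ∀ n : ℕ, (ρ' ^ n) ζ = ζ ^ (g ^ n) := by
    intro n
    induction n with
    | zero => simp
    | succ n ih => rw [pow_succ, AlgEquiv.mul_apply, hρ'ζ, map_pow, ih, ← pow_mul, pow_succ]
  refine ⟨{ ζ := ζ, hζ := hζ, τ' := τ', ρ' := ρ', g := g, comm := ?_, τ'_pow := ?_,
            ρ'_pow := ?_, τ'_ζ := hτ'ζ, τ'_L := hτ'L, ρ'_L := hρ'L, ρ'_ζ := hρ'ζ, hg := hg,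
            gen := ?_ }⟩
  · -- comm
    refine algEquiv_ext_of (L := L) r hζ _ _ ?_ ?_
    · intro x
      rw [AlgEquiv.mul_apply, AlgEquiv.mul_apply, hρ'L, hτ'L, hρ'L]
    · rw [AlgEquiv.mul_apply, AlgEquiv.mul_apply, hρ'ζ, hτ'ζ, map_pow, hτ'ζ, hρ'ζ]
  · -- τ'^p = 1
    have hτ0p : τ0 ^ p = 1 := by
      rw [← hdeg, ← IsGalois.card_aut_eq_finrank K L]
      exact pow_card_eq_one'
    refine algEquiv_ext_of (L := L) r hζ _ _ ?_ ?_
    · intro x
      rw [hτ'powL, hτ0p]
      rfl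
    · rw [hτ'powζ]
      rfl
  · -- ρ'^(r-1) = 1
    refine algEquiv_ext_of (L := L) r hζ _ _ ?_ ?_
    · intro x
      rw [hρ'powL]
      rfl
    · rw [hρ'powζ]
      have h1 : ((g ^ (r - 1) : ℕ) : ZMod r) = ((1 : ℕ) : ZMod r) := by
        rw [Nat.cast_pow, ← hg, pow_orderOf_eq_one]
        simp
      rw [pow_eq_of_zmod hζ h1, pow_one]
      rfl
  · -- gen
    intro σ
    let s : L ≃ₐ[K] L := σ.restrictNormal L
    have hs : ∀ x : L, algebraMap L M (s x) = σ (algebraMap L M x) :=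
      fun x => σ.restrictNormal_commutes L x
    obtain ⟨i, hi⟩ := (Submonoid.mem_powers_iff _ _).mp
      (mem_powers_iff_mem_zpowers.mpr (hτ0 s))
    set σ2 : M ≃ₐ[K] M := (τ' ^ i)⁻¹ * σ with hσ2def
    have hσ2L : ∀ x : L, σ2 (algebraMap L M x) = algebraMap L M x := by
      intro x
      rw [hσ2def, AlgEquiv.mul_apply, ← hs, ← hi, ← hτ'powL]
      exact (τ' ^ i).symm_apply_apply _
    have hσ2ζ1 : (σ2 ζ) ^ r = 1 := by rw [← map_pow, hζ.pow_eq_one, map_one]
    obtain ⟨a, ha, haζ⟩ := hζ.eq_pow_of_pow_eq_one hσ2ζ1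
    have ha0 : (a : ZMod r) ≠ 0 := by
      intro h0
      have h1 : ζ ^ a = ζ ^ 0 := pow_eq_of_zmod hζ (by simpa using h0)
      rw [pow_zero] at h1
      rw [h1] at haζ
      have h2 : σ2 ζ = σ2 1 := by rw [← haζ, map_one]
      exact hζ.ne_one hrp.one_lt (σ2.injective h2)
    obtain ⟨j, hj⟩ := (Submonoid.mem_powers_iff _ _).mp
      (mem_powers_iff_mem_zpowers.mpr (hu (Units.mk0 (a : ZMod r) ha0)))
    have hj' : ((g ^ j : ℕ) : ZMod r) = (a : ZMod r) := by
      rw [Nat.cast_pow, hgu, ← Units.val_pow_eq_pow_val, hj]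
      rfl
    have hσ2 : σ2 = ρ' ^ j := by
      refine algEquiv_ext_of (L := L) r hζ _ _ ?_ ?_
      · intro x
        rw [hσ2L, hρ'powL]
      · rw [hρ'powζ, ← haζ]
        exact (pow_eq_of_zmod hζ hj').symm
    refine ⟨i, j, ?_⟩
    rw [← hσ2, hσ2def, mul_inv_cancel_left]

end Fermat.Agent.S14
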