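/-
S14, package CrossLocal, FIRST HALF (helper11, race-backup of CrossRam): the ramification facts
at a prime `W` of `M = L(ζ_r)` above a prime `v ∣ r` of `K`.

* `CrossRamB.ord_natCast_eq` : `ord_W r = (r - 1) * ord_W (1 - ζ)` at every prime `W` of `M`.
* `CrossRamB.exists_ram` : if `r ∉ w ^ 2` for the primes `w ∣ r` of `L` and `L/K` is unramified,
  there is a prime `W` of `M` above `v` with `ord_W (1 - ζ) = 1`, `ρ'` in the inertia group of
  `W`, and `ord_W = (r - 1) * ord_v` on `K`.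
-/
import Fermat.Agent.S14.CrossLocalB
import Fermat.Agent.S14.CrossSetupA

set_option autoImplicit false
set_option linter.unusedSectionVars false

namespace Fermat.Agent.S14

open NumberField IsDedekindDomain
open scoped nonZeroDivisors Pointwise

namespace CrossRamB

open CrossLocalB

section

variable {p r : ℕ} [Fact p.Prime] [Fact r.Prime]
  {K L M : Type*} [Field K] [NumberField K] [Field L] [NumberField L] [Field M] [NumberField M]
  [Algebra K L] [Algebra L M] [Algebra K M] [IsScalarTower K L M]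
  {τ0 : L ≃ₐ[K] L} (D : CrossData p r K L M τ0)

theorem one_sub_zeta_ne_zero : (1 : M) - D.ζ ≠ 0 := by
  have hr : r.Prime := Fact.out
  exact sub_ne_zero.mpr (D.hζ.ne_one hr.one_lt).symm

/-- All conjugates `ρ'^j (1 - ζ)` have the same valuation at every prime. -/
theorem ord_rho_pow_one_sub_zeta (W : HeightOneSpectrum (𝓞 M)) (j : ℕ) :
    ord W ((D.ρ' ^ j) (1 - D.ζ)) = ord W (1 - D.ζ) := by
  have hr : r.Prime := Fact.out
  have : NeZero r := ⟨hr.ne_zero⟩
  have hζ := D.hζ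
  have hcop : Nat.Coprime (D.g ^ j) r := by
    refine ((Nat.Prime.coprime_iff_not_dvd hr).mpr ?_).symm
    intro hdvd
    have := hr.dvd_of_dvd_pow hdvd
    exact g_ne_zero D ((ZMod.natCast_eq_zero_iff _ _).mpr this)
  obtain ⟨u, hu⟩ := hζ.toInteger_isPrimitiveRoot.associated_sub_one_pow_sub_one_of_coprime hcop
  have hu' : (D.ζ - 1) * ((u : 𝓞 M) : M) = D.ζ ^ (D.g ^ j) - 1 := by
    have := congrArg (fun z : 𝓞 M => (z : M)) hu
    simpa using this
  rw [map_sub, map_one, rho_pow_zeta]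
  have e : 1 - D.ζ ^ (D.g ^ j) = (1 - D.ζ) * ((u : 𝓞 M) : M) := by linear_combination hu'
  have hu0 : ((u : 𝓞 M) : M) ≠ 0 := by
    intro h0
    have h00 : (u : 𝓞 M) = 0 := RingOfIntegers.ext (by rw [h0]; rfl)
    exact u.ne_zero h00
  rw [e, ord_mul M W (one_sub_zeta_ne_zero D) hu0, DivCl.ord_unit, add_zero]

/-- `ord_W r = (r - 1) * ord_W (1 - ζ)`. -/
theorem ord_natCast_eq (W : HeightOneSpectrum (𝓞 M)) :
    ord W ((r : ℕ) : M) = ((r : ℤ) - 1) * ord W (1 - D.ζ) := by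
  have hr : r.Prime := Fact.out
  rw [← prod_rho_one_sub_zeta D, ord_prod _ _ (fun j _ => (map_ne_zero _).mpr
    (one_sub_zeta_ne_zero D))]
  simp only [ord_rho_pow_one_sub_zeta, Finset.sum_const, Finset.card_range, nsmul_eq_mul]
  rw [Nat.cast_sub hr.one_le, Nat.cast_one]

end

section Main

variable {p r : ℕ} [Fact p.Prime] [Fact r.Prime]
  {K L M : Type*} [Field K] [NumberField K] [Field L] [NumberField L] [Field M] [NumberField M]
  [Algebra K L] [Algebra L M] [Algebra K M] [IsScalarTower K L M]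
  {τ0 : L ≃ₐ[K] L} (D : CrossData p r K L M τ0)

omit [Fact p.Prime] [Fact r.Prime] in
/-- The prime of `K` below the prime of `L` below `W` is the prime of `K` below `W`. -/
theorem primeBelow_primeBelow (W : HeightOneSpectrum (𝓞 M)) :
    primeBelow K L (primeBelow L M W) = primeBelow K M W := by
  apply HeightOneSpectrum.ext
  rw [primeBelow_asIdeal, primeBelow_asIdeal, primeBelow_asIdeal, Ideal.comap_comap,
    ← IsScalarTower.algebraMap_eq (𝓞 K) (𝓞 L) (𝓞 M)]

/-- `ρ'` as an `L`-automorphism of `M`. -/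
noncomputable def rhoL : M ≃ₐ[L] M :=
  AlgEquiv.ofRingEquiv (f := (D.ρ' : M ≃+* M)) (fun x => D.ρ'_L x)

theorem rhoL_apply (x : M) : rhoL D x = D.ρ' x := rfl

variable [IsGalois K L] [IsCyclotomicExtension {r} L M]

/-- The ramification facts at a prime `W` of `M = L(ζ_r)` above a prime `v ∣ r` of `K`:
`1 - ζ` is a uniformiser at `W`, `ρ'` lies in the inertia group of `W`, and `e(W | v) = r - 1`. -/
theorem exists_ram (hunr : UnramifiedEverywhere K L)
    (hr : ∀ w : HeightOneSpectrum (𝓞 L), (r : 𝓞 L) ∈ w.asIdeal → (r : 𝓞 L) ∉ w.asIdeal ^ 2)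
    (v : HeightOneSpectrum (𝓞 K)) (hv : (r : 𝓞 K) ∈ v.asIdeal) :
    ∃ W : HeightOneSpectrum (𝓞 M), W.asIdeal.comap (algebraMap (𝓞 K) (𝓞 M)) = v.asIdeal ∧
      ord W (1 - D.ζ) = 1 ∧ (∀ x : 𝓞 M, D.ρ' • x - x ∈ W.asIdeal) ∧
      (∀ x : K, ord W (algebraMap K M x) = ((r : ℤ) - 1) * ord v x) := by
  classical
  have hrp : r.Prime := Fact.out
  have hr1 : (1 : ℤ) < r := by exact_mod_cast hrp.one_lt
  obtain ⟨W, hWv⟩ := exists_primeBelow_eq K M v
  set w := primeBelow L M W with hw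
  have hwv : primeBelow K L w = v := by rw [hw, primeBelow_primeBelow, hWv]
  have hrW : ((r : ℕ) : 𝓞 M) ∈ W.asIdeal := by
    have h0 : ((r : ℕ) : 𝓞 K) ∈ (primeBelow K M W).asIdeal := hWv ▸ hv
    rw [primeBelow_asIdeal, Ideal.mem_comap, map_natCast] at h0
    exact h0
  have hrw : ((r : ℕ) : 𝓞 L) ∈ w.asIdeal := by
    rw [hw, primeBelow_asIdeal, Ideal.mem_comap, map_natCast]
    exact hrW
  -- `ord_w r = 1`
  have hr0L : ((r : ℕ) : 𝓞 L) ≠ 0 := Nat.cast_ne_zero.mpr hrp.ne_zero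
  have hordw : ord w ((((r : ℕ) : 𝓞 L)) : L) = 1 := by
    have h1 : (1 : ℤ) ≤ ord w ((((r : ℕ) : 𝓞 L)) : L) := by
      have := (DivCl.le_ord_iff_mem_pow w hr0L 1).mpr (by rwa [pow_one])
      exact_mod_cast this
    have h2 : ¬ (2 : ℤ) ≤ ord w ((((r : ℕ) : 𝓞 L)) : L) := by
      intro h
      exact hr w hrw ((DivCl.le_ord_iff_mem_pow w hr0L 2).mp (by exact_mod_cast h))
    omega
  -- `ord_W r = e`
  set e := GalDiv.ramIdx L M W with he
  have hordW : ord W ((r : ℕ) : M) = (e : ℤ) := by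
    have h0 := GalDiv.ord_algebraMap_eq_mul L M W ((r : ℕ) : L)
    rw [map_natCast] at h0
    rw [h0, ← hw]
    have h1 : ((r : ℕ) : L) = (((r : ℕ) : 𝓞 L) : L) := by simp
    rw [h1, hordw, mul_one]
  have he1 : (1 : ℤ) ≤ e := by
    rw [← hordW]
    have hr0M : ((r : ℕ) : 𝓞 M) ≠ 0 := Nat.cast_ne_zero.mpr hrp.ne_zero
    have h0 := (DivCl.ord_pos_iff_mem W hr0M).mpr hrW
    have e2 : (((r : ℕ) : 𝓞 M) : M) = ((r : ℕ) : M) := by simp
    rw [e2] at h0
    omega
  -- `e = |I| ≤ |Gal(M/L)| = r - 1`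
  have hGal : IsGalois L M := IsCyclotomicExtension.isGalois {r} L M
  have hcardG : Nat.card (M ≃ₐ[L] M) = r - 1 := by
    rw [IsGalois.card_aut_eq_finrank,
      IsCyclotomicExtension.finrank M (CrossSetup.irreducible_cyclotomic r L hr),
      Nat.totient_prime hrp]
  have hGG : IsGaloisGroup (M ≃ₐ[L] M) (𝓞 L) (𝓞 M) :=
    IsGaloisGroup.of_isFractionRing (M ≃ₐ[L] M) (𝓞 L) (𝓞 M) L M
  have hcardI : Nat.card (Ideal.inertia (M ≃ₐ[L] M) W.asIdeal) = e := by
    have hwp : W.asIdeal.IsPrime := W.isPrime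
    have hvp : w.asIdeal.IsPrime := w.isPrime
    have hvmax : w.asIdeal.IsMaximal := w.isMaximal
    have hl : W.asIdeal.LiesOver w.asIdeal := liesOver_primeBelow L M W
    have hcard := Ideal.card_inertia_eq_ramificationIdxIn (G := M ≃ₐ[L] M) w.asIdeal W.asIdeal
    rw [Ideal.ramificationIdxIn_eq_ramificationIdx w.asIdeal W.asIdeal (M ≃ₐ[L] M)] at hcard
    rw [hcard, he]
    unfold GalDiv.ramIdx
    rw [← Ideal.IsDedekindDomain.ramificationIdx_eq_normalizedFactors_count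
      w.asIdeal W.asIdeal (GalDiv.map_primeBelow_ne_bot L M W)]
  have hele : e ≤ r - 1 := by
    rw [← hcardI, ← hcardG]
    exact Subgroup.card_le_card_group _
  have hmul : (e : ℤ) = ((r : ℤ) - 1) * ord W (1 - D.ζ) := by
    rw [← hordW, ord_natCast_eq D W]
  have hele' : (e : ℤ) ≤ (r : ℤ) - 1 := by
    have : (e : ℤ) ≤ ((r - 1 : ℕ) : ℤ) := by exact_mod_cast hele
    rwa [Nat.cast_sub hrp.one_le, Nat.cast_one] at this
  have h1 : ord W (1 - D.ζ) = 1 := by
    have hpos : 0 < ord W (1 - D.ζ) := by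
      by_contra hneg
      rw [not_lt] at hneg
      have : ((r : ℤ) - 1) * ord W (1 - D.ζ) ≤ 0 :=
        mul_nonpos_of_nonneg_of_nonpos (by linarith) hneg
      linarith
    have hle : ord W (1 - D.ζ) ≤ 1 := by
      by_contra hgt
      rw [not_le] at hgt
      have : ((r : ℤ) - 1) * 2 ≤ ((r : ℤ) - 1) * ord W (1 - D.ζ) :=
        mul_le_mul_of_nonneg_left (by omega) (by linarith)
      linarith
    omega
  have hee : e = r - 1 := by
    have : (e : ℤ) = ((r - 1 : ℕ) : ℤ) := by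
      rw [hmul, h1, mul_one, Nat.cast_sub hrp.one_le, Nat.cast_one]
    exact_mod_cast this
  have htop : Ideal.inertia (M ≃ₐ[L] M) W.asIdeal = ⊤ := by
    rw [← Subgroup.card_eq_iff_eq_top, hcardI, hcardG, hee]
  refine ⟨W, ?_, h1, ?_, ?_⟩
  · rw [← primeBelow_asIdeal, hWv]
  · intro x
    have hmem : rhoL D ∈ Ideal.inertia (M ≃ₐ[L] M) W.asIdeal := by
      rw [htop]; exact Subgroup.mem_top _
    exact hmem x
  · intro x
    have hw1 : ∀ σ : L ≃ₐ[K] L, (∀ x : 𝓞 L, σ • x - x ∈ w.asIdeal) → σ = 1 :=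
      fun σ hσ => hunr w.asIdeal w.isPrime w.ne_bot σ hσ
    rw [IsScalarTower.algebraMap_apply K L M, GalDiv.ord_algebraMap_eq_mul L M W, ← hw, ← he,
      ord_algebraMap K L w hw1, hwv, hee, Nat.cast_sub hrp.one_le, Nat.cast_one]

end Main

end CrossRamB

end Fermat.Agent.S14
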