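import Mathlib

/-!
# S14: Hilbert's Theorem 90 for a cyclic group of field automorphisms, universe-polymorphic

Mathlib's `groupCohomology.exists_div_of_norm_eq_one` is stated for fields in `Type` only.
Here is the classical resolvent proof (Dedekind independence of characters) for an automorphism
`τ` of exact order `n` of a field `M : Type*`:
`∏ i < n, τ^i x = 1 → ∃ δ ≠ 0, x = τ δ / δ`.
-/

set_option autoImplicit false

namespace Fermat.Agent.S14

namespace Hilbert90

open Finset

variable {K M : Type*} [Field K] [Field M] [Algebra K M]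

/-- partial norms `P i = ∏ j < i, τ^j x` -/
noncomputable def partialNorm (τ : M ≃ₐ[K] M) (x : M) (i : ℕ) : M :=
  ∏ j ∈ range i, (τ ^ j) x

theorem partialNorm_zero (τ : M ≃ₐ[K] M) (x : M) : partialNorm τ x 0 = 1 := by
  simp [partialNorm]

theorem partialNorm_succ (τ : M ≃ₐ[K] M) (x : M) (i : ℕ) :
    partialNorm τ x (i + 1) = x * τ (partialNorm τ x i) := by
  unfold partialNorm
  rw [prod_range_succ', map_prod, pow_zero, AlgEquiv.one_apply, mul_comm]
  congr 1
  refine prod_congr rfl fun j _ => ?_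
  rw [pow_succ', AlgEquiv.mul_apply]

/-- the resolvent `θ c = ∑ i < n, P i * τ^i c` -/
noncomputable def resolvent (τ : M ≃ₐ[K] M) (x : M) (n : ℕ) (c : M) : M :=
  ∑ i ∈ range n, partialNorm τ x i * (τ ^ i) c

theorem mul_map_resolvent (τ : M ≃ₐ[K] M) (x : M) (n : ℕ) (hτ : τ ^ n = 1)
    (hx : ∏ i ∈ range n, (τ ^ i) x = 1) (c : M) :
    x * τ (resolvent τ x n c) = resolvent τ x n c := by
  have h1 : x * τ (resolvent τ x n c) =
      ∑ i ∈ range n, partialNorm τ x (i + 1) * (τ ^ (i + 1)) c := by
    unfold resolvent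
    rw [map_sum, mul_sum]
    refine sum_congr rfl fun i _ => ?_
    rw [map_mul, partialNorm_succ, pow_succ', AlgEquiv.mul_apply, mul_assoc]
  have h2 := sum_range_succ' (fun i => partialNorm τ x i * (τ ^ i) c) n
  have h3 := sum_range_succ (fun i => partialNorm τ x i * (τ ^ i) c) n
  have h4 : partialNorm τ x n * (τ ^ n) c = c := by
    have : partialNorm τ x n = 1 := hx
    rw [this, hτ, one_mul, AlgEquiv.one_apply]
  have h5 : partialNorm τ x 0 * (τ ^ 0) c = c := by
    rw [partialNorm_zero, pow_zero, one_mul, AlgEquiv.one_apply]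
  rw [h1]
  unfold resolvent
  rw [h4] at h3
  rw [h5] at h2
  have h6 := h2.symm.trans h3
  exact add_right_cancel h6

theorem exists_resolvent_ne_zero (τ : M ≃ₐ[K] M) (x : M) (n : ℕ) (hord : orderOf τ = n)
    (hn0 : 0 < n) : ∃ c : M, resolvent τ x n c ≠ 0 := by
  by_contra hall
  have hall' : ∀ c, resolvent τ x n c = 0 := fun c => by
    by_contra hc
    exact hall ⟨c, hc⟩
  -- independence of the characters `τ^i`, `i < n`
  have hinj : Function.Injective (fun i : Fin n => ((τ ^ (i : ℕ) : M ≃ₐ[K] M) : M →* M)) := by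
    intro i j hij
    have h1 : τ ^ (i : ℕ) = τ ^ (j : ℕ) := by
      ext y
      exact DFunLike.congr_fun hij y
    have h2 : (i : ℕ) = j := by
      apply pow_injOn_Iio_orderOf (x := τ)
      · rw [Set.mem_Iio, hord]; exact i.2
      · rw [Set.mem_Iio, hord]; exact j.2
      · exact h1
    exact Fin.ext h2
  have hli := (linearIndependent_monoidHom M M).comp _ hinj
  rw [Fintype.linearIndependent_iff] at hli
  have h0 := hli (fun i : Fin n => partialNorm τ x i) (by
    funext c
    have := hall' c
    unfold resolvent at this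
    rw [← Fin.sum_univ_eq_sum_range (fun i => partialNorm τ x i * (τ ^ i) c) n] at this
    simpa [Finset.sum_apply] using this) ⟨0, hn0⟩
  rw [partialNorm_zero] at h0
  exact one_ne_zero h0

/-- **Hilbert 90** for an automorphism of exact order `n`. -/
theorem exists_div_of_prod_eq_one (τ : M ≃ₐ[K] M) (n : ℕ) (hord : orderOf τ = n) (hn0 : 0 < n)
    (x : M) (hx : ∏ i ∈ range n, (τ ^ i) x = 1) : ∃ δ : M, δ ≠ 0 ∧ x = τ δ / δ := by
  obtain ⟨c, hc⟩ := exists_resolvent_ne_zero τ x n hord hn0
  have hτ : τ ^ n = 1 := by rw [← hord]; exact pow_orderOf_eq_one τ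
  have h1 := mul_map_resolvent τ x n hτ hx c
  set θ := resolvent τ x n c with hθ
  have h2 : τ θ ≠ 0 := by
    rw [Ne, map_eq_zero_iff _ τ.injective]
    exact hc
  refine ⟨θ⁻¹, inv_ne_zero hc, ?_⟩
  rw [map_inv₀]
  field_simp
  exact h1

end Hilbert90

end Fermat.Agent.S14
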