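import Fermat.Agent.S14.CrossDefs
import Fermat.Agent.S14.Hilbert90

/-!
# S14, crossing argument: consequences of `CrossData` (package `CrossSetupB`)

`K ⊆ L ⊆ M = L(ζ_r)`, `D : CrossData p r K L M τ0`.  With `D.F = K(ζ_r)`:

* `CrossData.finrank_F` : `[M : K(ζ_r)] = p`;
* `CrossData.exists_pow_eq` : every `K(ζ_r)`-automorphism of `M` is a power of `τ'`;
* `CrossData.norm_F_eq` : the norm of `M / K(ζ_r)` is the product over the powers of `τ'`;
* `CrossData.hilbert90` : Hilbert 90 for `M / K(ζ_r)`;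
* `CrossData.unramified_F` : `M / K(ζ_r)` is unramified everywhere if `L / K` is;
* `CrossData.mem_bot` : elements fixed by `τ'` and `ρ'` lie in `K`.
-/

set_option autoImplicit false
set_option linter.unusedSectionVars false
set_option linter.style.haveILetI false

namespace Fermat.Agent.S14

open NumberField IsDedekindDomain Polynomial
open scoped nonZeroDivisors Pointwise

namespace CrossSetupB

/-- A finite normal extension is the splitting field of a nonzero polynomial. -/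
theorem exists_ne_zero_isSplittingField (K L : Type*) [Field K] [Field L] [Algebra K L]
    [Normal K L] [FiniteDimensional K L] : ∃ f : K[X], f ≠ 0 ∧ IsSplittingField K L f := by
  obtain ⟨f, hf⟩ := Normal.exists_isSplittingField K L
  by_cases hf0 : f = 0
  · subst hf0
    refine ⟨1, one_ne_zero, ⟨by simp, ?_⟩⟩
    have := hf.adjoin_rootSet'
    simpa using this
  · exact ⟨f, hf0, hf⟩

/-- `M = L(ζ_r)` is Galois over `K` when `L / K` is. -/
theorem isGalois_KM (r : ℕ) [Fact r.Prime] (K L M : Type*) [Field K] [NumberField K] [Field L]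
    [NumberField L] [Field M] [NumberField M] [Algebra K L] [Algebra L M] [Algebra K M]
    [IsScalarTower K L M] [IsGalois K L] [IsCyclotomicExtension {r} L M] : IsGalois K M := by
  haveI : NeZero r := ⟨(Fact.out : r.Prime).ne_zero⟩
  obtain ⟨f, hf0, hf⟩ := exists_ne_zero_isSplittingField K L
  haveI := hf
  haveI : IsSplittingField L M ((X ^ r - 1 : K[X]).map (algebraMap K L)) := by
    have := IsCyclotomicExtension.isSplittingField_X_pow_sub_one r L M
    simpa using this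
  haveI : IsSplittingField K M (f * (X ^ r - 1)) :=
    IsSplittingField.mul (K := L) M f (X ^ r - 1) hf0 (X_pow_sub_C_ne_zero (Fact.out : r.Prime).pos 1)
  haveI : Normal K M := Normal.of_isSplittingField (f * (X ^ r - 1))
  exact ⟨⟩

theorem pow_apply_eq_self {A : Type*} [Monoid A] {X : Type*} [MulAction A X] (a : A) (x : X)
    (h : a • x = x) (n : ℕ) : a ^ n • x = x := by
  induction n with
  | zero => rw [pow_zero, one_smul]
  | succ n ih => rw [pow_succ, mul_smul, h, ih]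

end CrossSetupB

section Cross

variable (p r : ℕ) [Fact p.Prime] [Fact r.Prime]
  (K L M : Type*) [Field K] [NumberField K] [Field L] [NumberField L] [Field M] [NumberField M]
  [Algebra K L] [Algebra L M] [Algebra K M] [IsScalarTower K L M]
  [IsGalois K L] [IsCyclotomicExtension {r} L M]

variable {p r K L M}
variable {τ0 : L ≃ₐ[K] L} (D : CrossData p r K L M τ0)

/-- the middle field `K(ζ_r)` -/
noncomputable def CrossData.F : IntermediateField K M := IntermediateField.adjoin K {D.ζ}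

theorem CrossData.ζ_mem_F : D.ζ ∈ D.F :=
  IntermediateField.subset_adjoin K {D.ζ} (Set.mem_singleton _)

theorem CrossData.τ'_pow_fix {x : M} (h : D.τ' x = x) (n : ℕ) : (D.τ' ^ n) x = x :=
  CrossSetupB.pow_apply_eq_self D.τ' x h n

theorem CrossData.ρ'_pow_fix {x : M} (h : D.ρ' x = x) (n : ℕ) : (D.ρ' ^ n) x = x :=
  CrossSetupB.pow_apply_eq_self D.ρ' x h n

theorem CrossData.τ'_pow_L (n : ℕ) (x : L) :
    (D.τ' ^ n) (algebraMap L M x) = algebraMap L M ((τ0 ^ n) x) := by
  induction n generalizing x with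
  | zero => rfl
  | succ n ih =>
    rw [pow_succ, pow_succ, AlgEquiv.mul_apply, AlgEquiv.mul_apply, D.τ'_L, ih]

theorem CrossData.ρ'_pow_ζ (n : ℕ) : (D.ρ' ^ n) D.ζ = D.ζ ^ (D.g ^ n) := by
  induction n with
  | zero => simp
  | succ n ih =>
    rw [pow_succ', AlgEquiv.mul_apply, ih, map_pow, D.ρ'_ζ, ← pow_mul, ← pow_succ']

theorem CrossData.τ'_fix_F {x : M} (hx : x ∈ D.F) : D.τ' x = x := by
  induction hx using IntermediateField.adjoin_induction with
  | mem x hx =>
    rw [Set.mem_singleton_iff] at hx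
    rw [hx, D.τ'_ζ]
  | algebraMap x => exact D.τ'.commutes x
  | add x y _ _ hx hy => rw [map_add, hx, hy]
  | inv x _ hx => rw [map_inv₀, hx]
  | mul x y _ _ hx hy => rw [map_mul, hx, hy]

/-- A `K`-automorphism of `M = L(ζ)` fixing `L` and `ζ` is the identity. -/
theorem CrossData.eq_one_of_fix (σ : M ≃ₐ[K] M)
    (hL : ∀ x : L, σ (algebraMap L M x) = algebraMap L M x) (hζ : σ D.ζ = D.ζ) : σ = 1 := by
  haveI : NeZero r := ⟨(Fact.out : r.Prime).ne_zero⟩
  let σL : M →ₐ[L] M := { (σ : M →+* M) with commutes' := hL }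
  have h : σL = AlgHom.id L M := by
    apply AlgHom.ext_of_adjoin_eq_top (IsCyclotomicExtension.adjoin_primitive_root_eq_top D.hζ)
    intro x hx
    rw [Set.mem_singleton_iff] at hx
    subst hx
    exact hζ
  ext x
  exact DFunLike.congr_fun h x

theorem CrossData.exists_pow_eq (σ : M ≃ₐ[D.F] M) : ∃ i : ℕ, σ.restrictScalars K = D.τ' ^ i := by
  obtain ⟨i, j, hij⟩ := D.gen (σ.restrictScalars K)
  refine ⟨i, ?_⟩
  have hσζ : (σ.restrictScalars K) D.ζ = D.ζ := σ.commutes ⟨D.ζ, D.ζ_mem_F⟩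
  have h1 : (D.τ' ^ i * D.ρ' ^ j) D.ζ = D.ζ := by rw [← hij]; exact hσζ
  rw [AlgEquiv.mul_apply, D.ρ'_pow_ζ, map_pow, D.τ'_pow_fix D.τ'_ζ] at h1
  have hr : (Fact.out : r.Prime).one_lt = (Fact.out : r.Prime).one_lt := rfl
  have hζ1 : D.ζ ≠ 0 := D.hζ.ne_zero (Fact.out : r.Prime).ne_zero
  -- `g ^ j ≡ 1 mod r`
  have h2 : ((D.g ^ j : ℕ) : ZMod r) = 1 := by
    have hpos : 0 < D.g ^ j := by
      rcases Nat.eq_zero_or_pos (D.g ^ j) with h0 | h0
      · exfalso
        rw [h0, pow_zero] at h1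
        have := D.hζ.eq_orderOf
        rw [← h1, orderOf_one] at this
        exact (Fact.out : r.Prime).one_lt.ne' this
      · exact h0
    have h3 : D.ζ ^ (D.g ^ j - 1) = 1 := by
      have h4 : D.ζ ^ (D.g ^ j - 1) * D.ζ = 1 * D.ζ := by
        rw [← pow_succ, Nat.sub_add_cancel hpos, h1, one_mul]
      exact mul_right_cancel₀ hζ1 h4
    have h5 : r ∣ D.g ^ j - 1 := (D.hζ.pow_eq_one_iff_dvd _).mp h3
    have h6 : ((D.g ^ j - 1 : ℕ) : ZMod r) = 0 := (ZMod.natCast_eq_zero_iff _ _).mpr h5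
    rw [Nat.cast_sub hpos, Nat.cast_one, sub_eq_zero] at h6
    exact h6
  have h3 : r - 1 ∣ j := by
    rw [← D.hg]
    apply orderOf_dvd_of_pow_eq_one
    rw [← h2, Nat.cast_pow]
  have h4 : D.ρ' ^ j = 1 := by
    obtain ⟨k, rfl⟩ := h3
    rw [pow_mul, D.ρ'_pow, one_pow]
  rw [hij, h4, mul_one]

/-- `τ'` as an automorphism of `M` over `K(ζ_r)`. -/
noncomputable def CrossData.τF : M ≃ₐ[D.F] M :=
  { D.τ'.toRingEquiv with
    commutes' := fun a => D.τ'_fix_F a.2 }

theorem CrossData.τF_apply (x : M) : D.τF x = D.τ' x := rfl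

theorem CrossData.τF_pow_apply (i : ℕ) (x : M) : (D.τF ^ i) x = (D.τ' ^ i) x := by
  induction i generalizing x with
  | zero => rfl
  | succ n ih =>
    rw [pow_succ, pow_succ, AlgEquiv.mul_apply, AlgEquiv.mul_apply, ih, D.τF_apply]

theorem CrossData.mem_zpowers_τF (σ : M ≃ₐ[D.F] M) : σ ∈ Subgroup.zpowers D.τF := by
  obtain ⟨i, hi⟩ := D.exists_pow_eq σ
  refine ⟨(i : ℤ), ?_⟩
  ext x
  have h1 : (σ.restrictScalars K) x = (D.τ' ^ i) x := by rw [hi]
  change (D.τF ^ (i : ℤ)) x = σ x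
  rw [zpow_natCast, D.τF_pow_apply]
  exact h1.symm

omit [Fact r.Prime] [Field M] [NumberField M] [Algebra L M] [Algebra K M] [IsScalarTower K L M]
  [IsCyclotomicExtension {r} L M] in
theorem CrossSetupB.orderOf_gen (hdeg : Module.finrank K L = p)
    (hτ0 : ∀ σ : L ≃ₐ[K] L, σ ∈ Subgroup.zpowers τ0) : orderOf τ0 = p := by
  rw [orderOf_eq_card_of_forall_mem_zpowers hτ0, IsGalois.card_aut_eq_finrank, hdeg]

omit [Fact r.Prime] [Field M] [NumberField M] [Algebra L M] [Algebra K M] [IsScalarTower K L M]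
  [IsCyclotomicExtension {r} L M] in
theorem CrossSetupB.gen_ne_one (hdeg : Module.finrank K L = p)
    (hτ0 : ∀ σ : L ≃ₐ[K] L, σ ∈ Subgroup.zpowers τ0) : τ0 ≠ 1 := by
  intro h2
  have h3 := CrossSetupB.orderOf_gen hdeg hτ0
  rw [h2, orderOf_one] at h3
  exact (Fact.out : p.Prime).one_lt.ne h3

theorem CrossData.orderOf_τ' (hdeg : Module.finrank K L = p)
    (hτ0 : ∀ σ : L ≃ₐ[K] L, σ ∈ Subgroup.zpowers τ0) : orderOf D.τ' = p := by
  apply orderOf_eq_prime D.τ'_pow
  intro h1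
  apply CrossSetupB.gen_ne_one hdeg hτ0
  ext y
  apply (algebraMap L M).injective
  rw [← D.τ'_L, h1]
  rfl

theorem CrossData.orderOf_τF (hdeg : Module.finrank K L = p)
    (hτ0 : ∀ σ : L ≃ₐ[K] L, σ ∈ Subgroup.zpowers τ0) : orderOf D.τF = p := by
  apply orderOf_eq_prime
  · ext x
    rw [D.τF_pow_apply, D.τ'_pow]
    rfl
  · intro h1
    apply CrossSetupB.gen_ne_one hdeg hτ0
    ext y
    apply (algebraMap L M).injective
    rw [← D.τ'_L, ← D.τF_apply, h1]
    rfl

theorem CrossData.finrank_F (hdeg : Module.finrank K L = p)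
    (hτ0 : ∀ σ : L ≃ₐ[K] L, σ ∈ Subgroup.zpowers τ0) : Module.finrank D.F M = p := by
  haveI : IsGalois K M := CrossSetupB.isGalois_KM r K L M
  rw [← IsGalois.card_aut_eq_finrank, ← orderOf_eq_card_of_forall_mem_zpowers D.mem_zpowers_τF,
    D.orderOf_τF hdeg hτ0]

/-- the norm of `M/K(ζ_r)` is the product over the powers of `τ'` -/
theorem CrossData.norm_F_eq (hdeg : Module.finrank K L = p)
    (hτ0 : ∀ σ : L ≃ₐ[K] L, σ ∈ Subgroup.zpowers τ0) (x : M) :
    algebraMap D.F M (Algebra.norm D.F x) = ∏ i ∈ Finset.range p, (D.τ' ^ i) x := by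
  classical
  haveI : IsGalois K M := CrossSetupB.isGalois_KM r K L M
  rw [Algebra.norm_eq_prod_automorphisms, ← IsCyclic.image_range_orderOf D.mem_zpowers_τF,
    Finset.prod_image, D.orderOf_τF hdeg hτ0]
  · exact Finset.prod_congr rfl fun i _ => D.τF_pow_apply i x
  · intro i hi j hj hij
    exact pow_injOn_Iio_orderOf (Finset.mem_range.mp hi) (Finset.mem_range.mp hj) hij

/-- Hilbert 90 for `M/K(ζ_r)` -/
theorem CrossData.hilbert90 (hdeg : Module.finrank K L = p)
    (hτ0 : ∀ σ : L ≃ₐ[K] L, σ ∈ Subgroup.zpowers τ0) (x : M)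
    (hx : ∏ i ∈ Finset.range p, (D.τ' ^ i) x = 1) : ∃ δ : M, δ ≠ 0 ∧ x = D.τ' δ / δ :=
  Hilbert90.exists_div_of_prod_eq_one D.τ' p (D.orderOf_τ' hdeg hτ0)
    (Fact.out : p.Prime).pos x hx

theorem CrossData.unramified_F [IsGalois K M] (hunr : UnramifiedEverywhere K L) :
    UnramifiedEverywhere D.F M := by
  intro P hP hP0 σ hσ
  obtain ⟨i, hi⟩ := D.exists_pow_eq σ
  have hσx : ∀ x : M, σ x = (D.τ' ^ i) x := fun x => by rw [← hi]; rfl
  have h0 : τ0 ^ i = 1 := by
    refine hunr (P.comap (algebraMap (𝓞 L) (𝓞 M))) (Ideal.comap_isPrime _ _) ?_ (τ0 ^ i) ?_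
    · intro hbot
      exact hP0 (Ideal.eq_bot_of_comap_eq_bot hbot)
    · intro y
      rw [Ideal.mem_comap, map_sub]
      have h1 := hσ (algebraMap (𝓞 L) (𝓞 M) y)
      have h2 : algebraMap (𝓞 L) (𝓞 M) ((τ0 ^ i) • y) = σ • algebraMap (𝓞 L) (𝓞 M) y := by
        apply RingOfIntegers.ext
        change algebraMap L M ((τ0 ^ i) (y : L)) = σ (algebraMap L M (y : L))
        rw [hσx, D.τ'_pow_L]
      rw [h2]
      exact h1
  have h1 : D.τ' ^ i = 1 := by
    apply D.eq_one_of_fix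
    · intro x
      rw [D.τ'_pow_L, h0]
      rfl
    · exact D.τ'_pow_fix D.τ'_ζ i
  ext x
  rw [hσx, h1]
  rfl

/-- fixed by `τ'` and `ρ'` ⇒ in `K` -/
theorem CrossData.mem_bot [IsGalois K M] (x : M) (h1 : D.τ' x = x) (h2 : D.ρ' x = x) :
    ∃ y : K, algebraMap K M y = x := by
  have h : x ∈ Set.range (algebraMap K M) := by
    rw [IsGalois.mem_range_algebraMap_iff_fixed]
    intro f
    obtain ⟨i, j, rfl⟩ := D.gen f
    rw [AlgEquiv.mul_apply, D.ρ'_pow_fix h2, D.τ'_pow_fix h1]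
  exact h

end Cross

end Fermat.Agent.S14
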