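import Fermat.Agent.S14.CrossSetupB

/-!
# S14, crossing argument, sub-package X2 (CrossSplit)

`K ⊆ L ⊆ M = L(ζ_r)`, `D : CrossData p r K L M τ0`.  For a prime `w` of `M` not above `r`:

* `CrossData.inertia_eq_one` : the inertia group of `w` in `Gal(M/K)` is trivial;
* `CrossData.exists_frob` : a Frobenius at `w` has the shape `τ'^t ρ'^u` with `g^u = N v`;
* `CrossData.not_fixed` (and `CrossData.not_fixed_adjoin`, the same with `D.F` unfolded) :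
  if `p ∣ orderOf (N v mod r)` then no nontrivial element of `Gal(M/K(ζ_r))` fixes `w`.
-/

set_option autoImplicit false
set_option linter.unusedSectionVars false

namespace Fermat.Agent.S14

open NumberField IsDedekindDomain
open scoped nonZeroDivisors Pointwise

namespace CrossSplit

/-- Powers of an `r`-th root of unity that are congruent modulo a prime not containing `r`
are equal. -/
theorem pow_eq_pow_of_sub_mem_aux {R : Type*} [CommRing R] [IsDomain R] (Q : Ideal R) [Q.IsPrime]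
    {r : ℕ} (hr : (r : R) ∉ Q) {ζ : R} (hζ : ζ ^ r = 1) {a b : ℕ} (hab : a ≤ b)
    (h : ζ ^ a - ζ ^ b ∈ Q) : ζ ^ a = ζ ^ b := by
  obtain ⟨d, rfl⟩ := Nat.exists_eq_add_of_le hab
  by_contra hne
  have hη : ζ ^ d ≠ 1 := fun h1 => hne (by rw [pow_add, h1, mul_one])
  have h1 : ζ ^ a * (1 - ζ ^ d) ∈ Q := by
    have : ζ ^ a * (1 - ζ ^ d) = ζ ^ a - ζ ^ (a + d) := by ring
    rw [this]; exact h
  have hζQ : ζ ^ a ∉ Q := fun hmem => by
    have h2 : ζ ∈ Q := Ideal.IsPrime.mem_of_pow_mem ‹Q.IsPrime› a hmem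
    have h3 : (1 : R) ∈ Q := by rw [← hζ]; exact Ideal.pow_mem_of_mem Q h2 r (by
      rcases Nat.eq_zero_or_pos r with h0 | h0
      · exfalso; apply hr; rw [h0]; simp
      · exact h0)
    exact (Ideal.IsPrime.ne_top ‹Q.IsPrime›) ((Ideal.eq_top_iff_one Q).mpr h3)
  have h2 : 1 - ζ ^ d ∈ Q := (Ideal.IsPrime.mem_or_mem ‹Q.IsPrime› h1).resolve_left hζQ
  -- the geometric sum of `η = ζ^d` vanishes
  have h3 : ∑ i ∈ Finset.range r, (ζ ^ d) ^ i = 0 := by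
    have h4 := geom_sum_mul (ζ ^ d) r
    rw [← pow_mul, mul_comm d r, pow_mul, hζ, one_pow, sub_self] at h4
    exact (mul_eq_zero.mp h4).resolve_right (sub_ne_zero.mpr hη)
  have h5 : (r : R) = ∑ i ∈ Finset.range r, (1 - (ζ ^ d) ^ i) := by
    rw [Finset.sum_sub_distrib, h3, sub_zero]; simp
  apply hr
  rw [h5]
  refine Ideal.sum_mem _ fun i _ => ?_
  obtain ⟨c, hc⟩ := one_sub_dvd_one_sub_pow (ζ ^ d) i
  rw [hc]
  exact Ideal.mul_mem_right _ _ h2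

theorem pow_eq_pow_of_sub_mem {R : Type*} [CommRing R] [IsDomain R] (Q : Ideal R) [Q.IsPrime]
    {r : ℕ} (hr : (r : R) ∉ Q) {ζ : R} (hζ : ζ ^ r = 1) {a b : ℕ}
    (h : ζ ^ a - ζ ^ b ∈ Q) : ζ ^ a = ζ ^ b := by
  rcases le_total a b with hab | hab
  · exact pow_eq_pow_of_sub_mem_aux Q hr hζ hab h
  · refine (pow_eq_pow_of_sub_mem_aux Q hr hζ hab ?_).symm
    have : ζ ^ b - ζ ^ a = -(ζ ^ a - ζ ^ b) := by ring
    rw [this]; exact Q.neg_mem h

section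

variable {r : ℕ} [Fact r.Prime]
  {K L M : Type*} [Field K] [Field L] [Field M]
  [Algebra K L] [Algebra L M] [Algebra K M] [IsScalarTower K L M]
  [IsCyclotomicExtension {r} L M]

/-- A `K`-automorphism of `M = L(ζ_r)` fixing `L` and `ζ_r` is trivial. -/
theorem eq_one_of_fixes {ζ : M} (hζ : IsPrimitiveRoot ζ r) (σ : M ≃ₐ[K] M)
    (hL : ∀ x : L, σ (algebraMap L M x) = algebraMap L M x) (hσζ : σ ζ = ζ) : σ = 1 := by
  have : NeZero r := ⟨(Fact.out : r.Prime).ne_zero⟩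
  ext x
  have hx := IsCyclotomicExtension.adjoin_roots (S := {r}) (A := L) (B := M) x
  show σ x = x
  induction hx using Algebra.adjoin_induction with
  | mem y hy =>
    obtain ⟨n, hn, -, hyn⟩ := hy
    rw [Set.mem_singleton_iff] at hn
    subst hn
    obtain ⟨i, -, rfl⟩ := hζ.eq_pow_of_pow_eq_one hyn
    rw [map_pow, hσζ]
  | algebraMap a => exact hL a
  | add y z _ _ hy hz => rw [map_add, hy, hz]
  | mul y z _ _ hy hz => rw [map_mul, hy, hz]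

end

/-- exponents of equal powers of a primitive root are congruent. -/
theorem modEq_of_pow_eq {R : Type*} [CommMonoid R] {ζ : R} {r : ℕ} (hζ : IsPrimitiveRoot ζ r)
    (hr : 0 < r) {a b : ℕ} (h : ζ ^ a = ζ ^ b) : a ≡ b [MOD r] := by
  have e := hζ.eq_orderOf
  have h1 : ζ ^ (a % r) = ζ ^ (b % r) := by
    rw [e, pow_mod_orderOf, pow_mod_orderOf]
    exact h
  exact hζ.pow_inj (Nat.mod_lt _ hr) (Nat.mod_lt _ hr) h1

/-- The contraction of a nonzero prime of `𝓞 M` to `𝓞 L` is nonzero. -/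
theorem comap_ne_bot {L M : Type*} [Field L] [NumberField L] [Field M] [NumberField M]
    [Algebra L M] (w : HeightOneSpectrum (𝓞 M)) :
    w.asIdeal.comap (algebraMap (𝓞 L) (𝓞 M)) ≠ ⊥ := by
  intro h
  have h1 : ((Ideal.absNorm w.asIdeal : ℕ) : 𝓞 L) ∈
      w.asIdeal.comap (algebraMap (𝓞 L) (𝓞 M)) := by
    rw [Ideal.mem_comap, map_natCast]; exact Ideal.absNorm_mem _
  rw [h, Ideal.mem_bot] at h1
  have h2 : Ideal.absNorm w.asIdeal = 0 := by exact_mod_cast h1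
  exact w.ne_bot (Ideal.absNorm_eq_zero_iff.mp h2)

end CrossSplit

section Cross

variable (p r : ℕ) [Fact p.Prime] [Fact r.Prime]
  (K L M : Type*) [Field K] [NumberField K] [Field L] [NumberField L] [Field M] [NumberField M]
  [Algebra K L] [Algebra L M] [Algebra K M] [IsScalarTower K L M]
  [IsGalois K L] [IsCyclotomicExtension {r} L M]

variable {p r K L M}
variable {τ0 : L ≃ₐ[K] L} (D : CrossData p r K L M τ0)

/-- the integral model of a primitive root is a root of unity. -/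
theorem CrossSplit.toInteger_pow_eq_one [NeZero r] {ζ : M} (hζ : IsPrimitiveRoot ζ r) :
    hζ.toInteger ^ r = 1 := by
  apply RingOfIntegers.ext
  show (ζ : M) ^ r = 1
  exact hζ.pow_eq_one

/-- an automorphism sending `ζ` to `ζ ^ a` modulo a prime `w` not above `r` sends `ζ` to
`ζ ^ a`. -/
theorem CrossSplit.apply_ζ_eq_of_mem [NeZero r] {ζ : M} (hζ : IsPrimitiveRoot ζ r)
    (w : HeightOneSpectrum (𝓞 M)) (hw : (r : 𝓞 M) ∉ w.asIdeal)
    (σ : M ≃ₐ[K] M) (a : ℕ)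
    (h : σ • hζ.toInteger - hζ.toInteger ^ a ∈ w.asIdeal) : σ ζ = ζ ^ a := by
  obtain ⟨i, -, hi⟩ := hζ.eq_pow_of_pow_eq_one (ξ := σ ζ)
    (by rw [← map_pow, hζ.pow_eq_one, map_one])
  have h3 : σ • hζ.toInteger = hζ.toInteger ^ i := by
    apply RingOfIntegers.ext
    show σ ζ = (ζ : M) ^ i
    exact hi.symm
  rw [h3] at h
  have h4 := CrossSplit.pow_eq_pow_of_sub_mem w.asIdeal hw
    (CrossSplit.toInteger_pow_eq_one hζ) h
  have h5 := congrArg (fun z : 𝓞 M => (z : M)) h4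
  rw [← hi]
  exact h5

/-- primes of `M` not above `r` have trivial inertia in `M/K` -/
theorem CrossData.inertia_eq_one [IsGalois K M] (hunr : UnramifiedEverywhere K L)
    (w : HeightOneSpectrum (𝓞 M)) (hw : (r : 𝓞 M) ∉ w.asIdeal)
    (σ : M ≃ₐ[K] M) (hσ : ∀ x : 𝓞 M, σ • x - x ∈ w.asIdeal) : σ = 1 := by
  have : NeZero r := ⟨(Fact.out : r.Prime).ne_zero⟩
  obtain ⟨ζ, hζ⟩ := IsCyclotomicExtension.exists_isPrimitiveRoot L M
    (Set.mem_singleton r) (NeZero.ne r)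
  have hL1 : σ.restrictNormal L = 1 := by
    refine hunr (w.asIdeal.comap (algebraMap (𝓞 L) (𝓞 M))) (Ideal.comap_isPrime _ _)
      (CrossSplit.comap_ne_bot w) _ ?_
    intro x
    rw [Ideal.mem_comap]
    have h1 : algebraMap (𝓞 L) (𝓞 M) ((σ.restrictNormal L) • x - x) =
        σ • (algebraMap (𝓞 L) (𝓞 M) x) - algebraMap (𝓞 L) (𝓞 M) x := by
      apply RingOfIntegers.ext
      show algebraMap L M (σ.restrictNormal L (x : L) - (x : L)) =
        σ (algebraMap L M (x : L)) - algebraMap L M (x : L)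
      rw [map_sub, AlgEquiv.restrictNormal_commutes]
    rw [h1]; exact hσ _
  have hL : ∀ x : L, σ (algebraMap L M x) = algebraMap L M x := fun x => by
    rw [← AlgEquiv.restrictNormal_commutes, hL1]; rfl
  have hσζ : σ ζ = ζ := by
    have h1 := CrossSplit.apply_ζ_eq_of_mem hζ w hw σ 1 (by rw [pow_one]; exact hσ _)
    rwa [pow_one] at h1
  exact CrossSplit.eq_one_of_fixes hζ σ hL hσζ

theorem CrossData.ρ'_pow_L (j : ℕ) (x : L) :
    (D.ρ' ^ j) (algebraMap L M x) = algebraMap L M x := by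
  induction j with
  | zero => simp
  | succ n ih => rw [pow_succ, AlgEquiv.mul_apply, D.ρ'_L, ih]

theorem CrossData.τ'_pow_ζ (i : ℕ) : (D.τ' ^ i) D.ζ = D.ζ := by
  induction i with
  | zero => simp
  | succ n ih => rw [pow_succ, AlgEquiv.mul_apply, D.τ'_ζ, ih]

/-- `τ'^i` is determined by `τ0^i`. -/
theorem CrossData.τ'_pow_eq_of_eq {i t : ℕ} (h : τ0 ^ i = τ0 ^ t) : D.τ' ^ i = D.τ' ^ t := by
  have h5 : (D.τ' ^ t)⁻¹ * D.τ' ^ i = 1 := by
    refine CrossSplit.eq_one_of_fixes (L := L) D.hζ _ (fun x => ?_) ?_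
    · rw [AlgEquiv.mul_apply, D.τ'_pow_L, h, ← D.τ'_pow_L]
      exact (D.τ' ^ t).symm_apply_apply _
    · rw [AlgEquiv.mul_apply, D.τ'_pow_ζ]
      have h6 : (D.τ' ^ t)⁻¹ ((D.τ' ^ t) D.ζ) = D.ζ := (D.τ' ^ t).symm_apply_apply _
      rwa [D.τ'_pow_ζ] at h6
  exact (inv_mul_eq_one.mp h5).symm

/-- the shape of a Frobenius: `τ'^t ρ'^u` stabilises `w`, with `t` the Frobenius exponent in `L/K`
and `g^u = N v` -/
theorem CrossData.exists_frob [IsGalois K M] (hunr : UnramifiedEverywhere K L)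
    (w : HeightOneSpectrum (𝓞 M)) (hw : (r : 𝓞 M) ∉ w.asIdeal) (t : ℕ)
    (ht : IsArithFrobAt (𝓞 K) (τ0 ^ t) (w.asIdeal.comap (algebraMap (𝓞 L) (𝓞 M)))) :
    ∃ u : ℕ, (D.τ' ^ t * D.ρ' ^ u) • w.asIdeal = w.asIdeal ∧
      ((D.g : ZMod r) ^ u = (Ideal.absNorm (w.asIdeal.comap (algebraMap (𝓞 K) (𝓞 M))) : ℕ)) := by
  have : NeZero r := ⟨(Fact.out : r.Prime).ne_zero⟩
  obtain ⟨Φ, hΦ⟩ := IsArithFrobAt.exists_of_isInvariant (𝓞 K) (M ≃ₐ[K] M) w.asIdeal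
  obtain ⟨i, j, hij⟩ := D.gen Φ
  have hΦL : ∀ x : L, Φ (algebraMap L M x) = algebraMap L M ((τ0 ^ i) x) := by
    intro x; rw [hij, AlgEquiv.mul_apply, D.ρ'_pow_L, D.τ'_pow_L]
  have hunder : (w.asIdeal.comap (algebraMap (𝓞 L) (𝓞 M))).under (𝓞 K) =
      w.asIdeal.under (𝓞 K) := by
    rw [Ideal.under_def, Ideal.under_def, Ideal.comap_comap, ← IsScalarTower.algebraMap_eq]
  have hi : IsArithFrobAt (𝓞 K) (τ0 ^ i) (w.asIdeal.comap (algebraMap (𝓞 L) (𝓞 M))) := by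
    intro x
    rw [Ideal.mem_comap, hunder]
    have h1 : algebraMap (𝓞 L) (𝓞 M) ((MulSemiringAction.toAlgHom (𝓞 K) (𝓞 L) (τ0 ^ i)) x -
        x ^ Nat.card (𝓞 K ⧸ w.asIdeal.under (𝓞 K))) =
        (MulSemiringAction.toAlgHom (𝓞 K) (𝓞 M) Φ) (algebraMap (𝓞 L) (𝓞 M) x) -
          (algebraMap (𝓞 L) (𝓞 M) x) ^ Nat.card (𝓞 K ⧸ w.asIdeal.under (𝓞 K)) := by
      apply RingOfIntegers.ext
      show algebraMap L M ((τ0 ^ i) (x : L) - (x : L) ^ _) =
        Φ (algebraMap L M (x : L)) - (algebraMap L M (x : L)) ^ _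
      rw [map_sub, map_pow, hΦL]
    rw [h1]; exact hΦ _
  have h2 : τ0 ^ i * (τ0 ^ t)⁻¹ = 1 :=
    hunr _ (Ideal.comap_isPrime _ _) (CrossSplit.comap_ne_bot w) _
      (fun x => (hi.mul_inv_mem_inertia ht) x)
  have h3 : τ0 ^ i = τ0 ^ t := mul_inv_eq_one.mp h2
  have h4 : D.τ' ^ i = D.τ' ^ t := D.τ'_pow_eq_of_eq h3
  refine ⟨j, ?_, ?_⟩
  · rw [← h4, ← hij]; exact MulAction.mem_stabilizer_iff.mp hΦ.mem_stabilizer
  · have h6 := AlgHom.IsArithFrobAt.apply_of_pow_eq_one hΦ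
      (CrossSplit.toInteger_pow_eq_one D.hζ) hw
    have h7 : Φ D.ζ = D.ζ ^ Nat.card (𝓞 K ⧸ w.asIdeal.under (𝓞 K)) :=
      congrArg (fun z : 𝓞 M => (z : M)) h6
    have h8 : Φ D.ζ = D.ζ ^ (D.g ^ j) := by
      rw [hij, AlgEquiv.mul_apply, D.ρ'_pow_ζ, map_pow, D.τ'_pow_ζ]
    have h9 : D.g ^ j ≡ Nat.card (𝓞 K ⧸ w.asIdeal.under (𝓞 K)) [MOD r] := by
      exact CrossSplit.modEq_of_pow_eq D.hζ (Fact.out : r.Prime).pos (h8.symm.trans h7)
    have h10 : Ideal.absNorm (w.asIdeal.comap (algebraMap (𝓞 K) (𝓞 M))) =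
        Nat.card (𝓞 K ⧸ w.asIdeal.under (𝓞 K)) := by
      rw [Ideal.absNorm_apply, Submodule.cardQuot_apply]
    rw [h10, ← Nat.cast_pow, ZMod.natCast_eq_natCast_iff]; exact h9

attribute [local instance] Ideal.Quotient.field in
/-- With trivial inertia, the decomposition group of `w` is generated by a Frobenius. -/
theorem CrossSplit.exists_pow_eq_of_smul_eq [IsGalois K M]
    (hunr : UnramifiedEverywhere K L)
    (w : HeightOneSpectrum (𝓞 M)) (hw : (r : 𝓞 M) ∉ w.asIdeal)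
    (Φ : M ≃ₐ[K] M) (hΦ : IsArithFrobAt (𝓞 K) Φ w.asIdeal)
    (σ' : M ≃ₐ[K] M) (hσ' : σ' • w.asIdeal = w.asIdeal) : ∃ n : ℕ, σ' = Φ ^ n := by
  classical
  have : w.asIdeal.LiesOver (w.asIdeal.under (𝓞 K)) := ⟨rfl⟩
  have : Finite (𝓞 K ⧸ w.asIdeal.under (𝓞 K)) :=
    Finite.of_injective _ (algebraMap (𝓞 K ⧸ w.asIdeal.under (𝓞 K)) (𝓞 M ⧸ w.asIdeal)).injective
  let _ : Fintype (𝓞 K ⧸ w.asIdeal.under (𝓞 K)) := Fintype.ofFinite _
  obtain ⟨n, hn⟩ := (FiniteField.bijective_frobeniusAlgEquivOfAlgebraic_pow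
    (𝓞 K ⧸ w.asIdeal.under (𝓞 K)) (𝓞 M ⧸ w.asIdeal)).2
    (Ideal.Quotient.stabilizerHom w.asIdeal (w.asIdeal.under (𝓞 K)) (M ≃ₐ[K] M)
      ⟨σ', MulAction.mem_stabilizer_iff.mpr hσ'⟩)
  refine ⟨n, ?_⟩
  have hσy : ∀ y : 𝓞 M, Ideal.Quotient.mk w.asIdeal (σ' • y) =
      (Ideal.Quotient.mk w.asIdeal y) ^
        (Nat.card (𝓞 K ⧸ w.asIdeal.under (𝓞 K)) ^ (n : ℕ)) := by
    intro y
    have h1 : (Ideal.Quotient.stabilizerHom w.asIdeal (w.asIdeal.under (𝓞 K)) (M ≃ₐ[K] M)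
      ⟨σ', MulAction.mem_stabilizer_iff.mpr hσ'⟩) (Ideal.Quotient.mk w.asIdeal y) =
        Ideal.Quotient.mk w.asIdeal (σ' • y) := rfl
    rw [← h1, ← hn]
    show (FiniteField.frobeniusAlgEquivOfAlgebraic (𝓞 K ⧸ w.asIdeal.under (𝓞 K))
      (𝓞 M ⧸ w.asIdeal) ^ (n : ℕ)) (Ideal.Quotient.mk w.asIdeal y) = _
    rw [AlgEquiv.coe_pow, FiniteField.coe_frobeniusAlgEquivOfAlgebraic_iterate,
      Nat.card_eq_fintype_card]
  have hΦy : ∀ (m : ℕ) (y : 𝓞 M), Ideal.Quotient.mk w.asIdeal ((Φ ^ m) • y) =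
      (Ideal.Quotient.mk w.asIdeal y) ^ (Nat.card (𝓞 K ⧸ w.asIdeal.under (𝓞 K)) ^ m) := by
    intro m
    induction m with
    | zero => intro y; simp
    | succ k ih =>
      intro y
      rw [pow_succ, mul_smul, ih]
      have h2 : Ideal.Quotient.mk w.asIdeal (Φ • y) =
          (Ideal.Quotient.mk w.asIdeal y) ^ Nat.card (𝓞 K ⧸ w.asIdeal.under (𝓞 K)) :=
        hΦ.mk_apply y
      rw [h2, ← pow_mul, pow_succ]
      congr 1
      ring
  have h3 : σ' * (Φ ^ (n : ℕ))⁻¹ = 1 := by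
    refine CrossData.inertia_eq_one (L := L) hunr w hw _ (fun x => ?_)
    rw [← Ideal.Quotient.eq, mul_smul, hσy, ← hΦy, smul_inv_smul]
  exact mul_inv_eq_one.mp h3

/-- the primes of `b` split in `M/K(ζ_r)` (statement with `D.F` unfolded) -/
theorem CrossData.not_fixed_adjoin [IsGalois K M] (hdeg : Module.finrank K L = p)
    (hunr : UnramifiedEverywhere K L)
    (w : HeightOneSpectrum (𝓞 M)) (hw : (r : 𝓞 M) ∉ w.asIdeal)
    (hord : p ∣ orderOf ((Ideal.absNorm (w.asIdeal.comap (algebraMap (𝓞 K) (𝓞 M))) : ℕ) : ZMod r))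
    (σ : M ≃ₐ[IntermediateField.adjoin K {D.ζ}] M) (hσ : σ • w.asIdeal = w.asIdeal) : σ = 1 := by
  have : NeZero r := ⟨(Fact.out : r.Prime).ne_zero⟩
  -- the underlying `K`-automorphism
  have hσ' : (σ.restrictScalars K) • w.asIdeal = w.asIdeal := by
    have h0 : (σ.restrictScalars K) • w.asIdeal = σ • w.asIdeal := by
      ext x
      rw [Ideal.mem_pointwise_smul_iff_inv_smul_mem, Ideal.mem_pointwise_smul_iff_inv_smul_mem]
      have h1 : (σ.restrictScalars K)⁻¹ • x = σ⁻¹ • x := RingOfIntegers.ext rfl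
      rw [h1]
    rw [h0, hσ]
  obtain ⟨Φ, hΦ⟩ := IsArithFrobAt.exists_of_isInvariant (𝓞 K) (M ≃ₐ[K] M) w.asIdeal
  obtain ⟨n, hn⟩ := CrossSplit.exists_pow_eq_of_smul_eq (L := L) hunr w hw Φ hΦ _ hσ'
  -- `σ` fixes `ζ`
  have hσζ : (σ.restrictScalars K) D.ζ = D.ζ :=
    σ.commutes ⟨D.ζ, IntermediateField.subset_adjoin K _ (Set.mem_singleton _)⟩
  -- the Frobenius on `ζ`
  have h6 := AlgHom.IsArithFrobAt.apply_of_pow_eq_one hΦ
    (CrossSplit.toInteger_pow_eq_one D.hζ) hw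
  have h7 : Φ D.ζ = D.ζ ^ Nat.card (𝓞 K ⧸ w.asIdeal.under (𝓞 K)) :=
    congrArg (fun z : 𝓞 M => (z : M)) h6
  have h8 : ∀ m : ℕ, (Φ ^ m) D.ζ = D.ζ ^ (Nat.card (𝓞 K ⧸ w.asIdeal.under (𝓞 K)) ^ m) := by
    intro m
    induction m with
    | zero => simp
    | succ k ih => rw [pow_succ, AlgEquiv.mul_apply, h7, map_pow, ih, ← pow_mul, pow_succ]
  have h9 : Nat.card (𝓞 K ⧸ w.asIdeal.under (𝓞 K)) ^ n ≡ 1 [MOD r] := by
    refine CrossSplit.modEq_of_pow_eq D.hζ (Fact.out : r.Prime).pos ?_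
    rw [← h8, ← hn, hσζ, pow_one]
  have h10 : Ideal.absNorm (w.asIdeal.comap (algebraMap (𝓞 K) (𝓞 M))) =
      Nat.card (𝓞 K ⧸ w.asIdeal.under (𝓞 K)) := by
    rw [Ideal.absNorm_apply, Submodule.cardQuot_apply]
  have hpn : p ∣ n := by
    refine hord.trans (orderOf_dvd_of_pow_eq_one ?_)
    rw [h10, ← Nat.cast_pow, ← Nat.cast_one, ZMod.natCast_eq_natCast_iff]
    exact h9
  -- `Φ ^ n` fixes `L`
  have hΦL : ∀ (m : ℕ) (x : L), (Φ ^ m) (algebraMap L M x) =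
      algebraMap L M ((Φ.restrictNormal L ^ m) x) := by
    intro m
    induction m with
    | zero => intro x; simp
    | succ k ih =>
      intro x
      rw [pow_succ, AlgEquiv.mul_apply, ← AlgEquiv.restrictNormal_commutes, ih, pow_succ,
        AlgEquiv.mul_apply]
  have hcard : Φ.restrictNormal L ^ p = 1 := by
    have h11 := pow_card_eq_one' (G := L ≃ₐ[K] L) (x := Φ.restrictNormal L)
    rwa [IsGalois.card_aut_eq_finrank, hdeg] at h11
  have hΦn : Φ.restrictNormal L ^ n = 1 := by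
    obtain ⟨c, rfl⟩ := hpn
    rw [pow_mul, hcard, one_pow]
  have h12 : σ.restrictScalars K = 1 := by
    refine CrossSplit.eq_one_of_fixes (L := L) D.hζ _ (fun x => ?_) hσζ
    rw [hn, hΦL, hΦn]; rfl
  ext x
  exact DFunLike.congr_fun h12 x

/-- the primes of `b` split in `M/K(ζ_r)` -/
theorem CrossData.not_fixed [IsGalois K M] (hdeg : Module.finrank K L = p)
    (hunr : UnramifiedEverywhere K L)
    (w : HeightOneSpectrum (𝓞 M)) (hw : (r : 𝓞 M) ∉ w.asIdeal)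
    (hord : p ∣ orderOf ((Ideal.absNorm (w.asIdeal.comap (algebraMap (𝓞 K) (𝓞 M))) : ℕ) : ZMod r))
    (σ : M ≃ₐ[D.F] M) (hσ : σ • w.asIdeal = w.asIdeal) : σ = 1 :=
  D.not_fixed_adjoin hdeg hunr w hw hord σ hσ

end Cross

end Fermat.Agent.S14
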