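/-
S14, package FI-AD (first inequality, decomposition groups): in an everywhere unramified Galois
extension `E/F` of number fields, if one prime `w` of `E` above `v` has the same absolute norm as
`v` (residue degree one), then every prime of `E` above `v` has trivial decomposition group.
Owner: helper16.  Statement in the shape of helper9's first-inequality blueprint.
-/
import Mathlib
import Fermat.Agent.S14.Defs

set_option autoImplicit false

namespace Fermat.Agent.S14.FI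

open NumberField IsDedekindDomain
open scoped nonZeroDivisors Pointwise

/-- If `w` lies over `v` and has the same absolute norm, every integer of `E` is congruent
modulo `w` to an integer of `F`. -/
theorem exists_algebraMap_sub_mem_of_absNorm_eq (F E : Type*) [Field F] [NumberField F] [Field E]
    [NumberField E] [Algebra F E] (v : HeightOneSpectrum (𝓞 F)) (w : HeightOneSpectrum (𝓞 E))
    (hw : w.asIdeal.comap (algebraMap (𝓞 F) (𝓞 E)) = v.asIdeal)
    (hf : Ideal.absNorm w.asIdeal = Ideal.absNorm v.asIdeal) (x : 𝓞 E) :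
    ∃ y : 𝓞 F, x - algebraMap (𝓞 F) (𝓞 E) y ∈ w.asIdeal := by
  have hle : v.asIdeal ≤ w.asIdeal.comap (algebraMap (𝓞 F) (𝓞 E)) := le_of_eq hw.symm
  set f : 𝓞 F ⧸ v.asIdeal →+* 𝓞 E ⧸ w.asIdeal :=
    Ideal.quotientMap w.asIdeal (algebraMap (𝓞 F) (𝓞 E)) hle with hfdef
  have hinj : Function.Injective f :=
    Ideal.quotientMap_injective' (le_of_eq hw)
  have hcard : Nat.card (𝓞 E ⧸ w.asIdeal) = Nat.card (𝓞 F ⧸ v.asIdeal) := by
    have h1 : Ideal.absNorm w.asIdeal = Nat.card (𝓞 E ⧸ w.asIdeal) := by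
      rw [Ideal.absNorm_apply, Submodule.cardQuot_apply]
    have h2 : Ideal.absNorm v.asIdeal = Nat.card (𝓞 F ⧸ v.asIdeal) := by
      rw [Ideal.absNorm_apply, Submodule.cardQuot_apply]
    rw [← h1, ← h2, hf]
  have hw0 : Ideal.absNorm w.asIdeal ≠ 0 := by
    rw [Ne, Ideal.absNorm_eq_zero_iff]
    exact w.ne_bot
  have hfinE : Finite (𝓞 E ⧸ w.asIdeal) := by
    apply Nat.finite_of_card_ne_zero
    rwa [Ideal.absNorm_apply, Submodule.cardQuot_apply] at hw0
  have hsurj : Function.Surjective f :=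
    (Function.Injective.bijective_of_nat_card_le hinj (le_of_eq hcard)).2
  obtain ⟨ybar, hy⟩ := hsurj (Ideal.Quotient.mk w.asIdeal x)
  obtain ⟨y, rfl⟩ := Ideal.Quotient.mk_surjective ybar
  refine ⟨y, ?_⟩
  rw [hfdef, Ideal.quotientMap_mk] at hy
  rw [← Ideal.Quotient.eq]
  exact hy.symm

/-- A prime of `E` with residue degree one over `F` has trivial decomposition group, if `E/F`
is unramified everywhere. -/
theorem decomposition_trivial_of_absNorm_eq_self (F E : Type*) [Field F] [NumberField F]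
    [Field E] [NumberField E] [Algebra F E]
    (hunr : UnramifiedEverywhere F E) (v : HeightOneSpectrum (𝓞 F))
    (w : HeightOneSpectrum (𝓞 E))
    (hw : w.asIdeal.comap (algebraMap (𝓞 F) (𝓞 E)) = v.asIdeal)
    (hf : Ideal.absNorm w.asIdeal = Ideal.absNorm v.asIdeal)
    (σ : E ≃ₐ[F] E) (hσ : σ • w.asIdeal = w.asIdeal) : σ = 1 := by
  apply hunr w.asIdeal w.isPrime w.ne_bot σ
  intro x
  obtain ⟨y, hy⟩ := exists_algebraMap_sub_mem_of_absNorm_eq F E v w hw hf x
  have hfix : σ • algebraMap (𝓞 F) (𝓞 E) y = algebraMap (𝓞 F) (𝓞 E) y := by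
    apply Subtype.ext
    show σ (algebraMap (𝓞 F) (𝓞 E) y : E) = (algebraMap (𝓞 F) (𝓞 E) y : E)
    have h1 : (algebraMap (𝓞 F) (𝓞 E) y : E) = algebraMap F E (y : F) := rfl
    rw [h1, AlgEquiv.commutes]
  have h2 : σ • (x - algebraMap (𝓞 F) (𝓞 E) y) ∈ w.asIdeal := by
    have h3 : σ • (x - algebraMap (𝓞 F) (𝓞 E) y) ∈ σ • w.asIdeal :=
      Ideal.smul_mem_pointwise_smul_iff.mpr hy
    rwa [hσ] at h3
  have h4 : σ • x - x = σ • (x - algebraMap (𝓞 F) (𝓞 E) y) - (x - algebraMap (𝓞 F) (𝓞 E) y) := by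
    rw [smul_sub, hfix]
    ring
  rw [h4]
  exact w.asIdeal.sub_mem h2 hy

theorem decomposition_trivial_of_absNorm_eq (F E : Type*) [Field F] [NumberField F] [Field E]
    [NumberField E] [Algebra F E] [IsGalois F E] (hunr : UnramifiedEverywhere F E)
    (v : HeightOneSpectrum (𝓞 F)) (w : HeightOneSpectrum (𝓞 E))
    (hw : w.asIdeal.comap (algebraMap (𝓞 F) (𝓞 E)) = v.asIdeal)
    (hf : Ideal.absNorm w.asIdeal = Ideal.absNorm v.asIdeal) :
    ∀ w' : HeightOneSpectrum (𝓞 E), w'.asIdeal.comap (algebraMap (𝓞 F) (𝓞 E)) = v.asIdeal →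
      ∀ σ : E ≃ₐ[F] E, σ • w'.asIdeal = w'.asIdeal → σ = 1 := by
  intro w' hw' σ hσ
  have hGG : IsGaloisGroup (E ≃ₐ[F] E) (𝓞 F) (𝓞 E) :=
    IsGaloisGroup.of_isFractionRing (E ≃ₐ[F] E) (𝓞 F) (𝓞 E) F E
  have hwp : w.asIdeal.IsPrime := w.isPrime
  have hwp' : w'.asIdeal.IsPrime := w'.isPrime
  have hvp : v.asIdeal.IsPrime := v.isPrime
  have hl : w.asIdeal.LiesOver v.asIdeal := ⟨hw.symm⟩
  have hl' : w'.asIdeal.LiesOver v.asIdeal := ⟨hw'.symm⟩
  obtain ⟨τ, hτ⟩ := Ideal.exists_smul_eq_of_isGaloisGroup v.asIdeal w.asIdeal w'.asIdeal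
    (E ≃ₐ[F] E)
  have hconj : (τ⁻¹ * σ * τ) • w.asIdeal = w.asIdeal := by
    rw [mul_smul, mul_smul, hτ, hσ, ← hτ, inv_smul_smul]
  have h1 : τ⁻¹ * σ * τ = 1 :=
    decomposition_trivial_of_absNorm_eq_self F E hunr v w hw hf _ hconj
  have h2 : σ = τ * (τ⁻¹ * σ * τ) * τ⁻¹ := by group
  rw [h2, h1]
  group

end Fermat.Agent.S14.FI
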