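/-
S14 / package BL (bounded class-character L-series near s = 1), definitions.

For a number field `K`:
* `tent t = max 0 (1 - |t|)`, the tent function (`∑ n : ℤ, tent (t + n) = 1`);
* `logBasis K`, the `ℝ`-basis of `logSpace K` coming from the unit lattice;
* `theta K y = ∏ i, tent (coordinate i of y)`, a Lipschitz partition of unity on `logSpace K`
  for the translation action of the unit lattice;
* `G K s x = theta K (logMap x) * (mixedEmbedding.norm x) ^ (-s)`, the smoothed summand on the
  mixed space;
* `classZeta K C s`, the partial zeta function of an ideal class `C`.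
-/
import Mathlib

set_option autoImplicit false
noncomputable section

open scoped nonZeroDivisors Classical
open NumberField NumberField.mixedEmbedding NumberField.InfinitePlace NumberField.Units
  NumberField.Units.dirichletUnitTheorem Module

namespace Fermat.Agent.S14.BL

variable (K : Type*) [Field K] [NumberField K]

/-- The tent function. -/
def tent (t : ℝ) : ℝ := max 0 (1 - |t|)

/-- The `ℝ`-basis of `logSpace K` given by the unit lattice. -/
def logBasis : Basis (Fin (rank K)) ℝ (logSpace K) :=
  (basisUnitLattice K).ofZLatticeBasis ℝ (unitLattice K)

/-- The partition weight on `logSpace K`: a product of tents in unit-lattice coordinates. -/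
def theta (y : logSpace K) : ℝ := ∏ i, tent ((logBasis K).repr y i)

/-- The smoothed summand on the mixed space. -/
def G (s : ℝ) (x : mixedSpace K) : ℝ := theta K (logMap x) * (mixedEmbedding.norm x) ^ (-s)

/-- The partial zeta function of an ideal class. -/
def classZeta (C : ClassGroup (𝓞 K)) (s : ℝ) : ℝ :=
  ∑' I : {I : (Ideal (𝓞 K))⁰ // ClassGroup.mk0 I = C},
    (Ideal.absNorm (I.1 : Ideal (𝓞 K)) : ℝ) ^ (-s)

end Fermat.Agent.S14.BL
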