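/-
S14 / package BL-U (helper22): the unit partition `theta`.

`theta K y = ∏ i, tent (coordinate i of y)` in unit-lattice coordinates is nonnegative, bounded
by `1`, Lipschitz, boundedly supported, and sums to `torsionOrder K` along every unit orbit.
-/
import Fermat.Agent.S14.BLDefs

set_option autoImplicit false
noncomputable section

open scoped nonZeroDivisors Classical
open NumberField NumberField.mixedEmbedding NumberField.InfinitePlace NumberField.Units
  NumberField.Units.dirichletUnitTheorem Module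

namespace Fermat.Agent.S14.BL

namespace U

/-! ### The tent function (auxiliary lemmas, sub-namespace `U`) -/

theorem tent_nonneg (t : ℝ) : 0 ≤ tent t := le_max_left _ _

theorem tent_le_one (t : ℝ) : tent t ≤ 1 := by
  unfold tent
  exact max_le zero_le_one (by linarith [abs_nonneg t])

theorem tent_eq_zero {t : ℝ} (h : 1 ≤ |t|) : tent t = 0 := by
  unfold tent
  exact max_eq_left (by linarith)

theorem abs_lt_one_of_tent_ne_zero {t : ℝ} (h : tent t ≠ 0) : |t| < 1 := by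
  by_contra h'
  exact h (tent_eq_zero (not_lt.mp h'))

theorem tent_of_nonneg {t : ℝ} (h0 : 0 ≤ t) (h1 : t ≤ 1) : tent t = 1 - t := by
  unfold tent
  rw [abs_of_nonneg h0]
  exact max_eq_right (by linarith)

theorem tent_of_nonpos {t : ℝ} (h0 : t ≤ 0) (h1 : -1 ≤ t) : tent t = 1 + t := by
  unfold tent
  rw [abs_of_nonpos h0]
  rw [max_eq_right (by linarith)]
  ring

theorem abs_tent_sub_le (t t' : ℝ) : |tent t - tent t'| ≤ |t - t'| := by
  unfold tent
  have h1 : |max 0 (1 - |t|) - max 0 (1 - |t'|)| ≤ |(1 - |t|) - (1 - |t'|)| := by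
    have := abs_max_sub_max_le_abs (1 - |t|) (1 - |t'|) 0
    simpa [max_comm] using this
  refine h1.trans ?_
  have h2 : (1 - |t|) - (1 - |t'|) = |t'| - |t| := by ring
  rw [h2, abs_sub_comm t t']
  exact abs_abs_sub_abs_le_abs_sub t' t

/-- The two integer translates carrying the tent mass at `c`. -/
def tentSupp (c : ℝ) : Finset ℤ := {-⌊c⌋ - 1, -⌊c⌋}

theorem tent_eq_zero_of_notMem_tentSupp (c : ℝ) {n : ℤ} (hn : n ∉ tentSupp c) :
    tent (c + n) = 0 := by
  apply tent_eq_zero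
  simp only [tentSupp, Finset.mem_insert, Finset.mem_singleton, not_or] at hn
  have h1 := Int.floor_le c
  have h2 := Int.lt_floor_add_one c
  rcases lt_or_gt_of_ne hn.2 with h | h
  · have h3 : n ≤ -⌊c⌋ - 2 := by
      have : n ≠ -⌊c⌋ - 1 := hn.1
      omega
    have h4 : (n : ℝ) ≤ -(⌊c⌋ : ℝ) - 2 := by exact_mod_cast h3
    rw [abs_of_nonpos (by linarith)]
    linarith
  · have h3 : -⌊c⌋ + 1 ≤ n := by omega
    have h4 : -(⌊c⌋ : ℝ) + 1 ≤ (n : ℝ) := by exact_mod_cast h3
    rw [abs_of_nonneg (by linarith)]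
    linarith

theorem sum_tentSupp (c : ℝ) : ∑ n ∈ tentSupp c, tent (c + n) = 1 := by
  have h1 := Int.floor_le c
  have h2 := Int.lt_floor_add_one c
  unfold tentSupp
  rw [Finset.sum_pair (by omega)]
  have e1 : c + ((-⌊c⌋ - 1 : ℤ) : ℝ) = c - ⌊c⌋ - 1 := by push_cast; ring
  have e2 : c + ((-⌊c⌋ : ℤ) : ℝ) = c - ⌊c⌋ := by push_cast; ring
  rw [e1, e2, tent_of_nonpos (by linarith) (by linarith), tent_of_nonneg (by linarith) (by linarith)]
  ring

theorem sum_piFinset_prod_tent {ι : Type*} [Fintype ι] [DecidableEq ι] (c : ι → ℝ) :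
    ∑ e ∈ Fintype.piFinset (fun i ↦ tentSupp (c i)), ∏ i, tent (c i + e i) = 1 := by
  rw [← Finset.prod_univ_sum (fun i ↦ tentSupp (c i)) (fun i (n : ℤ) ↦ tent (c i + n))]
  simp [sum_tentSupp]

theorem prod_tent_eq_zero {ι : Type*} [Fintype ι] [DecidableEq ι] (c : ι → ℝ) {e : ι → ℤ}
    (he : e ∉ Fintype.piFinset (fun i ↦ tentSupp (c i))) : ∏ i, tent (c i + e i) = 0 := by
  rw [Fintype.mem_piFinset] at he
  push Not at he
  obtain ⟨i, hi⟩ := he
  exact Finset.prod_eq_zero (Finset.mem_univ i) (tent_eq_zero_of_notMem_tentSupp (c i) hi)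

/-- The tent-product is a partition of unity for the integer translations. -/
theorem hasSum_prod_tent {ι : Type*} [Fintype ι] [DecidableEq ι] (c : ι → ℝ) :
    HasSum (fun e : ι → ℤ ↦ ∏ i, tent (c i + e i)) 1 := by
  rw [← sum_piFinset_prod_tent c]
  exact hasSum_sum_of_ne_finset_zero fun e he ↦ prod_tent_eq_zero c he

theorem abs_prod_sub_prod_le {ι : Type*} (s : Finset ι) (a b : ι → ℝ)
    (ha0 : ∀ i, 0 ≤ a i) (ha1 : ∀ i, a i ≤ 1) (hb0 : ∀ i, 0 ≤ b i) (hb1 : ∀ i, b i ≤ 1) :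
    |∏ i ∈ s, a i - ∏ i ∈ s, b i| ≤ ∑ i ∈ s, |a i - b i| := by
  induction s using Finset.induction_on with
  | empty => simp
  | insert j s hj ih =>
    rw [Finset.prod_insert hj, Finset.prod_insert hj, Finset.sum_insert hj]
    have hA0 : 0 ≤ ∏ i ∈ s, a i := Finset.prod_nonneg fun i _ ↦ ha0 i
    have hA1 : ∏ i ∈ s, a i ≤ 1 := Finset.prod_le_one (fun i _ ↦ ha0 i) fun i _ ↦ ha1 i
    have e : a j * ∏ i ∈ s, a i - b j * ∏ i ∈ s, b i =
        (a j - b j) * ∏ i ∈ s, a i + b j * (∏ i ∈ s, a i - ∏ i ∈ s, b i) := by ring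
    rw [e]
    refine (abs_add_le _ _).trans (add_le_add ?_ ?_)
    · rw [abs_mul, abs_of_nonneg hA0]
      exact mul_le_of_le_one_right (abs_nonneg _) hA1
    · rw [abs_mul, abs_of_nonneg (hb0 j)]
      exact (mul_le_of_le_one_left (abs_nonneg _) (hb1 j)).trans ih

end U

open U

variable (K : Type*) [Field K] [NumberField K]

/-! ### Package U: the unit partition -/

theorem theta_nonneg (y : logSpace K) : 0 ≤ theta K y :=
  Finset.prod_nonneg fun _ _ ↦ tent_nonneg _

theorem theta_le_one (y : logSpace K) : theta K y ≤ 1 :=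
  Finset.prod_le_one (fun _ _ ↦ tent_nonneg _) fun _ _ ↦ tent_le_one _

theorem exists_theta_lipschitz :
    ∃ L : ℝ, 0 ≤ L ∧ ∀ y y' : logSpace K, |theta K y - theta K y'| ≤ L * ‖y - y'‖ := by
  set Φ : logSpace K →L[ℝ] (Fin (rank K) → ℝ) :=
    (logBasis K).equivFunL.toContinuousLinearMap with hΦ
  refine ⟨(Fintype.card (Fin (rank K)) : ℝ) * ‖Φ‖, by positivity, fun y y' ↦ ?_⟩
  unfold theta
  refine (abs_prod_sub_prod_le Finset.univ _ _ (fun _ ↦ tent_nonneg _) (fun _ ↦ tent_le_one _)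
    (fun _ ↦ tent_nonneg _) (fun _ ↦ tent_le_one _)).trans ?_
  have h1 : ∀ i ∈ (Finset.univ : Finset (Fin (rank K))),
      |tent ((logBasis K).repr y i) - tent ((logBasis K).repr y' i)| ≤ ‖Φ‖ * ‖y - y'‖ := by
    intro i _
    refine (abs_tent_sub_le _ _).trans ?_
    have h2 : (logBasis K).repr y i - (logBasis K).repr y' i = Φ (y - y') i := by
      simp [hΦ, Basis.equivFunL]
    rw [h2]
    exact ((norm_le_pi_norm (Φ (y - y')) i).trans (Φ.le_opNorm (y - y')))
  refine (Finset.sum_le_card_nsmul _ _ _ h1).trans (le_of_eq ?_)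
  rw [nsmul_eq_mul, Finset.card_univ, mul_assoc]

theorem exists_norm_le_of_theta_ne_zero :
    ∃ A : ℝ, 0 ≤ A ∧ ∀ y : logSpace K, theta K y ≠ 0 → ‖y‖ ≤ A := by
  refine ⟨∑ i, ‖logBasis K i‖, Finset.sum_nonneg fun _ _ ↦ norm_nonneg _, fun y hy ↦ ?_⟩
  have h1 : ∀ i, |(logBasis K).repr y i| < 1 := by
    intro i
    apply abs_lt_one_of_tent_ne_zero
    intro h0
    exact hy (Finset.prod_eq_zero (Finset.mem_univ i) h0)
  calc ‖y‖ = ‖∑ i, (logBasis K).repr y i • logBasis K i‖ := by rw [(logBasis K).sum_repr y]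
    _ ≤ ∑ i, ‖(logBasis K).repr y i • logBasis K i‖ := norm_sum_le _ _
    _ ≤ ∑ i, ‖logBasis K i‖ := by
        refine Finset.sum_le_sum fun i _ ↦ ?_
        rw [_root_.norm_smul, Real.norm_eq_abs]
        exact mul_le_of_le_one_left (norm_nonneg _) (h1 i).le

namespace U

/-- The decomposition of the unit group given by the Dirichlet unit theorem, as an
equivalence. -/
def unitEquiv : torsion K × (Fin (rank K) → ℤ) ≃ (𝓞 K)ˣ :=
  Equiv.ofBijective (fun ζe ↦ (ζe.1 : (𝓞 K)ˣ) * ∏ i, (fundSystem K i) ^ (ζe.2 i)) <| by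
    refine ⟨fun a b hab ↦ ?_, fun u ↦ ?_⟩
    · obtain ⟨c, _, hc⟩ := exist_unique_eq_mul_prod K ((a.1 : (𝓞 K)ˣ) * ∏ i, (fundSystem K i) ^ (a.2 i))
      exact (hc a rfl).trans (hc b hab).symm
    · obtain ⟨c, hc, _⟩ := exist_unique_eq_mul_prod K u
      exact ⟨c, hc.symm⟩

theorem unitEquiv_apply (ζe : torsion K × (Fin (rank K) → ℤ)) :
    unitEquiv K ζe = (ζe.1 : (𝓞 K)ˣ) * ∏ i, (fundSystem K i) ^ (ζe.2 i) := rfl

theorem logEmbedding_unitEquiv (ζe : torsion K × (Fin (rank K) → ℤ)) :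
    logEmbedding K (Additive.ofMul (unitEquiv K ζe)) =
      ∑ i, (ζe.2 i : ℝ) • logBasis K i := by
  rw [unitEquiv_apply, ofMul_mul, map_add, ofMul_prod, map_sum,
    (logEmbedding_eq_zero_iff (K := K)).mpr ζe.1.2, zero_add]
  refine Finset.sum_congr rfl fun i _ ↦ ?_
  rw [ofMul_zpow, map_zsmul, logEmbedding_fundSystem, logBasis, Basis.ofZLatticeBasis_apply,
    Int.cast_smul_eq_zsmul]

theorem theta_logMap_unitEquiv_smul (x : mixedSpace K) (hx : mixedEmbedding.norm x ≠ 0)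
    (ζe : torsion K × (Fin (rank K) → ℤ)) :
    theta K (logMap (unitEquiv K ζe • x)) =
      ∏ i, tent ((logBasis K).repr (logMap x) i + ζe.2 i) := by
  rw [logMap_unit_smul _ hx, logEmbedding_unitEquiv]
  unfold theta
  refine Finset.prod_congr rfl fun i _ ↦ ?_
  congr 1
  rw [map_add, Finsupp.add_apply, add_comm, Basis.repr_sum_self]

end U

theorem hasSum_theta_unit_smul (x : mixedSpace K) (hx : mixedEmbedding.norm x ≠ 0) :
    HasSum (fun u : (𝓞 K)ˣ ↦ theta K (logMap (u • x))) (torsionOrder K : ℝ) := by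
  rw [← (unitEquiv K).hasSum_iff]
  have h1 : (fun u : (𝓞 K)ˣ ↦ theta K (logMap (u • x))) ∘ (unitEquiv K) =
      fun ζe : torsion K × (Fin (rank K) → ℤ) ↦
        ∏ i, tent ((logBasis K).repr (logMap x) i + ζe.2 i) := by
    funext ζe
    exact theta_logMap_unitEquiv_smul K x hx ζe
  rw [h1]
  have : Fintype (torsion K) := Fintype.ofFinite _
  have h3 : (torsionOrder K : ℝ) =
      ∑ ζe ∈ (Finset.univ : Finset (torsion K)) ×ˢ
        Fintype.piFinset (fun i ↦ tentSupp ((logBasis K).repr (logMap x) i)),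
          ∏ i, tent ((logBasis K).repr (logMap x) i + ζe.2 i) := by
    rw [Finset.sum_product]
    have h4 := sum_piFinset_prod_tent (fun i ↦ (logBasis K).repr (logMap x) i)
    simp only [h4, Finset.sum_const, Finset.card_univ, nsmul_eq_mul, mul_one]
    rw [torsionOrder, Nat.card_eq_fintype_card]
  rw [h3]
  refine hasSum_sum_of_ne_finset_zero fun ζe hζe ↦ ?_
  refine prod_tent_eq_zero (fun i ↦ (logBasis K).repr (logMap x) i) ?_
  intro h
  exact hζe (Finset.mem_product.mpr ⟨Finset.mem_univ _, h⟩)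

end Fermat.Agent.S14.BL
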