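/-
S14 / package BL-I (helper22): the ideal side.

For an integral ideal `J` in the class `C⁻¹`, the pairs (ideal `I` of class `C`, unit `u`)
correspond bijectively to the nonzero elements of `J` (via `u * generator (I * J)`), and `theta`
sums to `torsionOrder K` along each unit orbit.  Hence
`torsionOrder K * classZeta K C s = N(J)^s * ∑' b : J, G K s b`.
-/
import Fermat.Agent.S14.BLUnit

set_option autoImplicit false
noncomputable section

open scoped nonZeroDivisors Classical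
open NumberField NumberField.mixedEmbedding NumberField.InfinitePlace NumberField.Units
  NumberField.Units.dirichletUnitTheorem Module

namespace Fermat.Agent.S14.BL

variable (K : Type*) [Field K] [NumberField K]

namespace IdealSide

/-! ### Values of `G` on integers (auxiliary lemmas, sub-namespace `IdealSide`) -/

theorem norm_mixedEmbedding (a : 𝓞 K) :
    mixedEmbedding.norm (mixedEmbedding K (a : K)) =
      (Ideal.absNorm (Ideal.span {a}) : ℝ) := by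
  rw [norm_eq_norm, Ideal.absNorm_span_singleton, Nat.cast_natAbs, ← Algebra.coe_norm_int]
  push_cast
  rfl

theorem norm_mixedEmbedding_ne_zero {a : 𝓞 K} (ha : a ≠ 0) :
    mixedEmbedding.norm (mixedEmbedding K (a : K)) ≠ 0 := by
  rw [norm_mixedEmbedding, Nat.cast_ne_zero, Ne, Ideal.absNorm_eq_zero_iff,
    Ideal.span_singleton_eq_bot]
  exact ha

theorem G_unit_mul (s : ℝ) (u : (𝓞 K)ˣ) (a : 𝓞 K) :
    G K s (mixedEmbedding K (((u : 𝓞 K) * a : 𝓞 K) : K)) =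
      theta K (logMap (u • mixedEmbedding K (a : K))) *
        (Ideal.absNorm (Ideal.span {a}) : ℝ) ^ (-s) := by
  have h : mixedEmbedding K (((u : 𝓞 K) * a : 𝓞 K) : K) = u • mixedEmbedding K (a : K) := by
    rw [unitSMul_smul, ← map_mul]
    rfl
  unfold G
  rw [h, norm_unit_smul, norm_mixedEmbedding]

theorem hasSum_G_unit_mul (s : ℝ) {a : 𝓞 K} (ha : a ≠ 0) :
    HasSum (fun u : (𝓞 K)ˣ ↦ G K s (mixedEmbedding K (((u : 𝓞 K) * a : 𝓞 K) : K)))
      ((torsionOrder K : ℝ) * (Ideal.absNorm (Ideal.span {a}) : ℝ) ^ (-s)) := by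
  simp_rw [G_unit_mul]
  exact (hasSum_theta_unit_smul K _ (norm_mixedEmbedding_ne_zero K ha)).mul_right _

theorem G_zero {s : ℝ} (hs : s ≠ 0) : G K s (mixedEmbedding K ((0 : 𝓞 K) : K)) = 0 := by
  unfold G
  rw [norm_mixedEmbedding]
  simp [Real.zero_rpow (neg_ne_zero.mpr hs)]

/-- At `s = 0` the smoothed sum over the integers diverges. -/
theorem not_summable_G_zero :
    ¬ Summable fun a : 𝓞 K ↦ G K 0 (mixedEmbedding K (a : K)) := by
  intro h
  have hinj : Function.Injective (fun n : ℕ ↦ ((n : 𝓞 K))) := Nat.cast_injective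
  have h1 := (h.comp_injective hinj).tendsto_atTop_zero
  have h2 : ∀ n : ℕ, 1 ≤ n → G K 0 (mixedEmbedding K (((n : 𝓞 K)) : K)) = 1 := by
    intro n hn
    have hn0 : (n : ℝ) ≠ 0 := by positivity
    have e : mixedEmbedding K (((n : 𝓞 K)) : K) = (n : ℝ) • (1 : mixedSpace K) := by
      rw [Nat.cast_smul_eq_nsmul, nsmul_one]
      simp
    unfold G
    rw [e, logMap_real, neg_zero, Real.rpow_zero, mul_one]
    unfold theta
    simp [tent]
  have h3 : Filter.Tendsto (fun n : ℕ ↦ G K 0 (mixedEmbedding K (((n : 𝓞 K)) : K)))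
      Filter.atTop (nhds 1) := by
    refine tendsto_const_nhds.congr' ?_
    filter_upwards [Filter.eventually_ge_atTop 1] with n hn
    exact (h2 n hn).symm
  exact zero_ne_one (tendsto_nhds_unique h1 h3)

variable {K}
variable {C : ClassGroup (𝓞 K)} {J : (Ideal (𝓞 K))⁰}

theorem exists_gen (hJ : ClassGroup.mk0 J = C⁻¹)
    (I : {I : (Ideal (𝓞 K))⁰ // ClassGroup.mk0 I = C}) :
    ∃ g : 𝓞 K, Ideal.span {g} = (I.1 : Ideal (𝓞 K)) * (J : Ideal (𝓞 K)) := by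
  have h : ClassGroup.mk0 (I.1 * J) = 1 := by rw [map_mul, I.2, hJ, mul_inv_cancel]
  have hp := (ClassGroup.mk0_eq_one_iff (I.1 * J).2).mp h
  obtain ⟨g, hg⟩ := hp.principal
  exact ⟨g, hg.symm⟩

/-- A generator of the principal ideal `I * J`. -/
def gen (hJ : ClassGroup.mk0 J = C⁻¹) (I : {I : (Ideal (𝓞 K))⁰ // ClassGroup.mk0 I = C}) : 𝓞 K :=
  Classical.choose (exists_gen hJ I)

theorem span_gen (hJ : ClassGroup.mk0 J = C⁻¹)
    (I : {I : (Ideal (𝓞 K))⁰ // ClassGroup.mk0 I = C}) :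
    Ideal.span {gen hJ I} = (I.1 : Ideal (𝓞 K)) * (J : Ideal (𝓞 K)) :=
  Classical.choose_spec (exists_gen hJ I)

theorem gen_ne_zero (hJ : ClassGroup.mk0 J = C⁻¹)
    (I : {I : (Ideal (𝓞 K))⁰ // ClassGroup.mk0 I = C}) : gen hJ I ≠ 0 := by
  intro h0
  have h1 := span_gen hJ I
  rw [h0, Ideal.span_singleton_eq_bot.mpr rfl] at h1
  exact nonZeroDivisors.coe_ne_zero (I.1 * J) h1.symm

theorem gen_mem (hJ : ClassGroup.mk0 J = C⁻¹)
    (I : {I : (Ideal (𝓞 K))⁰ // ClassGroup.mk0 I = C}) : gen hJ I ∈ (J : Ideal (𝓞 K)) := by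
  have h1 : gen hJ I ∈ (I.1 : Ideal (𝓞 K)) * (J : Ideal (𝓞 K)) := by
    rw [← span_gen hJ I]
    exact Ideal.mem_span_singleton_self _
  have h2 : (I.1 : Ideal (𝓞 K)) * (J : Ideal (𝓞 K)) ≤ (J : Ideal (𝓞 K)) := Ideal.mul_le_right
  exact h2 h1

/-- The parametrisation of the nonzero elements of `J` by (ideal of class `C`, unit). -/
def param (hJ : ClassGroup.mk0 J = C⁻¹)
    (p : {I : (Ideal (𝓞 K))⁰ // ClassGroup.mk0 I = C} × (𝓞 K)ˣ) : (J : Ideal (𝓞 K)) :=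
  ⟨(p.2 : 𝓞 K) * gen hJ p.1, Ideal.mul_mem_left _ _ (gen_mem hJ p.1)⟩

theorem param_coe (hJ : ClassGroup.mk0 J = C⁻¹)
    (p : {I : (Ideal (𝓞 K))⁰ // ClassGroup.mk0 I = C} × (𝓞 K)ˣ) :
    ((param hJ p : (J : Ideal (𝓞 K))) : 𝓞 K) = (p.2 : 𝓞 K) * gen hJ p.1 := rfl

theorem span_param (hJ : ClassGroup.mk0 J = C⁻¹)
    (p : {I : (Ideal (𝓞 K))⁰ // ClassGroup.mk0 I = C} × (𝓞 K)ˣ) :
    Ideal.span {((param hJ p : (J : Ideal (𝓞 K))) : 𝓞 K)} =
      (p.1.1 : Ideal (𝓞 K)) * (J : Ideal (𝓞 K)) := by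
  rw [param_coe, Ideal.span_singleton_mul_left_unit p.2.isUnit, span_gen]

theorem param_injective (hJ : ClassGroup.mk0 J = C⁻¹) : Function.Injective (param (C := C) hJ) := by
  rintro ⟨I, u⟩ ⟨I', u'⟩ h
  have h1 : (I.1 : Ideal (𝓞 K)) * (J : Ideal (𝓞 K)) = (I'.1 : Ideal (𝓞 K)) * (J : Ideal (𝓞 K)) := by
    rw [← span_param hJ (I, u), ← span_param hJ (I', u'), h]
  have hJ0 : (J : Ideal (𝓞 K)) ≠ 0 := nonZeroDivisors.coe_ne_zero J
  have h2 : I = I' := Subtype.ext (Subtype.ext (mul_right_cancel₀ hJ0 h1))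
  subst h2
  have h3 : (u : 𝓞 K) * gen hJ I = (u' : 𝓞 K) * gen hJ I := congrArg Subtype.val h
  have h4 : u = u' := Units.ext (mul_right_cancel₀ (gen_ne_zero hJ I) h3)
  rw [h4]

theorem mem_range_param (hJ : ClassGroup.mk0 J = C⁻¹) (b : (J : Ideal (𝓞 K)))
    (hb : (b : 𝓞 K) ≠ 0) : b ∈ Set.range (param (C := C) hJ) := by
  have hle : Ideal.span {(b : 𝓞 K)} ≤ (J : Ideal (𝓞 K)) :=
    (Ideal.span_singleton_le_iff_mem _).mpr b.2
  obtain ⟨I₀, hI₀⟩ := Ideal.dvd_iff_le.mpr hle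
  have hb0 : Ideal.span {(b : 𝓞 K)} ≠ 0 := by
    rw [Ne, Ideal.zero_eq_bot, Ideal.span_singleton_eq_bot]
    exact hb
  have hI₀0 : I₀ ≠ 0 := by
    rintro rfl
    rw [mul_zero] at hI₀
    exact hb0 hI₀
  have hI₀mem : I₀ ∈ (Ideal (𝓞 K))⁰ := mem_nonZeroDivisors_of_ne_zero hI₀0
  have hbmem : Ideal.span {(b : 𝓞 K)} ∈ (Ideal (𝓞 K))⁰ := mem_nonZeroDivisors_of_ne_zero hb0
  have hcl : ClassGroup.mk0 ⟨I₀, hI₀mem⟩ = C := by
    have h1 : ClassGroup.mk0 ⟨Ideal.span {(b : 𝓞 K)}, hbmem⟩ = 1 :=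
      (ClassGroup.mk0_eq_one_iff hbmem).mpr ⟨⟨(b : 𝓞 K), rfl⟩⟩
    have h2 : (⟨Ideal.span {(b : 𝓞 K)}, hbmem⟩ : (Ideal (𝓞 K))⁰) = J * ⟨I₀, hI₀mem⟩ :=
      Subtype.ext hI₀
    rw [h2, map_mul, hJ] at h1
    exact (inv_mul_eq_one.mp h1).symm
  have h3 : Ideal.span {gen hJ ⟨⟨I₀, hI₀mem⟩, hcl⟩} = Ideal.span {(b : 𝓞 K)} := by
    rw [span_gen, hI₀, mul_comm]
  obtain ⟨u, hu⟩ := Ideal.span_singleton_eq_span_singleton.mp h3
  refine ⟨(⟨⟨I₀, hI₀mem⟩, hcl⟩, u), Subtype.ext ?_⟩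
  rw [param_coe, mul_comm]
  exact hu

variable (K)

/-- The main summation identity, in `HasSum` form (for `s ≠ 0`). -/
theorem hasSum_classZeta {C : ClassGroup (𝓞 K)} {J : (Ideal (𝓞 K))⁰}
    (hJ : ClassGroup.mk0 J = C⁻¹) {s : ℝ} (hs : s ≠ 0)
    (hsum : Summable fun a : 𝓞 K ↦ G K s (mixedEmbedding K (a : K))) :
    HasSum (fun I : {I : (Ideal (𝓞 K))⁰ // ClassGroup.mk0 I = C} ↦
        (torsionOrder K : ℝ) * ((Ideal.absNorm (I.1 : Ideal (𝓞 K)) : ℝ) ^ (-s) *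
          (Ideal.absNorm (J : Ideal (𝓞 K)) : ℝ) ^ (-s)))
      (∑' b : (J : Ideal (𝓞 K)), G K s (mixedEmbedding K ((b : 𝓞 K) : K))) := by
  set F : ↥(J : Ideal (𝓞 K)) → ℝ := fun b ↦ G K s (mixedEmbedding K ((b : 𝓞 K) : K)) with hF
  have hFsum : Summable F := hsum.comp_injective Subtype.val_injective
  have hsupp : Function.support F ⊆ Set.range (param (C := C) hJ) := by
    intro b hb
    refine mem_range_param hJ b ?_
    intro h0
    apply hb
    simp only [hF]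
    rw [h0]
    exact G_zero K hs
  have h1 : Summable (F ∘ param (C := C) hJ) := hFsum.comp_injective (param_injective hJ)
  have h2 : ∑' p, (F ∘ param (C := C) hJ) p = ∑' b, F b :=
    (param_injective hJ).tsum_eq hsupp
  have h3 : HasSum (F ∘ param (C := C) hJ) (∑' b, F b) := h2 ▸ h1.hasSum
  refine h3.prod_fiberwise fun I ↦ ?_
  have h4 := hasSum_G_unit_mul K s (gen_ne_zero hJ I)
  rw [span_gen hJ I, map_mul, Nat.cast_mul,
    Real.mul_rpow (Nat.cast_nonneg _) (Nat.cast_nonneg _)] at h4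
  exact h4

end IdealSide

open IdealSide

/-! ### Package I: the ideal side -/

theorem summable_classZeta (C : ClassGroup (𝓞 K)) (s : ℝ)
    (hsum : Summable fun a : 𝓞 K ↦ G K s (mixedEmbedding K (a : K))) :
    Summable fun I : {I : (Ideal (𝓞 K))⁰ // ClassGroup.mk0 I = C} ↦
      (Ideal.absNorm (I.1 : Ideal (𝓞 K)) : ℝ) ^ (-s) := by
  by_cases hs : s = 0
  · subst hs
    exact absurd hsum (not_summable_G_zero K)
  obtain ⟨J, hJ⟩ := ClassGroup.mk0_surjective C⁻¹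
  have h := (hasSum_classZeta K hJ hs hsum).summable
  have hw : (torsionOrder K : ℝ) ≠ 0 := Nat.cast_ne_zero.mpr (torsionOrder_ne_zero K)
  have hn : (Ideal.absNorm (J : Ideal (𝓞 K)) : ℝ) ^ (-s) ≠ 0 :=
    (Real.rpow_pos_of_pos (Nat.cast_pos.mpr (Ideal.absNorm_pos_of_nonZeroDivisors J)) _).ne'
  have h' := (summable_mul_left_iff hw).mp h
  exact (summable_mul_right_iff hn).mp h'

theorem torsionOrder_mul_classZeta (C : ClassGroup (𝓞 K)) (J : (Ideal (𝓞 K))⁰)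
    (hJ : ClassGroup.mk0 J = C⁻¹) (s : ℝ)
    (hsum : Summable fun a : 𝓞 K ↦ G K s (mixedEmbedding K (a : K))) :
    (torsionOrder K : ℝ) * classZeta K C s =
      (Ideal.absNorm (J : Ideal (𝓞 K)) : ℝ) ^ s *
        ∑' b : (J : Ideal (𝓞 K)), G K s (mixedEmbedding K ((b : 𝓞 K) : K)) := by
  by_cases hs : s = 0
  · subst hs
    exact absurd hsum (not_summable_G_zero K)
  have h := (hasSum_classZeta K hJ hs hsum).tsum_eq
  rw [tsum_mul_left, tsum_mul_right] at h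
  have hpos : (0 : ℝ) < (Ideal.absNorm (J : Ideal (𝓞 K)) : ℝ) :=
    Nat.cast_pos.mpr (Ideal.absNorm_pos_of_nonZeroDivisors J)
  have hn : (Ideal.absNorm (J : Ideal (𝓞 K)) : ℝ) ^ s *
      (Ideal.absNorm (J : Ideal (𝓞 K)) : ℝ) ^ (-s) = 1 := by
    rw [← Real.rpow_add hpos, add_neg_cancel, Real.rpow_zero]
  unfold classZeta
  rw [← h]
  calc (torsionOrder K : ℝ) * ∑' I : {I : (Ideal (𝓞 K))⁰ // ClassGroup.mk0 I = C},
          (Ideal.absNorm (I.1 : Ideal (𝓞 K)) : ℝ) ^ (-s)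
      = ((Ideal.absNorm (J : Ideal (𝓞 K)) : ℝ) ^ s * (Ideal.absNorm (J : Ideal (𝓞 K)) : ℝ) ^ (-s)) *
          ((torsionOrder K : ℝ) * ∑' I : {I : (Ideal (𝓞 K))⁰ // ClassGroup.mk0 I = C},
            (Ideal.absNorm (I.1 : Ideal (𝓞 K)) : ℝ) ^ (-s)) := by rw [hn, one_mul]
    _ = _ := by ring

end Fermat.Agent.S14.BL
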