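/-
S14 / package BL, file LA: estimates for the smoothed summand `G` on the mixed space.
-/
import Fermat.Agent.S14.BLUnit

set_option autoImplicit false
noncomputable section

open scoped nonZeroDivisors Classical
open NumberField NumberField.mixedEmbedding NumberField.InfinitePlace NumberField.Units
  NumberField.Units.dirichletUnitTheorem Module

namespace Fermat.Agent.S14.BL

/-! ### Elementary real inequalities -/

theorem abs_log_sub_log_le {a b ρ : ℝ} (hρ : 0 < ρ) (ha : ρ ≤ a) (hb : ρ ≤ b) :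
    |Real.log a - Real.log b| ≤ |a - b| / ρ := by
  have ha0 : 0 < a := lt_of_lt_of_le hρ ha
  have hb0 : 0 < b := lt_of_lt_of_le hρ hb
  have h1 : Real.log a - Real.log b ≤ |a - b| / ρ := by
    have h := Real.log_le_sub_one_of_pos (div_pos ha0 hb0)
    rw [Real.log_div ha0.ne' hb0.ne'] at h
    have h2 : a / b - 1 = (a - b) / b := by field_simp
    rw [h2] at h
    refine h.trans ?_
    calc (a - b) / b ≤ |a - b| / b := div_le_div_of_nonneg_right (le_abs_self _) hb0.le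
      _ ≤ |a - b| / ρ := div_le_div_of_nonneg_left (abs_nonneg _) hρ hb
  have h1' : Real.log b - Real.log a ≤ |a - b| / ρ := by
    have h := Real.log_le_sub_one_of_pos (div_pos hb0 ha0)
    rw [Real.log_div hb0.ne' ha0.ne'] at h
    have h2 : b / a - 1 = (b - a) / a := by field_simp
    rw [h2] at h
    refine h.trans ?_
    calc (b - a) / a ≤ |a - b| / a := div_le_div_of_nonneg_right (by rw [abs_sub_comm]; exact le_abs_self _) ha0.le
      _ ≤ |a - b| / ρ := div_le_div_of_nonneg_left (abs_nonneg _) hρ ha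
  rw [abs_le]
  constructor <;> linarith

theorem abs_exp_sub_exp_le (p q : ℝ) :
    |Real.exp p - Real.exp q| ≤ max (Real.exp p) (Real.exp q) * |p - q| := by
  have key : ∀ p q : ℝ, q ≤ p → |Real.exp p - Real.exp q| ≤ Real.exp p * |p - q| := by
    intro p q hqp
    have h0 : Real.exp q ≤ Real.exp p := Real.exp_le_exp.mpr hqp
    rw [abs_of_nonneg (by linarith), abs_of_nonneg (by linarith)]
    have h1 : Real.exp q = Real.exp p * Real.exp (q - p) := by
      rw [← Real.exp_add]; congr 1; ring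
    have h2 : 1 + (q - p) ≤ Real.exp (q - p) := by linarith [Real.add_one_le_exp (q - p)]
    have h3 : 0 < Real.exp p := Real.exp_pos p
    rw [h1]
    nlinarith
  rcases le_total q p with h | h
  · exact (key p q h).trans (mul_le_mul_of_nonneg_right (le_max_left _ _) (abs_nonneg _))
  · rw [abs_sub_comm, abs_sub_comm p q]
    exact (key q p h).trans (mul_le_mul_of_nonneg_right (le_max_right _ _) (abs_nonneg _))

variable {K : Type*} [Field K] [NumberField K]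

/-! ### The places of the mixed space -/

theorem normAtPlace_le_norm (w : InfinitePlace K) (x : mixedSpace K) :
    normAtPlace w x ≤ ‖x‖ := by
  rw [norm_eq_sup'_normAtPlace]
  exact Finset.le_sup' (fun w => normAtPlace w x) (Finset.mem_univ w)

theorem abs_normAtPlace_sub_le (w : InfinitePlace K) (x y : mixedSpace K) :
    |normAtPlace w x - normAtPlace w y| ≤ ‖x - y‖ := by
  have h1 : normAtPlace w x ≤ normAtPlace w y + normAtPlace w (x - y) := by
    have := normAtPlace_add_le w y (x - y)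
    rwa [add_sub_cancel] at this
  have h2 : normAtPlace w y ≤ normAtPlace w x + normAtPlace w (x - y) := by
    have := normAtPlace_add_le w x (-(x - y))
    rw [normAtPlace_neg] at this
    have e : x + -(x - y) = y := by abel
    rwa [e] at this
  have h3 := normAtPlace_le_norm w (x - y)
  rw [abs_le]
  constructor <;> linarith

theorem exists_norm_eq_normAtPlace (x : mixedSpace K) : ∃ w, ‖x‖ = normAtPlace w x := by
  rw [norm_eq_sup'_normAtPlace]
  obtain ⟨w, -, hw⟩ := Finset.exists_mem_eq_sup' Finset.univ_nonempty (fun w => normAtPlace w x)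
  exact ⟨w, hw⟩

theorem log_norm_eq {x : mixedSpace K} (hx : mixedEmbedding.norm x ≠ 0) :
    Real.log (mixedEmbedding.norm x) = ∑ w, (mult w : ℝ) * Real.log (normAtPlace w x) := by
  rw [mixedEmbedding.norm_apply, Real.log_prod]
  · refine Finset.sum_congr rfl fun w _ => ?_
    rw [Real.log_pow]
  · intro w _
    exact pow_ne_zero _ (mixedEmbedding.norm_ne_zero_iff.mp hx w)

theorem pow_le_norm {x : mixedSpace K} {ρ : ℝ} (hρ : 0 ≤ ρ) (h : ∀ w, ρ ≤ normAtPlace w x) :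
    ρ ^ finrank ℚ K ≤ mixedEmbedding.norm x := by
  rw [mixedEmbedding.norm_apply, ← sum_mult_eq, ← Finset.prod_pow_eq_pow_sum]
  exact Finset.prod_le_prod (fun w _ => pow_nonneg hρ _) fun w _ => pow_le_pow_left₀ hρ (h w) _

theorem sum_mult_cast_eq : ∑ w : InfinitePlace K, (mult w : ℝ) = (finrank ℚ K : ℝ) := by
  rw [← Nat.cast_sum, sum_mult_eq]

theorem one_le_mult_cast (w : InfinitePlace K) : (1 : ℝ) ≤ (mult w : ℝ) := by
  have : 1 ≤ mult w := by unfold mult; split_ifs <;> norm_num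
  exact_mod_cast this

theorem mult_cast_le_two (w : InfinitePlace K) : (mult w : ℝ) ≤ 2 := by
  have : mult w ≤ 2 := by unfold mult; split_ifs <;> norm_num
  exact_mod_cast this

/-! ### Comparability of the places on the support of `G` -/

/-- On the support of `theta ∘ logMap`, `log (normAtPlace w x) - log (norm x) / d` is bounded. -/
theorem exists_abs_log_normAtPlace_sub_le (K : Type*) [Field K] [NumberField K] :
    ∃ A : ℝ, 0 ≤ A ∧ ∀ x : mixedSpace K, mixedEmbedding.norm x ≠ 0 → theta K (logMap x) ≠ 0 →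
      ∀ w, |Real.log (normAtPlace w x) -
        Real.log (mixedEmbedding.norm x) * (finrank ℚ K : ℝ)⁻¹| ≤ A := by
  obtain ⟨A, hA0, hA⟩ := exists_norm_le_of_theta_ne_zero K
  refine ⟨(Fintype.card {w : InfinitePlace K // w ≠ w₀} + 1) * A, by positivity,
    fun x hx hθ w => ?_⟩
  set u : InfinitePlace K → ℝ := fun w => Real.log (normAtPlace w x) -
    Real.log (mixedEmbedding.norm x) * (finrank ℚ K : ℝ)⁻¹ with hu
  have hd : (finrank ℚ K : ℝ) ≠ 0 := Nat.cast_ne_zero.mpr finrank_pos.ne'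
  have hlog : ∀ w : {w : InfinitePlace K // w ≠ w₀}, logMap x w = (mult w.1 : ℝ) * u w.1 :=
    fun w => logMap_apply x w
  have hle : ∀ w : {w : InfinitePlace K // w ≠ w₀}, |logMap x w| ≤ A := fun w =>
    (Real.norm_eq_abs _ ▸ norm_le_pi_norm (logMap x) w).trans (hA _ hθ)
  have hsum : ∑ w, (mult w : ℝ) * u w = 0 := by
    simp only [hu, mul_sub, Finset.sum_sub_distrib]
    rw [← log_norm_eq hx, ← Finset.sum_mul, sum_mult_cast_eq]
    field_simp
    ring
  have h1 : ∀ w : {w : InfinitePlace K // w ≠ w₀}, |u w.1| ≤ A := by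
    intro w
    have := hle w
    rw [hlog w, abs_mul, abs_of_pos (lt_of_lt_of_le one_pos (one_le_mult_cast w.1))] at this
    exact (le_mul_of_one_le_left (abs_nonneg _) (one_le_mult_cast w.1)).trans this
  have h0 : |u w₀| ≤ Fintype.card {w : InfinitePlace K // w ≠ w₀} * A := by
    rw [Fintype.sum_eq_add_sum_subtype_ne _ w₀] at hsum
    have e : (mult (w₀ : InfinitePlace K) : ℝ) * u w₀ =
        -∑ w : {w : InfinitePlace K // w ≠ w₀}, logMap x w := by
      simp only [hlog]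
      linarith
    have h2 : |(mult (w₀ : InfinitePlace K) : ℝ) * u w₀| ≤
        Fintype.card {w : InfinitePlace K // w ≠ w₀} * A := by
      rw [e, abs_neg]
      calc |∑ w : {w : InfinitePlace K // w ≠ w₀}, logMap x w|
          ≤ ∑ w : {w : InfinitePlace K // w ≠ w₀}, |logMap x w| := Finset.abs_sum_le_sum_abs _ _
        _ ≤ ∑ _w : {w : InfinitePlace K // w ≠ w₀}, A := Finset.sum_le_sum fun w _ => hle w
        _ = Fintype.card {w : InfinitePlace K // w ≠ w₀} * A := by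
          rw [Finset.sum_const, Finset.card_univ, nsmul_eq_mul]
    rw [abs_mul, abs_of_pos (lt_of_lt_of_le one_pos (one_le_mult_cast w₀))] at h2
    exact (le_mul_of_one_le_left (abs_nonneg _) (one_le_mult_cast w₀)).trans h2
  by_cases hw : w = w₀
  · subst hw
    calc |u w₀| ≤ Fintype.card {w : InfinitePlace K // w ≠ w₀} * A := h0
      _ ≤ (Fintype.card {w : InfinitePlace K // w ≠ w₀} + 1) * A := by nlinarith
  · calc |u w| ≤ A := h1 ⟨w, hw⟩
      _ ≤ (Fintype.card {w : InfinitePlace K // w ≠ w₀} + 1) * A := by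
        have : (0 : ℝ) ≤ Fintype.card {w : InfinitePlace K // w ≠ w₀} := Nat.cast_nonneg _
        nlinarith

/-- On the support of `G`, every place is comparable to the sup norm. -/
theorem exists_le_normAtPlace' (K : Type*) [Field K] [NumberField K] :
    ∃ m : ℝ, 0 < m ∧ m ≤ 1 ∧ ∀ x : mixedSpace K, mixedEmbedding.norm x ≠ 0 →
      theta K (logMap x) ≠ 0 → ∀ w, m * ‖x‖ ≤ normAtPlace w x := by
  obtain ⟨A, hA0, hA⟩ := exists_abs_log_normAtPlace_sub_le K
  refine ⟨Real.exp (-(2 * A)), Real.exp_pos _, ?_, fun x hx hθ w => ?_⟩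
  · rw [← Real.exp_zero]; exact Real.exp_le_exp.mpr (by linarith)
  set ν : ℝ := Real.exp (Real.log (mixedEmbedding.norm x) * (finrank ℚ K : ℝ)⁻¹) with hν
  have hpos : ∀ w, 0 < normAtPlace w x := fun w =>
    lt_of_le_of_ne (normAtPlace_nonneg w x) (Ne.symm (mixedEmbedding.norm_ne_zero_iff.mp hx w))
  have hrep : ∀ w, normAtPlace w x = Real.exp (Real.log (normAtPlace w x) -
      Real.log (mixedEmbedding.norm x) * (finrank ℚ K : ℝ)⁻¹) * ν := by
    intro w
    rw [hν, ← Real.exp_add, sub_add_cancel, Real.exp_log (hpos w)]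
  have hνpos : 0 < ν := Real.exp_pos _
  have hup : ∀ w, normAtPlace w x ≤ Real.exp A * ν := by
    intro w
    rw [hrep w]
    exact mul_le_mul_of_nonneg_right (Real.exp_le_exp.mpr (le_of_abs_le (hA x hx hθ w))) hνpos.le
  have hlo : ∀ w, Real.exp (-A) * ν ≤ normAtPlace w x := by
    intro w
    rw [hrep w]
    exact mul_le_mul_of_nonneg_right
      (Real.exp_le_exp.mpr (neg_le_of_abs_le (hA x hx hθ w))) hνpos.le
  obtain ⟨w₁, hw₁⟩ := exists_norm_eq_normAtPlace x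
  have h1 : ‖x‖ ≤ Real.exp A * ν := hw₁ ▸ hup w₁
  calc Real.exp (-(2 * A)) * ‖x‖ ≤ Real.exp (-(2 * A)) * (Real.exp A * ν) :=
        mul_le_mul_of_nonneg_left h1 (Real.exp_pos _).le
    _ = Real.exp (-A) * ν := by
        rw [← mul_assoc, ← Real.exp_add]; congr 2; ring
    _ ≤ normAtPlace w x := hlo w

theorem exists_le_normAtPlace (K : Type*) [Field K] [NumberField K] :
    ∃ m : ℝ, 0 < m ∧ ∀ x : mixedSpace K, mixedEmbedding.norm x ≠ 0 → theta K (logMap x) ≠ 0 →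
      ∀ w, m * ‖x‖ ≤ normAtPlace w x := by
  obtain ⟨m, hm, -, h⟩ := exists_le_normAtPlace' K
  exact ⟨m, hm, h⟩

/-! ### The bound `G ≤ c ‖x‖ ^ (-d s)` -/

theorem norm_ne_zero_of_le_normAtPlace {x : mixedSpace K} {ρ : ℝ} (hρ : 0 < ρ)
    (hx : ∀ w, ρ ≤ normAtPlace w x) : mixedEmbedding.norm x ≠ 0 :=
  mixedEmbedding.norm_ne_zero_iff.mpr fun w => (lt_of_lt_of_le hρ (hx w)).ne'

theorem norm_rpow_neg_le {x : mixedSpace K} {ρ : ℝ} (hρ : 0 < ρ)
    (hx : ∀ w, ρ ≤ normAtPlace w x) {s : ℝ} (hs : 0 ≤ s) :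
    mixedEmbedding.norm x ^ (-s) ≤ ρ ^ (-(finrank ℚ K : ℝ) * s) := by
  have h1 : ρ ^ finrank ℚ K ≤ mixedEmbedding.norm x := pow_le_norm hρ.le hx
  have h2 : mixedEmbedding.norm x ^ (-s) ≤ (ρ ^ finrank ℚ K) ^ (-s) :=
    Real.rpow_le_rpow_of_nonpos (pow_pos hρ _) h1 (by linarith)
  have h3 : (ρ ^ finrank ℚ K) ^ (-s) = ρ ^ (-(finrank ℚ K : ℝ) * s) := by
    rw [← Real.rpow_natCast, ← Real.rpow_mul hρ.le]
    congr 1; ring
  rw [← h3]; exact h2

theorem G_nonneg (K : Type*) [Field K] [NumberField K] (s : ℝ) (x : mixedSpace K) :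
    0 ≤ G K s x :=
  mul_nonneg (theta_nonneg K _) (Real.rpow_nonneg (mixedEmbedding.norm_nonneg _) _)

theorem exists_G_le (K : Type*) [Field K] [NumberField K] :
    ∃ c : ℝ, 0 < c ∧ ∀ s : ℝ, 1 ≤ s → s ≤ 2 → ∀ x : mixedSpace K,
      G K s x ≤ c * ‖x‖ ^ (-(finrank ℚ K : ℝ) * s) := by
  obtain ⟨m, hm0, hm1, hm⟩ := exists_le_normAtPlace' K
  refine ⟨m ^ (-(2 * (finrank ℚ K : ℝ))), Real.rpow_pos_of_pos hm0 _, fun s hs1 hs2 x => ?_⟩
  have hc0 : 0 ≤ m ^ (-(2 * (finrank ℚ K : ℝ))) * ‖x‖ ^ (-(finrank ℚ K : ℝ) * s) :=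
    mul_nonneg (Real.rpow_nonneg hm0.le _) (Real.rpow_nonneg (norm_nonneg _) _)
  by_cases hN : mixedEmbedding.norm x = 0
  · have : G K s x = 0 := by
      rw [G, hN, Real.zero_rpow (by linarith), mul_zero]
    rw [this]; exact hc0
  by_cases hθ : theta K (logMap x) = 0
  · have : G K s x = 0 := by rw [G, hθ, zero_mul]
    rw [this]; exact hc0
  have hx0 : x ≠ 0 := fun h => hN (by rw [h, map_zero])
  have hxpos : 0 < ‖x‖ := norm_pos_iff.mpr hx0
  have hρ : 0 < m * ‖x‖ := mul_pos hm0 hxpos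
  have h1 := norm_rpow_neg_le hρ (hm x hN hθ) (by linarith : (0:ℝ) ≤ s)
  rw [Real.mul_rpow hm0.le (norm_nonneg x)] at h1
  have hd : (0 : ℝ) ≤ (finrank ℚ K : ℝ) := Nat.cast_nonneg _
  have h2 : m ^ (-(finrank ℚ K : ℝ) * s) ≤ m ^ (-(2 * (finrank ℚ K : ℝ))) :=
    Real.rpow_le_rpow_of_exponent_ge hm0 hm1 (by nlinarith)
  calc G K s x = theta K (logMap x) * mixedEmbedding.norm x ^ (-s) := rfl
    _ ≤ 1 * (m ^ (-(finrank ℚ K : ℝ) * s) * ‖x‖ ^ (-(finrank ℚ K : ℝ) * s)) :=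
        mul_le_mul (theta_le_one K _) h1 (Real.rpow_nonneg (mixedEmbedding.norm_nonneg _) _)
          zero_le_one
    _ ≤ m ^ (-(2 * (finrank ℚ K : ℝ))) * ‖x‖ ^ (-(finrank ℚ K : ℝ) * s) := by
        rw [one_mul]
        exact mul_le_mul_of_nonneg_right h2 (Real.rpow_nonneg (norm_nonneg _) _)

/-! ### Lipschitz estimates -/

theorem abs_log_norm_sub_le {x y : mixedSpace K} {ρ : ℝ} (hρ : 0 < ρ)
    (hx : ∀ w, ρ ≤ normAtPlace w x) (hy : ∀ w, ρ ≤ normAtPlace w y) :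
    |Real.log (mixedEmbedding.norm x) - Real.log (mixedEmbedding.norm y)| ≤
      (finrank ℚ K : ℝ) * (‖x - y‖ / ρ) := by
  rw [log_norm_eq (norm_ne_zero_of_le_normAtPlace hρ hx),
    log_norm_eq (norm_ne_zero_of_le_normAtPlace hρ hy), ← Finset.sum_sub_distrib]
  calc |∑ w, ((mult w : ℝ) * Real.log (normAtPlace w x) -
        (mult w : ℝ) * Real.log (normAtPlace w y))|
      ≤ ∑ w, |(mult w : ℝ) * Real.log (normAtPlace w x) -
        (mult w : ℝ) * Real.log (normAtPlace w y)| := Finset.abs_sum_le_sum_abs _ _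
    _ ≤ ∑ w : InfinitePlace K, (mult w : ℝ) * (‖x - y‖ / ρ) := by
        refine Finset.sum_le_sum fun w _ => ?_
        rw [← mul_sub, abs_mul, abs_of_nonneg (Nat.cast_nonneg _)]
        refine mul_le_mul_of_nonneg_left ?_ (Nat.cast_nonneg _)
        exact (abs_log_sub_log_le hρ (hx w) (hy w)).trans
          (div_le_div_of_nonneg_right (abs_normAtPlace_sub_le w x y) hρ.le)
    _ = (finrank ℚ K : ℝ) * (‖x - y‖ / ρ) := by
        rw [← Finset.sum_mul, sum_mult_cast_eq]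

theorem norm_logMap_sub_le {x y : mixedSpace K} {ρ : ℝ} (hρ : 0 < ρ)
    (hx : ∀ w, ρ ≤ normAtPlace w x) (hy : ∀ w, ρ ≤ normAtPlace w y) :
    ‖logMap x - logMap y‖ ≤ 4 * (‖x - y‖ / ρ) := by
  have hδ : 0 ≤ ‖x - y‖ / ρ := div_nonneg (norm_nonneg _) hρ.le
  rw [pi_norm_le_iff_of_nonneg (by positivity)]
  intro w
  rw [Pi.sub_apply, logMap_apply, logMap_apply, ← mul_sub, Real.norm_eq_abs, abs_mul,
    abs_of_nonneg (Nat.cast_nonneg _)]
  have hd : (0 : ℝ) < (finrank ℚ K : ℝ) := Nat.cast_pos.mpr finrank_pos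
  have h1 : |Real.log (normAtPlace w.1 x) - Real.log (normAtPlace w.1 y)| ≤ ‖x - y‖ / ρ :=
    (abs_log_sub_log_le hρ (hx w.1) (hy w.1)).trans
      (div_le_div_of_nonneg_right (abs_normAtPlace_sub_le w.1 x y) hρ.le)
  have h2 : |(Real.log (mixedEmbedding.norm x) - Real.log (mixedEmbedding.norm y)) *
      (finrank ℚ K : ℝ)⁻¹| ≤ ‖x - y‖ / ρ := by
    rw [abs_mul, abs_of_pos (inv_pos.mpr hd)]
    calc _ ≤ (finrank ℚ K : ℝ) * (‖x - y‖ / ρ) * (finrank ℚ K : ℝ)⁻¹ :=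
          mul_le_mul_of_nonneg_right (abs_log_norm_sub_le hρ hx hy) (inv_pos.mpr hd).le
      _ = ‖x - y‖ / ρ := by field_simp
  have e : Real.log (normAtPlace w.1 x) - Real.log (mixedEmbedding.norm x) *
        (finrank ℚ K : ℝ)⁻¹ - (Real.log (normAtPlace w.1 y) -
        Real.log (mixedEmbedding.norm y) * (finrank ℚ K : ℝ)⁻¹) =
      (Real.log (normAtPlace w.1 x) - Real.log (normAtPlace w.1 y)) -
      (Real.log (mixedEmbedding.norm x) - Real.log (mixedEmbedding.norm y)) *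
        (finrank ℚ K : ℝ)⁻¹ := by ring
  rw [e]
  have h3 : |(Real.log (normAtPlace w.1 x) - Real.log (normAtPlace w.1 y)) -
      (Real.log (mixedEmbedding.norm x) - Real.log (mixedEmbedding.norm y)) *
        (finrank ℚ K : ℝ)⁻¹| ≤ 2 * (‖x - y‖ / ρ) := by
    calc _ ≤ _ + _ := abs_sub _ _
      _ ≤ 2 * (‖x - y‖ / ρ) := by linarith
  calc (mult w.1 : ℝ) * _ ≤ 2 * (2 * (‖x - y‖ / ρ)) :=
        mul_le_mul (mult_cast_le_two w.1) h3 (abs_nonneg _) (by norm_num)
    _ = 4 * (‖x - y‖ / ρ) := by ring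

theorem abs_norm_rpow_sub_le {x y : mixedSpace K} {ρ : ℝ} (hρ : 0 < ρ)
    (hx : ∀ w, ρ ≤ normAtPlace w x) (hy : ∀ w, ρ ≤ normAtPlace w y) {s : ℝ} (hs : 0 ≤ s) :
    |mixedEmbedding.norm x ^ (-s) - mixedEmbedding.norm y ^ (-s)| ≤
      ρ ^ (-(finrank ℚ K : ℝ) * s) * (s * ((finrank ℚ K : ℝ) * (‖x - y‖ / ρ))) := by
  have hNx : 0 < mixedEmbedding.norm x :=
    lt_of_le_of_ne (mixedEmbedding.norm_nonneg x) (Ne.symm (norm_ne_zero_of_le_normAtPlace hρ hx))
  have hNy : 0 < mixedEmbedding.norm y :=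
    lt_of_le_of_ne (mixedEmbedding.norm_nonneg y) (Ne.symm (norm_ne_zero_of_le_normAtPlace hρ hy))
  have h1 := abs_exp_sub_exp_le (Real.log (mixedEmbedding.norm x) * (-s))
    (Real.log (mixedEmbedding.norm y) * (-s))
  rw [← Real.rpow_def_of_pos hNx, ← Real.rpow_def_of_pos hNy] at h1
  refine h1.trans ?_
  have h2 : max (mixedEmbedding.norm x ^ (-s)) (mixedEmbedding.norm y ^ (-s)) ≤
      ρ ^ (-(finrank ℚ K : ℝ) * s) :=
    max_le (norm_rpow_neg_le hρ hx hs) (norm_rpow_neg_le hρ hy hs)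
  have h3 : |Real.log (mixedEmbedding.norm x) * (-s) - Real.log (mixedEmbedding.norm y) * (-s)| ≤
      s * ((finrank ℚ K : ℝ) * (‖x - y‖ / ρ)) := by
    have e : Real.log (mixedEmbedding.norm x) * (-s) - Real.log (mixedEmbedding.norm y) * (-s) =
        -s * (Real.log (mixedEmbedding.norm x) - Real.log (mixedEmbedding.norm y)) := by ring
    rw [e, abs_mul, abs_neg, abs_of_nonneg hs]
    exact mul_le_mul_of_nonneg_left (abs_log_norm_sub_le hρ hx hy) hs
  exact mul_le_mul h2 h3 (abs_nonneg _) (Real.rpow_nonneg hρ.le _)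

/-- The main Lipschitz estimate for `G`. -/
theorem exists_G_sub_le (K : Type*) [Field K] [NumberField K] :
    ∃ M κ : ℝ, 0 < M ∧ 0 < κ ∧ ∀ s : ℝ, 1 ≤ s → s ≤ 2 → ∀ x y : mixedSpace K,
      1 ≤ ‖x‖ → ‖x - y‖ ≤ κ * ‖x‖ → G K s x ≠ 0 →
        |G K s x - G K s y| ≤ M * ‖x - y‖ * ‖x‖ ^ (-(finrank ℚ K : ℝ) - 1) := by
  obtain ⟨m, hm0, hm1, hm⟩ := exists_le_normAtPlace' K
  obtain ⟨L, hL0, hL⟩ := exists_theta_lipschitz K
  have hd0 : (0 : ℝ) ≤ (finrank ℚ K : ℝ) := Nat.cast_nonneg _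
  have hm2 : 0 < m / 2 := by positivity
  have hc : 0 < (m / 2) ^ (-(2 * (finrank ℚ K : ℝ))) := Real.rpow_pos_of_pos hm2 _
  refine ⟨(4 * L + 2 * (finrank ℚ K : ℝ) + 1) * (2 / m) * (m / 2) ^ (-(2 * (finrank ℚ K : ℝ))),
    m / 2, by positivity, hm2, fun s hs1 hs2 x y hx1 hxy hG => ?_⟩
  have hθ : theta K (logMap x) ≠ 0 := fun h => hG (by rw [G, h, zero_mul])
  have hN : mixedEmbedding.norm x ≠ 0 := fun h =>
    hG (by rw [G, h, Real.zero_rpow (by linarith), mul_zero])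
  have hxpos : 0 < ‖x‖ := lt_of_lt_of_le one_pos hx1
  set ρ : ℝ := m / 2 * ‖x‖ with hρdef
  have hρ : 0 < ρ := mul_pos hm2 hxpos
  have hx' : ∀ w, ρ ≤ normAtPlace w x := fun w => by
    have := hm x hN hθ w
    have h2 : m / 2 * ‖x‖ ≤ m * ‖x‖ := by nlinarith
    linarith
  have hy' : ∀ w, ρ ≤ normAtPlace w y := fun w => by
    have h1 := hm x hN hθ w
    have h2 := abs_le.mp (abs_normAtPlace_sub_le w x y)
    have h3 : m * ‖x‖ = ρ + m / 2 * ‖x‖ := by rw [hρdef]; ring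
    linarith [h2.2]
  set δ : ℝ := ‖x - y‖ with hδ
  have hδ0 : 0 ≤ δ := norm_nonneg _
  have hq0 : 0 ≤ δ / ρ := div_nonneg hδ0 hρ.le
  set R : ℝ := ρ ^ (-(finrank ℚ K : ℝ) * s) with hR
  have hR0 : 0 ≤ R := Real.rpow_nonneg hρ.le _
  have hs0 : (0 : ℝ) ≤ s := by linarith
  have h1 : |theta K (logMap x) - theta K (logMap y)| ≤ L * (4 * (δ / ρ)) :=
    (hL _ _).trans (mul_le_mul_of_nonneg_left (norm_logMap_sub_le hρ hx' hy') hL0)
  have h2 : |mixedEmbedding.norm x ^ (-s) - mixedEmbedding.norm y ^ (-s)| ≤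
      R * (s * ((finrank ℚ K : ℝ) * (δ / ρ))) := abs_norm_rpow_sub_le hρ hx' hy' hs0
  have h3 : mixedEmbedding.norm x ^ (-s) ≤ R := norm_rpow_neg_le hρ hx' hs0
  have h3' : 0 ≤ mixedEmbedding.norm x ^ (-s) := Real.rpow_nonneg (mixedEmbedding.norm_nonneg _) _
  have h4 : |G K s x - G K s y| ≤ (4 * L + 2 * (finrank ℚ K : ℝ)) * (δ / ρ) * R := by
    have e : G K s x - G K s y =
        (theta K (logMap x) - theta K (logMap y)) * mixedEmbedding.norm x ^ (-s) +
        theta K (logMap y) * (mixedEmbedding.norm x ^ (-s) - mixedEmbedding.norm y ^ (-s)) := by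
      simp only [G]; ring
    rw [e]
    have t1 : |(theta K (logMap x) - theta K (logMap y)) * mixedEmbedding.norm x ^ (-s)| ≤
        L * (4 * (δ / ρ)) * R := by
      rw [abs_mul, abs_of_nonneg h3']
      exact mul_le_mul h1 h3 h3' (by positivity)
    have t2 : |theta K (logMap y) *
        (mixedEmbedding.norm x ^ (-s) - mixedEmbedding.norm y ^ (-s))| ≤
        1 * (R * (2 * ((finrank ℚ K : ℝ) * (δ / ρ)))) := by
      rw [abs_mul, abs_of_nonneg (theta_nonneg K _)]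
      refine mul_le_mul (theta_le_one K _) (h2.trans ?_) (abs_nonneg _) zero_le_one
      refine mul_le_mul_of_nonneg_left ?_ hR0
      exact mul_le_mul_of_nonneg_right hs2 (mul_nonneg hd0 hq0)
    calc _ ≤ _ + _ := abs_add_le _ _
      _ ≤ L * (4 * (δ / ρ)) * R + 1 * (R * (2 * ((finrank ℚ K : ℝ) * (δ / ρ)))) :=
          add_le_add t1 t2
      _ = (4 * L + 2 * (finrank ℚ K : ℝ)) * (δ / ρ) * R := by ring
  -- now bound `R` and `δ / ρ`
  have hR1 : R ≤ (m / 2) ^ (-(2 * (finrank ℚ K : ℝ))) * ‖x‖ ^ (-(finrank ℚ K : ℝ)) := by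
    rw [hR, hρdef, Real.mul_rpow hm2.le (norm_nonneg x)]
    have a1 : (m / 2) ^ (-(finrank ℚ K : ℝ) * s) ≤ (m / 2) ^ (-(2 * (finrank ℚ K : ℝ))) :=
      Real.rpow_le_rpow_of_exponent_ge hm2 (by linarith) (by nlinarith)
    have a2 : ‖x‖ ^ (-(finrank ℚ K : ℝ) * s) ≤ ‖x‖ ^ (-(finrank ℚ K : ℝ)) :=
      Real.rpow_le_rpow_of_exponent_le hx1 (by nlinarith)
    exact mul_le_mul a1 a2 (Real.rpow_nonneg (norm_nonneg _) _) hc.le
  have hq : δ / ρ = 2 / m * δ * ‖x‖ ^ (-1 : ℝ) := by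
    rw [hρdef, Real.rpow_neg_one]
    field_simp
  have hpow : ‖x‖ ^ (-(finrank ℚ K : ℝ) - 1) = ‖x‖ ^ (-1 : ℝ) * ‖x‖ ^ (-(finrank ℚ K : ℝ)) := by
    rw [← Real.rpow_add hxpos]; congr 1; ring
  have hx1' : 0 ≤ ‖x‖ ^ (-1 : ℝ) := Real.rpow_nonneg (norm_nonneg _) _
  have hxd : 0 ≤ ‖x‖ ^ (-(finrank ℚ K : ℝ)) := Real.rpow_nonneg (norm_nonneg _) _
  calc |G K s x - G K s y| ≤ (4 * L + 2 * (finrank ℚ K : ℝ)) * (δ / ρ) * R := h4
    _ ≤ (4 * L + 2 * (finrank ℚ K : ℝ)) * (δ / ρ) *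
        ((m / 2) ^ (-(2 * (finrank ℚ K : ℝ))) * ‖x‖ ^ (-(finrank ℚ K : ℝ))) :=
        mul_le_mul_of_nonneg_left hR1 (by positivity)
    _ = (4 * L + 2 * (finrank ℚ K : ℝ)) * (2 / m) * (m / 2) ^ (-(2 * (finrank ℚ K : ℝ))) * δ *
        ‖x‖ ^ (-(finrank ℚ K : ℝ) - 1) := by
        rw [hq, hpow]; ring
    _ ≤ (4 * L + 2 * (finrank ℚ K : ℝ) + 1) * (2 / m) * (m / 2) ^ (-(2 * (finrank ℚ K : ℝ))) * δ *
        ‖x‖ ^ (-(finrank ℚ K : ℝ) - 1) := by
        have hnn : 0 ≤ ‖x‖ ^ (-(finrank ℚ K : ℝ) - 1) := Real.rpow_nonneg (norm_nonneg _) _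
        have h5 : (4 * L + 2 * (finrank ℚ K : ℝ)) * (2 / m) ≤
            (4 * L + 2 * (finrank ℚ K : ℝ) + 1) * (2 / m) :=
          mul_le_mul_of_nonneg_right (by linarith) (by positivity)
        exact mul_le_mul_of_nonneg_right (mul_le_mul_of_nonneg_right
          (mul_le_mul_of_nonneg_right h5 hc.le) hδ0) hnn

end Fermat.Agent.S14.BL
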