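/-
S14 / package BL, file LB1: summability of the smoothed summand `G` over the integer lattice and
the bound `∑ G = O(1 / (s - 1))`.
-/
import Fermat.Agent.S14.BLAnalytic

set_option autoImplicit false
noncomputable section

open scoped nonZeroDivisors Classical
open NumberField NumberField.mixedEmbedding NumberField.InfinitePlace NumberField.Units
  NumberField.Units.dirichletUnitTheorem Module

namespace Fermat.Agent.S14.BL

/-! ### The series `∑ k ^ (-1 - ε)` -/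

theorem rpow_step_le {ε : ℝ} (hε : 0 < ε) {t : ℝ} (ht : 1 ≤ t) :
    ε * (t + 1) ^ (-1 - ε) ≤ t ^ (-ε) - (t + 1) ^ (-ε) := by
  have ht0 : 0 < t := lt_of_lt_of_le one_pos ht
  have ht1 : 0 < t + 1 := by linarith
  have hq : 0 < t / (t + 1) := div_pos ht0 ht1
  have e1 : (t + 1) ^ (-1 - ε) = (t + 1) ^ (-ε) * (t + 1)⁻¹ := by
    rw [← Real.rpow_neg_one (t + 1), ← Real.rpow_add ht1]; congr 1; ring
  have e2 : t ^ (-ε) = (t + 1) ^ (-ε) * (t / (t + 1)) ^ (-ε) := by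
    rw [← Real.mul_rpow ht1.le hq.le]; congr 1; field_simp
  have h3 : 1 + ε * (t + 1)⁻¹ ≤ (t / (t + 1)) ^ (-ε) := by
    rw [Real.rpow_def_of_pos hq]
    have h4 : 1 - (t / (t + 1))⁻¹ ≤ Real.log (t / (t + 1)) := Real.one_sub_inv_le_log_of_pos hq
    have h5 : -Real.log (t / (t + 1)) = Real.log ((t / (t + 1))⁻¹) := (Real.log_inv _).symm
    have h6 : 1 - (t / (t + 1)) ≤ Real.log ((t / (t + 1))⁻¹) := by
      have := Real.one_sub_inv_le_log_of_pos (inv_pos.mpr hq)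
      rwa [inv_inv] at this
    have h7 : 1 - t / (t + 1) = (t + 1)⁻¹ := by field_simp; ring
    have h8 : ε * (t + 1)⁻¹ ≤ Real.log (t / (t + 1)) * (-ε) := by
      have : (t + 1)⁻¹ ≤ -Real.log (t / (t + 1)) := by rw [h5, ← h7]; exact h6
      nlinarith
    calc 1 + ε * (t + 1)⁻¹ ≤ 1 + Real.log (t / (t + 1)) * (-ε) := by linarith
      _ ≤ Real.exp (Real.log (t / (t + 1)) * (-ε)) := by
          linarith [Real.add_one_le_exp (Real.log (t / (t + 1)) * (-ε))]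
  have hpos : 0 < (t + 1) ^ (-ε) := Real.rpow_pos_of_pos ht1 _
  rw [e1, e2]
  nlinarith

theorem sum_range_rpow_le {ε : ℝ} (hε : 0 < ε) (n : ℕ) :
    ∑ k ∈ Finset.range (n + 2), (k : ℝ) ^ (-1 - ε) ≤
      1 + ε⁻¹ * (1 - ((n + 1 : ℕ) : ℝ) ^ (-ε)) := by
  induction n with
  | zero =>
    rw [Finset.sum_range_succ, Finset.sum_range_one]
    simp only [Nat.cast_zero, Nat.cast_one, zero_add, Real.one_rpow, sub_self, mul_zero, add_zero]
    rw [Real.zero_rpow (by linarith)]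
    norm_num
  | succ n ih =>
    rw [Finset.sum_range_succ]
    have h := rpow_step_le hε (t := ((n + 1 : ℕ) : ℝ)) (by
      have : (1 : ℝ) ≤ ((n + 1 : ℕ) : ℝ) := by exact_mod_cast Nat.succ_le_succ (Nat.zero_le n)
      exact this)
    have e : (((n + 1 : ℕ) : ℝ) + 1) = ((n + 1 + 1 : ℕ) : ℝ) := by push_cast; ring
    rw [e] at h
    have hε' : 0 < ε⁻¹ := inv_pos.mpr hε
    have h2 : ((n + 1 + 1 : ℕ) : ℝ) ^ (-1 - ε) ≤
        ε⁻¹ * (((n + 1 : ℕ) : ℝ) ^ (-ε) - ((n + 1 + 1 : ℕ) : ℝ) ^ (-ε)) := by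
      rw [← mul_le_mul_iff_right₀ hε, ← mul_assoc, mul_inv_cancel₀ hε.ne', one_mul]
      exact h
    have e2 : (n + 2 : ℕ) = n + 1 + 1 := rfl
    rw [e2]
    linarith

theorem tsum_rpow_le {ε : ℝ} (hε : 0 < ε) :
    ∑' k : ℕ, (k : ℝ) ^ (-1 - ε) ≤ 1 + ε⁻¹ := by
  refine Real.tsum_le_of_sum_range_le (fun n => Real.rpow_nonneg (Nat.cast_nonneg _) _) fun n => ?_
  have hε' : 0 < ε⁻¹ := inv_pos.mpr hε
  have hmono : ∑ k ∈ Finset.range n, (k : ℝ) ^ (-1 - ε) ≤
      ∑ k ∈ Finset.range (n + 2), (k : ℝ) ^ (-1 - ε) :=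
    Finset.sum_le_sum_of_subset_of_nonneg (Finset.range_mono (by omega))
      fun _ _ _ => Real.rpow_nonneg (Nat.cast_nonneg _) _
  refine hmono.trans ((sum_range_rpow_le hε n).trans ?_)
  have : 0 ≤ ((n + 1 : ℕ) : ℝ) ^ (-ε) := Real.rpow_nonneg (Nat.cast_nonneg _) _
  nlinarith

variable (K : Type*) [Field K] [NumberField K]

/-! ### The integer lattice -/

/-- `𝓞 K` as the integer lattice of the mixed space. -/
def intLatticeEquiv : 𝓞 K ≃ mixedEmbedding.integerLattice K :=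
  (LinearEquiv.ofInjective
    ((mixedEmbedding K).comp (algebraMap (𝓞 K) K)).toIntAlgHom.toLinearMap
    ((mixedEmbedding_injective K).comp (RingOfIntegers.coe_injective))).toEquiv

theorem coe_intLatticeEquiv (a : 𝓞 K) :
    ((intLatticeEquiv K a : mixedEmbedding.integerLattice K) : mixedSpace K) =
      mixedEmbedding K (a : K) := rfl

theorem finrank_integerLattice :
    finrank ℤ (mixedEmbedding.integerLattice K) = finrank ℚ K := by
  rw [ZLattice.rank ℝ, mixedEmbedding.finrank]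

theorem summable_norm_rpow_int {r : ℝ} (hr : r < -(finrank ℚ K : ℝ)) :
    Summable fun a : 𝓞 K ↦ ‖mixedEmbedding K (a : K)‖ ^ r := by
  have h := ZLattice.summable_norm_rpow (mixedEmbedding.integerLattice K) r
    (by rw [finrank_integerLattice]; exact hr)
  exact ((intLatticeEquiv K).summable_iff (f := fun z : mixedEmbedding.integerLattice K ↦ ‖z‖ ^ r)).mpr h

theorem tsum_norm_rpow_int_le {r : ℝ} (hr : r < -(finrank ℚ K : ℝ)) :
    ∑' a : 𝓞 K, ‖mixedEmbedding K (a : K)‖ ^ r ≤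
      ZLattice.tsumNormRPowBound (mixedEmbedding.integerLattice K) ^ r *
        ∑' k : ℕ, (k : ℝ) ^ ((finrank ℚ K : ℝ) - 1 + r) := by
  have h := ZLattice.tsum_norm_rpow_le (mixedEmbedding.integerLattice K) r
    (by rw [finrank_integerLattice]; exact hr)
  rw [finrank_integerLattice] at h
  rw [← (intLatticeEquiv K).tsum_eq (fun z : mixedEmbedding.integerLattice K ↦ ‖z‖ ^ r)] at h
  exact h

/-! ### Lattice points have norm `0` or `≥ 1` -/

theorem one_le_norm_of_ne_zero {a : 𝓞 K} (ha : a ≠ 0) :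
    1 ≤ mixedEmbedding.norm (mixedEmbedding K (a : K)) := by
  rw [mixedEmbedding.norm_eq_norm, ← Algebra.coe_norm_int]
  have h : Algebra.norm ℤ a ≠ 0 := by
    rwa [Ne, Algebra.norm_eq_zero_iff]
  have h1 : (1 : ℤ) ≤ |Algebra.norm ℤ a| := Int.one_le_abs h
  exact_mod_cast h1

theorem norm_rpow_le_one (a : 𝓞 K) {s : ℝ} (hs : 0 ≤ s) :
    mixedEmbedding.norm (mixedEmbedding K (a : K)) ^ (-s) ≤ 1 := by
  by_cases ha : a = 0
  · subst ha
    simp only [map_zero]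
    rcases hs.eq_or_lt with h | h
    · rw [← h]; simp
    · rw [Real.zero_rpow (by linarith)]; exact zero_le_one
  · exact Real.rpow_le_one_of_one_le_of_nonpos (one_le_norm_of_ne_zero K ha) (by linarith)

theorem G_int_le_one (a : 𝓞 K) {s : ℝ} (hs : 0 ≤ s) : G K s (mixedEmbedding K (a : K)) ≤ 1 := by
  have h1 := theta_le_one K (logMap (mixedEmbedding K (a : K)))
  have h2 := norm_rpow_le_one K a hs
  have h3 := theta_nonneg K (logMap (mixedEmbedding K (a : K)))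
  have h4 : 0 ≤ mixedEmbedding.norm (mixedEmbedding K (a : K)) ^ (-s) :=
    Real.rpow_nonneg (mixedEmbedding.norm_nonneg _) _
  calc G K s (mixedEmbedding K (a : K)) ≤ 1 * 1 := mul_le_mul h1 h2 h4 zero_le_one
    _ = 1 := one_mul 1

/-! ### Summability and the `O(1 / (s - 1))` bound -/

theorem summable_G_of_le_two {s : ℝ} (hs : 1 < s) (hs2 : s ≤ 2) :
    Summable fun a : 𝓞 K ↦ G K s (mixedEmbedding K (a : K)) := by
  obtain ⟨c, hc, hG⟩ := exists_G_le K
  have hd : (0 : ℝ) < (finrank ℚ K : ℝ) := Nat.cast_pos.mpr finrank_pos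
  have hr : -(finrank ℚ K : ℝ) * s < -(finrank ℚ K : ℝ) := by nlinarith
  exact Summable.of_nonneg_of_le (fun a => G_nonneg K s _) (fun a => hG s hs.le hs2 _)
    ((summable_norm_rpow_int K hr).mul_left c)

theorem summable_G (s : ℝ) (hs : 1 < s) :
    Summable fun a : 𝓞 K ↦ G K s (mixedEmbedding K (a : K)) := by
  rcases le_or_gt s 2 with h | h
  · exact summable_G_of_le_two K hs h
  · refine Summable.of_nonneg_of_le (fun a => G_nonneg K s _) (fun a => ?_)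
      (summable_G_of_le_two K (by norm_num : (1:ℝ) < 2) le_rfl)
    refine mul_le_mul_of_nonneg_left ?_ (theta_nonneg K _)
    by_cases ha : a = 0
    · subst ha
      simp only [map_zero]
      rw [Real.zero_rpow (by linarith), Real.zero_rpow (by norm_num)]
    · exact Real.rpow_le_rpow_of_exponent_le (one_le_norm_of_ne_zero K ha) (by linarith)

theorem exists_bound_tsum_G :
    ∃ B : ℝ, ∀ s : ℝ, 1 < s → s ≤ 2 →
      (∑' a : 𝓞 K, G K s (mixedEmbedding K (a : K))) ≤ B / (s - 1) := by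
  obtain ⟨c, hc, hG⟩ := exists_G_le K
  set A := ZLattice.tsumNormRPowBound (mixedEmbedding.integerLattice K) with hA
  have hA0 : 0 < A := ZLattice.tsumNormRPowBound_pos _
  have hd : (0 : ℝ) < (finrank ℚ K : ℝ) := Nat.cast_pos.mpr finrank_pos
  have hd1 : (1 : ℝ) ≤ (finrank ℚ K : ℝ) := by exact_mod_cast finrank_pos (R := ℚ) (M := K)
  refine ⟨c * ((A ^ (-(2 * (finrank ℚ K : ℝ))) + 1) * 2), fun s hs hs2 => ?_⟩
  have hs1 : 0 < s - 1 := sub_pos.mpr hs
  have hr : -(finrank ℚ K : ℝ) * s < -(finrank ℚ K : ℝ) := by nlinarith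
  have h1 : (∑' a : 𝓞 K, G K s (mixedEmbedding K (a : K))) ≤
      ∑' a : 𝓞 K, c * ‖mixedEmbedding K (a : K)‖ ^ (-(finrank ℚ K : ℝ) * s) :=
    Summable.tsum_le_tsum (fun a => hG s hs.le hs2 _) (summable_G_of_le_two K hs hs2)
      ((summable_norm_rpow_int K hr).mul_left c)
  rw [tsum_mul_left] at h1
  have h2 := tsum_norm_rpow_int_le K hr
  have hε : 0 < (finrank ℚ K : ℝ) * (s - 1) := mul_pos hd hs1
  have h3 : ∑' k : ℕ, (k : ℝ) ^ ((finrank ℚ K : ℝ) - 1 + -(finrank ℚ K : ℝ) * s) ≤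
      1 + ((finrank ℚ K : ℝ) * (s - 1))⁻¹ := by
    have e : (finrank ℚ K : ℝ) - 1 + -(finrank ℚ K : ℝ) * s =
        -1 - (finrank ℚ K : ℝ) * (s - 1) := by ring
    rw [e]; exact tsum_rpow_le hε
  have h4 : 1 + ((finrank ℚ K : ℝ) * (s - 1))⁻¹ ≤ 2 / (s - 1) := by
    have a1 : ((finrank ℚ K : ℝ) * (s - 1))⁻¹ ≤ (s - 1)⁻¹ :=
      inv_anti₀ hs1 (by nlinarith)
    have a2 : (1 : ℝ) ≤ (s - 1)⁻¹ := by
      rw [one_le_inv₀ hs1]; linarith
    have a3 : 2 / (s - 1) = (s - 1)⁻¹ + (s - 1)⁻¹ := by ring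
    linarith
  have h5 : A ^ (-(finrank ℚ K : ℝ) * s) ≤ A ^ (-(2 * (finrank ℚ K : ℝ))) + 1 := by
    rcases le_total A 1 with hA1 | hA1
    · have := Real.rpow_le_rpow_of_exponent_ge hA0 hA1
        (by nlinarith : -(2 * (finrank ℚ K : ℝ)) ≤ -(finrank ℚ K : ℝ) * s)
      linarith
    · have := Real.rpow_le_one_of_one_le_of_nonpos hA1
        (by nlinarith : -(finrank ℚ K : ℝ) * s ≤ 0)
      have h0 : 0 ≤ A ^ (-(2 * (finrank ℚ K : ℝ))) := Real.rpow_nonneg hA0.le _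
      linarith
  have hk0 : 0 ≤ ∑' k : ℕ, (k : ℝ) ^ ((finrank ℚ K : ℝ) - 1 + -(finrank ℚ K : ℝ) * s) :=
    tsum_nonneg fun k => Real.rpow_nonneg (Nat.cast_nonneg _) _
  have hA1 : 0 ≤ A ^ (-(2 * (finrank ℚ K : ℝ))) + 1 := by
    have := Real.rpow_nonneg hA0.le (-(2 * (finrank ℚ K : ℝ))); linarith
  calc (∑' a : 𝓞 K, G K s (mixedEmbedding K (a : K)))
      ≤ c * ∑' a : 𝓞 K, ‖mixedEmbedding K (a : K)‖ ^ (-(finrank ℚ K : ℝ) * s) := h1
    _ ≤ c * (A ^ (-(finrank ℚ K : ℝ) * s) *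
          ∑' k : ℕ, (k : ℝ) ^ ((finrank ℚ K : ℝ) - 1 + -(finrank ℚ K : ℝ) * s)) :=
        mul_le_mul_of_nonneg_left h2 hc.le
    _ ≤ c * ((A ^ (-(2 * (finrank ℚ K : ℝ))) + 1) * (2 / (s - 1))) := by
        refine mul_le_mul_of_nonneg_left ?_ hc.le
        exact mul_le_mul h5 (h3.trans h4) hk0 hA1
    _ = c * ((A ^ (-(2 * (finrank ℚ K : ℝ))) + 1) * 2) / (s - 1) := by ring

end Fermat.Agent.S14.BL
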