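/-
S14 / package BL, file LB2: sublattice comparison `∑_{𝓞 K} G - N(J) ∑_J G = O(1)`.
-/
import Fermat.Agent.S14.BLSum

set_option autoImplicit false
noncomputable section

open scoped nonZeroDivisors Classical
open NumberField NumberField.mixedEmbedding NumberField.InfinitePlace NumberField.Units
  NumberField.Units.dirichletUnitTheorem Module

namespace Fermat.Agent.S14.BL

variable (K : Type*) [Field K] [NumberField K]

theorem abs_sub_le_one_of_mem {u v : ℝ} (hu0 : 0 ≤ u) (hu1 : u ≤ 1) (hv0 : 0 ≤ v) (hv1 : v ≤ 1) :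
    |u - v| ≤ 1 := by
  rw [abs_le]; constructor <;> linarith

/-- Pointwise bound for the shift of `G` by a lattice vector. -/
theorem exists_G_shift_le (r : 𝓞 K) :
    ∃ M' : ℝ, 0 ≤ M' ∧ ∀ s : ℝ, 1 ≤ s → s ≤ 2 → ∀ a : 𝓞 K,
      |G K s (mixedEmbedding K ((r + a : 𝓞 K) : K)) - G K s (mixedEmbedding K (a : K))| ≤
        M' * ‖mixedEmbedding K (a : K)‖ ^ (-(finrank ℚ K : ℝ) - 1) + if a = 0 then 1 else 0 := by
  obtain ⟨M, κ, hM, hκ, hG⟩ := exists_G_sub_le K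
  set c : mixedSpace K := mixedEmbedding K (r : K) with hc
  set γ : ℝ := ‖c‖ with hγ
  have hγ0 : 0 ≤ γ := norm_nonneg _
  set R : ℝ := γ * (2 + 1 / κ) + 2 with hR
  have hκ' : 0 < 1 / κ := by positivity
  have hR2 : 2 ≤ R := by rw [hR]; nlinarith [mul_nonneg hγ0 hκ'.le]
  have hRγ : 2 * γ ≤ R := by rw [hR]; nlinarith [mul_nonneg hγ0 hκ'.le]
  have hRκ : γ * (1 + 1 / κ) + 1 ≤ R - γ := by rw [hR]; nlinarith
  have hd0 : (0 : ℝ) ≤ (finrank ℚ K : ℝ) := Nat.cast_nonneg _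
  set e : ℝ := -(finrank ℚ K : ℝ) - 1 with he
  have he0 : e ≤ 0 := by rw [he]; linarith
  refine ⟨max (M * γ * (2⁻¹ : ℝ) ^ e) (R ^ (-e)), le_max_of_le_right (Real.rpow_nonneg (by linarith) _),
    fun s hs1 hs2 a => ?_⟩
  set M' : ℝ := max (M * γ * (2⁻¹ : ℝ) ^ e) (R ^ (-e)) with hM'
  have hs0 : (0 : ℝ) ≤ s := by linarith
  set x : mixedSpace K := mixedEmbedding K (a : K) with hx
  have hy : mixedEmbedding K ((r + a : 𝓞 K) : K) = x + c := by
    rw [hx, hc, ← map_add, add_comm]; push_cast; rfl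
  rw [hy]
  have hle1 : |G K s (x + c) - G K s x| ≤ 1 := by
    have h1 : G K s (x + c) ≤ 1 := by rw [← hy]; exact G_int_le_one K _ hs0
    exact abs_sub_le_one_of_mem (G_nonneg K s _) h1 (G_nonneg K s _) (G_int_le_one K a hs0)
  have hterm0 : 0 ≤ M' * ‖x‖ ^ e :=
    mul_nonneg (le_max_of_le_right (Real.rpow_nonneg (by linarith) _))
      (Real.rpow_nonneg (norm_nonneg _) _)
  by_cases ha : a = 0
  · rw [if_pos ha]; linarith
  rw [if_neg ha, add_zero]
  have hx0 : x ≠ 0 := by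
    rw [hx]
    intro h
    apply ha
    have h2 : (a : K) = 0 := (map_eq_zero (mixedEmbedding K)).mp h
    exact_mod_cast h2
  have hxpos : 0 < ‖x‖ := norm_pos_iff.mpr hx0
  rcases lt_or_ge ‖x‖ R with hlt | hge
  · -- small `x`
    have h1 : R ^ e ≤ ‖x‖ ^ e := Real.rpow_le_rpow_of_nonpos hxpos hlt.le he0
    have hRpos : 0 < R := by linarith
    have h2 : R ^ (-e) * R ^ e = 1 := by
      rw [← Real.rpow_add hRpos]; simp
    calc |G K s (x + c) - G K s x| ≤ 1 := hle1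
      _ = R ^ (-e) * R ^ e := h2.symm
      _ ≤ R ^ (-e) * ‖x‖ ^ e := mul_le_mul_of_nonneg_left h1 (Real.rpow_nonneg hRpos.le _)
      _ ≤ M' * ‖x‖ ^ e :=
          mul_le_mul_of_nonneg_right (le_max_right _ _) (Real.rpow_nonneg (norm_nonneg _) _)
  · -- large `x`
    have hxy : ‖x - (x + c)‖ = γ := by
      rw [sub_add_cancel_left, norm_neg]
    have hyx : ‖(x + c) - x‖ = γ := by
      rw [add_sub_cancel_left]
    have hynorm : ‖x‖ - γ ≤ ‖x + c‖ := by
      have := norm_sub_norm_le x (-c)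
      rw [sub_neg_eq_add, norm_neg] at this
      linarith
    by_cases hGx : G K s x ≠ 0
    · have h1 : γ ≤ κ * ‖x‖ := by
        have : γ * (1 / κ) ≤ ‖x‖ := by nlinarith [mul_nonneg hγ0 hκ'.le]
        calc γ = κ * (γ * (1 / κ)) := by field_simp
          _ ≤ κ * ‖x‖ := mul_le_mul_of_nonneg_left this hκ.le
      have h2 := hG s hs1 hs2 x (x + c) (by linarith) (by rw [hxy]; exact h1) hGx
      rw [hxy, abs_sub_comm] at h2
      have h3 : M * γ ≤ M' := by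
        have : (1 : ℝ) ≤ (2⁻¹ : ℝ) ^ e :=
          Real.one_le_rpow_of_pos_of_le_one_of_nonpos (by norm_num) (by norm_num) he0
        calc M * γ = M * γ * 1 := (mul_one _).symm
          _ ≤ M * γ * (2⁻¹ : ℝ) ^ e := mul_le_mul_of_nonneg_left this (mul_nonneg hM.le hγ0)
          _ ≤ M' := le_max_left _ _
      exact h2.trans (mul_le_mul_of_nonneg_right h3 (Real.rpow_nonneg (norm_nonneg _) _))
    · push Not at hGx
      by_cases hGy : G K s (x + c) ≠ 0
      · have hy1 : 1 ≤ ‖x + c‖ := by nlinarith [mul_nonneg hγ0 hκ'.le]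
        have hy2 : γ ≤ κ * ‖x + c‖ := by
          have : γ * (1 / κ) ≤ ‖x + c‖ := by nlinarith [mul_nonneg hγ0 hκ'.le]
          calc γ = κ * (γ * (1 / κ)) := by field_simp
            _ ≤ κ * ‖x + c‖ := mul_le_mul_of_nonneg_left this hκ.le
        have h2 := hG s hs1 hs2 (x + c) x hy1 (by rw [hyx]; exact hy2) hGy
        rw [hyx] at h2
        have hhalf : 2⁻¹ * ‖x‖ ≤ ‖x + c‖ := by linarith
        have h3 : ‖x + c‖ ^ e ≤ (2⁻¹ * ‖x‖) ^ e :=
          Real.rpow_le_rpow_of_nonpos (by positivity) hhalf he0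
        rw [Real.mul_rpow (by norm_num) (norm_nonneg _)] at h3
        calc |G K s (x + c) - G K s x| ≤ M * γ * ‖x + c‖ ^ e := h2
          _ ≤ M * γ * ((2⁻¹ : ℝ) ^ e * ‖x‖ ^ e) :=
              mul_le_mul_of_nonneg_left h3 (mul_nonneg hM.le hγ0)
          _ = M * γ * (2⁻¹ : ℝ) ^ e * ‖x‖ ^ e := by ring
          _ ≤ M' * ‖x‖ ^ e :=
              mul_le_mul_of_nonneg_right (le_max_left _ _) (Real.rpow_nonneg (norm_nonneg _) _)
      · push Not at hGy
        rw [hGx, hGy, sub_zero, abs_zero]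
        exact hterm0

/-- The summable majorant for the shifted differences. -/
theorem summable_shift_bound (J : Ideal (𝓞 K)) (M' : ℝ) :
    Summable fun b : J ↦ M' * ‖mixedEmbedding K ((b : 𝓞 K) : K)‖ ^ (-(finrank ℚ K : ℝ) - 1) +
      if (b : 𝓞 K) = 0 then (1 : ℝ) else 0 := by
  have h1 : Summable fun a : 𝓞 K ↦ M' * ‖mixedEmbedding K (a : K)‖ ^ (-(finrank ℚ K : ℝ) - 1) :=
    (summable_norm_rpow_int K (by linarith)).mul_left M'
  have h2 : Summable fun a : 𝓞 K ↦ if a = 0 then (1 : ℝ) else 0 := (hasSum_ite_eq 0 1).summable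
  exact (h1.add h2).subtype _

/-- Shifting the summation over an ideal by a lattice vector changes the sum by `O(1)`. -/
theorem exists_bound_shift (J : Ideal (𝓞 K)) (r : 𝓞 K) :
    ∃ B : ℝ, ∀ s : ℝ, 1 < s → s ≤ 2 →
      |(∑' b : J, G K s (mixedEmbedding K ((r + b : 𝓞 K) : K))) -
        ∑' b : J, G K s (mixedEmbedding K ((b : 𝓞 K) : K))| ≤ B := by
  obtain ⟨M', hM', hb⟩ := exists_G_shift_le K r
  refine ⟨∑' b : J, (M' * ‖mixedEmbedding K ((b : 𝓞 K) : K)‖ ^ (-(finrank ℚ K : ℝ) - 1) +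
      if (b : 𝓞 K) = 0 then (1 : ℝ) else 0), fun s hs hs2 => ?_⟩
  have hsum := summable_G K s hs
  have h1 : Summable fun b : J ↦ G K s (mixedEmbedding K ((b : 𝓞 K) : K)) := hsum.subtype _
  have h2 : Summable fun b : J ↦ G K s (mixedEmbedding K ((r + b : 𝓞 K) : K)) := by
    have hinj : Function.Injective (fun b : J ↦ r + (b : 𝓞 K)) := fun b b' h =>
      Subtype.ext (add_left_cancel h)
    exact hsum.comp_injective hinj
  rw [← (h2.hasSum.sub h1.hasSum).tsum_eq]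
  have hbound := summable_shift_bound K J M'
  have h3 : Summable fun b : J ↦ |G K s (mixedEmbedding K ((r + b : 𝓞 K) : K)) -
      G K s (mixedEmbedding K ((b : 𝓞 K) : K))| :=
    Summable.of_nonneg_of_le (fun b => abs_nonneg _) (fun b => hb s hs.le hs2 b) hbound
  calc |∑' b : J, (G K s (mixedEmbedding K ((r + b : 𝓞 K) : K)) -
        G K s (mixedEmbedding K ((b : 𝓞 K) : K)))|
      ≤ ∑' b : J, |G K s (mixedEmbedding K ((r + b : 𝓞 K) : K)) -
        G K s (mixedEmbedding K ((b : 𝓞 K) : K))| := by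
        have := norm_tsum_le_tsum_norm (f := fun b : J ↦
          G K s (mixedEmbedding K ((r + b : 𝓞 K) : K)) -
            G K s (mixedEmbedding K ((b : 𝓞 K) : K))) (by simpa [Real.norm_eq_abs] using h3)
        simpa [Real.norm_eq_abs] using this
    _ ≤ _ := Summable.tsum_le_tsum (fun b => hb s hs.le hs2 b) h3 hbound

/-- A representative of a coset of `J`. -/
def cosetRep (J : Ideal (𝓞 K)) (q : 𝓞 K ⧸ J) : 𝓞 K :=
  Function.surjInv (Ideal.Quotient.mk_surjective (I := J)) q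

theorem mk_cosetRep (J : Ideal (𝓞 K)) (q : 𝓞 K ⧸ J) :
    Ideal.Quotient.mk J (cosetRep K J q) = q :=
  Function.surjInv_eq (Ideal.Quotient.mk_surjective (I := J)) q

theorem cosetMap_injective (J : Ideal (𝓞 K)) :
    Function.Injective (fun p : (𝓞 K ⧸ J) × J => cosetRep K J p.1 + (p.2 : 𝓞 K)) := by
  rintro ⟨q, b⟩ ⟨q', b'⟩ h
  have h' : cosetRep K J q + (b : 𝓞 K) = cosetRep K J q' + (b' : 𝓞 K) := h
  have hq : q = q' := by
    have h1 := congrArg (Ideal.Quotient.mk J) h'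
    rw [map_add, map_add, mk_cosetRep, mk_cosetRep, Ideal.Quotient.eq_zero_iff_mem.mpr b.2,
      Ideal.Quotient.eq_zero_iff_mem.mpr b'.2, add_zero, add_zero] at h1
    exact h1
  subst hq
  have hb : (b : 𝓞 K) = b' := add_left_cancel h'
  rw [Subtype.ext hb]

theorem cosetMap_surjective (J : Ideal (𝓞 K)) :
    Function.Surjective (fun p : (𝓞 K ⧸ J) × J => cosetRep K J p.1 + (p.2 : 𝓞 K)) := by
  intro a
  have hmem : a - cosetRep K J (Ideal.Quotient.mk J a) ∈ J := by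
    rw [← Ideal.Quotient.eq_zero_iff_mem, map_sub, mk_cosetRep, sub_self]
  exact ⟨(Ideal.Quotient.mk J a, ⟨a - cosetRep K J (Ideal.Quotient.mk J a), hmem⟩),
    add_sub_cancel _ _⟩

/-- The coset decomposition `(𝓞 K ⧸ J) × J ≃ 𝓞 K`. -/
def cosetEquiv (J : Ideal (𝓞 K)) : (𝓞 K ⧸ J) × J ≃ 𝓞 K :=
  Equiv.ofBijective (fun p => cosetRep K J p.1 + (p.2 : 𝓞 K))
    ⟨cosetMap_injective K J, cosetMap_surjective K J⟩

theorem cosetEquiv_apply (J : Ideal (𝓞 K)) (p : (𝓞 K ⧸ J) × J) :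
    cosetEquiv K J p = cosetRep K J p.1 + (p.2 : 𝓞 K) := rfl

theorem tsum_eq_sum_coset (J : Ideal (𝓞 K)) [Fintype (𝓞 K ⧸ J)] (f : 𝓞 K → ℝ)
    (hf : Summable f) :
    ∑' a : 𝓞 K, f a = ∑ q : 𝓞 K ⧸ J, ∑' b : J, f (cosetRep K J q + (b : 𝓞 K)) := by
  have hsum' : Summable fun p : (𝓞 K ⧸ J) × J ↦ f (cosetEquiv K J p) :=
    (cosetEquiv K J).summable_iff.mpr hf
  rw [← (cosetEquiv K J).tsum_eq f, hsum'.tsum_prod, tsum_fintype]
  rfl

theorem exists_bound_sub_ideal' (J : Ideal (𝓞 K)) (hJ : Ideal.absNorm J ≠ 0) :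
    ∃ B : ℝ, ∀ s : ℝ, 1 < s → s ≤ 2 →
      |(∑' a : 𝓞 K, G K s (mixedEmbedding K (a : K))) -
        (Ideal.absNorm J : ℝ) *
          ∑' b : J, G K s (mixedEmbedding K ((b : 𝓞 K) : K))| ≤ B := by
  have hcard : Nat.card (𝓞 K ⧸ J) = Ideal.absNorm J := by
    rw [Ideal.absNorm_apply, Submodule.cardQuot_apply]
  haveI : Finite (𝓞 K ⧸ J) := Nat.finite_of_card_ne_zero (hcard ▸ hJ)
  letI : Fintype (𝓞 K ⧸ J) := Fintype.ofFinite _
  have hB : ∀ q : 𝓞 K ⧸ J, ∃ B : ℝ, ∀ s : ℝ, 1 < s → s ≤ 2 →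
      |(∑' b : J, G K s (mixedEmbedding K ((cosetRep K J q + b : 𝓞 K) : K))) -
        ∑' b : J, G K s (mixedEmbedding K ((b : 𝓞 K) : K))| ≤ B :=
    fun q => exists_bound_shift K J (cosetRep K J q)
  choose B hB using hB
  refine ⟨∑ q, B q, fun s hs hs2 => ?_⟩
  have e1 := tsum_eq_sum_coset K J (fun a : 𝓞 K => G K s (mixedEmbedding K (a : K)))
    (summable_G K s hs)
  have e2 : (Ideal.absNorm J : ℝ) * ∑' b : J, G K s (mixedEmbedding K ((b : 𝓞 K) : K)) =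
      ∑ _q : 𝓞 K ⧸ J, ∑' b : J, G K s (mixedEmbedding K ((b : 𝓞 K) : K)) := by
    rw [Finset.sum_const, Finset.card_univ, nsmul_eq_mul, ← hcard, Nat.card_eq_fintype_card]
  rw [e1, e2, ← Finset.sum_sub_distrib]
  exact (Finset.abs_sum_le_sum_abs _ _).trans (Finset.sum_le_sum fun q _ => hB q s hs hs2)

theorem exists_bound_sub_ideal (J : (Ideal (𝓞 K))⁰) :
    ∃ B : ℝ, ∀ s : ℝ, 1 < s → s ≤ 2 →
      |(∑' a : 𝓞 K, G K s (mixedEmbedding K (a : K))) -
        (Ideal.absNorm (J : Ideal (𝓞 K)) : ℝ) *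
          ∑' b : (J : Ideal (𝓞 K)), G K s (mixedEmbedding K ((b : 𝓞 K) : K))| ≤ B :=
  exists_bound_sub_ideal' K (J : Ideal (𝓞 K)) (Ideal.absNorm_ne_zero_of_nonZeroDivisors J)

end Fermat.Agent.S14.BL
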