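/-
S14 / package BL, final file: the partial zeta functions of two ideal classes of a number field
differ by a bounded function on `(1, 2]`; consequently every "class-character L-series"
`∑_C f(C) ζ(s, C)` with `∑_C f(C) = 0` is bounded on `(1, 2]`.

Route: smooth unit partition (`theta ∘ logMap`) + sublattice comparison `𝓞 K ⊇ J`
(no integral, no counting error term).
-/
import Fermat.Agent.S14.BLLattice
import Fermat.Agent.S14.BLIdeal

set_option autoImplicit false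
noncomputable section

open scoped nonZeroDivisors Classical
open NumberField NumberField.mixedEmbedding NumberField.InfinitePlace NumberField.Units
  NumberField.Units.dirichletUnitTheorem Module

namespace Fermat.Agent.S14.BL

variable (K : Type*) [Field K] [NumberField K]

theorem abs_torsionOrder_mul_classZeta_sub_le (C : ClassGroup (𝓞 K)) (J : (Ideal (𝓞 K))⁰)
    (hJ : ClassGroup.mk0 J = C⁻¹) {B₀ B₁ : ℝ} {s : ℝ} (hs : 1 < s) (hs2 : s ≤ 2)
    (h₀ : (∑' a : 𝓞 K, G K s (mixedEmbedding K (a : K))) ≤ B₀ / (s - 1))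
    (h₁ : |(∑' a : 𝓞 K, G K s (mixedEmbedding K (a : K))) -
        (Ideal.absNorm (J : Ideal (𝓞 K)) : ℝ) *
          ∑' b : (J : Ideal (𝓞 K)), G K s (mixedEmbedding K ((b : 𝓞 K) : K))| ≤ B₁)
    (hS0 : 0 ≤ ∑' a : 𝓞 K, G K s (mixedEmbedding K (a : K))) :
    |(torsionOrder K : ℝ) * classZeta K C s - ∑' a : 𝓞 K, G K s (mixedEmbedding K (a : K))| ≤
      (Ideal.absNorm (J : Ideal (𝓞 K)) : ℝ) * (B₀ + B₁) := by
  set S := ∑' a : 𝓞 K, G K s (mixedEmbedding K (a : K)) with hS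
  set T := ∑' b : (J : Ideal (𝓞 K)), G K s (mixedEmbedding K ((b : 𝓞 K) : K)) with hT
  set n : ℝ := (Ideal.absNorm (J : Ideal (𝓞 K)) : ℝ) with hn
  have hn1 : 1 ≤ n := by
    rw [hn]
    exact_mod_cast Nat.one_le_iff_ne_zero.mpr (Ideal.absNorm_ne_zero_of_nonZeroDivisors J)
  have hn0 : 0 < n := lt_of_lt_of_le one_pos hn1
  have hs1 : 0 < s - 1 := sub_pos.mpr hs
  have hB₁ : 0 ≤ B₁ := le_trans (abs_nonneg _) h₁
  have hB₀ : 0 ≤ B₀ := by
    have := le_trans hS0 h₀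
    by_contra hneg
    push Not at hneg
    have : B₀ / (s - 1) < 0 := div_neg_of_neg_of_pos hneg hs1
    linarith
  rw [torsionOrder_mul_classZeta K C J hJ s (summable_G K s hs)]
  have hpow : n ^ s = n ^ (s - 1) * n := by
    rw [← Real.rpow_add_one hn0.ne' (s - 1)]
    congr 1; ring
  have hp1 : 1 ≤ n ^ (s - 1) := Real.one_le_rpow hn1 hs1.le
  have hp2 : n ^ (s - 1) ≤ 1 + (s - 1) * (n - 1) := by
    have := rpow_one_add_le_one_add_mul_self (s := n - 1) (by linarith) hs1.le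
      (by linarith : s - 1 ≤ 1)
    simpa using this
  have hp3 : n ^ (s - 1) ≤ n := by nlinarith
  have key : n ^ s * T - S = n ^ (s - 1) * (n * T - S) + (n ^ (s - 1) - 1) * S := by
    rw [hpow]; ring
  rw [key]
  have h1 : |n ^ (s - 1) * (n * T - S)| ≤ n * B₁ := by
    rw [abs_mul, abs_of_nonneg (by linarith : (0:ℝ) ≤ n ^ (s - 1))]
    have : |n * T - S| ≤ B₁ := by rw [abs_sub_comm]; exact h₁
    exact mul_le_mul hp3 this (abs_nonneg _) hn0.le
  have h2 : |(n ^ (s - 1) - 1) * S| ≤ n * B₀ := by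
    rw [abs_mul, abs_of_nonneg (by linarith : (0:ℝ) ≤ n ^ (s - 1) - 1), abs_of_nonneg hS0]
    calc (n ^ (s - 1) - 1) * S ≤ ((s - 1) * (n - 1)) * (B₀ / (s - 1)) := by
          apply mul_le_mul (by linarith) h₀ hS0
          exact mul_nonneg hs1.le (by linarith)
      _ = (n - 1) * B₀ := by field_simp
      _ ≤ n * B₀ := by nlinarith
  calc |n ^ (s - 1) * (n * T - S) + (n ^ (s - 1) - 1) * S|
      ≤ |n ^ (s - 1) * (n * T - S)| + |(n ^ (s - 1) - 1) * S| := abs_add_le _ _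
    _ ≤ n * B₁ + n * B₀ := add_le_add h1 h2
    _ = n * (B₀ + B₁) := by ring

theorem exists_bound_classZeta_sub :
    ∃ B : ℝ, ∀ s : ℝ, 1 < s → s ≤ 2 → ∀ C C' : ClassGroup (𝓞 K),
      |classZeta K C s - classZeta K C' s| ≤ B := by
  obtain ⟨B₀, hB₀⟩ := exists_bound_tsum_G K
  have hJ : ∀ C : ClassGroup (𝓞 K), ∃ J : (Ideal (𝓞 K))⁰, ClassGroup.mk0 J = C⁻¹ :=
    fun C => ClassGroup.mk0_surjective C⁻¹
  choose J hJ using hJ
  have hB : ∀ C : ClassGroup (𝓞 K), ∃ B : ℝ, ∀ s : ℝ, 1 < s → s ≤ 2 →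
      |(∑' a : 𝓞 K, G K s (mixedEmbedding K (a : K))) -
        (Ideal.absNorm (J C : Ideal (𝓞 K)) : ℝ) *
          ∑' b : (J C : Ideal (𝓞 K)), G K s (mixedEmbedding K ((b : 𝓞 K) : K))| ≤ B :=
    fun C => exists_bound_sub_ideal K (J C)
  choose B₁ hB₁ using hB
  set D : ClassGroup (𝓞 K) → ℝ :=
    fun C => (Ideal.absNorm (J C : Ideal (𝓞 K)) : ℝ) * (|B₀| + |B₁ C|) with hD
  have hD0 : ∀ C, 0 ≤ D C := fun C => mul_nonneg (Nat.cast_nonneg _) (by positivity)
  refine ⟨2 * ∑ C, D C, fun s hs hs2 C C' => ?_⟩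
  have hS0 : 0 ≤ ∑' a : 𝓞 K, G K s (mixedEmbedding K (a : K)) :=
    tsum_nonneg fun a => mul_nonneg (theta_nonneg K _) (Real.rpow_nonneg (mixedEmbedding.norm_nonneg _) _)
  have hs1 : 0 < s - 1 := sub_pos.mpr hs
  have hb : ∀ C : ClassGroup (𝓞 K),
      |(torsionOrder K : ℝ) * classZeta K C s - ∑' a : 𝓞 K, G K s (mixedEmbedding K (a : K))| ≤
        D C := by
    intro C
    refine abs_torsionOrder_mul_classZeta_sub_le K C (J C) (hJ C) hs hs2 ?_ ?_ hS0
    · exact (hB₀ s hs hs2).trans (div_le_div_of_nonneg_right (le_abs_self _) hs1.le)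
    · exact (hB₁ C s hs hs2).trans (le_abs_self _)
  have hw : (1 : ℝ) ≤ torsionOrder K := by exact_mod_cast torsionOrder_pos K
  have hw0 : (0 : ℝ) < torsionOrder K := lt_of_lt_of_le one_pos hw
  have hDle : ∀ C, D C ≤ ∑ C, D C :=
    fun C => Finset.single_le_sum (fun C _ => hD0 C) (Finset.mem_univ C)
  have h3 : |(torsionOrder K : ℝ) * (classZeta K C s - classZeta K C' s)| ≤ 2 * ∑ C, D C := by
    have e : (torsionOrder K : ℝ) * (classZeta K C s - classZeta K C' s) =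
        ((torsionOrder K : ℝ) * classZeta K C s - ∑' a : 𝓞 K, G K s (mixedEmbedding K (a : K))) -
        ((torsionOrder K : ℝ) * classZeta K C' s - ∑' a : 𝓞 K, G K s (mixedEmbedding K (a : K))) := by
      ring
    rw [e]
    calc _ ≤ _ + _ := abs_sub _ _
      _ ≤ D C + D C' := add_le_add (hb C) (hb C')
      _ ≤ 2 * ∑ C, D C := by linarith [hDle C, hDle C']
  rw [abs_mul, abs_of_pos hw0] at h3
  have hsum0 : 0 ≤ ∑ C, D C := Finset.sum_nonneg fun C _ => hD0 C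
  calc |classZeta K C s - classZeta K C' s|
      ≤ (torsionOrder K : ℝ) * |classZeta K C s - classZeta K C' s| :=
        le_mul_of_one_le_left (abs_nonneg _) hw
    _ ≤ 2 * ∑ C, D C := h3


/-- The partial zeta function of a class converges for `s > 1`. -/
theorem summable_classZeta_of_one_lt (C : ClassGroup (𝓞 K)) {s : ℝ} (hs : 1 < s) :
    Summable fun I : {I : (Ideal (𝓞 K))⁰ // ClassGroup.mk0 I = C} ↦
      (Ideal.absNorm (I.1 : Ideal (𝓞 K)) : ℝ) ^ (-s) :=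
  summable_classZeta K C s (summable_G K s hs)

/-- The ideal zeta series converges for `s > 1`. -/
theorem summable_absNorm_rpow {s : ℝ} (hs : 1 < s) :
    Summable fun I : (Ideal (𝓞 K))⁰ ↦ (Ideal.absNorm (I : Ideal (𝓞 K)) : ℝ) ^ (-s) := by
  have h : Summable fun p : (Σ C : ClassGroup (𝓞 K), {I : (Ideal (𝓞 K))⁰ // ClassGroup.mk0 I = C}) ↦
      (Ideal.absNorm (p.2.1 : Ideal (𝓞 K)) : ℝ) ^ (-s) :=
    summable_sigma_of_nonneg (fun p => Real.rpow_nonneg (Nat.cast_nonneg _) _) |>.mpr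
      ⟨fun C => summable_classZeta_of_one_lt K C hs, Summable.of_finite⟩
  exact (Equiv.sigmaFiberEquiv (ClassGroup.mk0 (R := 𝓞 K))).summable_iff.mp h

/-- Regrouping a class-function-weighted ideal series by classes. -/
theorem tsum_classFun_mul (f : ClassGroup (𝓞 K) → ℝ) {s : ℝ} (hs : 1 < s) :
    ∑' I : (Ideal (𝓞 K))⁰, f (ClassGroup.mk0 I) * (Ideal.absNorm (I : Ideal (𝓞 K)) : ℝ) ^ (-s) =
      ∑ C, f C * classZeta K C s := by
  have hfib : ∀ C : ClassGroup (𝓞 K),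
      Summable fun I : {I : (Ideal (𝓞 K))⁰ // ClassGroup.mk0 I = C} ↦
        f (ClassGroup.mk0 I.1) * (Ideal.absNorm (I.1 : Ideal (𝓞 K)) : ℝ) ^ (-s) := fun C =>
    ((summable_classZeta_of_one_lt K C hs).mul_left (f C)).congr fun I => by rw [I.2]
  have hall : Summable fun p :
      (Σ C : ClassGroup (𝓞 K), {I : (Ideal (𝓞 K))⁰ // ClassGroup.mk0 I = C}) ↦
      f (ClassGroup.mk0 p.2.1) * (Ideal.absNorm (p.2.1 : Ideal (𝓞 K)) : ℝ) ^ (-s) := by
    refine Summable.of_norm ?_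
    refine (summable_sigma_of_nonneg (fun p => norm_nonneg _)).mpr
      ⟨fun C => (hfib C).norm, Summable.of_finite⟩
  have e0 : ∑' I : (Ideal (𝓞 K))⁰,
      f (ClassGroup.mk0 I) * (Ideal.absNorm (I : Ideal (𝓞 K)) : ℝ) ^ (-s) =
      ∑' p : (Σ C : ClassGroup (𝓞 K), {I : (Ideal (𝓞 K))⁰ // ClassGroup.mk0 I = C}),
        f (ClassGroup.mk0 p.2.1) * (Ideal.absNorm (p.2.1 : Ideal (𝓞 K)) : ℝ) ^ (-s) :=
    ((Equiv.sigmaFiberEquiv (ClassGroup.mk0 (R := 𝓞 K))).tsum_eq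
      (fun I : (Ideal (𝓞 K))⁰ =>
        f (ClassGroup.mk0 I) * (Ideal.absNorm (I : Ideal (𝓞 K)) : ℝ) ^ (-s))).symm
  rw [e0, hall.tsum_sigma, tsum_fintype]
  refine Finset.sum_congr rfl fun C _ => ?_
  rw [classZeta, ← tsum_mul_left]
  refine tsum_congr fun I => ?_
  show f (ClassGroup.mk0 I.1) * _ = _
  rw [I.2]

/-- **Bounded class-character series.** There is `B` such that for every real class function
`f` with `∑_C f C = 0`, the series `∑_I f([I]) N(I)^(-s)` is bounded by `B * ∑_C |f C|`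
on `(1, 2]`. -/
theorem exists_bound_tsum_classFun :
    ∃ B : ℝ, 0 ≤ B ∧ ∀ s : ℝ, 1 < s → s ≤ 2 → ∀ f : ClassGroup (𝓞 K) → ℝ, ∑ C, f C = 0 →
      |∑' I : (Ideal (𝓞 K))⁰,
        f (ClassGroup.mk0 I) * (Ideal.absNorm (I : Ideal (𝓞 K)) : ℝ) ^ (-s)| ≤
        B * ∑ C, |f C| := by
  obtain ⟨B, hB⟩ := exists_bound_classZeta_sub K
  refine ⟨|B|, abs_nonneg _, fun s hs hs2 f hf => ?_⟩
  rw [tsum_classFun_mul K f hs]
  have e : ∑ C, f C * classZeta K C s = ∑ C, f C * (classZeta K C s - classZeta K 1 s) := by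
    simp only [mul_sub, Finset.sum_sub_distrib, ← Finset.sum_mul, hf, zero_mul, sub_zero]
  rw [e, Finset.mul_sum]
  refine (Finset.abs_sum_le_sum_abs _ _).trans (Finset.sum_le_sum fun C _ => ?_)
  rw [abs_mul, mul_comm]
  exact mul_le_mul_of_nonneg_right ((hB s hs hs2 C 1).trans (le_abs_self B)) (abs_nonneg _)

end Fermat.Agent.S14.BL
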