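/-
S14 / first inequality, package [EP]: the Euler product over the nonzero ideals of a
Dedekind domain, for a norm-summable monoid homomorphism `f : (Ideal R)⁰ →* F`:
`∏ v ∈ s, (1 - f v)⁻¹ → ∑' I, f I` along finite sets `s` of height one primes.

Proof by sieving: `(1 - f v) * ∑ (ideals prime to s) = ∑ (ideals prime to insert v s)`.
-/
import Mathlib

set_option autoImplicit false
set_option linter.unusedSectionVars false

namespace Fermat.Agent.S14.FI

open IsDedekindDomain
open scoped nonZeroDivisors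

variable {R : Type*} [CommRing R] [IsDedekindDomain R]

/-- The nonzero ideal attached to a height one prime. -/
def primeIdeal₀ (v : HeightOneSpectrum R) : (Ideal R)⁰ :=
  ⟨v.asIdeal, mem_nonZeroDivisors_of_ne_zero v.ne_bot⟩

@[simp] theorem coe_primeIdeal₀ (v : HeightOneSpectrum R) :
    ((primeIdeal₀ v : (Ideal R)⁰) : Ideal R) = v.asIdeal := rfl

open Classical in
/-- The function `f` restricted to the ideals prime to all `v ∈ s` (zero elsewhere). -/
noncomputable def sieve {F : Type*} [Zero F] (f : (Ideal R)⁰ → F)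
    (s : Finset (HeightOneSpectrum R)) (I : (Ideal R)⁰) : F :=
  if ∀ v ∈ s, ¬ (v.asIdeal ∣ (I : Ideal R)) then f I else 0

theorem sieve_empty {F : Type*} [Zero F] (f : (Ideal R)⁰ → F) : sieve f ∅ = f := by
  funext I
  simp [sieve]

theorem norm_sieve_le {F : Type*} [NormedField F] (f : (Ideal R)⁰ → F)
    (s : Finset (HeightOneSpectrum R)) (I : (Ideal R)⁰) : ‖sieve f s I‖ ≤ ‖f I‖ := by
  unfold sieve
  split_ifs
  · exact le_rfl
  · simp

theorem summable_norm_sieve {F : Type*} [NormedField F] (f : (Ideal R)⁰ → F)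
    (hsum : Summable fun I ↦ ‖f I‖) (s : Finset (HeightOneSpectrum R)) :
    Summable fun I ↦ ‖sieve f s I‖ :=
  Summable.of_nonneg_of_le (fun _ ↦ norm_nonneg _) (norm_sieve_le f s) hsum

theorem summable_sieve {F : Type*} [NormedField F] [CompleteSpace F] (f : (Ideal R)⁰ → F)
    (hsum : Summable fun I ↦ ‖f I‖) (s : Finset (HeightOneSpectrum R)) :
    Summable (sieve f s) :=
  (summable_norm_sieve f hsum s).of_norm

theorem dvd_primeIdeal₀_mul_iff {u v : HeightOneSpectrum R} (huv : u ≠ v) (J : (Ideal R)⁰) :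
    u.asIdeal ∣ ((primeIdeal₀ v * J : (Ideal R)⁰) : Ideal R) ↔ u.asIdeal ∣ (J : Ideal R) := by
  rw [Submonoid.coe_mul, coe_primeIdeal₀]
  constructor
  · intro h
    rcases u.prime.dvd_or_dvd h with h1 | h1
    · exfalso
      apply huv
      rw [Ideal.dvd_iff_le] at h1
      have := v.isMaximal.eq_of_le u.isPrime.ne_top h1
      exact (HeightOneSpectrum.ext this).symm
    · exact h1
  · intro h
    exact Dvd.dvd.mul_left h _

theorem sieve_mul {F : Type*} [NormedField F] (f : (Ideal R)⁰ →* F)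
    {s : Finset (HeightOneSpectrum R)} {v : HeightOneSpectrum R} (hv : v ∉ s) (J : (Ideal R)⁰) :
    sieve f s (primeIdeal₀ v * J) = f (primeIdeal₀ v) * sieve f s J := by
  unfold sieve
  have : (∀ u ∈ s, ¬ (u.asIdeal ∣ ((primeIdeal₀ v * J : (Ideal R)⁰) : Ideal R))) ↔
      (∀ u ∈ s, ¬ (u.asIdeal ∣ (J : Ideal R))) := by
    refine forall₂_congr fun u hu => ?_
    rw [dvd_primeIdeal₀_mul_iff (fun h : u = v => hv (h ▸ hu))]
  by_cases h : ∀ u ∈ s, ¬ (u.asIdeal ∣ (J : Ideal R))
  · rw [if_pos h, if_pos (this.mpr h), map_mul]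
  · rw [if_neg h, if_neg (fun h' => h (this.mp h')), mul_zero]

theorem primeIdeal₀_mul_injective (v : HeightOneSpectrum R) :
    Function.Injective fun J : (Ideal R)⁰ => primeIdeal₀ v * J := by
  intro J J' h
  have h' := congrArg (fun I : (Ideal R)⁰ => (I : Ideal R)) h
  simp only [Submonoid.coe_mul, coe_primeIdeal₀] at h'
  exact Subtype.ext (mul_left_cancel₀ v.ne_bot h')

open Classical in
theorem sieve_eq_add {F : Type*} [NormedField F] (f : (Ideal R)⁰ → F)
    (s : Finset (HeightOneSpectrum R)) (v : HeightOneSpectrum R) (I : (Ideal R)⁰) :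
    sieve f s I = sieve f (insert v s) I +
      (if v.asIdeal ∣ (I : Ideal R) then sieve f s I else 0) := by
  unfold sieve
  by_cases hv : v.asIdeal ∣ (I : Ideal R)
  · have : ¬ ∀ u ∈ insert v s, ¬ (u.asIdeal ∣ (I : Ideal R)) := fun h =>
      h v (Finset.mem_insert_self v s) hv
    rw [if_neg this, if_pos hv, zero_add]
  · have : (∀ u ∈ insert v s, ¬ (u.asIdeal ∣ (I : Ideal R))) ↔
        (∀ u ∈ s, ¬ (u.asIdeal ∣ (I : Ideal R))) := by
      simp [hv]
    rw [if_neg hv, add_zero]
    by_cases h : ∀ u ∈ s, ¬ (u.asIdeal ∣ (I : Ideal R))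
    · rw [if_pos h, if_pos (this.mpr h)]
    · rw [if_neg h, if_neg (fun h' => h (this.mp h'))]

open Classical in
theorem tsum_sieve_insert {F : Type*} [NormedField F] [CompleteSpace F] (f : (Ideal R)⁰ →* F)
    (hsum : Summable fun I ↦ ‖f I‖) {s : Finset (HeightOneSpectrum R)}
    {v : HeightOneSpectrum R} (hv : v ∉ s) :
    ∑' I, sieve (⇑f) (insert v s) I = (1 - f (primeIdeal₀ v)) * ∑' I, sieve (⇑f) s I := by
  set g : (Ideal R)⁰ → F := fun I => if v.asIdeal ∣ (I : Ideal R) then sieve (⇑f) s I else 0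
    with hg
  have hgs : Summable g := by
    refine Summable.of_norm_bounded (summable_norm_sieve (⇑f) hsum s) fun I => ?_
    simp only [hg]
    split_ifs
    · exact le_rfl
    · simp
  have h1 : ∑' I, sieve (⇑f) s I = ∑' I, sieve (⇑f) (insert v s) I + ∑' I, g I := by
    rw [← (summable_sieve (⇑f) hsum (insert v s)).tsum_add hgs]
    exact tsum_congr fun I => sieve_eq_add (⇑f) s v I
  have h2 : ∑' I, g I = f (primeIdeal₀ v) * ∑' I, sieve (⇑f) s I := by
    rw [← (summable_sieve (⇑f) hsum s).tsum_mul_left]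
    have hsupp : Function.support g ⊆ Set.range fun J : (Ideal R)⁰ => primeIdeal₀ v * J := by
      intro I hI
      have hdvd : v.asIdeal ∣ (I : Ideal R) := by
        by_contra hcon
        exact hI (by simp [hg, hcon])
      obtain ⟨J, hJ⟩ := hdvd
      have hJ0 : J ≠ 0 := by
        rintro rfl
        exact nonZeroDivisors.coe_ne_zero I (by simpa using hJ)
      exact ⟨⟨J, mem_nonZeroDivisors_of_ne_zero hJ0⟩, Subtype.ext hJ.symm⟩
    rw [← (primeIdeal₀_mul_injective v).tsum_eq hsupp]
    refine tsum_congr fun J => ?_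
    have hd : v.asIdeal ∣ ((primeIdeal₀ v * J : (Ideal R)⁰) : Ideal R) := by
      rw [Submonoid.coe_mul, coe_primeIdeal₀]
      exact dvd_mul_right _ _
    simp only [hg]
    rw [if_pos hd, sieve_mul f hv]
  rw [h2] at h1
  rw [sub_mul, one_mul]
  exact eq_sub_of_add_eq h1.symm

theorem tsum_sieve {F : Type*} [NormedField F] [CompleteSpace F] (f : (Ideal R)⁰ →* F)
    (hsum : Summable fun I ↦ ‖f I‖) (s : Finset (HeightOneSpectrum R)) :
    ∑' I, sieve (⇑f) s I = (∏ v ∈ s, (1 - f (primeIdeal₀ v))) * ∑' I, f I := by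
  classical
  induction s using Finset.induction_on with
  | empty => simp [sieve_empty]
  | insert v s hv ih =>
    rw [tsum_sieve_insert f hsum hv, ih, Finset.prod_insert hv, mul_assoc]

theorem exists_prime_dvd (I : (Ideal R)⁰) (hI : I ≠ 1) :
    ∃ v : HeightOneSpectrum R, v.asIdeal ∣ (I : Ideal R) := by
  have hI' : (I : Ideal R) ≠ ⊤ := by
    intro h
    apply hI
    apply Subtype.ext
    simpa [Ideal.one_eq_top] using h
  obtain ⟨m, hm, hIm⟩ := Ideal.exists_le_maximal _ hI'
  have hm0 : m ≠ ⊥ := by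
    rintro rfl
    exact nonZeroDivisors.coe_ne_zero I (le_bot_iff.mp hIm)
  exact ⟨⟨m, hm.isPrime, hm0⟩, Ideal.dvd_iff_le.mpr hIm⟩

theorem sieve_one {F : Type*} [NormedField F] (f : (Ideal R)⁰ →* F)
    (s : Finset (HeightOneSpectrum R)) : sieve (⇑f) s 1 = 1 := by
  unfold sieve
  rw [if_pos, map_one]
  intro v _ hdvd
  have : v.asIdeal = ⊤ := by
    rw [Ideal.dvd_iff_le] at hdvd
    exact top_le_iff.mp (by simpa [Ideal.one_eq_top] using hdvd)
  exact v.isPrime.ne_top this

theorem tendsto_tsum_sieve {F : Type*} [NormedField F] [CompleteSpace F] (f : (Ideal R)⁰ →* F)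
    (hsum : Summable fun I ↦ ‖f I‖) :
    Filter.Tendsto (fun s : Finset (HeightOneSpectrum R) ↦ ∑' I, sieve (⇑f) s I)
      Filter.atTop (nhds 1) := by
  classical
  rw [Metric.tendsto_atTop]
  intro ε hε
  have htail := tendsto_tsum_compl_atTop_zero (fun I : (Ideal R)⁰ => ‖f I‖)
  rw [Metric.tendsto_atTop] at htail
  obtain ⟨A, hA⟩ := htail ε hε
  have hA' := hA A le_rfl
  -- choose a prime divisor for each `I ≠ 1`
  let pr : (Ideal R)⁰ → Finset (HeightOneSpectrum R) := fun I =>
    if h : I ≠ 1 then {(exists_prime_dvd I h).choose} else ∅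
  refine ⟨A.biUnion pr, fun s hs => ?_⟩
  have hkey : ∀ I ∈ A, I ≠ 1 → sieve (⇑f) s I = 0 := by
    intro I hIA hI1
    unfold sieve
    rw [if_neg]
    intro hall
    have hmem : (exists_prime_dvd I hI1).choose ∈ s := by
      apply hs
      rw [Finset.mem_biUnion]
      exact ⟨I, hIA, by simp [pr, hI1]⟩
    exact hall _ hmem (exists_prime_dvd I hI1).choose_spec
  rw [dist_eq_norm, (summable_sieve (⇑f) hsum s).tsum_eq_add_tsum_ite 1, sieve_one,
    add_sub_cancel_left]
  have hsn : Summable fun I : (Ideal R)⁰ => ‖if I = 1 then (0 : F) else sieve (⇑f) s I‖ := by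
    refine Summable.of_nonneg_of_le (fun _ ↦ norm_nonneg _) (fun I => ?_)
      (summable_norm_sieve (⇑f) hsum s)
    split_ifs
    · simp
    · exact le_rfl
  have hind : Summable ((↑A : Set (Ideal R)⁰)ᶜ.indicator fun I : (Ideal R)⁰ => ‖f I‖) :=
    hsum.indicator _
  calc ‖∑' I : (Ideal R)⁰, if I = 1 then (0 : F) else sieve (⇑f) s I‖
      ≤ ∑' I : (Ideal R)⁰, ‖if I = 1 then (0 : F) else sieve (⇑f) s I‖ :=
        norm_tsum_le_tsum_norm hsn
    _ ≤ ∑' I : (Ideal R)⁰, (↑A : Set (Ideal R)⁰)ᶜ.indicator (fun I : (Ideal R)⁰ => ‖f I‖) I := by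
        refine hsn.tsum_le_tsum (fun I => ?_) hind
        by_cases hI1 : I = 1
        · simp only [hI1, if_true, norm_zero]
          exact Set.indicator_nonneg (fun _ _ => norm_nonneg _) _
        · rw [if_neg hI1]
          by_cases hIA : I ∈ A
          · rw [hkey I hIA hI1, norm_zero]
            exact Set.indicator_nonneg (fun _ _ => norm_nonneg _) _
          · rw [Set.indicator_of_mem (by simpa using hIA)]
            exact norm_sieve_le _ _ _
    _ = ∑' I : {I : (Ideal R)⁰ // I ∉ A}, ‖f I‖ := by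
        rw [← tsum_subtype]
        rfl
    _ < ε := by
        have := hA'
        rw [Real.dist_eq, sub_zero] at this
        exact lt_of_le_of_lt (le_abs_self _) this

/-- **Euler product** over the nonzero ideals of a Dedekind domain. -/
theorem tendsto_prod_eulerFactor {F : Type*} [NormedField F] [CompleteSpace F]
    (f : (Ideal R)⁰ →* F) (hsum : Summable fun I ↦ ‖f I‖) :
    Filter.Tendsto (fun s : Finset (HeightOneSpectrum R) ↦ ∏ v ∈ s, (1 - f (primeIdeal₀ v))⁻¹)
      Filter.atTop (nhds (∑' I, f I)) := by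
  have h1 := tendsto_tsum_sieve f hsum
  simp only [tsum_sieve f hsum] at h1
  have hL : ∑' I, f I ≠ 0 := by
    intro h0
    simp only [h0, mul_zero] at h1
    exact zero_ne_one (tendsto_nhds_unique tendsto_const_nhds h1)
  have h2 : Filter.Tendsto (fun s : Finset (HeightOneSpectrum R) ↦
      ∏ v ∈ s, (1 - f (primeIdeal₀ v))) Filter.atTop (nhds (∑' I, f I)⁻¹) := by
    have := h1.mul_const (∑' I, f I)⁻¹
    simp only [mul_assoc, mul_inv_cancel₀ hL, mul_one, one_mul] at this
    exact this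
  have h3 := h2.inv₀ (inv_ne_zero hL)
  simp only [inv_inv] at h3
  refine h3.congr fun s => ?_
  rw [Finset.prod_inv_distrib]

end Fermat.Agent.S14.FI
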