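import Mathlib

/-!
# S14 / FI-PR : comparing primes of `E` with primes of `F`

`exists_finset_primes_le`: for a finite set `S` of primes of `E` there are finite sets `T₁, T₂` of
primes of `F`, every prime of `T₁` having a prime of the same absolute norm above it, with
`∑_{w ∈ S} N w ^ (-s) ≤ [E : F] * (∑_{v ∈ T₁} N v ^ (-s) + ∑_{v ∈ T₂} N v ^ (-2 s))`.
-/

open NumberField IsDedekindDomain
open scoped nonZeroDivisors Pointwise

namespace Fermat.Agent.S14.FI

namespace PR

variable (F E : Type*) [Field F] [NumberField F] [Field E] [NumberField E] [Algebra F E]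

/-- The prime of `F` below a prime of `E`. -/
noncomputable def below (w : HeightOneSpectrum (𝓞 E)) : HeightOneSpectrum (𝓞 F) :=
  ⟨w.asIdeal.comap (algebraMap (𝓞 F) (𝓞 E)), inferInstance,
    Ideal.IsMaximal.ne_bot_of_isIntegral_int _⟩

theorem below_asIdeal (w : HeightOneSpectrum (𝓞 E)) :
    (below F E w).asIdeal = w.asIdeal.comap (algebraMap (𝓞 F) (𝓞 E)) := rfl

/-- `N w = N v ^ f`. -/
theorem absNorm_eq_pow (w : HeightOneSpectrum (𝓞 E)) :
    Ideal.absNorm w.asIdeal =
      Ideal.absNorm (below F E w).asIdeal ^ (w.asIdeal.inertiaDeg (𝓞 F)) := by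
  have h1 : w.asIdeal.IsMaximal := w.isMaximal
  have h2 : (below F E w).asIdeal.IsMaximal := (below F E w).isMaximal
  have h3 : w.asIdeal.LiesOver (below F E w).asIdeal := ⟨rfl⟩
  rw [← Ideal.absNorm_relNorm (𝓞 F) (𝓞 E) w.asIdeal,
    Ideal.relNorm_eq_pow_of_isMaximal w.asIdeal (below F E w).asIdeal, map_pow]

theorem inertiaDeg_pos (w : HeightOneSpectrum (𝓞 E)) : 0 < w.asIdeal.inertiaDeg (𝓞 F) :=
  Ideal.inertiaDeg_pos _ _

theorem one_le_absNorm (v : HeightOneSpectrum (𝓞 F)) : (1 : ℝ) ≤ Ideal.absNorm v.asIdeal := by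
  have h : Ideal.absNorm v.asIdeal ≠ 0 := by
    rw [Ne, Ideal.absNorm_eq_zero_iff]
    exact v.ne_bot
  exact_mod_cast Nat.one_le_iff_ne_zero.mpr h

/-- At most `finrank F E` primes of `E` lie above a prime `v` of `F`. -/
theorem card_filter_below_le (S : Finset (HeightOneSpectrum (𝓞 E)))
    (v : HeightOneSpectrum (𝓞 F)) [DecidablePred fun w => below F E w = v] :
    (S.filter (fun w => below F E w = v)).card ≤ Module.finrank F E := by
  classical
  have : Fintype (v.asIdeal.primesOver (𝓞 E)) := Fintype.ofFinite _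
  have h1 := Ideal.sum_ramification_inertia_eq_finrank v.asIdeal (𝓞 E)
  rw [IsFractionRing.finrank_eq (𝓞 F) F (𝓞 E) E, ← h1]
  calc (S.filter (fun w => below F E w = v)).card
      ≤ (v.asIdeal.primesOver (𝓞 E)).toFinset.card := by
        refine Finset.card_le_card_of_injOn (fun w => w.asIdeal) ?_ ?_
        · intro w hw
          have hw' : below F E w = v := (Finset.mem_filter.mp hw).2
          rw [Set.coe_toFinset]
          refine ⟨w.isPrime, ⟨?_⟩⟩
          rw [← hw']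
          rfl
        · intro w₁ _ w₂ _ h
          exact HeightOneSpectrum.ext h
    _ = ∑ _q : v.asIdeal.primesOver (𝓞 E), 1 := by
        rw [Set.toFinset_card]; simp
    _ ≤ _ := by
        refine Finset.sum_le_sum fun q _ => ?_
        have : q.1.IsPrime := q.2.1
        exact Nat.mul_pos (Ideal.ramificationIdx_pos _ _) (Ideal.inertiaDeg_pos _ _)

end PR

open PR in
theorem exists_finset_primes_le (F E : Type*) [Field F] [NumberField F] [Field E] [NumberField E] [Algebra F E] (s : ℝ) (hs : 0 ≤ s) (S : Finset (HeightOneSpectrum (𝓞 E))) : ∃ T₁ T₂ : Finset (HeightOneSpectrum (𝓞 F)), (∀ v ∈ T₁, ∃ w : HeightOneSpectrum (𝓞 E), w.asIdeal.comap (algebraMap (𝓞 F) (𝓞 E)) = v.asIdeal ∧ Ideal.absNorm w.asIdeal = Ideal.absNorm v.asIdeal) ∧ ∑ w ∈ S, (Ideal.absNorm w.asIdeal : ℝ) ^ (-s) ≤ Module.finrank F E * (∑ v ∈ T₁, (Ideal.absNorm v.asIdeal : ℝ) ^ (-s) + ∑ v ∈ T₂, (Ideal.absNorm v.asIdeal : ℝ) ^ (-(2 * s))) := by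
  classical
  set T : Finset (HeightOneSpectrum (𝓞 F)) := S.image (below F E) with hT
  set P : HeightOneSpectrum (𝓞 F) → Prop := fun v =>
    ∃ w : HeightOneSpectrum (𝓞 E), w.asIdeal.comap (algebraMap (𝓞 F) (𝓞 E)) = v.asIdeal ∧
      Ideal.absNorm w.asIdeal = Ideal.absNorm v.asIdeal with hP
  refine ⟨T.filter P, T, fun v hv => (Finset.mem_filter.mp hv).2, ?_⟩
  set g : HeightOneSpectrum (𝓞 F) → ℝ := fun v =>
    (if P v then (Ideal.absNorm v.asIdeal : ℝ) ^ (-s) else 0) +
      (Ideal.absNorm v.asIdeal : ℝ) ^ (-(2 * s)) with hg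
  have hN0 : ∀ v : HeightOneSpectrum (𝓞 F), (0 : ℝ) ≤ Ideal.absNorm v.asIdeal := fun v =>
    Nat.cast_nonneg _
  have hg0 : ∀ v, 0 ≤ g v := by
    intro v
    simp only [hg]
    have h2 : (0 : ℝ) ≤ (Ideal.absNorm v.asIdeal : ℝ) ^ (-(2 * s)) :=
      Real.rpow_nonneg (hN0 v) _
    have h1 : (0 : ℝ) ≤ (Ideal.absNorm v.asIdeal : ℝ) ^ (-s) := Real.rpow_nonneg (hN0 v) _
    split_ifs <;> linarith
  have key : ∀ w ∈ S, (Ideal.absNorm w.asIdeal : ℝ) ^ (-s) ≤ g (below F E w) := by
    intro w _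
    have hpow := absNorm_eq_pow F E w
    have hf := inertiaDeg_pos F E w
    set f := w.asIdeal.inertiaDeg (𝓞 F) with hfdef
    set v := below F E w with hv
    have h1 : (1 : ℝ) ≤ Ideal.absNorm v.asIdeal := one_le_absNorm F v
    have h2 : (0 : ℝ) ≤ (Ideal.absNorm v.asIdeal : ℝ) ^ (-(2 * s)) :=
      Real.rpow_nonneg (hN0 v) _
    have h3 : (0 : ℝ) ≤ (Ideal.absNorm v.asIdeal : ℝ) ^ (-s) := Real.rpow_nonneg (hN0 v) _
    simp only [hg]
    by_cases hf1 : f = 1
    · have hPv : P v := ⟨w, rfl, by rw [hpow, hf1, pow_one]⟩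
      rw [if_pos hPv, hpow, hf1, pow_one]
      linarith
    · have hf2 : 2 ≤ f := by omega
      have hle : (Ideal.absNorm w.asIdeal : ℝ) ^ (-s) ≤
          (Ideal.absNorm v.asIdeal : ℝ) ^ (-(2 * s)) := by
        rw [hpow, Nat.cast_pow, ← Real.rpow_natCast, ← Real.rpow_mul (hN0 v)]
        refine Real.rpow_le_rpow_of_exponent_le h1 ?_
        have : (2 : ℝ) ≤ (f : ℝ) := by exact_mod_cast hf2
        nlinarith
      split_ifs <;> linarith
  calc ∑ w ∈ S, (Ideal.absNorm w.asIdeal : ℝ) ^ (-s)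
      ≤ ∑ w ∈ S, g (below F E w) := Finset.sum_le_sum key
    _ = ∑ v ∈ T, ∑ w ∈ S.filter (fun w => below F E w = v), g (below F E w) := by
        rw [hT]
        exact (Finset.sum_fiberwise_of_maps_to (fun w hw => Finset.mem_image_of_mem _ hw) _).symm
    _ = ∑ v ∈ T, ((S.filter (fun w => below F E w = v)).card : ℝ) * g v := by
        refine Finset.sum_congr rfl fun v _ => ?_
        rw [Finset.sum_congr rfl (fun w hw => by rw [(Finset.mem_filter.mp hw).2] :
          ∀ w ∈ S.filter (fun w => below F E w = v), g (below F E w) = g v)]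
        simp
    _ ≤ ∑ v ∈ T, (Module.finrank F E : ℝ) * g v := by
        refine Finset.sum_le_sum fun v _ => ?_
        refine mul_le_mul_of_nonneg_right ?_ (hg0 v)
        exact_mod_cast card_filter_below_le F E S v
    _ = Module.finrank F E * (∑ v ∈ T.filter P, (Ideal.absNorm v.asIdeal : ℝ) ^ (-s) +
          ∑ v ∈ T, (Ideal.absNorm v.asIdeal : ℝ) ^ (-(2 * s))) := by
        rw [← Finset.mul_sum, Finset.sum_filter]
        simp only [hg, Finset.sum_add_distrib]
        rfl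

end Fermat.Agent.S14.FI
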