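/-
S14 / package FI-DZ: the Dedekind zeta function as a sum over nonzero ideals, and its growth
`c/(s-1) ≤ ζ_K(s) ≤ C/(s-1)` for real `s` close to `1` (from Mathlib's class number formula).
-/
import Mathlib

set_option autoImplicit false
noncomputable section

open NumberField IsDedekindDomain Filter Topology
open scoped nonZeroDivisors Pointwise

namespace Fermat.Agent.S14.FI

namespace DZ

variable (K : Type*) [Field K] [NumberField K]

/-- The number of integral ideals of norm `n`. -/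
def idealCount (n : ℕ) : ℕ := Nat.card {I : Ideal (𝓞 K) // Ideal.absNorm I = n}

/-- The real Dirichlet term. -/
def realTerm (s : ℝ) (n : ℕ) : ℝ := (idealCount K n : ℝ) * (n : ℝ) ^ (-s)

theorem dedekindZeta_eq (s : ℂ) :
    dedekindZeta K s = LSeries (fun n ↦ ((idealCount K n : ℝ) : ℂ)) s := by
  unfold dedekindZeta idealCount
  rfl

theorem tendsto_sum_idealCount_div :
    Tendsto (fun n : ℕ ↦ (∑ k ∈ Finset.Icc 1 n, (idealCount K k : ℝ)) / (n : ℝ)) atTop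
      (𝓝 (dedekindZeta_residue K)) := by
  refine ((Ideal.tendsto_norm_le_div_atTop₀ K).comp tendsto_natCast_atTop_atTop).congr fun n ↦ ?_
  simp only [Function.comp_apply, Nat.cast_le, ← Nat.cast_sum, idealCount]
  congr
  rw [← add_left_inj 1, ← Ideal.card_norm_le_eq_card_norm_le_add_one,
    show Finset.Icc 1 n = Finset.Ioc 0 n from Finset.Icc_succ_left_eq_Ioc _ _,
    show 1 = Nat.card {I : Ideal (𝓞 K) // Ideal.absNorm I = 0} by simp [Ideal.absNorm_eq_zero_iff],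
    Finset.sum_Ioc_add_eq_sum_Icc (n.zero_le),
    ← Finset.card_preimage_eq_sum_card_image_eq (fun k _ ↦ Ideal.finite_setOfPred_absNorm_eq k)]
  simp [Set.coe_eq_subtype]

theorem lseriesSummable {s : ℝ} (hs : 1 < s) :
    LSeriesSummable (fun n ↦ ((idealCount K n : ℝ) : ℂ)) (s : ℂ) := by
  refine LSeriesSummable_of_sum_norm_bigO_and_nonneg (r := 1) ?_ (fun n ↦ Nat.cast_nonneg _)
    zero_le_one (by simpa using hs)
  exact Asymptotics.isBigO_atTop_natCast_rpow_of_tendsto_div_rpow (by simpa using tendsto_sum_idealCount_div K)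

theorem term_eq {s : ℝ} (hs : 1 < s) (n : ℕ) :
    LSeries.term (fun n ↦ ((idealCount K n : ℝ) : ℂ)) (s : ℂ) n = ((realTerm K s n : ℝ) : ℂ) := by
  rcases Nat.eq_zero_or_pos n with rfl | hn
  · simp [realTerm, Real.zero_rpow (neg_ne_zero.mpr (by linarith : s ≠ 0))]
  · rw [LSeries.term_of_ne_zero hn.ne']
    unfold realTerm
    rw [Real.rpow_neg (Nat.cast_nonneg n)]
    push_cast
    rw [Complex.ofReal_cpow (Nat.cast_nonneg n)]
    simp [div_eq_mul_inv]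

theorem summable_realTerm {s : ℝ} (hs : 1 < s) : Summable (realTerm K s) := by
  have h := lseriesSummable K hs
  unfold LSeriesSummable at h
  rw [funext (term_eq K hs)] at h
  exact Complex.summable_ofReal.mp h

theorem dedekindZeta_ofReal {s : ℝ} (hs : 1 < s) :
    dedekindZeta K (s : ℂ) = ((∑' n, realTerm K s n : ℝ) : ℂ) := by
  rw [dedekindZeta_eq, LSeries, funext (term_eq K hs), Complex.ofReal_tsum]

theorem finite_fiber (n : ℕ) :
    Finite {I : (Ideal (𝓞 K))⁰ // Ideal.absNorm (I : Ideal (𝓞 K)) = n} := by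
  have : Finite {I : Ideal (𝓞 K) // Ideal.absNorm I = n} :=
    (Ideal.finite_setOfPred_absNorm_eq n).to_subtype
  refine Finite.of_injective
    (fun I ↦ (⟨(I.1 : Ideal (𝓞 K)), I.2⟩ : {I : Ideal (𝓞 K) // Ideal.absNorm I = n})) ?_
  intro I J h
  simp only [Subtype.mk.injEq] at h
  exact Subtype.ext (Subtype.ext h)

theorem card_fiber {n : ℕ} (hn : n ≠ 0) :
    Nat.card {I : (Ideal (𝓞 K))⁰ // Ideal.absNorm (I : Ideal (𝓞 K)) = n} = idealCount K n := by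
  refine Nat.card_congr ?_
  refine
    { toFun := fun I ↦ ⟨(I.1 : Ideal (𝓞 K)), I.2⟩
      invFun := fun I ↦ ⟨⟨I.1, mem_nonZeroDivisors_of_ne_zero ?_⟩, I.2⟩
      left_inv := fun I ↦ rfl
      right_inv := fun I ↦ rfl }
  rintro h
  have h2 := I.2
  rw [h] at h2
  simp at h2
  exact hn h2.symm

theorem tsum_fiber (s : ℝ) (hs : 1 < s) (n : ℕ) :
    ∑' y : {I : (Ideal (𝓞 K))⁰ // Ideal.absNorm (I : Ideal (𝓞 K)) = n},
      (Ideal.absNorm ((y : (Ideal (𝓞 K))⁰) : Ideal (𝓞 K)) : ℝ) ^ (-s) = realTerm K s n := by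
  have h1 : ∀ y : {I : (Ideal (𝓞 K))⁰ // Ideal.absNorm (I : Ideal (𝓞 K)) = n},
      (Ideal.absNorm ((y : (Ideal (𝓞 K))⁰) : Ideal (𝓞 K)) : ℝ) ^ (-s) = (n : ℝ) ^ (-s) := by
    intro y
    rw [y.2]
  rw [tsum_congr h1, tsum_const, realTerm]
  rcases Nat.eq_zero_or_pos n with rfl | hn
  · simp [Real.zero_rpow (neg_ne_zero.mpr (by linarith : s ≠ 0))]
  · rw [card_fiber K hn.ne', nsmul_eq_mul]

end DZ

variable (K : Type*) [Field K] [NumberField K]

theorem DZ.summable_sigma {s : ℝ} (hs : 1 < s) :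
    Summable (fun p : (Σ n : ℕ, {I : (Ideal (𝓞 K))⁰ // Ideal.absNorm (I : Ideal (𝓞 K)) = n}) ↦
      (Ideal.absNorm ((p.2 : (Ideal (𝓞 K))⁰) : Ideal (𝓞 K)) : ℝ) ^ (-s)) := by
  rw [summable_sigma_of_nonneg (fun x ↦ Real.rpow_nonneg (Nat.cast_nonneg _) _)]
  refine ⟨fun n ↦ ?_, ?_⟩
  · have := DZ.finite_fiber K n
    exact Summable.of_finite
  · refine (DZ.summable_realTerm K hs).congr fun n ↦ ?_
    exact (DZ.tsum_fiber K s hs n).symm

theorem summable_absNorm_rpow {s : ℝ} (hs : 1 < s) :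
    Summable fun I : (Ideal (𝓞 K))⁰ ↦ (Ideal.absNorm (I : Ideal (𝓞 K)) : ℝ) ^ (-s) :=
  ((Equiv.sigmaFiberEquiv
    (fun I : (Ideal (𝓞 K))⁰ ↦ Ideal.absNorm (I : Ideal (𝓞 K)))).summable_iff).mp
      (DZ.summable_sigma K hs)

theorem DZ.tsum_absNorm_rpow {s : ℝ} (hs : 1 < s) :
    ∑' I : (Ideal (𝓞 K))⁰, (Ideal.absNorm (I : Ideal (𝓞 K)) : ℝ) ^ (-s)
      = ∑' n, DZ.realTerm K s n := by
  have h1 : ∑' I : (Ideal (𝓞 K))⁰, (Ideal.absNorm (I : Ideal (𝓞 K)) : ℝ) ^ (-s) =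
      ∑' p : (Σ n : ℕ, {I : (Ideal (𝓞 K))⁰ // Ideal.absNorm (I : Ideal (𝓞 K)) = n}),
      (Ideal.absNorm ((p.2 : (Ideal (𝓞 K))⁰) : Ideal (𝓞 K)) : ℝ) ^ (-s) :=
    ((Equiv.sigmaFiberEquiv
      (fun I : (Ideal (𝓞 K))⁰ ↦ Ideal.absNorm (I : Ideal (𝓞 K)))).tsum_eq
        (fun I : (Ideal (𝓞 K))⁰ ↦ (Ideal.absNorm (I : Ideal (𝓞 K)) : ℝ) ^ (-s))).symm
  rw [h1, Summable.tsum_sigma' (fun n ↦ ?_) (DZ.summable_sigma K hs)]
  · exact tsum_congr fun n ↦ DZ.tsum_fiber K s hs n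
  · have := DZ.finite_fiber K n
    exact Summable.of_finite

theorem DZ.tendsto_sub_one_mul_tsum :
    Tendsto (fun s : ℝ ↦ (s - 1) * ∑' I : (Ideal (𝓞 K))⁰,
      (Ideal.absNorm (I : Ideal (𝓞 K)) : ℝ) ^ (-s)) (𝓝[>] 1) (𝓝 (dedekindZeta_residue K)) := by
  have h := tendsto_sub_one_mul_dedekindZeta_nhdsGT K
  have h2 : Tendsto (fun s : ℝ ↦ (((s - 1) * ∑' I : (Ideal (𝓞 K))⁰,
      (Ideal.absNorm (I : Ideal (𝓞 K)) : ℝ) ^ (-s) : ℝ) : ℂ)) (𝓝[>] 1)
      (𝓝 ((dedekindZeta_residue K : ℝ) : ℂ)) := by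
    refine h.congr' ?_
    filter_upwards [self_mem_nhdsWithin] with s hs
    rw [DZ.dedekindZeta_ofReal K hs, DZ.tsum_absNorm_rpow K hs]
    push_cast
    rfl
  exact (Complex.continuous_re.tendsto _).comp h2

theorem exists_zeta_bounds : ∃ c C δ : ℝ, 0 < c ∧ 0 < C ∧ 0 < δ ∧ ∀ s : ℝ, 1 < s → s < 1 + δ →
    c / (s - 1) ≤ ∑' I : (Ideal (𝓞 K))⁰, (Ideal.absNorm (I : Ideal (𝓞 K)) : ℝ) ^ (-s) ∧
    ∑' I : (Ideal (𝓞 K))⁰, (Ideal.absNorm (I : Ideal (𝓞 K)) : ℝ) ^ (-s) ≤ C / (s - 1) := by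
  have hρ := dedekindZeta_residue_pos K
  set ρ := dedekindZeta_residue K with hρdef
  have h := DZ.tendsto_sub_one_mul_tsum K
  have hev := h.eventually (Ioo_mem_nhds (show ρ / 2 < ρ by linarith) (show ρ < 2 * ρ by linarith))
  obtain ⟨u, hu, hsub⟩ := mem_nhdsGT_iff_exists_Ioo_subset.mp hev
  have hu1 : (1 : ℝ) < u := hu
  refine ⟨ρ / 2, 2 * ρ, u - 1, by positivity, by positivity, by linarith, fun s hs1 hs2 ↦ ?_⟩
  have hmem := hsub (show s ∈ Set.Ioo 1 u from ⟨hs1, by linarith⟩)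
  simp only [Set.mem_ofPred_eq] at hmem
  have hpos : 0 < s - 1 := by linarith
  constructor
  · rw [div_le_iff₀ hpos]
    linarith [hmem.1]
  · rw [le_div_iff₀ hpos]
    linarith [hmem.2]

end Fermat.Agent.S14.FI
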