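/-
S14 / package Ineq: the analytic norm index inequality (step (ii) / "first inequality").

For a finite extension `E/F` of number fields and a subgroup `H` of the class group of `F`
containing the class of every prime `p` of `F` that has a prime of `E` of the same absolute norm
above it:  `[Cl(F) : H] ≤ [E : F]`   (`index_le_finrank`; no Galois / unramified hypothesis).

Proof.  `G := Cl(F)/H`, `m = |G|`, `n = [E:F]`.  For a character `ψ` of `G` let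
`L(s, ψ) = ∑_I ψ([I]) N(I)^(-s)`.  By the Euler product (`FIEuler`), for finite sets `T` of primes
`∏_ψ ‖∏_{v ∈ T} (1 - ψ(v) N v^(-s))⁻¹‖² = ∏_{v ∈ T} a_v⁻¹` with
`a_v = ∏_ψ ‖1 - ψ(v) x_v‖² ≤ (1 - x_v)^(2m)` if `[v] ∈ H`, `≤ exp (m x_v²)` otherwise
(orthogonality of characters, `1 + t ≤ exp t`).  Upstairs `N w = N v ^ f` and at most `n` primes
`w` lie over `v` (`FIPrimes`), so `∏_{w ∈ T'} (1 - N w^(-s)) ≥ ∏_{v ∈ T} vv_v ^ n` with
`vv_v = 1 - x_v` if `[v] ∈ H` and `1 - x_v²` otherwise.  Eliminating `∏ vv_v` and passing to the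
limit gives `ζ_E(s)^(2m) ≤ (∏_ψ ‖L(s,ψ)‖² · exp (5 m ζ_F(2)))^n`; the L-series of the nontrivial
characters are bounded on `(1, 2]` (`BL`), `L(s, 1) = ζ_F(s) ≤ C/(s-1)` and `ζ_E(s) ≥ c/(s-1)`
(`FIZeta`), whence `(s-1)^(2m-2n)` is bounded below near `s = 1`, i.e. `m ≤ n`.
-/
import Fermat.Agent.S14.BL
import Fermat.Agent.S14.FIEuler
import Fermat.Agent.S14.FIZeta
import Fermat.Agent.S14.FIPrimes

set_option autoImplicit false
set_option linter.unusedSectionVars false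
noncomputable section

open NumberField IsDedekindDomain Filter Topology
open scoped nonZeroDivisors Classical

namespace Fermat.Agent.S14.Ineq

/-- `exp (-2 t) ≤ 1 - t` on `[0, 1/2]`. -/
theorem exp_neg_two_mul_le_one_sub {t : ℝ} (h0 : 0 ≤ t) (h1 : t ≤ 1 / 2) :
    Real.exp (-(2 * t)) ≤ 1 - t := by
  have h2 : 1 + 2 * t ≤ Real.exp (2 * t) := by
    have := Real.add_one_le_exp (2 * t)
    linarith
  rw [Real.exp_neg]
  have h3 : (0 : ℝ) < 1 + 2 * t := by linarith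
  calc (Real.exp (2 * t))⁻¹ ≤ (1 + 2 * t)⁻¹ := inv_anti₀ h3 h2
    _ ≤ 1 - t := by
      rw [inv_le_iff_one_le_mul₀ h3]
      nlinarith

section characters

variable {G : Type*} [AddCommGroup G] [Fintype G]

theorem normSq_one_sub_char_mul (ψ : AddChar G ℂ) (g : G) (x : ℝ) :
    ‖1 - ψ g * (x : ℂ)‖ ^ 2 = 1 - 2 * x * (ψ g).re + x ^ 2 := by
  have h1 : ‖ψ g‖ = 1 := ψ.norm_apply g
  have h2 : (ψ g).re ^ 2 + (ψ g).im ^ 2 = 1 := by
    have := Complex.sq_norm (ψ g)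
    rw [h1, Complex.normSq_apply] at this
    nlinarith
  rw [Complex.sq_norm, Complex.normSq_apply]
  simp only [Complex.sub_re, Complex.one_re, Complex.mul_re, Complex.ofReal_re, Complex.ofReal_im,
    mul_zero, sub_zero, Complex.sub_im, Complex.one_im, Complex.mul_im, zero_sub]
  nlinarith

/-- For `g ≠ 0`: `∏ ψ, ‖1 - ψ g x‖² ≤ exp (|G| x²)`. -/
theorem prod_char_le_exp {g : G} (hg : g ≠ 0) (x : ℝ) :
    ∏ ψ : AddChar G ℂ, ‖1 - ψ g * (x : ℂ)‖ ^ 2 ≤ Real.exp (Fintype.card G * x ^ 2) := by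
  have h1 : ∀ ψ : AddChar G ℂ, ‖1 - ψ g * (x : ℂ)‖ ^ 2 ≤ Real.exp (x ^ 2 - 2 * x * (ψ g).re) := by
    intro ψ
    rw [normSq_one_sub_char_mul]
    have := Real.add_one_le_exp (x ^ 2 - 2 * x * (ψ g).re)
    linarith
  have h2 : ∏ ψ : AddChar G ℂ, ‖1 - ψ g * (x : ℂ)‖ ^ 2
      ≤ ∏ ψ : AddChar G ℂ, Real.exp (x ^ 2 - 2 * x * (ψ g).re) :=
    Finset.prod_le_prod (fun ψ _ => by positivity) (fun ψ _ => h1 ψ)
  refine h2.trans (le_of_eq ?_)
  rw [← Real.exp_sum]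
  congr 1
  rw [Finset.sum_sub_distrib, Finset.sum_const, Finset.card_univ, AddChar.card_eq, ← Finset.mul_sum,
    ← Complex.re_sum, AddChar.sum_apply_eq_ite, if_neg hg]
  simp

/-- For `g = 0`: `∏ ψ, ‖1 - ψ 0 x‖² = (1 - x)^(2 |G|)`. -/
theorem prod_char_zero (x : ℝ) :
    ∏ ψ : AddChar G ℂ, ‖1 - ψ (0 : G) * (x : ℂ)‖ ^ 2 = ((1 - x) ^ 2) ^ Fintype.card G := by
  have h1 : ∀ ψ : AddChar G ℂ, ‖1 - ψ (0 : G) * (x : ℂ)‖ ^ 2 = (1 - x) ^ 2 := by
    intro ψ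
    rw [normSq_one_sub_char_mul, AddChar.map_zero_eq_one]
    simp only [Complex.one_re]
    ring
  rw [Finset.prod_congr rfl fun ψ _ => h1 ψ, Finset.prod_const, Finset.card_univ, AddChar.card_eq]

end characters

section fibers

variable {α β : Type*}

/-- If the fibers of `c` on `T'` have at most `n` elements and `c` maps `T'` into `T`, then
`∏ b ∈ T, v b ^ n ≤ ∏ a ∈ T', v (c a)` for `v` with values in `(0, 1]`. -/
theorem prod_pow_le_prod_comp (T' : Finset α) (T : Finset β) (c : α → β) (n : ℕ)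
    (hc : ∀ a ∈ T', c a ∈ T) (hn : ∀ b, (T'.filter fun a => c a = b).card ≤ n)
    (v : β → ℝ) (hv0 : ∀ b, 0 < v b) (hv1 : ∀ b, v b ≤ 1) :
    ∏ b ∈ T, v b ^ n ≤ ∏ a ∈ T', v (c a) := by
  rw [Finset.prod_comp (s := T') v c]
  have hsub : T'.image c ⊆ T := by
    intro b hb
    obtain ⟨a, ha, rfl⟩ := Finset.mem_image.mp hb
    exact hc a ha
  calc ∏ b ∈ T, v b ^ n ≤ ∏ b ∈ T'.image c, v b ^ n := by
        rw [← Finset.prod_sdiff hsub]
        have h1 : ∏ b ∈ T \ T'.image c, v b ^ n ≤ 1 :=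
          Finset.prod_le_one (fun b _ => pow_nonneg (hv0 b).le _)
            (fun b _ => pow_le_one₀ (hv0 b).le (hv1 b))
        have h2 : 0 ≤ ∏ b ∈ T'.image c, v b ^ n :=
          Finset.prod_nonneg fun b _ => pow_nonneg (hv0 b).le _
        calc (∏ b ∈ T \ T'.image c, v b ^ n) * ∏ b ∈ T'.image c, v b ^ n
            ≤ 1 * ∏ b ∈ T'.image c, v b ^ n := mul_le_mul_of_nonneg_right h1 h2
          _ = _ := one_mul _
    _ ≤ ∏ b ∈ T'.image c, v b ^ (T'.filter fun a => c a = b).card := by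
        refine Finset.prod_le_prod (fun b _ => pow_nonneg (hv0 b).le _) fun b _ => ?_
        exact pow_le_pow_of_le_one (hv0 b).le (hv1 b) (hn b)

end fibers

section setup

variable (K : Type*) [Field K] [NumberField K]

/-- The weight `N(I)^(-s)` as a monoid homomorphism on the nonzero ideals. -/
def wtHom (s : ℝ) : (Ideal (𝓞 K))⁰ →* ℝ where
  toFun I := (Ideal.absNorm (I : Ideal (𝓞 K)) : ℝ) ^ (-s)
  map_one' := by simp
  map_mul' I J := by
    simp only [Submonoid.coe_mul, map_mul, Nat.cast_mul]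
    exact Real.mul_rpow (Nat.cast_nonneg _) (Nat.cast_nonneg _)

theorem wtHom_apply (s : ℝ) (I : (Ideal (𝓞 K))⁰) :
    wtHom K s I = (Ideal.absNorm (I : Ideal (𝓞 K)) : ℝ) ^ (-s) := rfl

theorem wtHom_nonneg (s : ℝ) (I : (Ideal (𝓞 K))⁰) : 0 ≤ wtHom K s I := by
  rw [wtHom_apply]
  positivity

theorem summable_wtHom {s : ℝ} (hs : 1 < s) : Summable fun I => wtHom K s I :=
  FI.summable_absNorm_rpow K hs

/-- The norm of a nonzero prime is at least `2`. -/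
theorem two_le_absNorm (v : HeightOneSpectrum (𝓞 K)) : (2 : ℝ) ≤ Ideal.absNorm v.asIdeal := by
  have h0 : Ideal.absNorm v.asIdeal ≠ 0 := by
    rw [Ne, Ideal.absNorm_eq_zero_iff]
    exact v.ne_bot
  have h1 : Ideal.absNorm v.asIdeal ≠ 1 := by
    rw [Ne, Ideal.absNorm_eq_one_iff]
    exact v.isPrime.ne_top
  have : 2 ≤ Ideal.absNorm v.asIdeal := by omega
  exact_mod_cast this

theorem wtHom_prime_pos (s : ℝ) (v : HeightOneSpectrum (𝓞 K)) :
    0 < wtHom K s (FI.primeIdeal₀ v) := by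
  rw [wtHom_apply, FI.coe_primeIdeal₀]
  have := two_le_absNorm K v
  positivity

theorem wtHom_prime_le_half {s : ℝ} (hs : 1 ≤ s) (v : HeightOneSpectrum (𝓞 K)) :
    wtHom K s (FI.primeIdeal₀ v) ≤ 1 / 2 := by
  rw [wtHom_apply, FI.coe_primeIdeal₀]
  have h2 := two_le_absNorm K v
  have h1 : (1 : ℝ) ≤ Ideal.absNorm v.asIdeal := by linarith
  calc (Ideal.absNorm v.asIdeal : ℝ) ^ (-s) ≤ (Ideal.absNorm v.asIdeal : ℝ) ^ (-1 : ℝ) :=
        Real.rpow_le_rpow_of_exponent_le h1 (by linarith)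
    _ = ((Ideal.absNorm v.asIdeal : ℝ))⁻¹ := Real.rpow_neg_one _
    _ ≤ 1 / 2 := by
        rw [one_div]
        exact inv_anti₀ (by norm_num) h2

theorem wtHom_prime_sq_le {s : ℝ} (hs : 1 ≤ s) (v : HeightOneSpectrum (𝓞 K)) :
    wtHom K s (FI.primeIdeal₀ v) ^ 2 ≤ wtHom K 2 (FI.primeIdeal₀ v) := by
  rw [wtHom_apply, wtHom_apply, FI.coe_primeIdeal₀]
  have h2 := two_le_absNorm K v
  have h1 : (1 : ℝ) ≤ Ideal.absNorm v.asIdeal := by linarith
  rw [← Real.rpow_natCast, ← Real.rpow_mul (by linarith)]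
  exact Real.rpow_le_rpow_of_exponent_le h1 (by push_cast; linarith)

theorem primeIdeal₀_injective : Function.Injective (FI.primeIdeal₀ : HeightOneSpectrum (𝓞 K) → _) := by
  intro v w h
  apply HeightOneSpectrum.ext
  have := congrArg (fun I : (Ideal (𝓞 K))⁰ => (I : Ideal (𝓞 K))) h
  simpa using this

/-- `∑_{v ∈ T} N(v)^(-2s) ≤ ζ_K(2)`. -/
theorem sum_sq_le {s : ℝ} (hs : 1 ≤ s) (T : Finset (HeightOneSpectrum (𝓞 K))) :
    ∑ v ∈ T, wtHom K s (FI.primeIdeal₀ v) ^ 2 ≤ ∑' I, wtHom K 2 I := by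
  calc ∑ v ∈ T, wtHom K s (FI.primeIdeal₀ v) ^ 2
      ≤ ∑ v ∈ T, wtHom K 2 (FI.primeIdeal₀ v) :=
        Finset.sum_le_sum fun v _ => wtHom_prime_sq_le K hs v
    _ = ∑ I ∈ T.image FI.primeIdeal₀, wtHom K 2 I := by
        rw [Finset.sum_image]
        intro v _ w _ h
        exact primeIdeal₀_injective K h
    _ ≤ ∑' I, wtHom K 2 I :=
        (summable_wtHom K (by norm_num : (1 : ℝ) < 2)).sum_le_tsum _ fun I _ => wtHom_nonneg K 2 I

end setup

section chars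

variable (K : Type*) [Field K] [NumberField K] (H : Subgroup (ClassGroup (𝓞 K)))

/-- The class of a nonzero ideal in (the additive version of) `Cl(K) / H`. -/
def cls (I : (Ideal (𝓞 K))⁰) : Additive (ClassGroup (𝓞 K) ⧸ H) :=
  Additive.ofMul (QuotientGroup.mk (ClassGroup.mk0 I))

theorem cls_one : cls K H 1 = 0 := by
  simp [cls]

theorem cls_mul (I J : (Ideal (𝓞 K))⁰) : cls K H (I * J) = cls K H I + cls K H J := by
  simp [cls]

/-- The twisted weight `ψ([I]) N(I)^(-s)`. -/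
def fHom (ψ : AddChar (Additive (ClassGroup (𝓞 K) ⧸ H)) ℂ) (s : ℝ) : (Ideal (𝓞 K))⁰ →* ℂ where
  toFun I := ψ (cls K H I) * ((wtHom K s I : ℝ) : ℂ)
  map_one' := by
    rw [cls_one, AddChar.map_zero_eq_one, map_one]
    simp
  map_mul' I J := by
    rw [cls_mul, AddChar.map_add_eq_mul, map_mul]
    push_cast
    ring

theorem fHom_apply (ψ : AddChar (Additive (ClassGroup (𝓞 K) ⧸ H)) ℂ) (s : ℝ)
    (I : (Ideal (𝓞 K))⁰) : fHom K H ψ s I = ψ (cls K H I) * ((wtHom K s I : ℝ) : ℂ) := rfl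

theorem norm_fHom (ψ : AddChar (Additive (ClassGroup (𝓞 K) ⧸ H)) ℂ) (s : ℝ)
    (I : (Ideal (𝓞 K))⁰) : ‖fHom K H ψ s I‖ = wtHom K s I := by
  rw [fHom_apply, norm_mul, ψ.norm_apply, one_mul, Complex.norm_real, Real.norm_eq_abs,
    abs_of_nonneg (wtHom_nonneg K s I)]

theorem summable_norm_fHom (ψ : AddChar (Additive (ClassGroup (𝓞 K) ⧸ H)) ℂ) {s : ℝ}
    (hs : 1 < s) : Summable fun I => ‖fHom K H ψ s I‖ := by
  simp only [norm_fHom]
  exact summable_wtHom K hs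

/-- The L-series of the class character `ψ`. -/
def Lser (ψ : AddChar (Additive (ClassGroup (𝓞 K) ⧸ H)) ℂ) (s : ℝ) : ℂ :=
  ∑' I, fHom K H ψ s I

theorem Lser_zero (s : ℝ) :
    Lser K H 0 s = ((∑' I, wtHom K s I : ℝ) : ℂ) := by
  unfold Lser
  rw [Complex.ofReal_tsum]
  refine tsum_congr fun I => ?_
  rw [fHom_apply]
  simp

/-- the sum of a nontrivial character over the class group vanishes -/
theorem sum_char_class_eq_zero (ψ : AddChar (Additive (ClassGroup (𝓞 K) ⧸ H)) ℂ) (hψ : ψ ≠ 0) :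
    ∑ C : ClassGroup (𝓞 K), ψ (Additive.ofMul (QuotientGroup.mk C)) = 0 := by
  obtain ⟨x, hx⟩ := AddChar.ne_zero_iff.mp hψ
  obtain ⟨C₀, hC₀⟩ := QuotientGroup.mk_surjective (s := H) (Additive.toMul x)
  set S := ∑ C : ClassGroup (𝓞 K), ψ (Additive.ofMul (QuotientGroup.mk C)) with hS
  have h1 : ∑ C : ClassGroup (𝓞 K), ψ (Additive.ofMul (QuotientGroup.mk (C₀ * C))) = S :=
    Fintype.sum_equiv (Equiv.mulLeft C₀) _ _ fun C => rfl
  have h2 : ∑ C : ClassGroup (𝓞 K), ψ (Additive.ofMul (QuotientGroup.mk (C₀ * C))) = ψ x * S := by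
    rw [hS, Finset.mul_sum]
    refine Finset.sum_congr rfl fun C _ => ?_
    rw [← AddChar.map_add_eq_mul]
    congr 1
    rw [QuotientGroup.mk_mul, ofMul_mul, hC₀]
    simp
  have h3 : (ψ x - 1) * S = 0 := by
    rw [sub_mul, one_mul, ← h2, h1, sub_self]
  rcases mul_eq_zero.mp h3 with h | h
  · exact absurd (sub_eq_zero.mp h) hx
  · exact h

/-- Nontrivial class characters have bounded L-series on `(1, 2]`. -/
theorem exists_bound_Lser : ∃ B : ℝ, 1 ≤ B ∧ ∀ s : ℝ, 1 < s → s ≤ 2 →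
    ∀ ψ : AddChar (Additive (ClassGroup (𝓞 K) ⧸ H)) ℂ, ψ ≠ 0 → ‖Lser K H ψ s‖ ≤ B := by
  obtain ⟨B, hB0, hB⟩ := BL.exists_bound_tsum_classFun K
  refine ⟨max 1 (2 * (B * Fintype.card (ClassGroup (𝓞 K)))), le_max_left _ _, ?_⟩
  intro s hs hs2 ψ hψ
  refine le_trans ?_ (le_max_right _ _)
  have hsum : Summable fun I => fHom K H ψ s I := (summable_norm_fHom K H ψ hs).of_norm
  -- real and imaginary parts
  have hre : (Lser K H ψ s).re = ∑' I : (Ideal (𝓞 K))⁰,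
      (fun C : ClassGroup (𝓞 K) => (ψ (Additive.ofMul (QuotientGroup.mk C))).re)
        (ClassGroup.mk0 I) * (Ideal.absNorm (I : Ideal (𝓞 K)) : ℝ) ^ (-s) := by
    unfold Lser
    rw [Complex.re_tsum hsum]
    refine tsum_congr fun I => ?_
    rw [fHom_apply, Complex.re_mul_ofReal]
    rfl
  have him : (Lser K H ψ s).im = ∑' I : (Ideal (𝓞 K))⁰,
      (fun C : ClassGroup (𝓞 K) => (ψ (Additive.ofMul (QuotientGroup.mk C))).im)
        (ClassGroup.mk0 I) * (Ideal.absNorm (I : Ideal (𝓞 K)) : ℝ) ^ (-s) := by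
    unfold Lser
    rw [Complex.im_tsum hsum]
    refine tsum_congr fun I => ?_
    rw [fHom_apply, Complex.im_mul_ofReal]
    rfl
  have h0 := sum_char_class_eq_zero K H ψ hψ
  have hre0 : ∑ C : ClassGroup (𝓞 K), (ψ (Additive.ofMul (QuotientGroup.mk C))).re = 0 := by
    rw [← Complex.re_sum, h0, Complex.zero_re]
  have him0 : ∑ C : ClassGroup (𝓞 K), (ψ (Additive.ofMul (QuotientGroup.mk C))).im = 0 := by
    rw [← Complex.im_sum, h0, Complex.zero_im]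
  have hle1 : ∀ z : ℂ, ‖z‖ = 1 → |z.re| ≤ 1 ∧ |z.im| ≤ 1 := by
    intro z hz
    exact ⟨(Complex.abs_re_le_norm z).trans hz.le, (Complex.abs_im_le_norm z).trans hz.le⟩
  have hcard : ∀ g : ClassGroup (𝓞 K) → ℝ, (∀ C, |g C| ≤ 1) →
      ∑ C, |g C| ≤ Fintype.card (ClassGroup (𝓞 K)) := by
    intro g hg
    calc ∑ C, |g C| ≤ ∑ _C : ClassGroup (𝓞 K), (1 : ℝ) := Finset.sum_le_sum fun C _ => hg C
      _ = Fintype.card (ClassGroup (𝓞 K)) := by simp
  have b1 := hB s hs hs2 _ hre0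
  have b2 := hB s hs hs2 _ him0
  rw [← hre] at b1
  rw [← him] at b2
  have c1 := hcard (fun C => (ψ (Additive.ofMul (QuotientGroup.mk C))).re)
    (fun C => (hle1 _ (ψ.norm_apply _)).1)
  have c2 := hcard (fun C => (ψ (Additive.ofMul (QuotientGroup.mk C))).im)
    (fun C => (hle1 _ (ψ.norm_apply _)).2)
  have d1 : |(Lser K H ψ s).re| ≤ B * Fintype.card (ClassGroup (𝓞 K)) :=
    b1.trans (mul_le_mul_of_nonneg_left c1 hB0)
  have d2 : |(Lser K H ψ s).im| ≤ B * Fintype.card (ClassGroup (𝓞 K)) :=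
    b2.trans (mul_le_mul_of_nonneg_left c2 hB0)
  calc ‖Lser K H ψ s‖ ≤ |(Lser K H ψ s).re| + |(Lser K H ψ s).im| := Complex.norm_le_abs_re_add_abs_im _
    _ ≤ 2 * (B * Fintype.card (ClassGroup (𝓞 K))) := by linarith

end chars

/-- The abstract key inequality. -/
theorem key_abs {α β : Type*} (T' : Finset α) (T : Finset β) (c : α → β) (n m : ℕ)
    (hc : ∀ a ∈ T', c a ∈ T) (hn : ∀ b, (T'.filter fun a => c a = b).card ≤ n)
    (x vv a : β → ℝ) (y : α → ℝ) (A₂ : ℝ)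
    (hvv0 : ∀ b, 0 < vv b) (hvv1 : ∀ b, vv b ≤ 1)
    (ha0 : ∀ b, 0 < a b) (ha : ∀ b, a b ≤ vv b ^ (2 * m) * Real.exp (5 * m * x b ^ 2))
    (hy : ∀ a', vv (c a') ≤ 1 - y a')
    (hx : ∑ b ∈ T, x b ^ 2 ≤ A₂) :
    (∏ a' ∈ T', (1 - y a')⁻¹) ^ (2 * m) ≤ ((∏ b ∈ T, (a b)⁻¹) * Real.exp (5 * m * A₂)) ^ n := by
  set V := ∏ b ∈ T, vv b with hV
  have hV0 : 0 < V := Finset.prod_pos fun b _ => hvv0 b
  -- the upstairs product
  have h1 : V ^ n ≤ ∏ a' ∈ T', (1 - y a') := by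
    calc V ^ n = ∏ b ∈ T, vv b ^ n := by rw [hV, Finset.prod_pow]
      _ ≤ ∏ a' ∈ T', vv (c a') := prod_pow_le_prod_comp T' T c n hc hn vv hvv0 hvv1
      _ ≤ ∏ a' ∈ T', (1 - y a') :=
          Finset.prod_le_prod (fun a' _ => (hvv0 _).le) (fun a' _ => hy a')
  have h1' : ∏ a' ∈ T', (1 - y a')⁻¹ ≤ (V ^ n)⁻¹ := by
    rw [Finset.prod_inv_distrib]
    exact inv_anti₀ (pow_pos hV0 n) h1
  have h1'' : 0 ≤ ∏ a' ∈ T', (1 - y a')⁻¹ :=
    Finset.prod_nonneg fun a' _ => inv_nonneg.mpr (le_trans (hvv0 _).le (hy a'))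
  -- the downstairs product
  have h2 : ∏ b ∈ T, a b ≤ V ^ (2 * m) * Real.exp (5 * m * A₂) := by
    calc ∏ b ∈ T, a b ≤ ∏ b ∈ T, (vv b ^ (2 * m) * Real.exp (5 * m * x b ^ 2)) :=
          Finset.prod_le_prod (fun b _ => (ha0 b).le) (fun b _ => ha b)
      _ = V ^ (2 * m) * Real.exp (∑ b ∈ T, 5 * m * x b ^ 2) := by
          rw [Finset.prod_mul_distrib, Finset.prod_pow, ← Real.exp_sum]
      _ ≤ V ^ (2 * m) * Real.exp (5 * m * A₂) := by
          refine mul_le_mul_of_nonneg_left ?_ (pow_pos hV0 _).le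
          rw [Real.exp_le_exp, ← Finset.mul_sum]
          exact mul_le_mul_of_nonneg_left hx (by positivity)
  have hA0 : 0 < ∏ b ∈ T, a b := Finset.prod_pos fun b _ => ha0 b
  have h2' : (V ^ (2 * m))⁻¹ ≤ (∏ b ∈ T, (a b)⁻¹) * Real.exp (5 * m * A₂) := by
    rw [Finset.prod_inv_distrib, inv_mul_eq_div, le_div_iff₀ hA0, inv_mul_le_iff₀ (pow_pos hV0 _)]
    exact h2
  calc (∏ a' ∈ T', (1 - y a')⁻¹) ^ (2 * m) ≤ ((V ^ n)⁻¹) ^ (2 * m) :=
        pow_le_pow_left₀ h1'' h1' _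
    _ = ((V ^ (2 * m))⁻¹) ^ n := by
        rw [inv_pow, inv_pow, ← pow_mul, ← pow_mul, mul_comm]
    _ ≤ ((∏ b ∈ T, (a b)⁻¹) * Real.exp (5 * m * A₂)) ^ n :=
        pow_le_pow_left₀ (inv_nonneg.mpr (pow_pos hV0 _).le) h2' _

section inst

variable (F E : Type*) [Field F] [NumberField F] [Field E] [NumberField E] [Algebra F E]
  (H : Subgroup (ClassGroup (𝓞 F)))

/-- `x_v = N(v)^(-s)`. -/
def xv (s : ℝ) (v : HeightOneSpectrum (𝓞 F)) : ℝ := wtHom F s (FI.primeIdeal₀ v)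

/-- The norm of the product over all class characters of the Euler factors at `v`. -/
def av (s : ℝ) (v : HeightOneSpectrum (𝓞 F)) : ℝ :=
  ∏ ψ : AddChar (Additive (ClassGroup (𝓞 F) ⧸ H)) ℂ, ‖1 - fHom F H ψ s (FI.primeIdeal₀ v)‖ ^ 2

/-- The comparison factor at `v`. -/
def vv (s : ℝ) (v : HeightOneSpectrum (𝓞 F)) : ℝ :=
  if cls F H (FI.primeIdeal₀ v) = 0 then 1 - xv F s v else 1 - xv F s v ^ 2

theorem xv_pos (s : ℝ) (v : HeightOneSpectrum (𝓞 F)) : 0 < xv F s v := wtHom_prime_pos F s v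

theorem xv_le_half {s : ℝ} (hs : 1 ≤ s) (v : HeightOneSpectrum (𝓞 F)) : xv F s v ≤ 1 / 2 :=
  wtHom_prime_le_half F hs v

theorem vv_pos {s : ℝ} (hs : 1 ≤ s) (v : HeightOneSpectrum (𝓞 F)) : 0 < vv F H s v := by
  have h1 := xv_pos F s v
  have h2 := xv_le_half F hs v
  unfold vv
  split_ifs
  · linarith
  · nlinarith

theorem vv_le_one {s : ℝ} (v : HeightOneSpectrum (𝓞 F)) : vv F H s v ≤ 1 := by
  have h1 := xv_pos F s v
  unfold vv
  split_ifs
  · linarith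
  · nlinarith

theorem av_eq (s : ℝ) (v : HeightOneSpectrum (𝓞 F)) :
    av F H s v = ∏ ψ : AddChar (Additive (ClassGroup (𝓞 F) ⧸ H)) ℂ,
      ‖1 - ψ (cls F H (FI.primeIdeal₀ v)) * ((xv F s v : ℝ) : ℂ)‖ ^ 2 := rfl

theorem av_pos {s : ℝ} (hs : 1 ≤ s) (v : HeightOneSpectrum (𝓞 F)) : 0 < av F H s v := by
  rw [av_eq]
  refine Finset.prod_pos fun ψ _ => ?_
  have h1 := xv_pos F s v
  have h2 := xv_le_half F hs v
  have h3 : ‖ψ (cls F H (FI.primeIdeal₀ v)) * ((xv F s v : ℝ) : ℂ)‖ = xv F s v := by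
    rw [norm_mul, ψ.norm_apply, one_mul, Complex.norm_real, Real.norm_eq_abs, abs_of_pos h1]
  have h4 : 0 < ‖1 - ψ (cls F H (FI.primeIdeal₀ v)) * ((xv F s v : ℝ) : ℂ)‖ := by
    have := norm_sub_norm_le (1 : ℂ) (ψ (cls F H (FI.primeIdeal₀ v)) * ((xv F s v : ℝ) : ℂ))
    rw [norm_one, h3] at this
    linarith
  positivity

theorem av_le {s : ℝ} (hs : 1 ≤ s) (v : HeightOneSpectrum (𝓞 F)) :
    av F H s v ≤ vv F H s v ^ (2 * Fintype.card (Additive (ClassGroup (𝓞 F) ⧸ H)))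
      * Real.exp (5 * (Fintype.card (Additive (ClassGroup (𝓞 F) ⧸ H)) : ℕ) * xv F s v ^ 2) := by
  have h1 := xv_pos F s v
  have h2 := xv_le_half F hs v
  set m := Fintype.card (Additive (ClassGroup (𝓞 F) ⧸ H)) with hm
  rw [av_eq]
  unfold vv
  by_cases h0 : cls F H (FI.primeIdeal₀ v) = 0
  · rw [if_pos h0, h0, prod_char_zero, ← hm, ← pow_mul]
    have h3 : (1 : ℝ) ≤ Real.exp (5 * (m : ℕ) * xv F s v ^ 2) := by
      apply Real.one_le_exp
      positivity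
    have h4 : 0 ≤ (1 - xv F s v) ^ (2 * m) := pow_nonneg (by linarith) _
    nlinarith
  · rw [if_neg h0]
    refine (prod_char_le_exp h0 (xv F s v)).trans ?_
    rw [← hm]
    have h3 : Real.exp (-(2 * xv F s v ^ 2)) ≤ 1 - xv F s v ^ 2 :=
      exp_neg_two_mul_le_one_sub (by positivity) (by nlinarith)
    have h4 : Real.exp (-(2 * xv F s v ^ 2)) ^ (2 * m) ≤ (1 - xv F s v ^ 2) ^ (2 * m) :=
      pow_le_pow_left₀ (Real.exp_pos _).le h3 _
    have h5 : Real.exp (m * xv F s v ^ 2)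
        = Real.exp (-(2 * xv F s v ^ 2)) ^ (2 * m) * Real.exp (5 * (m : ℕ) * xv F s v ^ 2) := by
      rw [← Real.exp_nat_mul, ← Real.exp_add]
      congr 1
      push_cast
      ring
    rw [h5]
    exact mul_le_mul_of_nonneg_right h4 (Real.exp_pos _).le

/-- `y_w = N(w)^(-s)`. -/
def yw (s : ℝ) (w : HeightOneSpectrum (𝓞 E)) : ℝ := wtHom E s (FI.primeIdeal₀ w)

theorem yw_eq_pow (s : ℝ) (w : HeightOneSpectrum (𝓞 E)) :
    yw E s w = xv F s (FI.PR.below F E w) ^ (w.asIdeal.inertiaDeg (𝓞 F)) := by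
  unfold yw xv
  rw [wtHom_apply, wtHom_apply, FI.coe_primeIdeal₀, FI.coe_primeIdeal₀, FI.PR.absNorm_eq_pow F E w]
  push_cast
  rw [← Real.rpow_natCast, ← Real.rpow_natCast, ← Real.rpow_mul (Nat.cast_nonneg _),
    ← Real.rpow_mul (Nat.cast_nonneg _), mul_comm]

theorem vv_le_one_sub_yw {s : ℝ} (hs : 1 ≤ s)
    (hH : ∀ (p : (Ideal (𝓞 F))⁰) (P : Ideal (𝓞 E)), P.IsPrime → P ≠ ⊥ →
      P.under (𝓞 F) = (p : Ideal (𝓞 F)) →
      Ideal.absNorm P = Ideal.absNorm (p : Ideal (𝓞 F)) → ClassGroup.mk0 p ∈ H)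
    (w : HeightOneSpectrum (𝓞 E)) :
    vv F H s (FI.PR.below F E w) ≤ 1 - yw E s w := by
  have h1 := xv_pos F s (FI.PR.below F E w)
  have h2 := xv_le_half F hs (FI.PR.below F E w)
  have hf := FI.PR.inertiaDeg_pos F E w
  rw [yw_eq_pow F E s w]
  unfold vv
  by_cases h0 : cls F H (FI.primeIdeal₀ (FI.PR.below F E w)) = 0
  · rw [if_pos h0]
    have : xv F s (FI.PR.below F E w) ^ (w.asIdeal.inertiaDeg (𝓞 F)) ≤ xv F s (FI.PR.below F E w) :=
      pow_le_of_le_one h1.le (by linarith) hf.ne'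
    linarith
  · rw [if_neg h0]
    have hf2 : 2 ≤ w.asIdeal.inertiaDeg (𝓞 F) := by
      by_contra hlt
      have hf1 : w.asIdeal.inertiaDeg (𝓞 F) = 1 := by omega
      apply h0
      have hnorm : Ideal.absNorm w.asIdeal = Ideal.absNorm (FI.PR.below F E w).asIdeal := by
        rw [FI.PR.absNorm_eq_pow F E w, hf1, pow_one]
      have hmem := hH (FI.primeIdeal₀ (FI.PR.below F E w)) w.asIdeal w.isPrime w.ne_bot rfl hnorm
      unfold cls
      rw [(QuotientGroup.eq_one_iff _).mpr hmem]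
      rfl
    have : xv F s (FI.PR.below F E w) ^ (w.asIdeal.inertiaDeg (𝓞 F)) ≤ xv F s (FI.PR.below F E w) ^ 2 :=
      pow_le_pow_of_le_one h1.le (by linarith) hf2
    linarith

end inst

/-- The abstract endgame. -/
theorem endgame {c Kc δ : ℝ} (hc : 0 < c) (hK : 0 ≤ Kc) (hδ : 0 < δ) {n m : ℕ} (hnm : n < m)
    (h : ∀ t : ℝ, 0 < t → t < δ → c ^ (2 * m) * t ^ (2 * n) ≤ Kc * t ^ (2 * m)) : False := by
  have hc2 : 0 < c ^ (2 * m) := pow_pos hc _
  set t := min (δ / 2) (min (1 / 2) (c ^ (2 * m) / (2 * (Kc + 1)))) with ht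
  have ht0 : 0 < t := by
    rw [ht]
    refine lt_min (by linarith) (lt_min (by norm_num) ?_)
    positivity
  have ht1 : t ≤ 1 / 2 := (min_le_right _ _).trans (min_le_left _ _)
  have ht2 : t ≤ c ^ (2 * m) / (2 * (Kc + 1)) := (min_le_right _ _).trans (min_le_right _ _)
  have ht3 : t < δ := lt_of_le_of_lt (min_le_left _ _) (by linarith)
  have h1 := h t ht0 ht3
  have h2 : t ^ (2 * m) ≤ t ^ (2 * n) * t := by
    have : 2 * m = 2 * n + (2 * m - 2 * n) := by omega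
    rw [this, pow_add]
    refine mul_le_mul_of_nonneg_left ?_ (pow_pos ht0 _).le
    exact pow_le_of_le_one ht0.le (by linarith) (by omega)
  have h3 : c ^ (2 * m) * t ^ (2 * n) ≤ Kc * t * t ^ (2 * n) := by
    calc c ^ (2 * m) * t ^ (2 * n) ≤ Kc * t ^ (2 * m) := h1
      _ ≤ Kc * (t ^ (2 * n) * t) := mul_le_mul_of_nonneg_left h2 hK
      _ = Kc * t * t ^ (2 * n) := by ring
  have h4 : c ^ (2 * m) ≤ Kc * t := le_of_mul_le_mul_right h3 (pow_pos ht0 _)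
  have h5 : Kc * t ≤ Kc * (c ^ (2 * m) / (2 * (Kc + 1))) := mul_le_mul_of_nonneg_left ht2 hK
  have h6 : Kc * (c ^ (2 * m) / (2 * (Kc + 1))) < c ^ (2 * m) := by
    rw [mul_div_assoc', div_lt_iff₀ (by positivity)]
    nlinarith
  linarith

section limits

variable (F E : Type*) [Field F] [NumberField F] [Field E] [NumberField E] [Algebra F E]
  (H : Subgroup (ClassGroup (𝓞 F)))

theorem tendsto_prod_av {s : ℝ} (hs : 1 < s) :
    Tendsto (fun T : Finset (HeightOneSpectrum (𝓞 F)) => ∏ v ∈ T, (av F H s v)⁻¹) atTop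
      (𝓝 (∏ ψ : AddChar (Additive (ClassGroup (𝓞 F) ⧸ H)) ℂ, ‖Lser F H ψ s‖ ^ 2)) := by
  have h : Tendsto (fun T : Finset (HeightOneSpectrum (𝓞 F)) =>
      ∏ ψ : AddChar (Additive (ClassGroup (𝓞 F) ⧸ H)) ℂ,
        ‖∏ v ∈ T, (1 - fHom F H ψ s (FI.primeIdeal₀ v))⁻¹‖ ^ 2) atTop
      (𝓝 (∏ ψ : AddChar (Additive (ClassGroup (𝓞 F) ⧸ H)) ℂ, ‖Lser F H ψ s‖ ^ 2)) :=
    tendsto_finsetProd _ fun ψ _ =>
      ((FI.tendsto_prod_eulerFactor (fHom F H ψ s) (summable_norm_fHom F H ψ hs)).norm).pow 2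
  refine h.congr fun T => ?_
  unfold av
  simp only [norm_prod, norm_inv, ← Finset.prod_pow, inv_pow]
  rw [Finset.prod_comm]
  simp only [Finset.prod_inv_distrib]

theorem tendsto_euler_E {s : ℝ} (hs : 1 < s) :
    Tendsto (fun T' : Finset (HeightOneSpectrum (𝓞 E)) => ∏ w ∈ T', (1 - yw E s w)⁻¹) atTop
      (𝓝 (∑' J, wtHom E s J)) := by
  refine FI.tendsto_prod_eulerFactor (wtHom E s) ?_
  refine (summable_wtHom E hs).congr fun J => ?_
  rw [Real.norm_eq_abs, abs_of_nonneg (wtHom_nonneg E s J)]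

/-- The comparison of `ζ_E` with the product of the class-character L-series of `F`. -/
theorem zetaE_pow_le {s : ℝ} (hs : 1 < s)
    (hH : ∀ (p : (Ideal (𝓞 F))⁰) (P : Ideal (𝓞 E)), P.IsPrime → P ≠ ⊥ →
      P.under (𝓞 F) = (p : Ideal (𝓞 F)) →
      Ideal.absNorm P = Ideal.absNorm (p : Ideal (𝓞 F)) → ClassGroup.mk0 p ∈ H) :
    (∑' J, wtHom E s J) ^ (2 * Fintype.card (Additive (ClassGroup (𝓞 F) ⧸ H))) ≤
      ((∏ ψ : AddChar (Additive (ClassGroup (𝓞 F) ⧸ H)) ℂ, ‖Lser F H ψ s‖ ^ 2) *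
        Real.exp (5 * (Fintype.card (Additive (ClassGroup (𝓞 F) ⧸ H)) : ℕ) *
          ∑' I, wtHom F 2 I)) ^ Module.finrank F E := by
  set m := Fintype.card (Additive (ClassGroup (𝓞 F) ⧸ H)) with hm
  have key : ∀ (T' : Finset (HeightOneSpectrum (𝓞 E))) (T : Finset (HeightOneSpectrum (𝓞 F))),
      T'.image (FI.PR.below F E) ≤ T →
      (∏ w ∈ T', (1 - yw E s w)⁻¹) ^ (2 * m) ≤
        ((∏ v ∈ T, (av F H s v)⁻¹) * Real.exp (5 * (m : ℕ) * ∑' I, wtHom F 2 I)) ^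
          Module.finrank F E := by
    intro T' T hT
    refine key_abs T' T (FI.PR.below F E) (Module.finrank F E) m ?_ ?_ (xv F s) (vv F H s)
      (av F H s) (yw E s) (∑' I, wtHom F 2 I) (vv_pos F H hs.le) (fun v => vv_le_one F H v)
      (av_pos F H hs.le) (av_le F H hs.le) (vv_le_one_sub_yw F E H hs.le hH) (sum_sq_le F hs.le T)
    · intro w hw
      exact hT (Finset.mem_image_of_mem _ hw)
    · intro v
      exact FI.PR.card_filter_below_le F E T' v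
  have step1 : ∀ T' : Finset (HeightOneSpectrum (𝓞 E)),
      (∏ w ∈ T', (1 - yw E s w)⁻¹) ^ (2 * m) ≤
        ((∏ ψ : AddChar (Additive (ClassGroup (𝓞 F) ⧸ H)) ℂ, ‖Lser F H ψ s‖ ^ 2) *
          Real.exp (5 * (m : ℕ) * ∑' I, wtHom F 2 I)) ^ Module.finrank F E := by
    intro T'
    have ht := (((tendsto_prod_av F H hs).mul_const
      (Real.exp (5 * (m : ℕ) * ∑' I, wtHom F 2 I))).pow (Module.finrank F E))
    exact ge_of_tendsto ht ((eventually_ge_atTop (T'.image (FI.PR.below F E))).mono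
      fun T hT => key T' T hT)
  exact le_of_tendsto' ((tendsto_euler_E E hs).pow (2 * m)) step1

theorem prod_Lser_le (s : ℝ) (B : ℝ) (hB1 : 1 ≤ B)
    (hB : ∀ ψ : AddChar (Additive (ClassGroup (𝓞 F) ⧸ H)) ℂ, ψ ≠ 0 → ‖Lser F H ψ s‖ ≤ B) :
    ∏ ψ : AddChar (Additive (ClassGroup (𝓞 F) ⧸ H)) ℂ, ‖Lser F H ψ s‖ ^ 2 ≤
      ((∑' I, wtHom F s I) * B ^ Fintype.card (Additive (ClassGroup (𝓞 F) ⧸ H))) ^ 2 := by
  have hz : 0 ≤ ∑' I, wtHom F s I := tsum_nonneg fun I => wtHom_nonneg F s I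
  rw [Finset.prod_pow]
  refine pow_le_pow_left₀ (Finset.prod_nonneg fun ψ _ => norm_nonneg _) ?_ 2
  rw [← Finset.prod_erase_mul _ _ (Finset.mem_univ (0 : AddChar (Additive (ClassGroup (𝓞 F) ⧸ H)) ℂ))]
  have h0 : ‖Lser F H 0 s‖ = ∑' I, wtHom F s I := by
    rw [Lser_zero, Complex.norm_real, Real.norm_eq_abs, abs_of_nonneg hz]
  rw [h0, mul_comm]
  refine mul_le_mul_of_nonneg_left ?_ hz
  calc ∏ ψ ∈ Finset.univ.erase (0 : AddChar (Additive (ClassGroup (𝓞 F) ⧸ H)) ℂ), ‖Lser F H ψ s‖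
      ≤ ∏ _ψ ∈ Finset.univ.erase (0 : AddChar (Additive (ClassGroup (𝓞 F) ⧸ H)) ℂ), B :=
        Finset.prod_le_prod (fun ψ _ => norm_nonneg _)
          (fun ψ hψ => hB ψ (Finset.ne_of_mem_erase hψ))
    _ = B ^ (Finset.univ.erase (0 : AddChar (Additive (ClassGroup (𝓞 F) ⧸ H)) ℂ)).card :=
        Finset.prod_const _
    _ ≤ B ^ Fintype.card (Additive (ClassGroup (𝓞 F) ⧸ H)) := by
        refine pow_le_pow_right₀ hB1 ?_
        calc (Finset.univ.erase (0 : AddChar (Additive (ClassGroup (𝓞 F) ⧸ H)) ℂ)).card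
            ≤ (Finset.univ : Finset (AddChar (Additive (ClassGroup (𝓞 F) ⧸ H)) ℂ)).card :=
              Finset.card_le_card (Finset.erase_subset _ _)
          _ = Fintype.card (Additive (ClassGroup (𝓞 F) ⧸ H)) := by
              rw [Finset.card_univ, AddChar.card_eq]

end limits

variable (F E : Type*) [Field F] [NumberField F] [Field E] [NumberField E] [Algebra F E]

/-- **Analytic norm index inequality** (prime form). Let `E/F` be a finite extension of number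
fields and `H` a subgroup of the class group of `F` containing the class of every prime `p` of
`F` which has a prime of `E` of the same absolute norm above it. If the partial zeta functions
of the ideal classes of `F` differ by bounded functions on `(1, 2]`, then `[Cl(F) : H] ≤ [E : F]`. -/
theorem index_le_finrank (H : Subgroup (ClassGroup (𝓞 F)))
    (hH : ∀ (p : (Ideal (𝓞 F))⁰) (P : Ideal (𝓞 E)), P.IsPrime → P ≠ ⊥ →
      P.under (𝓞 F) = (p : Ideal (𝓞 F)) →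
      Ideal.absNorm P = Ideal.absNorm (p : Ideal (𝓞 F)) → ClassGroup.mk0 p ∈ H) :
    H.index ≤ Module.finrank F E := by
  by_contra hlt
  push Not at hlt
  have hidx : H.index = Fintype.card (Additive (ClassGroup (𝓞 F) ⧸ H)) := by
    rw [Subgroup.index_eq_card, Nat.card_eq_fintype_card]
    exact Fintype.card_congr Additive.ofMul
  set m := Fintype.card (Additive (ClassGroup (𝓞 F) ⧸ H)) with hm
  rw [hidx] at hlt
  set n := Module.finrank F E with hn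
  obtain ⟨B, hB1, hB⟩ := exists_bound_Lser F H
  obtain ⟨cE, CE, δE, hcE, _, hδE, hE⟩ := FI.exists_zeta_bounds E
  obtain ⟨cF, CF, δF, _, hCF, hδF, hF⟩ := FI.exists_zeta_bounds F
  set e := Real.exp (5 * (m : ℕ) * ∑' I, wtHom F 2 I) with he
  have he0 : 0 < e := Real.exp_pos _
  have hB0 : 0 < B := by linarith
  refine endgame (c := cE) (Kc := (CF * B ^ m) ^ (2 * n) * e ^ n) (δ := min (min δE δF) 1) hcE
    (by positivity) (lt_min (lt_min hδE hδF) one_pos) hlt ?_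
  intro t ht0 htδ
  have ht1 : t < δE := lt_of_lt_of_le htδ ((min_le_left _ _).trans (min_le_left _ _))
  have ht2 : t < δF := lt_of_lt_of_le htδ ((min_le_left _ _).trans (min_le_right _ _))
  have ht3 : t < 1 := lt_of_lt_of_le htδ (min_le_right _ _)
  set s := 1 + t with hs
  have hs1 : 1 < s := by linarith
  have hs2 : s ≤ 2 := by linarith
  have hst : s - 1 = t := by rw [hs]; ring
  have hEs := (hE s hs1 (by linarith)).1
  have hFs := (hF s hs1 (by linarith)).2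
  rw [hst] at hEs hFs
  have hzE : ∑' J : (Ideal (𝓞 E))⁰, wtHom E s J = ∑' J : (Ideal (𝓞 E))⁰,
      (Ideal.absNorm (J : Ideal (𝓞 E)) : ℝ) ^ (-s) := rfl
  have hzF : ∑' I : (Ideal (𝓞 F))⁰, wtHom F s I = ∑' I : (Ideal (𝓞 F))⁰,
      (Ideal.absNorm (I : Ideal (𝓞 F)) : ℝ) ^ (-s) := rfl
  rw [← hzE] at hEs
  rw [← hzF] at hFs
  have hzF0 : 0 ≤ ∑' I : (Ideal (𝓞 F))⁰, wtHom F s I := tsum_nonneg fun I => wtHom_nonneg F s I
  have h1 := zetaE_pow_le F E H hs1 hH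
  have h2 := prod_Lser_le F H s B hB1 (fun ψ hψ => hB s hs1 hs2 ψ hψ)
  rw [← hm] at h1 h2
  rw [← he] at h1
  -- chain
  have h3 : (cE / t) ^ (2 * m) ≤ (∑' J : (Ideal (𝓞 E))⁰, wtHom E s J) ^ (2 * m) :=
    pow_le_pow_left₀ (by positivity) hEs _
  have h4 : ((∑' I : (Ideal (𝓞 F))⁰, wtHom F s I) * B ^ m) ^ 2 ≤ ((CF / t) * B ^ m) ^ 2 :=
    pow_le_pow_left₀ (by positivity) (mul_le_mul_of_nonneg_right hFs (by positivity)) _
  have h5 : (cE / t) ^ (2 * m) ≤ ((((CF / t) * B ^ m) ^ 2) * e) ^ n := by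
    refine h3.trans (h1.trans ?_)
    refine pow_le_pow_left₀ (by positivity) ?_ _
    exact mul_le_mul_of_nonneg_right (h2.trans h4) he0.le
  have h6 : ((((CF / t) * B ^ m) ^ 2) * e) ^ n = ((CF * B ^ m) ^ (2 * n) * e ^ n) / t ^ (2 * n) := by
    rw [mul_pow, ← pow_mul, div_mul_eq_mul_div, div_pow]
    ring
  rw [h6, div_pow, div_le_div_iff₀ (pow_pos ht0 _) (pow_pos ht0 _)] at h5
  exact h5

end Fermat.Agent.S14.Ineq
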