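import Mathlib

set_option autoImplicit false

namespace Fermat.Agent.S14

namespace HQ

open Module

/-! ### index bookkeeping -/

section Index
variable {G G' : Type*} [AddCommGroup G] [AddCommGroup G']

/-- `[A : B] = [A ∩ ker f : B ∩ ker f] · [f A : f B]` -/
theorem relIndex_eq_mul (f : G →+ G') {B A : AddSubgroup G} (hBA : B ≤ A) :
    B.relIndex A = (B ⊓ f.ker).relIndex (A ⊓ f.ker) * (B.map f).relIndex (A.map f) := by
  have h1 : (B.map f).relIndex (A.map f) = (B ⊔ f.ker).relIndex A := by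
    rw [← AddSubgroup.relIndex_comap, AddSubgroup.comap_map_eq]
  have h2 : (B ⊓ f.ker).relIndex (A ⊓ f.ker) = B.relIndex ((B ⊔ f.ker) ⊓ A) := by
    rw [sup_inf_assoc_of_le _ hBA, AddSubgroup.relIndex_sup_left,
      ← AddSubgroup.inf_relIndex_right B, ← AddSubgroup.inf_relIndex_right (B ⊓ f.ker)]
    congr 1
    · ext x
      simp only [AddSubgroup.mem_inf]
      tauto
    · exact inf_comm _ _
  rw [h1, h2, AddSubgroup.relIndex_inf_mul_relIndex, inf_eq_left.mpr le_sup_left]

/-- Herbrand quotient is unchanged on a stable subgroup of finite index. -/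
theorem herbrand_index (f g : G →+ G) (hfg : ∀ x, f (g x) = 0) (hgf : ∀ x, g (f x) = 0)
    (B : AddSubgroup G) (hBf : B.map f ≤ B) (hBg : B.map g ≤ B) (hB : B.index ≠ 0) :
    g.range.relIndex f.ker * (B.map f).relIndex (B ⊓ g.ker) =
      f.range.relIndex g.ker * (B.map g).relIndex (B ⊓ f.ker) ∧
    ((B.map g).relIndex (B ⊓ f.ker) ≠ 0 → g.range.relIndex f.ker ≠ 0) := by
  have Kf := relIndex_eq_mul f (le_top : B ≤ ⊤)
  have Kg := relIndex_eq_mul g (le_top : B ≤ ⊤)
  rw [AddSubgroup.relIndex_top_right, top_inf_eq, ← AddMonoidHom.range_eq_map] at Kf Kg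
  have hgr : g.range ≤ f.ker := by
    rintro _ ⟨x, rfl⟩
    exact hfg x
  have hfr : f.range ≤ g.ker := by
    rintro _ ⟨x, rfl⟩
    exact hgf x
  have hBgr : B.map g ≤ g.range := AddSubgroup.map_le_range g B
  have hBfr : B.map f ≤ f.range := AddSubgroup.map_le_range f B
  have c0 : (B.map g).relIndex g.range * g.range.relIndex f.ker
      = (B.map g).relIndex (B ⊓ f.ker) * (B ⊓ f.ker).relIndex f.ker := by
    rw [AddSubgroup.relIndex_mul_relIndex _ _ _ hBgr hgr,
      AddSubgroup.relIndex_mul_relIndex _ _ _ (le_inf hBg (hBgr.trans hgr)) inf_le_right]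
  have c1 : (B.map f).relIndex f.range * f.range.relIndex g.ker
      = (B.map f).relIndex (B ⊓ g.ker) * (B ⊓ g.ker).relIndex g.ker := by
    rw [AddSubgroup.relIndex_mul_relIndex _ _ _ hBfr hfr,
      AddSubgroup.relIndex_mul_relIndex _ _ _ (le_inf hBf (hBfr.trans hfr)) inf_le_right]
  set n := B.index
  set af := (B ⊓ f.ker).relIndex f.ker
  set bf := (B.map f).relIndex f.range
  set ag := (B ⊓ g.ker).relIndex g.ker
  set bg := (B.map g).relIndex g.range
  set x0 := g.range.relIndex f.ker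
  set x1 := f.range.relIndex g.ker
  set y0 := (B.map g).relIndex (B ⊓ f.ker)
  set y1 := (B.map f).relIndex (B ⊓ g.ker)
  have haf : af ≠ 0 := fun h => hB (by rw [Kf, h, zero_mul])
  have hbf : bf ≠ 0 := fun h => hB (by rw [Kf, h, mul_zero])
  have hag : ag ≠ 0 := fun h => hB (by rw [Kg, h, zero_mul])
  have hbg : bg ≠ 0 := fun h => hB (by rw [Kg, h, mul_zero])
  constructor
  · have : n * (x0 * y1) = n * (x1 * y0) := by
      calc n * (x0 * y1) = (bg * x0) * (y1 * ag) := by rw [Kg]; ring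
        _ = (y0 * af) * (bf * x1) := by rw [c0, ← c1]
        _ = n * (x1 * y0) := by rw [Kf]; ring
    exact Nat.eq_of_mul_eq_mul_left (Nat.pos_of_ne_zero hB) this
  · intro hy0 hx0
    have : y0 * af = 0 := by rw [← c0, hx0, mul_zero]
    rcases Nat.mul_eq_zero.mp this with h | h
    · exact hy0 h
    · exact haf h

end Index

/-! ### determinants and indices in free `ℤ`-modules -/

section Det
variable {M : Type*} [AddCommGroup M] [Module.Free ℤ M] [Module.Finite ℤ M]

theorem index_range_eq_natAbs_det (φ : M →ₗ[ℤ] M) (hφ : Function.Injective φ) :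
    (LinearMap.range φ).toAddSubgroup.index = (LinearMap.det φ).natAbs := by
  have h := Submodule.natAbs_det_equiv (LinearMap.range φ) (LinearEquiv.ofInjective φ hφ)
  have h2 : (LinearMap.range φ).subtype ∘ₗ
      AddMonoidHom.toIntLinearMap ((LinearEquiv.ofInjective φ hφ : M ≃ₗ[ℤ] LinearMap.range φ) :
        M →+ LinearMap.range φ) = φ := by
    ext x
    rfl
  rw [h2] at h
  rw [h]
  rfl

/-- the polynomial identities behind `(1 - ζ)^(p-1) = p · unit` -/
theorem poly_id (p : ℕ) [hp : Fact p.Prime] :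
    ∃ Q C' D : Polynomial ℤ,
      (∑ i ∈ Finset.range p, (Polynomial.X : Polynomial ℤ) ^ i) =
        Polynomial.C (p : ℤ) * Q + (Polynomial.X - 1) ^ (p - 1) ∧
      Q * C' + D * (∑ i ∈ Finset.range p, (Polynomial.X : Polynomial ℤ) ^ i) = 1 := by
  classical
  set P : Polynomial ℤ := ∑ i ∈ Finset.range p, (Polynomial.X : Polynomial ℤ) ^ i with hP
  have hp1 : p - 1 ≠ 0 := by
    have := hp.out.two_le
    omega
  -- step (a)
  have ha : Polynomial.C (p : ℤ) ∣ P - (Polynomial.X - 1) ^ (p - 1) := by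
    rw [Polynomial.C_dvd_iff_dvd_coeff]
    intro i
    rw [← ZMod.intCast_zmod_eq_zero_iff_dvd]
    have hmap : Polynomial.map (Int.castRingHom (ZMod p)) (P - (Polynomial.X - 1) ^ (p - 1)) = 0 := by
      have hX : (Polynomial.X - 1 : Polynomial (ZMod p)) ≠ 0 := by
        have := Polynomial.X_sub_C_ne_zero (1 : ZMod p)
        simpa using this
      have hmul : (Polynomial.X - 1 : Polynomial (ZMod p)) *
          Polynomial.map (Int.castRingHom (ZMod p)) (P - (Polynomial.X - 1) ^ (p - 1)) = 0 := by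
        have e1 : Polynomial.map (Int.castRingHom (ZMod p)) (P - (Polynomial.X - 1) ^ (p - 1))
            = (∑ i ∈ Finset.range p, (Polynomial.X : Polynomial (ZMod p)) ^ i)
              - (Polynomial.X - 1) ^ (p - 1) := by
          simp [hP, Polynomial.map_sum]
        rw [e1, mul_sub, mul_geom_sum, ← pow_succ', Nat.sub_add_cancel hp.out.one_le,
          sub_pow_char, one_pow, sub_self]
      rcases mul_eq_zero.mp hmul with h | h
      · exact absurd h hX
      · exact h
    have h3 : (Int.castRingHom (ZMod p)) ((P - (Polynomial.X - 1) ^ (p - 1)).coeff i) = 0 := by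
      rw [← Polynomial.coeff_map, hmap, Polynomial.coeff_zero]
    simpa using h3
  obtain ⟨Q, hQ⟩ := ha
  have hPQ : P = Polynomial.C (p : ℤ) * Q + (Polynomial.X - 1) ^ (p - 1) := by
    rw [← hQ]; ring
  -- step (b)
  have hQ1 : Q.eval 1 = 1 := by
    have h := congrArg (Polynomial.eval 1) hPQ
    have hPe : P.eval 1 = (p : ℤ) := by
      simp [hP, Polynomial.eval_finsetSum]
    rw [hPe] at h
    simp only [Polynomial.eval_add, Polynomial.eval_mul, Polynomial.eval_C, Polynomial.eval_pow,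
      Polynomial.eval_sub, Polynomial.eval_X, Polynomial.eval_one, sub_self, zero_pow hp1,
      add_zero] at h
    have hp0 : (p : ℤ) ≠ 0 := by exact_mod_cast hp.out.ne_zero
    have : (p : ℤ) * Q.eval 1 = (p : ℤ) * 1 := by rw [mul_one]; exact h.symm
    exact mul_left_cancel₀ hp0 this
  obtain ⟨A, hA⟩ : (Polynomial.X - 1 : Polynomial ℤ) ∣ Q - 1 := by
    have := Polynomial.X_sub_C_dvd_sub_C_eval (a := (1 : ℤ)) (p := Q)
    simpa [hQ1] using this
  -- step (c)
  obtain ⟨S, hS⟩ : Q ∣ (Q - (Polynomial.X - 1) * A) ^ (p - 1) - (-((Polynomial.X - 1) * A)) ^ (p - 1) := by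
    have := sub_dvd_pow_sub_pow (Q - (Polynomial.X - 1) * A) (-((Polynomial.X - 1) * A)) (p - 1)
    simpa using this
  have h1 : Q - (Polynomial.X - 1) * A = 1 := by rw [← hA]; ring
  rw [h1, one_pow] at hS
  refine ⟨Q, S - Polynomial.C (p : ℤ) * (-A) ^ (p - 1), (-A) ^ (p - 1), hPQ, ?_⟩
  have h2 : (-((Polynomial.X - 1) * A)) ^ (p - 1) = (P - Polynomial.C (p : ℤ) * Q) * (-A) ^ (p - 1) := by
    have : P - Polynomial.C (p : ℤ) * Q = (Polynomial.X - 1) ^ (p - 1) := by rw [hPQ]; ring
    rw [this, ← mul_pow]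
    congr 1
    ring
  rw [h2] at hS
  linear_combination -hS

theorem index_range_smul (p : ℕ) (hp : p ≠ 0) :
    (LinearMap.range ((p : ℤ) • (LinearMap.id : M →ₗ[ℤ] M))).toAddSubgroup.index =
      p ^ finrank ℤ M := by
  rw [index_range_eq_natAbs_det, LinearMap.det_smul, LinearMap.det_id, mul_one, Int.natAbs_pow,
    Int.natAbs_natCast]
  intro x y h
  have hp' : (p : ℤ) ≠ 0 := by exact_mod_cast hp
  have h' : (p : ℤ) • x = (p : ℤ) • y := by simpa using h
  exact smul_right_injective M hp' h'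

theorem index_range_sub_one_pow (p : ℕ) [hp : Fact p.Prime] (σ : Module.End ℤ M)
    (hσ : ∑ i ∈ Finset.range p, σ ^ i = 0) :
    (LinearMap.range (σ - 1)).toAddSubgroup.index ^ (p - 1) = p ^ finrank ℤ M := by
  obtain ⟨Q, C', D, hPQ, hunit⟩ := poly_id p
  have h1 := congrArg (Polynomial.aeval σ) hPQ
  have h2 := congrArg (Polynomial.aeval σ) hunit
  simp only [map_sum, map_pow, Polynomial.aeval_X, map_add, map_mul, Polynomial.aeval_C, map_sub,
    map_one, hσ, mul_zero, add_zero] at h1 h2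
  set e := Polynomial.aeval σ Q
  set c := Polynomial.aeval σ C'
  have hp0 : (p : ℤ) ≠ 0 := by exact_mod_cast hp.out.ne_zero
  have hinj : Function.Injective ((σ - 1 : Module.End ℤ M) : M → M) := by
    rw [← LinearMap.ker_eq_bot, LinearMap.ker_eq_bot']
    intro x hx
    have hx' : σ x = x := by
      have : σ x - x = 0 := by simpa using hx
      exact sub_eq_zero.mp this
    have hpow : ∀ i : ℕ, (σ ^ i) x = x := by
      intro i
      induction i with
      | zero => simp
      | succ k ih => rw [pow_succ, Module.End.mul_apply, hx', ih]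
    have h := congrArg (fun φ : Module.End ℤ M => φ x) hσ
    simp only [LinearMap.sum_apply, hpow, Finset.sum_const, Finset.card_range,
      LinearMap.zero_apply] at h
    have h' : (p : ℤ) • x = (p : ℤ) • (0 : M) := by simpa using h
    exact smul_right_injective M hp0 h'
  rw [index_range_eq_natAbs_det _ hinj, ← Int.natAbs_pow, ← map_pow]
  have h3 : (σ - 1) ^ (p - 1) = (-(p : ℤ)) • e := by
    rw [neg_smul, eq_neg_iff_add_eq_zero, add_comm, Algebra.smul_def]
    exact h1.symm
  rw [h3, LinearMap.det_smul, Int.natAbs_mul, Int.natAbs_pow, Int.natAbs_neg, Int.natAbs_natCast]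
  have hdet : (LinearMap.det e).natAbs = 1 := by
    have h := congrArg LinearMap.det h2
    rw [map_mul, map_one] at h
    exact Int.isUnit_iff_natAbs_eq.mp (IsUnit.of_mul_eq_one _ h)
  rw [hdet, mul_one]

end Det

/-! ### additive-hom forms -/

section AddForms
variable {M : Type*} [AddCommGroup M] [Module.Free ℤ M] [Module.Finite ℤ M]

theorem index_range_nsmul (p : ℕ) (hp : p ≠ 0) :
    (nsmulAddMonoidHom p : M →+ M).range.index = p ^ finrank ℤ M := by
  rw [← index_range_smul (M := M) p hp]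
  congr 1
  ext x
  simp [LinearMap.mem_range, AddMonoidHom.mem_range]

theorem index_range_sub_one_pow' (p : ℕ) [Fact p.Prime] (σ : AddMonoid.End M)
    (hσ : ∑ i ∈ Finset.range p, σ ^ i = 0) :
    (AddMonoidHom.range (σ - 1)).index ^ (p - 1) = p ^ finrank ℤ M := by
  have h : ∑ i ∈ Finset.range p, (addMonoidEndRingEquivInt M σ) ^ i = 0 := by
    rw [← map_zero (addMonoidEndRingEquivInt M), ← hσ, map_sum]
    simp only [map_pow]
  rw [← index_range_sub_one_pow p (addMonoidEndRingEquivInt M σ) h]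
  rfl

end AddForms

/-! ### ranks -/

section Rank
variable {U : Type*} [AddCommGroup U] [Module.Finite ℤ U]

theorem finite_addSubgroup (S : AddSubgroup U) : Module.Finite ℤ S := by
  have : Module.Finite ℤ (AddSubgroup.toIntSubmodule S) := inferInstance
  exact this

theorem finrank_range_add_finrank_ker {V W : Type*} [AddCommGroup V] [AddCommGroup W]
    [Module.Finite ℤ V] (φ : V →ₗ[ℤ] W) :
    finrank ℤ (LinearMap.range φ) + finrank ℤ (LinearMap.ker φ) = finrank ℤ V := by
  rw [← φ.quotKerEquivRange.finrank_eq]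
  exact Submodule.finrank_quotient_add_finrank (LinearMap.ker φ)

omit [Module.Finite ℤ U] in
theorem finrank_submodule_eq (N : Submodule ℤ U) (S : AddSubgroup U) (h : ∀ x, x ∈ N ↔ x ∈ S) :
    finrank ℤ N = finrank ℤ S := by
  refine LinearEquiv.finrank_eq
    { toFun := fun x => ⟨x.1, (h _).1 x.2⟩
      invFun := fun x => ⟨x.1, (h _).2 x.2⟩
      map_add' := fun _ _ => rfl
      map_smul' := fun _ _ => rfl
      left_inv := fun _ => rfl
      right_inv := fun _ => rfl }

theorem finrank_eq_of_le_of_smul_mem {S T : AddSubgroup U} (hST : S ≤ T) (m : ℤ) (hm : m ≠ 0)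
    (h : ∀ x ∈ T, m • x ∈ S) : finrank ℤ S = finrank ℤ T := by
  have := finite_addSubgroup S
  have := finite_addSubgroup T
  apply le_antisymm
  · exact LinearMap.finrank_le_finrank_of_injective
      (f := (AddSubgroup.inclusion hST).toIntLinearMap) (AddSubgroup.inclusion_injective hST)
  · let φ : T →ₗ[ℤ] S :=
      { toFun := fun x => ⟨m • (x : U), h x x.2⟩
        map_add' := fun x y => by
          ext
          simp [smul_add]
        map_smul' := fun c x => by
          ext
          simp [smul_comm m c] }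
    have hker : finrank ℤ (LinearMap.ker φ) = 0 := by
      apply Module.IsTorsion.finrank_eq_zero
      intro x
      refine ⟨⟨m, mem_nonZeroDivisors_of_ne_zero hm⟩, ?_⟩
      have hx : φ x.1 = 0 := x.2
      have hx' : m • ((x.1 : T) : U) = 0 := congrArg Subtype.val hx
      ext
      simpa using hx'
    have h1 := finrank_range_add_finrank_ker φ
    have h2 := Submodule.finrank_le (LinearMap.range φ)
    omega

theorem finrank_range_add_finrank_ker' (g : U →+ U) :
    finrank ℤ g.range + finrank ℤ g.ker = finrank ℤ U := by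
  have h := finrank_range_add_finrank_ker g.toIntLinearMap
  rw [finrank_submodule_eq (LinearMap.range g.toIntLinearMap) g.range (fun x => Iff.rfl),
    finrank_submodule_eq (LinearMap.ker g.toIntLinearMap) g.ker (fun x => Iff.rfl)] at h
  exact h

/-- a positive integer killing the torsion of `U` -/
theorem exists_kill_torsion :
    ∃ n : ℕ, n ≠ 0 ∧ ∀ (x : U) (m : ℤ), m ≠ 0 → m • x = 0 → n • x = 0 := by
  have hfin : Finite (Submodule.torsion ℤ U) :=
    Module.finite_of_fg_torsion _ Submodule.torsion_isTorsion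
  refine ⟨Nat.card (Submodule.torsion ℤ U), Nat.card_pos.ne', ?_⟩
  intro x m hm hx
  have hxT : x ∈ Submodule.torsion ℤ U := by
    rw [Submodule.mem_torsion_iff]
    exact ⟨⟨m, mem_nonZeroDivisors_of_ne_zero hm⟩, hx⟩
  have h := card_nsmul_eq_zero' (G := Submodule.torsion ℤ U) (x := ⟨x, hxT⟩)
  have h' := congrArg Subtype.val h
  simpa using h'

omit [Module.Finite ℤ U] in
theorem relIndex_map_eq_index_range (N : AddSubgroup U) (φ : U →+ U) (ψ : N →+ N)
    (h : ∀ x : N, ((ψ x : N) : U) = φ x) :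
    (N.map φ).relIndex N = ψ.range.index := by
  have h1 := AddSubgroup.relIndex_map_map_of_injective ψ.range ⊤ N.subtype_injective
  rw [AddSubgroup.relIndex_top_right] at h1
  rw [← h1]
  congr 1
  · ext x
    simp only [AddSubgroup.mem_map, AddMonoidHom.mem_range, AddSubgroup.coe_subtype]
    constructor
    · rintro ⟨y, hy, rfl⟩
      exact ⟨ψ ⟨y, hy⟩, ⟨⟨y, hy⟩, rfl⟩, h ⟨y, hy⟩⟩
    · rintro ⟨_, ⟨y, rfl⟩, rfl⟩
      exact ⟨y.1, y.2, (h y).symm⟩
  · ext x
    simp

end Rank

end HQ

theorem HQ.herbrand_lattice_aux (p : ℕ) [Fact p.Prime] {U : Type*} [AddCommGroup U]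
    [Module.Finite ℤ U] (τ : AddMonoid.End U) (hτ : τ ^ p = 1) (f g : U →+ U)
    (hfx : ∀ x, f x = τ x - x) (hgsum : ∀ x, g x = ∑ i ∈ Finset.range p, (τ ^ i) x)
    (hr : Module.finrank ℤ U + 1 = p * (Module.finrank ℤ (AddMonoidHom.ker f) + 1)) :
    (AddMonoidHom.range g).relIndex (AddMonoidHom.ker f) ≠ 0 ∧
    (AddMonoidHom.range f).relIndex (AddMonoidHom.ker g) =
      p * (AddMonoidHom.range g).relIndex (AddMonoidHom.ker f) := by
  open Module in
  have hp : p.Prime := Fact.out
  have hp0 : p ≠ 0 := hp.ne_zero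
  have hpZ : (p : ℤ) ≠ 0 := by exact_mod_cast hp0
  have hG : ∀ y, (∑ i ∈ Finset.range p, τ ^ i : AddMonoid.End U) y = g y := fun y => by
    rw [hgsum]
    exact AddMonoidHom.finsetSum_apply _ _ _
  have hfg : ∀ x, f (g x) = 0 := by
    intro x
    have h0 : ((τ - 1) * ∑ i ∈ Finset.range p, τ ^ i : AddMonoid.End U) = 0 := by
      rw [mul_geom_sum, hτ, sub_self]
    have h1 := DFunLike.congr_fun h0 x
    have h2 : ((τ - 1) * ∑ i ∈ Finset.range p, τ ^ i : AddMonoid.End U) x = τ (g x) - g x := by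
      rw [← hG]
      rfl
    rw [hfx, ← h2, h1]
    rfl
  have hgf : ∀ x, g (f x) = 0 := by
    intro x
    have h0 : ((∑ i ∈ Finset.range p, τ ^ i) * (τ - 1) : AddMonoid.End U) = 0 := by
      rw [geom_sum_mul, hτ, sub_self]
    have h1 := DFunLike.congr_fun h0 x
    have h2 : ((∑ i ∈ Finset.range p, τ ^ i) * (τ - 1) : AddMonoid.End U) x = g (f x) := by
      rw [hfx, ← hG]
      rfl
    rw [← h2, h1]
    rfl
  have hgx : ∀ x, τ x = x → g x = p • x := by
    intro x hx
    have hpow : ∀ i : ℕ, (τ ^ i) x = x := by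
      intro i
      induction i with
      | zero => rfl
      | succ k ih =>
        rw [pow_succ]
        show (τ ^ k) (τ x) = x
        rw [hx, ih]
    rw [hgsum, Finset.sum_congr rfl (fun i _ => hpow i), Finset.sum_const, Finset.card_range]
  obtain ⟨n, hn0, hn⟩ := exists_kill_torsion (U := U)
  have hnZ : (n : ℤ) ≠ 0 := by exact_mod_cast hn0
  set ν : U →+ U := nsmulAddMonoidHom n with hν
  have hνx : ∀ x, ν x = n • x := fun x => rfl
  -- `n U` is torsion-free
  have htf : ∀ y ∈ ν.range, ∀ m : ℤ, m ≠ 0 → m • y = 0 → y = 0 := by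
    rintro _ ⟨x, rfl⟩ m hm h
    rw [hνx] at h ⊢
    apply hn x (m * n) (mul_ne_zero hm hnZ)
    rw [mul_smul, natCast_zsmul]
    exact h
  set M0 : AddSubgroup U := (AddMonoidHom.ker f).map ν with hM0
  set M1 : AddSubgroup U := (AddMonoidHom.ker g).map ν with hM1
  set B : AddSubgroup U := M0 ⊔ M1 with hB
  have hM0ν : M0 ≤ ν.range := AddSubgroup.map_le_range _ _
  have hM1ν : M1 ≤ ν.range := AddSubgroup.map_le_range _ _
  have hM0f : M0 ≤ AddMonoidHom.ker f := by
    rintro _ ⟨x, hx, rfl⟩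
    have hx' : f x = 0 := hx
    show f (ν x) = 0
    rw [hνx, map_nsmul, hx', smul_zero]
  have hM1g : M1 ≤ AddMonoidHom.ker g := by
    rintro _ ⟨x, hx, rfl⟩
    have hx' : g x = 0 := hx
    show g (ν x) = 0
    rw [hνx, map_nsmul, hx', smul_zero]
  have hzero : ∀ y ∈ ν.range, f y = 0 → g y = 0 → y = 0 := by
    intro y hy h1 h2
    apply htf y hy p hpZ
    have h3 : τ y = y := sub_eq_zero.mp ((hfx y).symm.trans h1)
    rw [natCast_zsmul, ← hgx y h3, h2]
  -- stability
  have hBf : B.map f ≤ B := by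
    rw [hB, AddSubgroup.map_sup]
    apply sup_le
    · rintro _ ⟨y, hy, rfl⟩
      have h1 : f y = 0 := hM0f hy
      rw [h1]
      exact zero_mem _
    · refine le_trans ?_ le_sup_right
      rintro _ ⟨_, ⟨x, hx, rfl⟩, rfl⟩
      refine ⟨f x, ?_, ?_⟩
      · show g (f x) = 0
        exact hgf x
      · rw [hνx, hνx, map_nsmul]
  have hBg : B.map g ≤ B := by
    rw [hB, AddSubgroup.map_sup]
    apply sup_le
    · refine le_trans ?_ le_sup_left
      rintro _ ⟨_, ⟨x, hx, rfl⟩, rfl⟩
      refine ⟨g x, ?_, ?_⟩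
      · show f (g x) = 0
        exact hfg x
      · rw [hνx, hνx, map_nsmul]
    · rintro _ ⟨y, hy, rfl⟩
      have h1 : g y = 0 := hM1g hy
      rw [h1]
      exact zero_mem _
  -- finite index
  have hBidx : B.index ≠ 0 := by
    have hle : (nsmulAddMonoidHom (p * n) : U →+ U).range ≤ B := by
      rintro _ ⟨u, rfl⟩
      have h1 : nsmulAddMonoidHom (p * n) u = ν (g u) + ν (p • u - g u) := by
        rw [hνx, hνx, nsmulAddMonoidHom_apply, smul_sub, add_sub_cancel, smul_smul, mul_comm]
      rw [h1]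
      apply AddSubgroup.add_mem_sup
      · exact ⟨g u, hfg u, rfl⟩
      · refine ⟨p • u - g u, ?_, rfl⟩
        show g (p • u - g u) = 0
        rw [map_sub, map_nsmul, hgx (g u) (sub_eq_zero.mp ((hfx (g u)).symm.trans (hfg u))),
          sub_self]
    have : AddGroup.FG U := Module.Finite.iff_addGroup_fg.mp inferInstance
    have hfi := AddSubgroup.finiteIndex_range_nsmulAddMonoidHom_of_fg U (n := p * n)
      (mul_ne_zero hp0 hn0)
    intro h
    exact hfi.index_ne_zero (Nat.eq_zero_of_zero_dvd (h ▸ AddSubgroup.index_dvd_of_le hle))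
  -- the pieces of `B`
  have hBf_inf : B ⊓ AddMonoidHom.ker f = M0 := by
    apply le_antisymm
    · rintro x ⟨hxB, hxf⟩
      obtain ⟨a, ha, b, hb, rfl⟩ := AddSubgroup.mem_sup.mp hxB
      have hb0 : b = 0 := by
        apply hzero b (hM1ν hb)
        · have h1 : f (a + b) = 0 := hxf
          have h2 : f a = 0 := hM0f ha
          rw [map_add, h2, zero_add] at h1
          exact h1
        · exact hM1g hb
      rw [hb0, add_zero]
      exact ha
    · exact le_inf le_sup_left hM0f
  have hBg_inf : B ⊓ AddMonoidHom.ker g = M1 := by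
    apply le_antisymm
    · rintro x ⟨hxB, hxg⟩
      obtain ⟨a, ha, b, hb, rfl⟩ := AddSubgroup.mem_sup.mp hxB
      have ha0 : a = 0 := by
        apply hzero a (hM0ν ha)
        · exact hM0f ha
        · have h1 : g (a + b) = 0 := hxg
          have h2 : g b = 0 := hM1g hb
          rw [map_add, h2, add_zero] at h1
          exact h1
      rw [ha0, zero_add]
      exact hb
    · exact le_inf le_sup_right hM1g
  have hBg_map : B.map g = M0.map g := by
    rw [hB, AddSubgroup.map_sup, (AddSubgroup.map_eq_bot_iff _).mpr hM1g, sup_bot_eq]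
  have hBf_map : B.map f = M1.map f := by
    rw [hB, AddSubgroup.map_sup, (AddSubgroup.map_eq_bot_iff _).mpr hM0f, bot_sup_eq]
  -- Herbrand quotient of `U` = that of `B`
  obtain ⟨hmain, hne⟩ := herbrand_index f g hfg hgf B hBf hBg hBidx
  rw [hBg_inf, hBf_inf, hBg_map, hBf_map] at hmain
  rw [hBf_inf, hBg_map] at hne
  -- the `M0` part
  have hy0 : (M0.map g).relIndex M0 = p ^ finrank ℤ M0 := by
    have : Module.Finite ℤ M0 := HQ.finite_addSubgroup M0
    have : Module.IsTorsionFree ℤ M0 := Module.IsTorsionFree.of_smul_eq_zero (fun r m h => by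
      by_cases hr0 : r = 0
      · exact Or.inl hr0
      · right
        ext
        exact htf m.1 (hM0ν m.2) r hr0 (by simpa using congrArg Subtype.val h))
    rw [HQ.relIndex_map_eq_index_range M0 g (nsmulAddMonoidHom p) (fun x => by
      have h0 : f x.1 = 0 := hM0f x.2
      have h1 : τ x.1 = x.1 := sub_eq_zero.mp ((hfx x.1).symm.trans h0)
      rw [hgx x.1 h1]
      rfl)]
    exact HQ.index_range_nsmul p hp0
  -- the `M1` part
  have hy1 : (M1.map f).relIndex M1 ^ (p - 1) = p ^ finrank ℤ M1 := by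
    have : Module.Finite ℤ M1 := HQ.finite_addSubgroup M1
    have : Module.IsTorsionFree ℤ M1 := Module.IsTorsionFree.of_smul_eq_zero (fun r m h => by
      by_cases hr0 : r = 0
      · exact Or.inl hr0
      · right
        ext
        exact htf m.1 (hM1ν m.2) r hr0 (by simpa using congrArg Subtype.val h))
    have hstab : ∀ x : M1, τ x.1 ∈ M1 := by
      rintro ⟨_, ⟨x, hx, rfl⟩⟩
      refine ⟨τ x, ?_, ?_⟩
      · have hx' : g x = 0 := hx
        show g (τ x) = 0
        have h1 : τ x = x + f x := by rw [hfx]; abel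
        rw [h1, map_add, hx', hgf, add_zero]
      · show ν (τ x) = τ (ν x)
        rw [hνx, hνx, map_nsmul]
    set τ1 : AddMonoid.End M1 := (τ.comp M1.subtype).codRestrict M1 hstab with hτ1
    have hτ1x : ∀ x : M1, ((τ1 x : M1) : U) = τ x.1 := fun x => rfl
    have hτ1pow : ∀ (i : ℕ) (x : M1), (((τ1 ^ i) x : M1) : U) = (τ ^ i) x.1 := by
      intro i
      induction i with
      | zero => intro x; rfl
      | succ k ih =>
        intro x
        rw [pow_succ, pow_succ]
        show (((τ1 ^ k) (τ1 x) : M1) : U) = (τ ^ k) (τ x.1)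
        rw [ih, hτ1x]
    have hsum : ∑ i ∈ Finset.range p, τ1 ^ i = 0 := by
      ext x
      have h1 : (∑ i ∈ Finset.range p, τ1 ^ i) x = ∑ i ∈ Finset.range p, (τ1 ^ i) x :=
        AddMonoidHom.finsetSum_apply _ _ _
      rw [h1, AddSubgroup.val_finsetSum]
      simp only [hτ1pow]
      rw [← hgsum]
      exact hM1g x.2
    rw [HQ.relIndex_map_eq_index_range M1 f (τ1 - 1 : AddMonoid.End M1) (fun x => (hfx x.1).symm)]
    exact HQ.index_range_sub_one_pow' p τ1 hsum
  -- ranks
  have hr0 : finrank ℤ M0 = finrank ℤ (AddMonoidHom.ker f) :=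
    HQ.finrank_eq_of_le_of_smul_mem hM0f n hnZ (fun x hx => ⟨x, hx, by rw [hνx, natCast_zsmul]⟩)
  have hr1 : finrank ℤ M1 = finrank ℤ (AddMonoidHom.ker g) :=
    HQ.finrank_eq_of_le_of_smul_mem hM1g n hnZ (fun x hx => ⟨x, hx, by rw [hνx, natCast_zsmul]⟩)
  have hgr : AddMonoidHom.range g ≤ AddMonoidHom.ker f := by
    rintro _ ⟨x, rfl⟩
    exact hfg x
  have hrg : finrank ℤ (AddMonoidHom.range g) = finrank ℤ (AddMonoidHom.ker f) :=
    HQ.finrank_eq_of_le_of_smul_mem hgr p hpZ (fun x hx => ⟨x, by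
      have h0 : f x = 0 := hx
      rw [hgx x (sub_eq_zero.mp ((hfx x).symm.trans h0)), natCast_zsmul]⟩)
  have hrn := HQ.finrank_range_add_finrank_ker' (U := U) g
  rw [hrg] at hrn
  set r0 := finrank ℤ (AddMonoidHom.ker f) with hr0def
  set r1 := finrank ℤ (AddMonoidHom.ker g) with hr1def
  rw [hr0] at hy0
  rw [hr1] at hy1
  have hp1 : p - 1 ≠ 0 := by
    have := hp.two_le
    omega
  have hr1eq : r1 = (r0 + 1) * (p - 1) := by
    have h1 : r0 + r1 + 1 = p * (r0 + 1) := by rw [hrn]; exact hr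
    obtain ⟨q, rfl⟩ : ∃ q, p = q + 1 := ⟨p - 1, by omega⟩
    simp only [Nat.add_sub_cancel]
    nlinarith
  have hy1' : (M1.map f).relIndex M1 = p ^ (r0 + 1) := by
    apply Nat.pow_left_injective hp1
    show (M1.map f).relIndex M1 ^ (p - 1) = (p ^ (r0 + 1)) ^ (p - 1)
    rw [hy1, hr1eq, pow_mul]
  rw [hy0, hy1'] at hmain
  rw [hy0] at hne
  have hpr : 0 < p ^ r0 := pow_pos hp.pos r0
  refine ⟨hne hpr.ne', ?_⟩
  have h2 : p ^ r0 * (AddMonoidHom.range f).relIndex (AddMonoidHom.ker g) =
      p ^ r0 * (p * (AddMonoidHom.range g).relIndex (AddMonoidHom.ker f)) := by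
    rw [mul_comm, ← hmain, pow_succ]
    ring
  exact Nat.eq_of_mul_eq_mul_left hpr h2

theorem herbrand_lattice (p : ℕ) [Fact p.Prime] {U : Type*} [AddCommGroup U] [Module.Finite ℤ U]
    (τ : AddMonoid.End U) (hτ : τ ^ p = 1)
    (hr : Module.finrank ℤ U + 1 = p * (Module.finrank ℤ (AddMonoidHom.ker (τ - 1)) + 1)) :
    (AddMonoidHom.range (∑ i ∈ Finset.range p, τ ^ i)).relIndex (AddMonoidHom.ker (τ - 1)) ≠ 0 ∧
    (AddMonoidHom.range (τ - 1)).relIndex (AddMonoidHom.ker (∑ i ∈ Finset.range p, τ ^ i)) =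
      p * (AddMonoidHom.range (∑ i ∈ Finset.range p, τ ^ i)).relIndex (AddMonoidHom.ker (τ - 1)) :=
  HQ.herbrand_lattice_aux p τ hτ (τ - 1 : AddMonoid.End U)
    (∑ i ∈ Finset.range p, τ ^ i : AddMonoid.End U) (fun _ => rfl)
    (fun _ => AddMonoidHom.finsetSum_apply _ _ _) hr

end Fermat.Agent.S14
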