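import Fermat.Agent.S14.NFNormDefs

/-!
# S14 / NFNorm : the norm bridge (slice S3)

For a Galois extension `E/F` of number fields of prime degree `p` with a generator `τ` of the
Galois group:

* `exists_generator`   : the Galois group is cyclic;
* `orderOf_generator`  : a generator has order `p`;
* `algebraMap_norm_eq` : `N_{E/F} x = ∏ i < p, τ^i x` (in `E`);
* `toMul_sum_tauA_pow` : the additive norm `∑ i < n, (tauA τ)^i` on `Additive Eˣ` is the
  product `∏ i < n, τ^i` on elements;
* `norm_eq_of_eq`      : `b = N_A c` in `Additive Eˣ` gives `Algebra.norm F c = b`.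
-/

set_option autoImplicit false

namespace Fermat.Agent.S14.NFNormNm

open NumberField IsDedekindDomain
open scoped nonZeroDivisors Pointwise
open Fermat.Agent.S14 Fermat.Agent.S14.NFNormDefs

/-- the Galois group of a Galois extension of prime degree is cyclic -/
theorem exists_generator (p : ℕ) [Fact p.Prime] (F E : Type*) [Field F] [NumberField F]
    [Field E] [NumberField E] [Algebra F E] [IsGalois F E] (hdeg : Module.finrank F E = p) :
    ∃ τ : E ≃ₐ[F] E, ∀ σ : E ≃ₐ[F] E, σ ∈ Subgroup.zpowers τ := by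
  have hcard : Nat.card (E ≃ₐ[F] E) = p := by
    rw [IsGalois.card_aut_eq_finrank, hdeg]
  have : IsCyclic (E ≃ₐ[F] E) := isCyclic_of_prime_card hcard
  exact IsCyclic.exists_generator

/-- a generator of the Galois group has order `p` -/
theorem orderOf_generator (p : ℕ) [Fact p.Prime] (F E : Type*) [Field F] [NumberField F]
    [Field E] [NumberField E] [Algebra F E] [IsGalois F E] (hdeg : Module.finrank F E = p)
    (τ : E ≃ₐ[F] E) (hτ : ∀ σ : E ≃ₐ[F] E, σ ∈ Subgroup.zpowers τ) : orderOf τ = p := by
  rw [orderOf_eq_card_of_forall_mem_zpowers hτ, IsGalois.card_aut_eq_finrank, hdeg]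

/-- the norm of `E/F` is the product over the powers of a generator -/
theorem algebraMap_norm_eq (p : ℕ) [Fact p.Prime] (F E : Type*) [Field F] [NumberField F]
    [Field E] [NumberField E] [Algebra F E] [IsGalois F E] (hdeg : Module.finrank F E = p)
    (τ : E ≃ₐ[F] E) (hτ : ∀ σ : E ≃ₐ[F] E, σ ∈ Subgroup.zpowers τ) (x : E) :
    algebraMap F E (Algebra.norm F x) = ∏ i ∈ Finset.range p, (τ ^ i) x := by
  classical
  rw [Algebra.norm_eq_prod_automorphisms, ← IsCyclic.image_range_orderOf hτ,
    Finset.prod_image, orderOf_generator p F E hdeg τ hτ]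
  intro i hi j hj hij
  exact pow_injOn_Iio_orderOf (Finset.mem_range.mp hi) (Finset.mem_range.mp hj) hij

/-- the additive partial norm on `Additive Eˣ` is the partial product on elements -/
theorem toMul_sum_tauA_pow (F E : Type*) [Field F] [NumberField F]
    [Field E] [NumberField E] [Algebra F E] (τ : E ≃ₐ[F] E) (n : ℕ) (c : Additive Eˣ) :
    ((Additive.toMul ((∑ i ∈ Finset.range n, tauA F E τ ^ i) c) : Eˣ) : E) =
      ∏ i ∈ Finset.range n, (τ ^ i) ((Additive.toMul c : Eˣ) : E) := by
  induction n with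
  | zero =>
    rw [Finset.sum_range_zero, Finset.prod_range_zero]
    rfl
  | succ n ih =>
    rw [Finset.sum_range_succ, Finset.prod_range_succ]
    have h : (∑ x ∈ Finset.range n, tauA F E τ ^ x + tauA F E τ ^ n) c =
        (∑ x ∈ Finset.range n, tauA F E τ ^ x) c + (tauA F E τ ^ n) c := rfl
    rw [h, toMul_add, Units.val_mul, ih, ← tauA_pow, tauA_apply']

/-- `b = N_A c` in `Additive Eˣ` gives `Algebra.norm F c = b` -/
theorem norm_eq_of_eq (p : ℕ) [Fact p.Prime] (F E : Type*) [Field F] [NumberField F]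
    [Field E] [NumberField E] [Algebra F E] [IsGalois F E] (hdeg : Module.finrank F E = p)
    (τ : E ≃ₐ[F] E) (hτ : ∀ σ : E ≃ₐ[F] E, σ ∈ Subgroup.zpowers τ) (b : Fˣ)
    (c : Additive Eˣ)
    (h : fieldIncl F E (Additive.ofMul b) = (∑ i ∈ Finset.range p, tauA F E τ ^ i) c) :
    Algebra.norm F ((Additive.toMul c : Eˣ) : E) = (b : F) := by
  apply (algebraMap F E).injective
  rw [algebraMap_norm_eq p F E hdeg τ hτ, ← toMul_sum_tauA_pow, ← h]
  rfl

end Fermat.Agent.S14.NFNormNm
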