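import Fermat.Agent.S14.NFNormCore
import Fermat.Agent.S14.NFNormNm
import Fermat.Agent.S14.HQ
import Fermat.Agent.S14.Hilbert90

/-!
# S14 / NFNorm : Hilbert 90 and the unit Herbrand quotient; `exists_not_split`

* `NFNormFin.h90` : Hilbert 90 for `tauA` (hypothesis `h90` of `herbrand_main`),
* `NFNormFin.hU`  : the Herbrand quotient of the units (hypothesis `hU` of `herbrand_main`),
* `exists_not_split` (skeleton statement) : in an everywhere unramified Galois extension of odd
  prime degree some prime does not split,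
* `NFNormFin.hasse_norm_of_first` : the Hasse norm statement, with the conclusion of the first
  inequality as a hypothesis.
-/

set_option autoImplicit false
set_option linter.unusedSectionVars false

namespace Fermat.Agent.S14

open NumberField IsDedekindDomain
open scoped nonZeroDivisors Pointwise
open Fermat.Agent.S14.NFNormDefs

namespace NFNormFin

variable (p : ℕ) [Fact p.Prime] (F E : Type*) [Field F] [NumberField F] [Field E] [NumberField E]
  [Algebra F E] [IsGalois F E]

/-- the Herbrand quotient of the units of `E` (`hU` of `herbrand_main`) -/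
theorem hU (hp2 : p ≠ 2) (hdeg : Module.finrank F E = p) (τ : E ≃ₐ[F] E)
    (hτ : ∀ σ : E ≃ₐ[F] E, σ ∈ Subgroup.zpowers τ) :
    (AddMonoidHom.range (∑ i ∈ Finset.range p, UnitRank.unitEnd F E τ ^ i)).relIndex
        (AddMonoidHom.ker (UnitRank.unitEnd F E τ - 1)) ≠ 0 ∧
      (AddMonoidHom.range (UnitRank.unitEnd F E τ - 1)).relIndex
        (AddMonoidHom.ker (∑ i ∈ Finset.range p, UnitRank.unitEnd F E τ ^ i)) =
        p * (AddMonoidHom.range (∑ i ∈ Finset.range p, UnitRank.unitEnd F E τ ^ i)).relIndex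
          (AddMonoidHom.ker (UnitRank.unitEnd F E τ - 1)) := by
  have hp : p.Prime := Fact.out
  have hodd : Odd (Module.finrank F E) := by
    rw [hdeg]
    exact hp.odd_of_ne_two hp2
  have hr := UnitRank.finrank_units_add_one_eq F E hodd τ hτ
  rw [hdeg] at hr
  exact herbrand_lattice p (UnitRank.unitEnd F E τ) (hdeg ▸ UnitRank.unitEnd_pow_finrank F E τ) hr

/-- the partial norms of `tauA`, read in `E` -/
theorem coe_sum_tauA (τ : E ≃ₐ[F] E) (n : ℕ) (a : Additive Eˣ) :
    ((Additive.toMul ((∑ i ∈ Finset.range n, tauA F E τ ^ i) a) : Eˣ) : E) =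
      ∏ i ∈ Finset.range n, (τ ^ i) ((Additive.toMul a : Eˣ) : E) := by
  induction n with
  | zero =>
    rw [Finset.sum_range_zero, Finset.prod_range_zero]
    rfl
  | succ n ih =>
    rw [Finset.sum_range_succ, Finset.prod_range_succ, ← ih, ← tauA_pow]
    rfl

/-- Hilbert 90 for `tauA` (`h90` of `herbrand_main`) -/
theorem h90 (hdeg : Module.finrank F E = p) (τ : E ≃ₐ[F] E)
    (hτ : ∀ σ : E ≃ₐ[F] E, σ ∈ Subgroup.zpowers τ) :
    ∀ a : Additive Eˣ, (∑ i ∈ Finset.range p, tauA F E τ ^ i) a = 0 →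
      ∃ c, a = tauA F E τ c - c := by
  intro a ha
  have hprod : ∏ i ∈ Finset.range p, (τ ^ i) ((Additive.toMul a : Eˣ) : E) = 1 := by
    rw [← coe_sum_tauA, ha]
    rfl
  obtain ⟨δ, hδ0, hδ⟩ := Hilbert90.exists_div_of_prod_eq_one τ p
    (NFNormIdx.orderOf_eq p F E hdeg τ hτ) (Fact.out : p.Prime).pos _ hprod
  refine ⟨Additive.ofMul (Units.mk0 δ hδ0), ?_⟩
  have h : (Additive.toMul a : Eˣ) =
      Additive.toMul (tauA F E τ (Additive.ofMul (Units.mk0 δ hδ0))) / Units.mk0 δ hδ0 := by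
    apply Units.ext
    rw [Units.val_div_eq_div_val, hδ]
    rfl
  exact h

/-- the Hasse norm statement, with the conclusion of the first inequality as a hypothesis -/
theorem hasse_norm_of_first (hp2 : p ≠ 2) (hdeg : Module.finrank F E = p)
    (hunr : UnramifiedEverywhere F E)
    (hfirst : ∀ H : Subgroup (ClassGroup (𝓞 F)),
      (∀ v : HeightOneSpectrum (𝓞 F),
        (∀ w : HeightOneSpectrum (𝓞 E), w.asIdeal.comap (algebraMap (𝓞 F) (𝓞 E)) = v.asIdeal →
          ∀ σ : E ≃ₐ[F] E, σ • w.asIdeal = w.asIdeal → σ = 1) →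
        ClassGroup.mk0 ⟨v.asIdeal, mem_nonZeroDivisors_of_ne_zero v.ne_bot⟩ ∈ H) →
      H.index ≤ p)
    (b : F) (hb : b ≠ 0)
    (hloc : ∀ v : HeightOneSpectrum (𝓞 E), (∃ σ : E ≃ₐ[F] E, σ ≠ 1 ∧ σ • v.asIdeal = v.asIdeal) →
      (p : ℤ) ∣ ord v (algebraMap F E b)) :
    ∃ γ : E, Algebra.norm F γ = b := by
  obtain ⟨τ, hτ⟩ := NFNormNm.exists_generator p F E hdeg
  obtain ⟨c, hc⟩ := NFNormCore.exists_eq_norm_of p F E hdeg hunr τ hτ
    (h90 p F E hdeg τ hτ) (hU p F E hp2 hdeg τ hτ) hfirst (Units.mk0 b hb) hloc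
  exact ⟨_, NFNormNm.norm_eq_of_eq p F E hdeg τ hτ (Units.mk0 b hb) c hc⟩

end NFNormFin

/-- In an everywhere unramified Galois extension of odd prime degree some prime has a non-trivial
decomposition group. -/
theorem exists_not_split (p : ℕ) [Fact p.Prime] (hp2 : p ≠ 2)
    (F E : Type*) [Field F] [NumberField F] [Field E] [NumberField E] [Algebra F E] [IsGalois F E]
    (hdeg : Module.finrank F E = p) (hunr : UnramifiedEverywhere F E) :
    ∃ v : HeightOneSpectrum (𝓞 E), ∃ σ : E ≃ₐ[F] E, σ ≠ 1 ∧ σ • v.asIdeal = v.asIdeal := by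
  obtain ⟨τ, hτ⟩ := NFNormNm.exists_generator p F E hdeg
  exact NFNormCore.exists_not_split_of p F E hdeg τ hτ
    (NFNormFin.h90 p F E hdeg τ hτ) (NFNormFin.hU p F E hp2 hdeg τ hτ)

end Fermat.Agent.S14
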