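import Mathlib

/-!
# S14: the potential lemma of the crossing argument (pure algebra)

`τ, ρ` commuting automorphisms of a field `M` with `τ ^ p = 1`, `ρ ^ m = 1`; `w : M → ℤ` additive
on products of nonzero elements and invariant under `τ ^ t ρ ^ u`.  If `ρ γ / γ = τ δ / δ` and
`b = ∏_{i<p} τ^i γ`, `c = ∏_{j<m} ρ^j δ`, then `m t w(b) + p u w(c) ∈ p m ℤ`.
-/

set_option autoImplicit false

namespace Fermat.Agent.S14

namespace PotentialAux

variable {M : Type*} [Field M]

theorem pow_succ_apply (σ : M ≃+* M) (i : ℕ) (x : M) : (σ ^ (i + 1)) x = σ ((σ ^ i) x) := by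
  rw [pow_succ']; rfl

theorem pow_succ_apply' (σ : M ≃+* M) (i : ℕ) (x : M) : (σ ^ (i + 1)) x = (σ ^ i) (σ x) := by
  rw [pow_succ]; rfl

theorem pow_add_apply (σ : M ≃+* M) (i j : ℕ) (x : M) : (σ ^ (i + j)) x = (σ ^ i) ((σ ^ j) x) := by
  rw [pow_add]; rfl

theorem comm_pow (τ ρ : M ≃+* M) (hcomm : ∀ x, τ (ρ x) = ρ (τ x)) (j : ℕ) (x : M) :
    τ ((ρ ^ j) x) = (ρ ^ j) (τ x) := by
  induction j generalizing x with
  | zero => simp
  | succ j ih => rw [pow_succ_apply, pow_succ_apply, hcomm, ih]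

theorem comm_pow_pow (τ ρ : M ≃+* M) (hcomm : ∀ x, τ (ρ x) = ρ (τ x)) (i j : ℕ) (x : M) :
    (τ ^ i) ((ρ ^ j) x) = (ρ ^ j) ((τ ^ i) x) := by
  induction i generalizing x with
  | zero => simp
  | succ i ih => rw [pow_succ_apply, pow_succ_apply, ih, comm_pow τ ρ hcomm]

theorem w_prod (w : M → ℤ) (hw : ∀ x y : M, x ≠ 0 → y ≠ 0 → w (x * y) = w x + w y)
    (n : ℕ) (f : ℕ → M) (hf : ∀ i, f i ≠ 0) :
    w (∏ i ∈ Finset.range n, f i) = w 1 + ∑ i ∈ Finset.range n, w (f i) := by
  induction n with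
  | zero => simp
  | succ n ih =>
    rw [Finset.prod_range_succ, Finset.sum_range_succ,
      hw _ _ (Finset.prod_ne_zero_iff.mpr fun i _ => hf i) (hf n), ih]
    ring

theorem w_one (w : M → ℤ) (hw : ∀ x y : M, x ≠ 0 → y ≠ 0 → w (x * y) = w x + w y) : w 1 = 0 := by
  have := hw 1 1 one_ne_zero one_ne_zero
  rw [mul_one] at this
  linarith

end PotentialAux

/-- Abstract combinatorial core: a closed, doubly periodic, `(t,u)`-invariant pair of functions. -/
theorem PotentialAux.potential_core (α β : ℕ → ℕ → ℤ) (p m t u : ℕ)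
    (hclosed : ∀ i j, α i (j + 1) - α i j = β (i + 1) j - β i j)
    (hαp : ∀ i j, α (i + p) j = α i j) (hβp : ∀ i j, β (i + p) j = β i j)
    (hαm : ∀ i j, α i (j + m) = α i j) (hβm : ∀ i j, β i (j + m) = β i j)
    (hinvα : ∀ i j, α (i + t) (j + u) = α i j) (hinvβ : ∀ i j, β (i + t) (j + u) = β i j) :
    ∃ κ : ℤ, (m : ℤ) * t * (∑ a ∈ Finset.range p, α a 0)
      + (p : ℤ) * u * (∑ a ∈ Finset.range m, β 0 a) = p * m * κ := by
  -- the potential
  set F : ℕ → ℕ → ℤ := fun i j => ∑ a ∈ Finset.range i, α a 0 + ∑ a ∈ Finset.range j, β i a with hF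
  have hFv : ∀ i j, F i (j + 1) - F i j = β i j := by
    intro i j; simp only [hF, Finset.sum_range_succ]; ring
  have hαtel : ∀ i j, ∑ a ∈ Finset.range j, (β (i + 1) a - β i a) = α i j - α i 0 := by
    intro i j
    induction j with
    | zero => simp
    | succ j ih => rw [Finset.sum_range_succ, ih, ← hclosed]; ring
  have hFh : ∀ i j, F (i + 1) j - F i j = α i j := by
    intro i j
    simp only [hF, Finset.sum_range_succ]
    have := hαtel i j
    rw [Finset.sum_sub_distrib] at this
    linarith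
  -- horizontal and vertical multi-steps
  have hFhn : ∀ n i j, F (i + n) j - F i j = ∑ a ∈ Finset.range n, α (i + a) j := by
    intro n i j
    induction n with
    | zero => simp
    | succ n ih =>
      rw [Finset.sum_range_succ, ← ih, ← hFh (i + n) j, ← add_assoc]; ring
  have hFvn : ∀ n i j, F i (j + n) - F i j = ∑ a ∈ Finset.range n, β i (j + a) := by
    intro n i j
    induction n with
    | zero => simp
    | succ n ih =>
      rw [Finset.sum_range_succ, ← ih, ← hFv i (j + n), ← add_assoc]; ring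
  -- row sums are constant
  set B : ℤ := ∑ a ∈ Finset.range p, α a 0 with hB
  set C : ℤ := ∑ a ∈ Finset.range m, β 0 a with hC
  have hR : ∀ i j, ∑ a ∈ Finset.range p, α (i + a) j = B := by
    have h1 : ∀ i j, ∑ a ∈ Finset.range p, α (i + 1 + a) j = ∑ a ∈ Finset.range p, α (i + a) j := by
      intro i j
      have e1 := hFhn p (i + 1) j
      have e2 := hFhn p i j
      have e3 := hFh (i + p) j
      have e4 := hFh i j
      have e5 : i + 1 + p = i + p + 1 := by ring
      rw [e5] at e1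
      rw [← e1, ← e2, ← sub_eq_zero]
      have := hαp i j
      linarith
    have h2 : ∀ j, ∑ a ∈ Finset.range p, α a (j + 1) = ∑ a ∈ Finset.range p, α a j := by
      intro j
      rw [← sub_eq_zero, ← Finset.sum_sub_distrib]
      simp_rw [hclosed]
      rw [Finset.sum_range_sub (fun a => β a j)]
      have := hβp 0 j
      simp only [zero_add] at this
      linarith
    have h3 : ∀ j, ∑ a ∈ Finset.range p, α a j = B := by
      intro j
      induction j with
      | zero => rfl
      | succ j ih => rw [h2, ih]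
    intro i j
    induction i with
    | zero => simpa using h3 j
    | succ i ih => rw [h1, ih]
  have hS : ∀ i j, ∑ a ∈ Finset.range m, β i (j + a) = C := by
    have g1 : ∀ i j, ∑ a ∈ Finset.range m, β i (j + 1 + a) = ∑ a ∈ Finset.range m, β i (j + a) := by
      intro i j
      have e1 := hFvn m i (j + 1)
      have e2 := hFvn m i j
      have e3 := hFv i (j + m)
      have e4 := hFv i j
      have e5 : j + 1 + m = j + m + 1 := by ring
      rw [e5] at e1
      rw [← e1, ← e2, ← sub_eq_zero]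
      have := hβm i j
      linarith
    have g2 : ∀ i, ∑ a ∈ Finset.range m, β (i + 1) a = ∑ a ∈ Finset.range m, β i a := by
      intro i
      rw [← sub_eq_zero, ← Finset.sum_sub_distrib, hαtel]
      have := hαm i 0
      simp only [zero_add] at this
      linarith
    have g3 : ∀ i, ∑ a ∈ Finset.range m, β i a = C := by
      intro i
      induction i with
      | zero => rfl
      | succ i ih => rw [g2, ih]
    intro i j
    induction j with
    | zero => simpa using g3 i
    | succ j ih => rw [g1, ih]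
  -- invariance of the potential
  have hF00 : F 0 0 = 0 := by simp [hF]
  have hG : ∀ i j, F (i + t) (j + u) - F i j = F t u := by
    have k1 : ∀ i j, F (i + 1 + t) (j + u) - F (i + 1) j = F (i + t) (j + u) - F i j := by
      intro i j
      have e1 := hFh (i + t) (j + u)
      have e2 := hFh i j
      have e3 : i + 1 + t = i + t + 1 := by ring
      rw [e3]
      have := hinvα i j
      linarith
    have k2 : ∀ i j, F (i + t) (j + 1 + u) - F i (j + 1) = F (i + t) (j + u) - F i j := by
      intro i j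
      have e1 := hFv (i + t) (j + u)
      have e2 := hFv i j
      have e3 : j + 1 + u = j + u + 1 := by ring
      rw [e3]
      have := hinvβ i j
      linarith
    have k3 : ∀ j, F (0 + t) (j + u) - F 0 j = F t u := by
      intro j
      induction j with
      | zero => simp [hF00]
      | succ j ih => rw [k2, ih]
    intro i j
    induction i with
    | zero => exact k3 j
    | succ i ih => rw [k1, ih]
  have hdiag : ∀ n : ℕ, F (n * t) (n * u) = n * F t u := by
    intro n
    induction n with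
    | zero => simp [hF00]
    | succ n ih =>
      have := hG (n * t) (n * u)
      have e1 : (n + 1) * t = n * t + t := by ring
      have e2 : (n + 1) * u = n * u + u := by ring
      rw [e1, e2]
      push_cast
      linarith
  have hrow : ∀ a : ℕ, F (a * p) 0 = a * B := by
    intro a
    induction a with
    | zero => simp [hF00]
    | succ a ih =>
      have := hFhn p (a * p) 0
      rw [hR] at this
      have e1 : (a + 1) * p = a * p + p := by ring
      rw [e1]
      push_cast
      linarith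
  have hcol : ∀ a b : ℕ, F (a * p) (b * m) = a * B + b * C := by
    intro a b
    induction b with
    | zero => simpa using hrow a
    | succ b ih =>
      have := hFvn m (a * p) (b * m)
      rw [hS] at this
      have e1 : (b + 1) * m = b * m + m := by ring
      rw [e1]
      push_cast
      linarith
  refine ⟨F t u, ?_⟩
  have h1 := hdiag (p * m)
  have h2 := hcol (m * t) (p * u)
  have e1 : p * m * t = m * t * p := by ring
  have e2 : p * m * u = p * u * m := by ring
  rw [e1, e2, h2] at h1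
  push_cast at h1
  linarith

open PotentialAux in
theorem potential {M : Type*} [Field M] (τ ρ : M ≃+* M)
    (hcomm : ∀ x, τ (ρ x) = ρ (τ x)) (p m : ℕ) (hτ : ∀ x, (τ ^ p) x = x) (hρ : ∀ x, (ρ ^ m) x = x)
    (w : M → ℤ) (hw : ∀ x y : M, x ≠ 0 → y ≠ 0 → w (x * y) = w x + w y)
    (γ δ : M) (hγ : γ ≠ 0) (hδ : δ ≠ 0) (hrel : ρ γ / γ = τ δ / δ)
    (t u : ℕ) (hinv : ∀ x : M, x ≠ 0 → w ((τ ^ t) ((ρ ^ u) x)) = w x) :
    ∃ κ : ℤ, (m : ℤ) * t * w (∏ i ∈ Finset.range p, (τ ^ i) γ)
      + (p : ℤ) * u * w (∏ j ∈ Finset.range m, (ρ ^ j) δ) = p * m * κ := by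
  have hw1 := w_one w hw
  have ne (σ : M ≃+* M) {x : M} (hx : x ≠ 0) : σ x ≠ 0 := by
    simpa using (map_ne_zero_iff σ σ.injective).mpr hx
  have hrel' : ρ γ * δ = τ δ * γ := by
    field_simp at hrel
    linear_combination hrel
  have hclosed : ∀ i j, w ((τ ^ i) ((ρ ^ (j + 1)) γ)) - w ((τ ^ i) ((ρ ^ j) γ))
      = w ((τ ^ (i + 1)) ((ρ ^ j) δ)) - w ((τ ^ i) ((ρ ^ j) δ)) := by
    intro i j
    have h1 : (τ ^ i) ((ρ ^ j) (ρ γ * δ)) = (τ ^ i) ((ρ ^ j) (τ δ * γ)) := by rw [hrel']
    rw [map_mul, map_mul, map_mul, map_mul] at h1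
    have h2 := congrArg w h1
    rw [hw _ _ (ne _ (ne _ (ne _ hγ))) (ne _ (ne _ hδ)),
      hw _ _ (ne _ (ne _ (ne _ hδ))) (ne _ (ne _ hγ))] at h2
    have e1 : (τ ^ i) ((ρ ^ j) (ρ γ)) = (τ ^ i) ((ρ ^ (j + 1)) γ) := by
      rw [pow_succ_apply']
    have e2 : (τ ^ i) ((ρ ^ j) (τ δ)) = (τ ^ (i + 1)) ((ρ ^ j) δ) := by
      rw [pow_succ_apply', comm_pow τ ρ hcomm]
    rw [e1, e2] at h2
    linarith
  have hinvx : ∀ (x : M), x ≠ 0 → ∀ i j,
      w ((τ ^ (i + t)) ((ρ ^ (j + u)) x)) = w ((τ ^ i) ((ρ ^ j) x)) := by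
    intro x hx i j
    have : (τ ^ (i + t)) ((ρ ^ (j + u)) x) = (τ ^ t) ((ρ ^ u) ((τ ^ i) ((ρ ^ j) x))) := by
      rw [add_comm i t, add_comm j u, pow_add_apply, pow_add_apply,
        comm_pow_pow τ ρ hcomm i u]
    rw [this, hinv _ (ne _ (ne _ hx))]
  have hpx : ∀ (x : M) i j, (τ ^ (i + p)) ((ρ ^ j) x) = (τ ^ i) ((ρ ^ j) x) := by
    intro x i j
    rw [pow_add_apply, hτ]
  have hmx : ∀ (x : M) i j, (τ ^ i) ((ρ ^ (j + m)) x) = (τ ^ i) ((ρ ^ j) x) := by
    intro x i j
    rw [pow_add_apply, hρ]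
  obtain ⟨κ, hκ⟩ := PotentialAux.potential_core
    (fun i j => w ((τ ^ i) ((ρ ^ j) γ))) (fun i j => w ((τ ^ i) ((ρ ^ j) δ))) p m t u
    hclosed (fun i j => by rw [hpx]) (fun i j => by rw [hpx])
    (fun i j => by rw [hmx]) (fun i j => by rw [hmx])
    (hinvx γ hγ) (hinvx δ hδ)
  refine ⟨κ, ?_⟩
  rw [w_prod w hw p (fun i => (τ ^ i) γ) (fun i => ne _ hγ),
    w_prod w hw m (fun j => (ρ ^ j) δ) (fun j => ne _ hδ), hw1, zero_add, zero_add]
  simpa using hκ

end Fermat.Agent.S14
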