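import Fermat.Agent.S14.CrossSetupA
import Fermat.Agent.S14.CrossSetupB
import Fermat.Agent.S14.CrossSplit
import Fermat.Agent.S14.CrossRamB
import Fermat.Agent.S14.CrossGlobal
import Fermat.Agent.S14.NFNormFin
import Fermat.Agent.S14.Ineq
import Fermat.Agent.S14.FIDecomp
import Fermat.Agent.S14.DivCl
import Fermat.Agent.S14.GalDiv
import Fermat.Agent.S14.Potential

/-!
# S14: the reciprocity law for unramified cyclic extensions of odd prime degree (assembly)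

`reciprocity`: for `L/K` unramified cyclic of odd prime degree `p` with generator `τ`, an auxiliary
prime `r` (unramified in `L`, totally split in `K`) and `b ∈ Kˣ` prime to `r` all of whose primes
`v` have `p ∣ ord (N v mod r)`:  `p ∣ ∑_v t(v) ord_v(b)`, where `τ ^ t(v)` is the Frobenius at `v`.

Proof (crossing with `M = L(ζ_r)`): `b` is a norm from `M` to `K(ζ_r)` (Hasse norm theorem, from
the first inequality), `b = N_τ'(γ)`; Hilbert 90 gives `δ` with `ρ'γ/γ = τ'δ/δ`, `c = N_ρ'(δ) ∈ K`;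
the potential lemma at each prime `v ∤ r`, the local computation at `v ∣ r` and the global norm
congruence for `c` finish.
-/

set_option autoImplicit false

namespace Fermat.Agent.S14

open NumberField IsDedekindDomain
open scoped nonZeroDivisors Pointwise

namespace CrossMain

section Aux

variable {K M : Type*} [Field K] [Field M] [Algebra K M]

theorem toRingEquiv_pow_apply (σ : M ≃ₐ[K] M) (i : ℕ) (x : M) :
    ((σ : M ≃+* M) ^ i) x = (σ ^ i) x := by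
  induction i generalizing x with
  | zero => rfl
  | succ i ih =>
    rw [pow_succ, pow_succ]
    exact ih (σ x)

theorem pow_comm_apply (τ ρ : M ≃ₐ[K] M) (h : τ * ρ = ρ * τ) (i : ℕ) (x : M) :
    (τ ^ i) (ρ x) = ρ ((τ ^ i) x) := by
  have h1 : τ ^ i * ρ = ρ * τ ^ i := (Commute.pow_left (show Commute τ ρ from h) i).eq
  exact congrArg (fun σ : M ≃ₐ[K] M => σ x) h1

theorem pow_succ_apply (ρ : M ≃ₐ[K] M) (j : ℕ) (x : M) :
    (ρ ^ (j + 1)) x = ρ ((ρ ^ j) x) := by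
  rw [pow_succ']; rfl

theorem pow_succ_apply' (ρ : M ≃ₐ[K] M) (j : ℕ) (x : M) :
    (ρ ^ (j + 1)) x = (ρ ^ j) (ρ x) := by
  rw [pow_succ]; rfl

/-- a cyclic product is fixed -/
theorem map_prod_pow (ρ : M ≃ₐ[K] M) (n : ℕ) (hn : ρ ^ n = 1) (δ : M) (hδ : δ ≠ 0) :
    ρ (∏ j ∈ Finset.range n, (ρ ^ j) δ) = ∏ j ∈ Finset.range n, (ρ ^ j) δ := by
  rw [map_prod]
  have h1 : (∏ j ∈ Finset.range n, ρ ((ρ ^ j) δ)) * δ = (∏ j ∈ Finset.range n, (ρ ^ j) δ) * δ := by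
    have h2 : ∏ j ∈ Finset.range n, ρ ((ρ ^ j) δ) = ∏ j ∈ Finset.range n, (ρ ^ (j + 1)) δ :=
      Finset.prod_congr rfl fun j _ => (pow_succ_apply ρ j δ).symm
    have h3 := Finset.prod_range_succ' (fun j => (ρ ^ j) δ) n
    have h4 := Finset.prod_range_succ (fun j => (ρ ^ j) δ) n
    simp only [pow_zero, AlgEquiv.one_apply, hn] at h3 h4
    rw [h2, ← h3, h4]
  exact mul_right_cancel₀ hδ h1

/-- telescoping -/
theorem prod_range_div₀ (f : ℕ → M) (hf : ∀ j, f j ≠ 0) (n : ℕ) :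
    ∏ j ∈ Finset.range n, f (j + 1) / f j = f n / f 0 := by
  induction n with
  | zero => simp [div_self (hf 0)]
  | succ n ih =>
    rw [Finset.prod_range_succ, ih]
    have h0 := hf 0
    have hn := hf n
    field_simp

theorem prod_pow_div (ρ : M ≃ₐ[K] M) (n : ℕ) (hn : ρ ^ n = 1) (γ : M) (hγ : γ ≠ 0) :
    ∏ j ∈ Finset.range n, (ρ ^ j) (ρ γ / γ) = 1 := by
  have h1 : ∀ j, (ρ ^ j) (ρ γ / γ) = (ρ ^ (j + 1)) γ / (ρ ^ j) γ := by
    intro j
    rw [map_div₀, pow_succ_apply']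
  simp only [h1]
  rw [prod_range_div₀ (fun j => (ρ ^ j) γ)
    (fun j => (map_ne_zero_iff _ (ρ ^ j).injective).mpr hγ) n, hn]
  simp only [pow_zero, AlgEquiv.one_apply]
  exact div_self hγ

end Aux

/-- The analytic first inequality in the shape used by the Hasse norm theorem. -/
theorem first_ineq (p : ℕ) [Fact p.Prime]
    (F E : Type*) [Field F] [NumberField F] [Field E] [NumberField E] [Algebra F E] [IsGalois F E]
    (hdeg : Module.finrank F E = p) (hunr : UnramifiedEverywhere F E)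
    (H : Subgroup (ClassGroup (𝓞 F)))
    (hH : ∀ v : HeightOneSpectrum (𝓞 F),
      (∀ w : HeightOneSpectrum (𝓞 E), w.asIdeal.comap (algebraMap (𝓞 F) (𝓞 E)) = v.asIdeal →
        ∀ σ : E ≃ₐ[F] E, σ • w.asIdeal = w.asIdeal → σ = 1) →
      ClassGroup.mk0 ⟨v.asIdeal, mem_nonZeroDivisors_of_ne_zero v.ne_bot⟩ ∈ H) :
    H.index ≤ p := by
  rw [← hdeg]
  refine Ineq.index_le_finrank F E H fun q P hP hP0 hu hN => ?_
  have hq : (q : Ideal (𝓞 F)).IsPrime := by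
    rw [← hu]
    exact Ideal.comap_isPrime _ P
  exact hH ⟨q, hq, nonZeroDivisors.coe_ne_zero q⟩
    (FI.decomposition_trivial_of_absNorm_eq F E hunr ⟨q, hq, nonZeroDivisors.coe_ne_zero q⟩
      ⟨P, hP, hP0⟩ hu hN)

section Main

variable (p r : ℕ) [Fact p.Prime] [Fact r.Prime]
  (K L M : Type*) [Field K] [NumberField K] [Field L] [NumberField L] [Field M] [NumberField M]
  [Algebra K L] [Algebra L M] [Algebra K M] [IsScalarTower K L M]
  [IsGalois K L] [IsCyclotomicExtension {r} L M]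

omit [Fact (Nat.Prime r)] [IsGalois K L] in
/-- `r` is unramified in `K` when it is in `L` -/
theorem not_mem_sq (hr : ∀ w : HeightOneSpectrum (𝓞 L), (r : 𝓞 L) ∈ w.asIdeal → (r : 𝓞 L) ∉ w.asIdeal ^ 2)
    (v : HeightOneSpectrum (𝓞 K)) (hv : (r : 𝓞 K) ∈ v.asIdeal) : (r : 𝓞 K) ∉ v.asIdeal ^ 2 := by
  obtain ⟨w, hw⟩ := exists_primeBelow_eq K L v
  have hle : v.asIdeal.map (algebraMap (𝓞 K) (𝓞 L)) ≤ w.asIdeal := by
    rw [Ideal.map_le_iff_le_comap, ← primeBelow_asIdeal K L w, hw]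
  have hcast : algebraMap (𝓞 K) (𝓞 L) (r : 𝓞 K) = (r : 𝓞 L) := map_natCast _ r
  have hrw : (r : 𝓞 L) ∈ w.asIdeal := by
    rw [← hcast]
    exact hle (Ideal.mem_map_of_mem _ hv)
  intro h2
  apply hr w hrw
  rw [← hcast]
  have h3 : (v.asIdeal ^ 2).map (algebraMap (𝓞 K) (𝓞 L)) ≤ w.asIdeal ^ 2 := by
    rw [Ideal.map_pow]
    exact Ideal.pow_right_mono hle 2
  exact h3 (Ideal.mem_map_of_mem _ h2)

variable {p r K L M}
variable {τ0 : L ≃ₐ[K] L} (D : CrossData p r K L M τ0)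

/-- per-prime potential relation -/
theorem local_relation [IsGalois K M] (hunr : UnramifiedEverywhere K L)
    (t : HeightOneSpectrum (𝓞 K) → ℕ)
    (ht : ∀ (v : HeightOneSpectrum (𝓞 K)) (w : HeightOneSpectrum (𝓞 L)),
      w.asIdeal.comap (algebraMap (𝓞 K) (𝓞 L)) = v.asIdeal →
        IsArithFrobAt (𝓞 K) (τ0 ^ t v) w.asIdeal)
    (b c : K) (γ δ : M) (hγ : γ ≠ 0) (hδ : δ ≠ 0)
    (hbγ : ∏ i ∈ Finset.range p, (D.τ' ^ i) γ = algebraMap K M b)
    (hrel : D.ρ' γ / γ = D.τ' δ / δ)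
    (hcδ : ∏ j ∈ Finset.range (r - 1), (D.ρ' ^ j) δ = algebraMap K M c)
    (v : HeightOneSpectrum (𝓞 K)) (hv : (r : 𝓞 K) ∉ v.asIdeal) :
    ∃ u : ℕ, (D.g : ZMod r) ^ u = (Ideal.absNorm v.asIdeal : ℕ) ∧
      ∃ κ : ℤ, ((r - 1 : ℕ) : ℤ) * t v * ord v b + (p : ℤ) * u * ord v c
        = p * ((r - 1 : ℕ) : ℤ) * κ := by
  obtain ⟨w, hw⟩ := exists_primeBelow_eq K M v
  have hwr : (r : 𝓞 M) ∉ w.asIdeal := by
    intro h
    apply hv
    rw [← hw, primeBelow_asIdeal, Ideal.mem_comap, map_natCast]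
    exact h
  have hvw : w.asIdeal.comap (algebraMap (𝓞 K) (𝓞 M)) = v.asIdeal := by
    rw [← hw, primeBelow_asIdeal]
  have hL : (primeBelow L M w).asIdeal.comap (algebraMap (𝓞 K) (𝓞 L)) = v.asIdeal := by
    rw [primeBelow_asIdeal, Ideal.comap_comap, ← IsScalarTower.algebraMap_eq, hvw]
  obtain ⟨u, hu1, hu2⟩ := D.exists_frob hunr w hwr (t v) (ht v (primeBelow L M w) hL)
  refine ⟨u, ?_, ?_⟩
  · rw [hu2, hvw]
  · have hgal : galPrime K M (D.τ' ^ t v * D.ρ' ^ u) w = w := HeightOneSpectrum.ext hu1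
    have hinv : ∀ x : M, x ≠ 0 →
        ord w (((D.τ' : M ≃+* M) ^ t v) (((D.ρ' : M ≃+* M) ^ u) x)) = ord w x := by
      intro x _
      rw [toRingEquiv_pow_apply, toRingEquiv_pow_apply]
      have := ord_galPrime K M (D.τ' ^ t v * D.ρ' ^ u) w x
      rw [hgal] at this
      exact this
    obtain ⟨κ, hκ⟩ := potential (D.τ' : M ≃+* M) (D.ρ' : M ≃+* M)
      (fun x => congrArg (fun σ : M ≃ₐ[K] M => σ x) D.comm) p (r - 1)
      (fun x => by rw [toRingEquiv_pow_apply, D.τ'_pow]; rfl)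
      (fun x => by rw [toRingEquiv_pow_apply, D.ρ'_pow]; rfl)
      (ord w) (fun x y hx hy => ord_mul M w hx hy) γ δ hγ hδ hrel (t v) u hinv
    refine ⟨κ, ?_⟩
    simp only [toRingEquiv_pow_apply] at hκ
    rw [hbγ, hcδ, ord_algebraMap K M w (fun σ hσ => CrossData.inertia_eq_one hunr w hwr σ hσ),
      ord_algebraMap K M w (fun σ hσ => CrossData.inertia_eq_one hunr w hwr σ hσ), hw] at hκ
    exact hκ

end Main

theorem reciprocity_aux (p r : ℕ) [Fact p.Prime] [Fact r.Prime]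
    (K L M : Type*) [Field K] [NumberField K] [Field L] [NumberField L] [Field M] [NumberField M]
    [Algebra K L] [Algebra L M] [Algebra K M] [IsScalarTower K L M]
    [IsGalois K L] [IsCyclotomicExtension {r} L M] [IsGalois ℚ K] (hp2 : p ≠ 2)
    (hdeg : Module.finrank K L = p) (hunr : UnramifiedEverywhere K L)
    (hr : ∀ w : HeightOneSpectrum (𝓞 L), (r : 𝓞 L) ∈ w.asIdeal → (r : 𝓞 L) ∉ w.asIdeal ^ 2)
    (hr1 : ∀ v : HeightOneSpectrum (𝓞 K), (r : 𝓞 K) ∈ v.asIdeal → Ideal.absNorm v.asIdeal = r)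
    (b : K) (hb : b ≠ 0)
    (hbr : ∀ v : HeightOneSpectrum (𝓞 K), (r : 𝓞 K) ∈ v.asIdeal → ord v b = 0)
    (hbq : ∀ v : HeightOneSpectrum (𝓞 K), ord v b ≠ 0 →
      p ∣ orderOf ((Ideal.absNorm v.asIdeal : ℕ) : ZMod r))
    (τ : L ≃ₐ[K] L) (hτ : ∀ σ : L ≃ₐ[K] L, σ ∈ Subgroup.zpowers τ)
    (t : HeightOneSpectrum (𝓞 K) → ℕ)
    (ht : ∀ (v : HeightOneSpectrum (𝓞 K)) (w : HeightOneSpectrum (𝓞 L)),
      w.asIdeal.comap (algebraMap (𝓞 K) (𝓞 L)) = v.asIdeal →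
        IsArithFrobAt (𝓞 K) (τ ^ t v) w.asIdeal) :
    (p : ℤ) ∣ ∑ᶠ v : HeightOneSpectrum (𝓞 K), (t v : ℤ) * ord v b := by
  classical
  have hGal : IsGalois K M := isGalois_top r K L M
  obtain ⟨D⟩ := exists_crossData p r K L M hdeg hr τ hτ
  have hp : p.Prime := Fact.out
  have hrp : r.Prime := Fact.out
  -- step 2: γ
  have hbF : algebraMap K D.F b ≠ 0 := (map_ne_zero _).mpr hb
  have hloc : ∀ w : HeightOneSpectrum (𝓞 M),
      (∃ σ : M ≃ₐ[D.F] M, σ ≠ 1 ∧ σ • w.asIdeal = w.asIdeal) →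
      (p : ℤ) ∣ ord w (algebraMap D.F M (algebraMap K D.F b)) := by
    rintro w ⟨σ, hσ1, hσ⟩
    have h0 : ord w (algebraMap K M b) = 0 := by
      by_contra hne
      have hvb : ord (primeBelow K M w) b ≠ 0 := fun h => hne (ord_algebraMap_eq_zero K M w b h)
      have hwr : (r : 𝓞 M) ∉ w.asIdeal := by
        intro h
        apply hvb
        apply hbr
        rw [primeBelow_asIdeal, Ideal.mem_comap, map_natCast]
        exact h
      exact hσ1 (D.not_fixed hdeg hunr w hwr (hbq (primeBelow K M w) hvb) σ hσ)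
    have h1 : algebraMap D.F M (algebraMap K D.F b) = algebraMap K M b :=
      (IsScalarTower.algebraMap_apply K D.F M b).symm
    rw [h1, h0]
    exact dvd_zero _
  obtain ⟨γ, hγN⟩ := NFNormFin.hasse_norm_of_first p D.F M hp2 (D.finrank_F hdeg hτ)
    (D.unramified_F hunr)
    (fun H hH => first_ineq p D.F M (D.finrank_F hdeg hτ) (D.unramified_F hunr) H hH)
    (algebraMap K D.F b) hbF hloc
  have hbγ : ∏ i ∈ Finset.range p, (D.τ' ^ i) γ = algebraMap K M b := by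
    rw [← D.norm_F_eq hdeg hτ γ, hγN]
    exact (IsScalarTower.algebraMap_apply K D.F M b).symm
  have hbM : algebraMap K M b ≠ 0 := (map_ne_zero _).mpr hb
  have hγ : γ ≠ 0 := by
    rintro rfl
    apply hbM
    rw [← hbγ]
    apply Finset.prod_eq_zero (Finset.mem_range.mpr hp.pos)
    simp
  -- step 3: δ
  have hx : ∏ i ∈ Finset.range p, (D.τ' ^ i) (D.ρ' γ / γ) = 1 := by
    simp only [map_div₀, pow_comm_apply D.τ' D.ρ' D.comm]
    rw [Finset.prod_div_distrib, ← map_prod, hbγ, AlgEquiv.commutes]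
    exact div_self hbM
  obtain ⟨δ, hδ, hrel⟩ := D.hilbert90 hdeg hτ _ hx
  set c' := ∏ j ∈ Finset.range (r - 1), (D.ρ' ^ j) δ with hc'
  have hc'0 : c' ≠ 0 :=
    Finset.prod_ne_zero_iff.mpr fun j _ => (map_ne_zero_iff _ (D.ρ' ^ j).injective).mpr hδ
  have hρc : D.ρ' c' = c' := map_prod_pow D.ρ' (r - 1) D.ρ'_pow δ hδ
  have hτc : D.τ' c' = c' := by
    have h1 : D.τ' c' / c' = 1 := by
      rw [hc', map_prod, ← Finset.prod_div_distrib]
      have h2 : ∀ j, D.τ' ((D.ρ' ^ j) δ) / (D.ρ' ^ j) δ = (D.ρ' ^ j) (D.ρ' γ / γ) := by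
        intro j
        rw [hrel, map_div₀, pow_comm_apply D.ρ' D.τ' D.comm.symm]
      simp only [h2]
      exact prod_pow_div D.ρ' (r - 1) D.ρ'_pow γ hγ
    exact (div_eq_one_iff_eq hc'0).mp h1
  obtain ⟨c, hc⟩ := D.mem_bot c' hτc hρc
  have hc0 : c ≠ 0 := by
    rintro rfl
    rw [map_zero] at hc
    exact hc'0 hc.symm
  -- step 4
  have hex : ∀ v : HeightOneSpectrum (𝓞 K), ∃ u : ℕ,
      ((r : 𝓞 K) ∉ v.asIdeal → (D.g : ZMod r) ^ u = (Ideal.absNorm v.asIdeal : ℕ)) ∧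
      ((r : 𝓞 K) ∈ v.asIdeal → u = 0) ∧
      ∃ κ : ℤ, ((r - 1 : ℕ) : ℤ) * t v * ord v b + (p : ℤ) * u * ord v c
        = p * ((r - 1 : ℕ) : ℤ) * κ := by
    intro v
    by_cases hv : (r : 𝓞 K) ∈ v.asIdeal
    · refine ⟨0, fun h => absurd hv h, fun _ => rfl, 0, ?_⟩
      rw [hbr v hv]; simp
    · obtain ⟨u, hu, κ, hκ⟩ := local_relation D hunr t ht b c γ δ hγ hδ hbγ hrel hc.symm v hv
      exact ⟨u, fun _ => hu, fun h => absurd h hv, κ, hκ⟩
  choose u hu1 hu0 κ hκ using hex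
  -- step 5
  have hglob := global_norm r K hr1 (not_mem_sq r K L hr) c hc0
    (fun v hv => by
      obtain ⟨W, hW, h1, h2, h3⟩ := CrossRamB.exists_ram D hunr hr v hv
      exact D.local_at_r_of_ram v (hr1 v hv) W hW h1 h2 h3 b c hb hc0 (hbr v hv) γ δ hγ hδ hbγ
        hrel hc.symm)
    D.g D.hg u hu1 hu0
  have hfb := ord_finite_support K hb
  have hfc := ord_finite_support K hc0
  set S : Finset (HeightOneSpectrum (𝓞 K)) := hfb.toFinset ∪ hfc.toFinset with hS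
  have hT : ∑ᶠ v : HeightOneSpectrum (𝓞 K), (t v : ℤ) * ord v b
      = ∑ v ∈ S, (t v : ℤ) * ord v b := by
    apply finsum_eq_sum_of_support_subset
    intro v hv
    rw [Function.mem_support] at hv
    rw [hS, Finset.coe_union, Set.Finite.coe_toFinset]
    left
    intro h
    apply hv
    rw [h, mul_zero]
  have hU : ∑ᶠ v : HeightOneSpectrum (𝓞 K), (u v : ℤ) * ord v c
      = ∑ v ∈ S, (u v : ℤ) * ord v c := by
    apply finsum_eq_sum_of_support_subset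
    intro v hv
    rw [Function.mem_support] at hv
    rw [hS, Finset.coe_union, Set.Finite.coe_toFinset, Set.Finite.coe_toFinset]
    right
    intro h
    apply hv
    rw [h, mul_zero]
  rw [hU] at hglob
  rw [hT]
  have hsum : ((r - 1 : ℕ) : ℤ) * ∑ v ∈ S, (t v : ℤ) * ord v b
      + (p : ℤ) * ∑ v ∈ S, (u v : ℤ) * ord v c = p * ((r - 1 : ℕ) : ℤ) * ∑ v ∈ S, κ v := by
    rw [Finset.mul_sum, Finset.mul_sum, Finset.mul_sum, ← Finset.sum_add_distrib]
    apply Finset.sum_congr rfl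
    intro v _
    rw [← hκ v]; ring
  have hr1' : ((r - 1 : ℕ) : ℤ) = (r : ℤ) - 1 := by
    rw [Nat.cast_sub hrp.one_le]; simp
  rw [hr1'] at hsum
  obtain ⟨s, hs⟩ := hglob
  have hrne : (r : ℤ) - 1 ≠ 0 := by
    have := hrp.two_le
    omega
  have h2T : (p : ℤ) ∣ 2 * ∑ v ∈ S, (t v : ℤ) * ord v b := by
    refine ⟨2 * ∑ v ∈ S, κ v - s, ?_⟩
    apply mul_left_cancel₀ hrne
    linear_combination 2 * hsum - (p : ℤ) * hs
  rcases (Nat.prime_iff_prime_int.mp hp).dvd_or_dvd h2T with h | h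
  · exfalso
    have h2 : p ∣ 2 := by exact_mod_cast h
    exact hp2 ((Nat.prime_dvd_prime_iff_eq hp Nat.prime_two).mp h2)
  · exact h

end CrossMain

/-- **Reciprocity** for an unramified cyclic extension `L/K` of odd prime degree `p` and an
auxiliary prime `r`: `∑_v t(v) ord_v(b) ≡ 0 mod p`, where `τ ^ t(v)` is the Frobenius at `v`. -/
theorem reciprocity (p : ℕ) [Fact p.Prime] (hp2 : p ≠ 2)
    (K L : Type*) [Field K] [NumberField K] [Field L] [NumberField L] [Algebra K L] [IsGalois K L]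
    [IsGalois ℚ K]
    (hdeg : Module.finrank K L = p) (hunr : UnramifiedEverywhere K L)
    (r : ℕ) [Fact r.Prime]
    (hr : ∀ w : HeightOneSpectrum (𝓞 L), (r : 𝓞 L) ∈ w.asIdeal → (r : 𝓞 L) ∉ w.asIdeal ^ 2)
    (hr1 : ∀ v : HeightOneSpectrum (𝓞 K), (r : 𝓞 K) ∈ v.asIdeal → Ideal.absNorm v.asIdeal = r)
    (b : K) (hb : b ≠ 0)
    (hbr : ∀ v : HeightOneSpectrum (𝓞 K), (r : 𝓞 K) ∈ v.asIdeal → ord v b = 0)
    (hbq : ∀ v : HeightOneSpectrum (𝓞 K), ord v b ≠ 0 →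
      p ∣ orderOf ((Ideal.absNorm v.asIdeal : ℕ) : ZMod r))
    (τ : L ≃ₐ[K] L) (hτ : ∀ σ : L ≃ₐ[K] L, σ ∈ Subgroup.zpowers τ)
    (t : HeightOneSpectrum (𝓞 K) → ℕ)
    (ht : ∀ (v : HeightOneSpectrum (𝓞 K)) (w : HeightOneSpectrum (𝓞 L)),
      w.asIdeal.comap (algebraMap (𝓞 K) (𝓞 L)) = v.asIdeal →
        IsArithFrobAt (𝓞 K) (τ ^ t v) w.asIdeal) :
    (p : ℤ) ∣ ∑ᶠ v : HeightOneSpectrum (𝓞 K), (t v : ℤ) * ord v b := by
  have hr0 : NeZero r := ⟨(Fact.out : r.Prime).ne_zero⟩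
  have hnf : NumberField (CyclotomicField r L) := IsCyclotomicExtension.numberField {r} L _
  exact CrossMain.reciprocity_aux p r K L (CyclotomicField r L) hp2 hdeg hunr hr hr1 b hb hbr hbq
    τ hτ t ht

end Fermat.Agent.S14
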