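import Fermat.Agent.S14.Defs

/-!
# S14/Jacobi : Jacobi sums and Stickelberger's factorisation at degree one primes

`K = ℚ(ζ_p)`, `p` an odd prime, `v` a prime of `𝓞 K` of absolute norm a prime `q ≠ p`
(so `q ≡ 1 mod p`).  With `χ` the `p`-th power residue character modulo `v`
(`χ(x) ≡ x ^ ((q-1)/p) mod v`) and `J = J(χ, χ)` the Jacobi sum we prove

  `(J) = ∏_{0 < a < p/2} σ_a⁻¹(v)`,   `σ_a : ζ ↦ ζ ^ a`,

in the form `exists_jacobi` (statement of the S14 blueprint, verbatim).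

Main auxiliary statements (namespace `Fermat.Agent.S14.Jacobi`):
* `sum_pow_mul_one_sub_pow` : `∑ x, x^i (1-x)^i = 0` over a finite field for `2 i < #k - 1`;
* `chi`, `mk_chi_pow`, `jacobiSum_chi_pow_mem` : the character and the congruence;
* `smul_jacobiSum` : Galois action on the Jacobi sum;
* `jacobiSum_mul_smul` : `J · σ_{-1}(J) = q`;
* `eq_one_of_smul_eq` : the decomposition group of `v` is trivial;
* `exists_span_eq_prod` : the ideal factorisation.
-/

set_option autoImplicit false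
set_option linter.style.haveILetI false
set_option linter.unusedSectionVars false

namespace Fermat.Agent.S14

open NumberField IsDedekindDomain
open scoped nonZeroDivisors Pointwise

namespace Jacobi

/-- the sum of the values of a polynomial of degree `< #k - 1` over a finite field vanishes -/
theorem sum_eval_eq_zero {k : Type*} [Field k] [Fintype k] (f : Polynomial k)
    (hf : f.natDegree < Fintype.card k - 1) : ∑ x : k, f.eval x = 0 := by
  simp_rw [Polynomial.eval_eq_sum_range]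
  rw [Finset.sum_comm]
  refine Finset.sum_eq_zero fun i hi => ?_
  rw [← Finset.mul_sum, FiniteField.sum_pow_lt_card_sub_one k i, mul_zero]
  exact lt_of_le_of_lt (Nat.lt_succ_iff.mp (Finset.mem_range.mp hi)) hf

/-- the Jacobi-type power sum `∑ x, x^i (1-x)^i` vanishes for `2 i < #k - 1` -/
theorem sum_pow_mul_one_sub_pow {k : Type*} [Field k] [Fintype k] (i : ℕ)
    (hi : 2 * i < Fintype.card k - 1) : ∑ x : k, x ^ i * (1 - x) ^ i = 0 := by
  have h := sum_eval_eq_zero (k := k) (Polynomial.X ^ i * (1 - Polynomial.X) ^ i) ?_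
  · simpa using h
  · refine lt_of_le_of_lt (Polynomial.natDegree_mul_le.trans ?_) hi
    have h1 : (Polynomial.X ^ i : Polynomial k).natDegree ≤ i := Polynomial.natDegree_X_pow_le i
    have h2 : ((1 - Polynomial.X) ^ i : Polynomial k).natDegree ≤ i := by
      refine Polynomial.natDegree_pow_le.trans ?_
      have : (1 - Polynomial.X : Polynomial k).natDegree ≤ 1 := by
        refine (Polynomial.natDegree_sub_le _ _).trans ?_
        simp
      calc i * (1 - Polynomial.X : Polynomial k).natDegree ≤ i * 1 := Nat.mul_le_mul_left _ this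
        _ = i := mul_one i
    omega

section setup

variable (p : ℕ) [hp : Fact p.Prime] (K : Type*) [Field K] [NumberField K]
  [hK : IsCyclotomicExtension {p} ℚ K]

/-- the chosen primitive `p`-th root of unity in `𝓞 K` -/
noncomputable def zetaInt : 𝓞 K := (IsCyclotomicExtension.zeta_spec p ℚ K).toInteger

theorem zetaInt_isPrimitiveRoot : IsPrimitiveRoot (zetaInt p K) p :=
  (IsCyclotomicExtension.zeta_spec p ℚ K).toInteger_isPrimitiveRoot

end setup

section residue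

variable {p : ℕ} [hp : Fact p.Prime] {K : Type*} [Field K] [NumberField K]
  [hK : IsCyclotomicExtension {p} ℚ K] (P : Ideal (𝓞 K)) [hPm : P.IsMaximal]

attribute [local instance] Ideal.Quotient.field

theorem ne_bot_of_absNorm {q : ℕ} (hq : q.Prime) (hP : Ideal.absNorm P = q) : P ≠ ⊥ := by
  rintro rfl
  rw [Ideal.absNorm_bot] at hP
  exact hq.ne_zero hP.symm

set_option warn.classDefReducibility false in
/-- a `Fintype` structure on the residue field -/
noncomputable def fintypeQuot {q : ℕ} (hq : q.Prime) (hP : Ideal.absNorm P = q) :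
    Fintype (𝓞 K ⧸ P) :=
  haveI : Finite (𝓞 K ⧸ P) := Ring.HasFiniteQuotients.finiteQuotient (ne_bot_of_absNorm P hq hP)
  Fintype.ofFinite _

theorem card_quot {q : ℕ} (hq : q.Prime) (hP : Ideal.absNorm P = q) :
    @Fintype.card (𝓞 K ⧸ P) (fintypeQuot P hq hP) = q := by
  letI := fintypeQuot P hq hP
  rw [Fintype.card_eq_nat_card, ← hP, Ideal.absNorm_apply, Submodule.cardQuot_apply]

theorem mk_zeta_isPrimitiveRoot {q : ℕ} (hq : q.Prime) (hqp : q ≠ p)
    (hP : Ideal.absNorm P = q) : IsPrimitiveRoot (Ideal.Quotient.mk P (zetaInt p K)) p := by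
  refine (zetaInt_isPrimitiveRoot p K).idealQuotient_mk ?_ ?_
  · rw [hP]; exact hq.one_lt.ne'
  · rw [hP]; exact (Nat.coprime_primes hq hp.out).mpr hqp

theorem dvd_sub_one {q : ℕ} (hq : q.Prime) (hqp : q ≠ p) (hP : Ideal.absNorm P = q) :
    p ∣ q - 1 := by
  letI := fintypeQuot P hq hP
  have h := mk_zeta_isPrimitiveRoot P hq hqp hP
  refine h.dvd_of_pow_eq_one _ ?_
  have := FiniteField.pow_card_sub_one_eq_one (Ideal.Quotient.mk P (zetaInt p K))
    (h.ne_zero hp.out.ne_zero)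
  rwa [card_quot P hq hP] at this

theorem existsUnique_lift {q : ℕ} (hq : q.Prime) (hqp : q ≠ p) (hP : Ideal.absNorm P = q)
    (y : 𝓞 K ⧸ P) (hy : y ^ p = 1) :
    ∃! ξ : 𝓞 K, ξ ^ p = 1 ∧ Ideal.Quotient.mk P ξ = y := by
  have hζ := zetaInt_isPrimitiveRoot p K
  have hζ' := mk_zeta_isPrimitiveRoot P hq hqp hP
  obtain ⟨i, hi, rfl⟩ := hζ'.eq_pow_of_pow_eq_one hy
  refine ⟨zetaInt p K ^ i, ⟨?_, by rw [map_pow]⟩, ?_⟩
  · rw [← pow_mul, mul_comm, pow_mul, hζ.pow_eq_one, one_pow]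
  · rintro ξ ⟨hξ, hξ'⟩
    obtain ⟨j, hj, rfl⟩ := hζ.eq_pow_of_pow_eq_one hξ
    rw [map_pow] at hξ'
    rw [hζ'.pow_inj hj hi hξ']

end residue

section character

variable {p : ℕ} [hp : Fact p.Prime] {K : Type*} [Field K] [NumberField K]
  [hK : IsCyclotomicExtension {p} ℚ K] (P : Ideal (𝓞 K)) [hPm : P.IsMaximal]
  {q : ℕ} (hq : q.Prime) (hqp : q ≠ p) (hP : Ideal.absNorm P = q)

attribute [local instance] Ideal.Quotient.field

include hPm hq hqp hP

theorem unit_pow_pow (x : (𝓞 K ⧸ P)ˣ) : ((x : 𝓞 K ⧸ P) ^ ((q - 1) / p)) ^ p = 1 := by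
  letI := fintypeQuot P hq hP
  rw [← pow_mul, Nat.div_mul_cancel (dvd_sub_one P hq hqp hP)]
  have := FiniteField.pow_card_sub_one_eq_one (x : 𝓞 K ⧸ P) x.ne_zero
  rwa [card_quot P hq hP] at this

/-- the value of the power residue character at a unit of the residue field -/
noncomputable def chiVal (x : (𝓞 K ⧸ P)ˣ) : 𝓞 K :=
  (existsUnique_lift P hq hqp hP _ (unit_pow_pow P hq hqp hP x)).exists.choose

theorem chiVal_pow (x : (𝓞 K ⧸ P)ˣ) : chiVal P hq hqp hP x ^ p = 1 :=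
  (existsUnique_lift P hq hqp hP _ (unit_pow_pow P hq hqp hP x)).exists.choose_spec.1

theorem mk_chiVal (x : (𝓞 K ⧸ P)ˣ) :
    Ideal.Quotient.mk P (chiVal P hq hqp hP x) = (x : 𝓞 K ⧸ P) ^ ((q - 1) / p) :=
  (existsUnique_lift P hq hqp hP _ (unit_pow_pow P hq hqp hP x)).exists.choose_spec.2

theorem chiVal_eq (x : (𝓞 K ⧸ P)ˣ) (ξ : 𝓞 K) (h1 : ξ ^ p = 1)
    (h2 : Ideal.Quotient.mk P ξ = (x : 𝓞 K ⧸ P) ^ ((q - 1) / p)) :
    chiVal P hq hqp hP x = ξ :=
  (existsUnique_lift P hq hqp hP _ (unit_pow_pow P hq hqp hP x)).unique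
    ⟨chiVal_pow P hq hqp hP x, mk_chiVal P hq hqp hP x⟩ ⟨h1, h2⟩

theorem chiVal_mul (x y : (𝓞 K ⧸ P)ˣ) :
    chiVal P hq hqp hP (x * y) = chiVal P hq hqp hP x * chiVal P hq hqp hP y := by
  refine chiVal_eq P hq hqp hP _ _ ?_ ?_
  · rw [mul_pow, chiVal_pow, chiVal_pow, one_mul]
  · rw [map_mul, mk_chiVal, mk_chiVal, Units.val_mul, mul_pow]

/-- the power residue character as a homomorphism of unit groups -/
noncomputable def chiUnit : (𝓞 K ⧸ P)ˣ →* (𝓞 K)ˣ :=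
  MonoidHom.mk' (fun x => Units.ofPowEqOne (chiVal P hq hqp hP x) p (chiVal_pow P hq hqp hP x)
    hp.out.ne_zero) (fun x y => by
      apply Units.ext
      simp only [Units.val_ofPowEqOne, Units.val_mul]
      exact chiVal_mul P hq hqp hP x y)

theorem chiUnit_coe (x : (𝓞 K ⧸ P)ˣ) :
    ((chiUnit P hq hqp hP x : (𝓞 K)ˣ) : 𝓞 K) = chiVal P hq hqp hP x := rfl

/-- the `p`-th power residue character modulo `P`, with values in `𝓞 K` -/
noncomputable def chi : MulChar (𝓞 K ⧸ P) (𝓞 K) := MulChar.ofUnitHom (chiUnit P hq hqp hP)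

theorem chi_coe (x : (𝓞 K ⧸ P)ˣ) : chi P hq hqp hP (x : 𝓞 K ⧸ P) = chiVal P hq hqp hP x := by
  rw [chi, MulChar.ofUnitHom_coe, chiUnit_coe]

theorem chi_pow_eq_one (x : (𝓞 K ⧸ P)ˣ) : chi P hq hqp hP (x : 𝓞 K ⧸ P) ^ p = 1 := by
  rw [chi_coe, chiVal_pow]

theorem n_pos : 0 < (q - 1) / p := by
  have hd := dvd_sub_one P hq hqp hP
  have h1 : 0 < q - 1 := Nat.sub_pos_of_lt hq.one_lt
  exact Nat.div_pos (Nat.le_of_dvd h1 hd) hp.out.pos

/-- reduction of the values of `χ^a` -/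
theorem mk_chi_pow {a : ℕ} (ha : a ≠ 0) (x : 𝓞 K ⧸ P) :
    Ideal.Quotient.mk P ((chi P hq hqp hP ^ a) x) = x ^ (a * ((q - 1) / p)) := by
  rw [MulChar.pow_apply' _ ha, map_pow]
  by_cases hx : IsUnit x
  · obtain ⟨u, rfl⟩ := hx
    rw [chi_coe, mk_chiVal, ← pow_mul, mul_comm]
  · rw [MulChar.map_nonunit _ hx, map_zero, zero_pow ha]
    have hx0 : x = 0 := by
      by_contra h
      exact hx (isUnit_iff_ne_zero.mpr h)
    rw [hx0, zero_pow]
    exact (Nat.mul_pos (Nat.pos_of_ne_zero ha) (n_pos P hq hqp hP)).ne'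

/-- for `0 < a < p/2` the Jacobi sum `J(χ^a, χ^a)` lies in `P` -/
theorem jacobiSum_chi_pow_mem {a : ℕ} (ha : 0 < a) (ha2 : 2 * a < p) :
    @jacobiSum _ _ _ (fintypeQuot P hq hP) _ (chi P hq hqp hP ^ a) (chi P hq hqp hP ^ a) ∈ P := by
  letI := fintypeQuot P hq hP
  rw [← Ideal.Quotient.eq_zero_iff_mem, jacobiSum, map_sum]
  simp_rw [map_mul, mk_chi_pow P hq hqp hP ha.ne']
  refine sum_pow_mul_one_sub_pow _ ?_
  rw [card_quot P hq hP]
  have hd := dvd_sub_one P hq hqp hP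
  have hn := n_pos P hq hqp hP
  calc 2 * (a * ((q - 1) / p)) = (2 * a) * ((q - 1) / p) := by ring
    _ < p * ((q - 1) / p) := Nat.mul_lt_mul_of_pos_right ha2 hn
    _ = q - 1 := Nat.mul_div_cancel' hd

end character

section galois

variable (p : ℕ) [hp : Fact p.Prime] (K : Type*) [Field K] [NumberField K]
  [hK : IsCyclotomicExtension {p} ℚ K]

/-- the automorphism `σ_a : ζ ↦ ζ ^ a` -/
noncomputable def sigma (a : ℕ) (ha : a.Coprime p) : K ≃ₐ[ℚ] K :=
  (IsCyclotomicExtension.Rat.galEquivZMod p K).symm (ZMod.unitOfCoprime a ha)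

variable {p K}

theorem sigma_apply {a : ℕ} (ha : a.Coprime p) (hap : a < p) {ζ : K} (hζ : ζ ^ p = 1) :
    sigma p K a ha ζ = ζ ^ a := by
  rw [IsCyclotomicExtension.Rat.galEquivZMod_apply_of_pow_eq p K _ hζ, sigma,
    MulEquiv.apply_symm_apply, ZMod.coe_unitOfCoprime, ZMod.val_natCast, Nat.mod_eq_of_lt hap]

theorem eq_sigma {a : ℕ} (ha : a.Coprime p) (g : K ≃ₐ[ℚ] K)
    (hg : ∀ ζ : K, ζ ^ p = 1 → g ζ = ζ ^ a) : g = sigma p K a ha := by
  have hζ := IsCyclotomicExtension.zeta_spec p ℚ K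
  rw [sigma, MulEquiv.eq_symm_apply]
  apply Units.ext
  rw [ZMod.coe_unitOfCoprime]
  have h1 := IsCyclotomicExtension.Rat.galEquivZMod_apply_of_pow_eq p K g hζ.pow_eq_one
  rw [hg _ hζ.pow_eq_one] at h1
  have h2 := ((hζ.isOfFinOrder hp.out.ne_zero).pow_eq_pow_iff_modEq).mp h1
  rw [← hζ.eq_orderOf, ← ZMod.natCast_eq_natCast_iff] at h2
  rw [h2, ZMod.natCast_val, ZMod.cast_id', id]

theorem sigma_injective {a b : ℕ} (ha : a.Coprime p) (hb : b.Coprime p) (hap : a < p)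
    (hbp : b < p) (h : sigma p K a ha = sigma p K b hb) : a = b := by
  rw [sigma, sigma, EmbeddingLike.apply_eq_iff_eq] at h
  have h' := congrArg (fun u : (ZMod p)ˣ => (u : ZMod p).val) h
  simp only [ZMod.coe_unitOfCoprime, ZMod.val_natCast] at h'
  rwa [Nat.mod_eq_of_lt hap, Nat.mod_eq_of_lt hbp] at h'

end galois

section action

variable {p : ℕ} [hp : Fact p.Prime] {K : Type*} [Field K] [NumberField K]
  [hK : IsCyclotomicExtension {p} ℚ K] (P : Ideal (𝓞 K)) [hPm : P.IsMaximal]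
  {q : ℕ} (hq : q.Prime) (hqp : q ≠ p) (hP : Ideal.absNorm P = q)

attribute [local instance] Ideal.Quotient.field

include hPm hq hqp hP

theorem smul_chi {a : ℕ} (ha : a ≠ 0) (g : K ≃ₐ[ℚ] K)
    (hg : ∀ ζ : K, ζ ^ p = 1 → g ζ = ζ ^ a) (y : 𝓞 K ⧸ P) :
    g • (chi P hq hqp hP y) = (chi P hq hqp hP ^ a) y := by
  rw [MulChar.pow_apply' _ ha]
  by_cases hy : IsUnit y
  · obtain ⟨u, rfl⟩ := hy
    apply FaithfulSMul.algebraMap_injective (𝓞 K) K
    have h1 : (algebraMap (𝓞 K) K (chi P hq hqp hP (u : 𝓞 K ⧸ P))) ^ p = 1 := by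
      rw [← map_pow, chi_pow_eq_one, map_one]
    rw [map_pow, ← hg _ h1]
    rfl
  · rw [MulChar.map_nonunit _ hy, smul_zero, zero_pow ha]

/-- Galois action on the Jacobi sum -/
theorem smul_jacobiSum {a : ℕ} (ha : a ≠ 0) (g : K ≃ₐ[ℚ] K)
    (hg : ∀ ζ : K, ζ ^ p = 1 → g ζ = ζ ^ a) :
    g • (@jacobiSum _ _ _ (fintypeQuot P hq hP) _ (chi P hq hqp hP) (chi P hq hqp hP)) =
      @jacobiSum _ _ _ (fintypeQuot P hq hP) _ (chi P hq hqp hP ^ a) (chi P hq hqp hP ^ a) := by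
  letI := fintypeQuot P hq hP
  rw [jacobiSum, jacobiSum, Finset.smul_sum]
  refine Finset.sum_congr rfl fun x _ => ?_
  rw [smul_mul', smul_chi P hq hqp hP ha g hg, smul_chi P hq hqp hP ha g hg]

/-- the Jacobi sum lies in every prime `w` with `σ_a(w) = P`, `0 < a < p/2` -/
theorem jacobiSum_mem_of_smul_eq {a : ℕ} (ha : 0 < a) (ha2 : 2 * a < p) (g : K ≃ₐ[ℚ] K)
    (hg : ∀ ζ : K, ζ ^ p = 1 → g ζ = ζ ^ a) (w : Ideal (𝓞 K)) (hw : g • w = P) :
    @jacobiSum _ _ _ (fintypeQuot P hq hP) _ (chi P hq hqp hP) (chi P hq hqp hP) ∈ w := by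
  rw [← Ideal.smul_mem_pointwise_smul_iff (a := g), hw, smul_jacobiSum P hq hqp hP ha.ne' g hg]
  exact jacobiSum_chi_pow_mem P hq hqp hP ha ha2

end action

section norm

variable {p : ℕ} [hp : Fact p.Prime] {K : Type*} [Field K] [NumberField K]
  [hK : IsCyclotomicExtension {p} ℚ K] (P : Ideal (𝓞 K)) [hPm : P.IsMaximal]
  {q : ℕ} (hq : q.Prime) (hqp : q ≠ p) (hP : Ideal.absNorm P = q)

attribute [local instance] Ideal.Quotient.field

include hPm hq hqp hP

/-- there is a unit of the residue field which is not killed by `(q-1)/p` -/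
theorem exists_unit_pow_ne_one : ∃ x : (𝓞 K ⧸ P)ˣ, (x : 𝓞 K ⧸ P) ^ ((q - 1) / p) ≠ 1 := by
  letI := fintypeQuot P hq hP
  obtain ⟨g, hg⟩ := IsCyclic.exists_generator (α := (𝓞 K ⧸ P)ˣ)
  refine ⟨g, fun h => ?_⟩
  have h1 : g ^ ((q - 1) / p) = 1 := by
    apply Units.ext
    rw [Units.val_pow_eq_pow_val, h, Units.val_one]
  have h2 : orderOf g = q - 1 := by
    rw [orderOf_eq_card_of_forall_mem_zpowers hg, Nat.card_units, Nat.card_eq_fintype_card,
      card_quot P hq hP]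
  have h3 := orderOf_dvd_of_pow_eq_one h1
  rw [h2] at h3
  have hn := n_pos P hq hqp hP
  have h4 := Nat.le_of_dvd hn h3
  have h5 : (q - 1) / p < q - 1 :=
    Nat.div_lt_self (Nat.sub_pos_of_lt hq.one_lt) hp.out.one_lt
  omega

theorem exists_chi_ne_one (hp2 : p ≠ 2) :
    ∃ x : (𝓞 K ⧸ P)ˣ, chi P hq hqp hP (x : 𝓞 K ⧸ P) ≠ 1 ∧
      chi P hq hqp hP (x : 𝓞 K ⧸ P) ^ 2 ≠ 1 := by
  obtain ⟨x, hx⟩ := exists_unit_pow_ne_one P hq hqp hP
  have h1 : chi P hq hqp hP (x : 𝓞 K ⧸ P) ≠ 1 := by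
    intro h
    apply hx
    rw [← mk_chiVal P hq hqp hP, ← chi_coe, h, map_one]
  refine ⟨x, h1, fun h2 => h1 ?_⟩
  have h3 := pow_gcd_eq_one.mpr ⟨h2, chi_pow_eq_one P hq hqp hP x⟩
  have h4 : Nat.gcd 2 p = 1 := by
    rw [Nat.coprime_primes Nat.prime_two hp.out |>.mpr (Ne.symm hp2)]
  rwa [h4, pow_one] at h3

/-- `J · σ_{-1}(J) = q` -/
theorem jacobiSum_mul_smul (hp2 : p ≠ 2) (c : K ≃ₐ[ℚ] K)
    (hc : ∀ ζ : K, ζ ^ p = 1 → c ζ = ζ ^ (p - 1)) :
    @jacobiSum _ _ _ (fintypeQuot P hq hP) _ (chi P hq hqp hP) (chi P hq hqp hP) *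
      c • (@jacobiSum _ _ _ (fintypeQuot P hq hP) _ (chi P hq hqp hP) (chi P hq hqp hP)) =
      (q : 𝓞 K) := by
  letI := fintypeQuot P hq hP
  have hp1 : p - 1 ≠ 0 := by have := hp.out.two_le; omega
  rw [smul_jacobiSum P hq hqp hP hp1 c hc]
  apply FaithfulSMul.algebraMap_injective (𝓞 K) K
  have hinj := FaithfulSMul.algebraMap_injective (𝓞 K) K
  set χ₀ := chi P hq hqp hP with hχ₀
  set χ : MulChar (𝓞 K ⧸ P) K := χ₀.ringHomComp (algebraMap (𝓞 K) K) with hχ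
  obtain ⟨x, hx1, hx2⟩ := exists_chi_ne_one P hq hqp hP hp2
  have hχ1 : χ ≠ 1 := by
    intro h
    have h1 := congrArg (fun ψ : MulChar (𝓞 K ⧸ P) K => ψ (x : 𝓞 K ⧸ P)) h
    simp only [hχ, MulChar.ringHomComp_apply, MulChar.one_apply_coe] at h1
    exact hx1 (hinj (by rw [h1, map_one]))
  have hχ2 : χ * χ ≠ 1 := by
    intro h
    have h1 := congrArg (fun ψ : MulChar (𝓞 K ⧸ P) K => ψ (x : 𝓞 K ⧸ P)) h
    simp only [hχ, MulChar.mul_apply, MulChar.ringHomComp_apply, MulChar.one_apply_coe] at h1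
    exact hx2 (hinj (by rw [map_pow, pow_two, h1, map_one]))
  have hχp : χ ^ p = 1 := by
    ext u
    rw [MulChar.pow_apply_coe, MulChar.one_apply_coe, hχ, MulChar.ringHomComp_apply, ← map_pow,
      chi_pow_eq_one, map_one]
  have hχinv : χ⁻¹ = χ ^ (p - 1) := by
    symm
    apply eq_inv_of_mul_eq_one_left
    rw [← pow_succ, Nat.sub_add_cancel hp.out.one_le, hχp]
  have hchar : ringChar K ≠ ringChar (𝓞 K ⧸ P) := by
    rw [ringChar.eq_zero]
    exact (CharP.char_ne_zero_of_finite (𝓞 K ⧸ P) (ringChar (𝓞 K ⧸ P))).symm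
  have key := jacobiSum_mul_jacobiSum_inv hchar hχ1 hχ1 hχ2
  rw [hχinv, hχ, MulChar.ringHomComp_pow, jacobiSum_ringHomComp, jacobiSum_ringHomComp,
    card_quot P hq hP] at key
  rw [map_mul, key, map_natCast]

end norm

section norm2

variable {p : ℕ} [hp : Fact p.Prime] {K : Type*} [Field K] [NumberField K]
  [hK : IsCyclotomicExtension {p} ℚ K]

variable (p K) in
theorem card_gal : Nat.card (K ≃ₐ[ℚ] K) = p - 1 := by
  haveI : IsGalois ℚ K := IsCyclotomicExtension.isGalois {p} ℚ K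
  rw [IsGalois.card_aut_eq_finrank,
    IsCyclotomicExtension.finrank K (Polynomial.cyclotomic.irreducible_rat hp.out.pos),
    Nat.totient_prime hp.out]

/-- if `J · c(J) = q` then `N(J)² = q^(p-1)` -/
theorem norm_sq_of_mul_smul {q : ℕ} (J : 𝓞 K) (c : K ≃ₐ[ℚ] K) (hJ : J * c • J = (q : 𝓞 K)) :
    (Algebra.norm ℤ J) ^ 2 = (q : ℤ) ^ (p - 1) := by
  haveI : IsGalois ℚ K := IsCyclotomicExtension.isGalois {p} ℚ K
  have hJ' : (J : K) * c (J : K) = (q : K) := by
    have := congrArg (algebraMap (𝓞 K) K) hJ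
    rw [map_mul, map_natCast] at this
    exact this
  have h1 := Algebra.norm_eq_prod_automorphisms ℚ (J : K)
  have h2 : (∏ σ : K ≃ₐ[ℚ] K, σ (J : K)) ^ 2 = (q : K) ^ (p - 1) := by
    have h3 : ∏ σ : K ≃ₐ[ℚ] K, σ (c (J : K)) = ∏ σ : K ≃ₐ[ℚ] K, σ (J : K) :=
      Fintype.prod_equiv (Equiv.mulRight c) _ _ (fun σ => rfl)
    rw [pow_two]
    nth_rewrite 2 [← h3]
    rw [← Finset.prod_mul_distrib]
    simp_rw [← map_mul, hJ', map_natCast]
    rw [Finset.prod_const, Finset.card_univ, ← Nat.card_eq_fintype_card, card_gal p K]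
  rw [← h1, ← map_pow] at h2
  have h4 : (Algebra.norm ℚ (J : K)) ^ 2 = (q : ℚ) ^ (p - 1) := by
    apply (algebraMap ℚ K).injective
    rw [h2, map_pow, map_natCast]
  rw [← Algebra.coe_norm_int] at h4
  exact_mod_cast h4

theorem absNorm_span_of_mul_smul {q : ℕ} (hp2 : p ≠ 2) (J : 𝓞 K) (c : K ≃ₐ[ℚ] K)
    (hJ : J * c • J = (q : 𝓞 K)) :
    Ideal.absNorm (Ideal.span {J}) = q ^ ((p - 1) / 2) := by
  rw [Ideal.absNorm_span_singleton]
  have h := norm_sq_of_mul_smul (p := p) J c hJ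
  have hodd : Odd p := hp.out.odd_of_ne_two hp2
  obtain ⟨m, hm⟩ := hodd
  have hm' : p - 1 = 2 * m := by omega
  have h1 : ((Algebra.norm ℤ J).natAbs) ^ 2 = (q ^ m) ^ 2 := by
    zify
    rw [sq_abs, h, hm', mul_comm, pow_mul]
  have h2 := Nat.pow_left_injective (n := 2) (by norm_num) h1
  rw [h2, hm']
  congr 1
  omega

end norm2

section conj

variable {K : Type*} [Field K] [NumberField K]

theorem absNorm_smul (g : K ≃ₐ[ℚ] K) (I : Ideal (𝓞 K)) :
    Ideal.absNorm (g • I) = Ideal.absNorm I := by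
  rw [Ideal.absNorm_apply, Ideal.absNorm_apply, Submodule.cardQuot_apply, Submodule.cardQuot_apply]
  exact Nat.card_congr (Ideal.quotientEquiv I (g • I)
    (MulSemiringAction.toRingEquiv (K ≃ₐ[ℚ] K) (𝓞 K) g) rfl).toEquiv.symm

/-- the conjugate prime `g(v)` -/
noncomputable def conj (g : K ≃ₐ[ℚ] K) (v : HeightOneSpectrum (𝓞 K)) :
    HeightOneSpectrum (𝓞 K) where
  asIdeal := g • v.asIdeal
  isPrime := inferInstance
  ne_bot := by
    intro h
    have h1 := absNorm_smul g v.asIdeal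
    rw [h, Ideal.absNorm_bot] at h1
    exact v.ne_bot (Ideal.absNorm_eq_zero_iff.mp h1.symm)

theorem conj_asIdeal (g : K ≃ₐ[ℚ] K) (v : HeightOneSpectrum (𝓞 K)) :
    (conj g v).asIdeal = g • v.asIdeal := rfl

end conj

section stab

variable {p : ℕ} [hp : Fact p.Prime] {K : Type*} [Field K] [NumberField K]
  [hK : IsCyclotomicExtension {p} ℚ K] (P : Ideal (𝓞 K)) [hPm : P.IsMaximal]
  {q : ℕ} (hq : q.Prime) (hqp : q ≠ p) (hP : Ideal.absNorm P = q)

include hPm hq hqp hP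

theorem liesOver : P.LiesOver (Ideal.span {(q : ℤ)}) := by
  haveI : Fact q.Prime := ⟨hq⟩
  constructor
  refine Ideal.IsMaximal.eq_of_le (Int.ideal_span_isMaximal_of_prime q) Ideal.IsPrime.ne_top' ?_
  rw [Ideal.span_singleton_le_iff_mem, Ideal.under, Ideal.mem_comap]
  have := Ideal.absNorm_mem P
  rw [hP] at this
  simpa using this

/-- the decomposition group of a degree one prime not above `p` is trivial -/
theorem eq_one_of_smul_eq (g : K ≃ₐ[ℚ] K) (hg : g • P = P) : g = 1 := by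
  haveI : Fact q.Prime := ⟨hq⟩
  haveI := liesOver P hq hqp hP
  have hn : q.Coprime p := (Nat.coprime_primes hq hp.out).mpr hqp
  have h1 := IsCyclotomicExtension.Rat.mem_zpowers_galEquivZMod_of_mem_stabilizer p K q P hn
    (σ := g) (MulAction.mem_stabilizer_iff.mpr hg)
  have h2 : ZMod.unitOfCoprime q hn = 1 := by
    apply Units.ext
    rw [ZMod.coe_unitOfCoprime, Units.val_one]
    have hd := dvd_sub_one P hq hqp hP
    have h3 : ((q - 1 : ℕ) : ZMod p) = 0 := (ZMod.natCast_eq_zero_iff _ _).mpr hd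
    have h4 : q = (q - 1) + 1 := (Nat.sub_add_cancel hq.one_le).symm
    rw [h4, Nat.cast_add, h3, zero_add, Nat.cast_one]
  rw [h2, Subgroup.zpowers_one_eq_bot, Subgroup.mem_bot] at h1
  exact (MulEquiv.map_eq_one_iff _).mp h1

end stab

section final

/-- `σ_a` as a total function of `a` (identity for `a` not prime to `p`) -/
noncomputable def sig (p : ℕ) [Fact p.Prime] (K : Type*) [Field K] [NumberField K]
    [IsCyclotomicExtension {p} ℚ K] (a : ℕ) : K ≃ₐ[ℚ] K :=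
  if h : a.Coprime p then sigma p K a h else 1

variable {p : ℕ} [hp : Fact p.Prime] {K : Type*} [Field K] [NumberField K]
  [hK : IsCyclotomicExtension {p} ℚ K]

theorem coprime_of_pos_lt {a : ℕ} (ha : 0 < a) (hap : a < p) : a.Coprime p :=
  (Nat.coprime_of_lt_prime ha.ne' hap hp.out).symm

theorem sig_eq {a : ℕ} (ha : 0 < a) (hap : a < p) :
    sig p K a = sigma p K a (coprime_of_pos_lt ha hap) := by
  rw [sig, dif_pos (coprime_of_pos_lt ha hap)]

theorem sig_apply {a : ℕ} (ha : 0 < a) (hap : a < p) {ζ : K} (hζ : ζ ^ p = 1) :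
    sig p K a ζ = ζ ^ a := by
  rw [sig_eq ha hap, sigma_apply _ hap hζ]

theorem eq_sig {a : ℕ} (ha : 0 < a) (hap : a < p) (g : K ≃ₐ[ℚ] K)
    (hg : ∀ ζ : K, ζ ^ p = 1 → g ζ = ζ ^ a) : g = sig p K a := by
  rw [sig_eq ha hap]
  exact eq_sigma _ g hg

theorem sig_injective {a b : ℕ} (ha : 0 < a) (hap : a < p) (hb : 0 < b) (hbp : b < p)
    (h : sig p K a = sig p K b) : a = b := by
  rw [sig_eq ha hap, sig_eq hb hbp] at h
  exact sigma_injective _ _ hap hbp h

theorem mem_Icc_iff (hp2 : p ≠ 2) {a : ℕ} :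
    a ∈ Finset.Icc 1 ((p - 1) / 2) ↔ 0 < a ∧ 2 * a < p := by
  obtain ⟨m, hm⟩ := hp.out.odd_of_ne_two hp2
  rw [Finset.mem_Icc]
  have : (p - 1) / 2 = m := by omega
  rw [this]
  omega

/-- the ideal generated by the Jacobi sum is the product of the primes `σ_a⁻¹ v`, `0 < a < p/2` -/
theorem exists_span_eq_prod (hp2 : p ≠ 2) (v : HeightOneSpectrum (𝓞 K)) (q : ℕ) (hq : q.Prime)
    (hqp : q ≠ p) (hv : Ideal.absNorm v.asIdeal = q) :
    ∃ J : 𝓞 K, Ideal.span {J} =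
      ∏ a ∈ Finset.Icc 1 ((p - 1) / 2), (conj (sig p K a)⁻¹ v).asIdeal := by
  letI := fintypeQuot v.asIdeal hq hv
  set J₀ : 𝓞 K := jacobiSum (chi v.asIdeal hq hqp hv) (chi v.asIdeal hq hqp hv) with hJ₀
  refine ⟨J₀, ?_⟩
  have hp1 : 0 < p - 1 := by have := hp.out.two_le; omega
  have hp1' : p - 1 < p := by have := hp.out.two_le; omega
  have hJc : J₀ * sig p K (p - 1) • J₀ = (q : 𝓞 K) :=
    jacobiSum_mul_smul v.asIdeal hq hqp hv hp2 (sig p K (p - 1))
      (fun ζ hζ => sig_apply hp1 hp1' hζ)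
  have hN := absNorm_span_of_mul_smul hp2 J₀ (sig p K (p - 1)) hJc
  have hdvd : (∏ a ∈ Finset.Icc 1 ((p - 1) / 2), (conj (sig p K a)⁻¹ v).asIdeal) ∣
      Ideal.span {J₀} := by
    refine Finset.prod_dvd_of_coprime ?_ ?_
    · intro a ha b hb hab
      obtain ⟨ha0, ha2⟩ := (mem_Icc_iff hp2).mp ha
      obtain ⟨hb0, hb2⟩ := (mem_Icc_iff hp2).mp hb
      refine Ideal.isCoprime_iff_sup_eq.mpr
        (Ideal.IsMaximal.coprime_of_ne (conj (sig p K a)⁻¹ v).isMaximal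
          (conj (sig p K b)⁻¹ v).isMaximal ?_)
      intro h
      change (sig p K a)⁻¹ • v.asIdeal = (sig p K b)⁻¹ • v.asIdeal at h
      have h1 : (sig p K b * (sig p K a)⁻¹) • v.asIdeal = v.asIdeal := by
        rw [mul_smul, h, smul_inv_smul]
      have h2 := eq_one_of_smul_eq v.asIdeal hq hqp hv _ h1
      rw [mul_inv_eq_one] at h2
      exact hab (sig_injective hb0 (by omega) ha0 (by omega) h2).symm
    · intro a ha
      obtain ⟨ha0, ha2⟩ := (mem_Icc_iff hp2).mp ha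
      rw [Ideal.dvd_span_singleton, conj_asIdeal]
      exact jacobiSum_mem_of_smul_eq v.asIdeal hq hqp hv ha0 ha2 (sig p K a)
        (fun ζ hζ => sig_apply ha0 (by omega) hζ) _ (smul_inv_smul _ _)
  obtain ⟨I, hI⟩ := hdvd
  have h1 := congrArg Ideal.absNorm hI
  rw [hN, map_mul, map_prod] at h1
  have h2 : ∏ a ∈ Finset.Icc 1 ((p - 1) / 2), Ideal.absNorm (conj (sig p K a)⁻¹ v).asIdeal =
      q ^ ((p - 1) / 2) := by
    rw [Finset.prod_congr rfl (fun a _ => by rw [conj_asIdeal, absNorm_smul, hv]),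
      Finset.prod_const, Nat.card_Icc, Nat.add_sub_cancel]
  rw [h2] at h1
  have h3 : Ideal.absNorm I = 1 := by
    have hq0 : 0 < q ^ ((p - 1) / 2) := pow_pos hq.pos _
    exact Nat.eq_of_mul_eq_mul_left hq0 (by rw [mul_one]; exact h1.symm)
  rw [Ideal.absNorm_eq_one_iff] at h3
  rw [hI, h3, Ideal.mul_top]

end final

section ordsec

variable {p : ℕ} [hp : Fact p.Prime] {K : Type*} [Field K] [NumberField K]
  [hK : IsCyclotomicExtension {p} ℚ K]

open scoped Classical in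
/-- `ord` of an integer whose ideal is a product of primes -/
theorem ord_of_span_eq_prod (J : 𝓞 K) (s : Finset ℕ) (f : ℕ → HeightOneSpectrum (𝓞 K))
    (hJ : Ideal.span {J} = ∏ a ∈ s, (f a).asIdeal) (w : HeightOneSpectrum (𝓞 K)) :
    ord w (algebraMap (𝓞 K) K J) = ((s.filter (fun a => f a = w)).card : ℤ) := by
  rw [ord, ← FractionalIdeal.coeIdeal_span_singleton, hJ]
  have h1 : ((∏ a ∈ s, (f a).asIdeal : Ideal (𝓞 K)) : FractionalIdeal (𝓞 K)⁰ K) =
      ∏ a ∈ s, ((f a).asIdeal : FractionalIdeal (𝓞 K)⁰ K) :=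
    map_prod (FractionalIdeal.coeIdealHom (𝓞 K)⁰ K) _ _
  rw [h1, FractionalIdeal.count_prod K w s _
    (fun a _ => FractionalIdeal.coeIdeal_ne_zero.mpr (f a).ne_bot)]
  simp_rw [FractionalIdeal.count_maximal]
  rw [Finset.card_filter]
  push_cast
  rfl

end ordsec

end Jacobi

open Jacobi in
/-- **Jacobi sums** (Stickelberger for degree one primes): for a prime `v` of `ℚ(ζ_p)` of
absolute norm a prime `q ≠ p`, there is `J ≠ 0` whose divisor is `∑_{0 < a < p/2} σ_a⁻¹(v)`. -/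
theorem exists_jacobi (p : ℕ) [Fact p.Prime] (hp2 : p ≠ 2)
    (K : Type*) [Field K] [NumberField K] [IsCyclotomicExtension {p} ℚ K]
    (v : HeightOneSpectrum (𝓞 K)) (q : ℕ) (hq : q.Prime) (hqp : q ≠ p)
    (hv : Ideal.absNorm v.asIdeal = q) :
    ∃ J : K, J ≠ 0 ∧ ∀ w : HeightOneSpectrum (𝓞 K),
      ord w J = Nat.card {a : ℕ // 0 < a ∧ 2 * a < p ∧ ∃ g : K ≃ₐ[ℚ] K,
        (∀ ζ : K, ζ ^ p = 1 → g ζ = ζ ^ a) ∧ g • w.asIdeal = v.asIdeal} := by
  classical
  obtain ⟨J, hJ⟩ := exists_span_eq_prod hp2 v q hq hqp hv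
  refine ⟨algebraMap (𝓞 K) K J, ?_, fun w => ?_⟩
  · rw [Ne, FaithfulSMul.algebraMap_eq_zero_iff]
    rintro rfl
    rw [Ideal.span_singleton_eq_bot.mpr rfl] at hJ
    have := Finset.prod_eq_zero_iff.mp hJ.symm
    obtain ⟨a, -, ha⟩ := this
    exact (conj (sig p K a)⁻¹ v).ne_bot ha
  · rw [ord_of_span_eq_prod J _ (fun a => conj (sig p K a)⁻¹ v) hJ w]
    have hiff : ∀ a : ℕ, (0 < a ∧ 2 * a < p ∧ ∃ g : K ≃ₐ[ℚ] K,
        (∀ ζ : K, ζ ^ p = 1 → g ζ = ζ ^ a) ∧ g • w.asIdeal = v.asIdeal) ↔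
        a ∈ (Finset.Icc 1 ((p - 1) / 2)).filter (fun a => conj (sig p K a)⁻¹ v = w) := by
      intro a
      rw [Finset.mem_filter, mem_Icc_iff hp2]
      constructor
      · rintro ⟨ha0, ha2, g, hg, hgw⟩
        refine ⟨⟨ha0, ha2⟩, ?_⟩
        have hg' := eq_sig ha0 (by omega) g hg
        apply HeightOneSpectrum.ext
        rw [conj_asIdeal, ← hg', ← hgw, inv_smul_smul]
      · rintro ⟨⟨ha0, ha2⟩, hw⟩
        refine ⟨ha0, ha2, sig p K a, fun ζ hζ => sig_apply ha0 (by omega) hζ, ?_⟩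
        rw [← hw, conj_asIdeal, smul_inv_smul]
    rw [Nat.card_congr (Equiv.subtypeEquivRight hiff), Nat.card_eq_fintype_card,
      Fintype.card_coe]

end Fermat.Agent.S14
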