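import Fermat.Agent.S14.CoreAbs
import Fermat.Agent.S14.CrossMain
import Fermat.Agent.S14.Jacobi

/-!
# S14: the core contradiction

`core`: there is no everywhere unramified cyclic extension `L/ℚ(ζ_p)` of degree `p`, Galois over
`ℚ`, split at `p`, on which `Gal(ℚ(ζ_p)/ℚ)` acts through `ω⁻¹`.  Assembly of `Core.core_aux`
(the abstract argument) with the three global inputs `exists_not_split`, `reciprocity`,
`exists_jacobi`.
-/

set_option autoImplicit false

namespace Fermat.Agent.S14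

open NumberField IsDedekindDomain
open scoped nonZeroDivisors Pointwise

theorem core (p : ℕ) [Fact p.Prime] (hp : 3 ≤ p)
    (K L : Type) [Field K] [NumberField K] [Field L] [NumberField L] [Algebra K L]
    [IsCyclotomicExtension {p} ℚ K] [IsGalois ℚ L] [IsGalois K L]
    (hdeg : Module.finrank K L = p)
    (hunr : UnramifiedEverywhere K L)
    (hsplit : ∀ w : HeightOneSpectrum (𝓞 L), (p : 𝓞 L) ∈ w.asIdeal →
      ∀ σ : L ≃ₐ[K] L, σ • w.asIdeal = w.asIdeal → σ = 1)
    (hact : ∀ (g : L ≃ₐ[ℚ] L) (a : ℕ), (∀ ζ : L, ζ ^ p = 1 → g ζ = ζ ^ a) →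
      ∀ σ : L ≃ₐ[K] L, g * (σ.restrictScalars ℚ) ^ a * g⁻¹ = σ.restrictScalars ℚ) : False := by
  have hp2 : p ≠ 2 := by omega
  have hp0 : NeZero p := ⟨(Fact.out : p.Prime).ne_zero⟩
  have hGal : IsGalois ℚ K := IsCyclotomicExtension.isGalois {p} ℚ K
  have h_ns := exists_not_split p hp2 K L hdeg hunr
  refine Core.core_aux hp hdeg hunr hsplit hact h_ns ?_
    (fun v q hq hqp hv => exists_jacobi p hp2 K v q hq hqp hv)
  intro r _ hr hr1 b hb hbr hbq τ t ht
  by_cases hτ1 : τ = 1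
  · exfalso
    subst hτ1
    obtain ⟨w, σ, hσ1, hσw⟩ := h_ns
    apply hσ1
    have hfrob : IsArithFrobAt (𝓞 K) (1 : L ≃ₐ[K] L) w.asIdeal := by
      have h := ht (primeBelow K L w) w rfl
      rwa [one_pow] at h
    exact Core.stabilizer_trivial_of_frob_one hunr w hfrob σ hσw
  · exact reciprocity p hp2 K L hdeg hunr r hr hr1 b hb hbr hbq τ
      (fun σ => mem_zpowers_of_prime_card (Core.card_gal hdeg) hτ1) t ht

end Fermat.Agent.S14
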