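import Mathlib
import Fermat.Prelude.Def_ExtCitation_AdmissibleExtension_v2
import Fermat.Prelude.Def_ExtCitation_KummerBridge

/-!
# S14, package Front-F1: the linear algebra of an admissible extension (pure algebra)

Abstract setting: a group `G` acts `ZMod p`-linearly on `V` (of cardinality `p ^ 2`), fixing the
line `C` (of cardinality `p`) pointwise and acting on `V ⧸ C` through a character
`χ : G →* (ZMod p)ˣ` (`FrontF1.Hyp`).  Let `stab G V` be the kernel of the action.

* `stab_le_ker` : `stab G V ≤ χ.ker`.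
* `relIndex_stab` : the index of `stab G V` in `χ.ker` is `1` or `p`.
* `conj_pow_mul_inv_mem_stab` : for `g : G` with `χ g = a` and `σ ∈ χ.ker`,
  `g * σ ^ a * g⁻¹ * σ⁻¹ ∈ stab G V` (the quotient `χ.ker / stab` carries the action `χ⁻¹`).
* `exists_isCompl_of_ker_le` : if `χ.ker ≤ stab G V` then `C` has a `G`-stable complement.
* `mem_stab_of_isCompl` : if a subgroup `D` stabilises a complement of `C` then
  `D ⊓ χ.ker ≤ stab G V`.
* `relIndex_stab_eq_of_not_splits` : if `C` has no `G`-stable complement the index is `p`.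
-/

set_option autoImplicit false

namespace Fermat.Agent.S14.FrontF1

variable {p : ℕ} [Fact p.Prime] {G : Type*} [Group G] {V : Type*} [AddCommGroup V]
  [Module (ZMod p) V] [DistribMulAction G V]

/-- The abstract form of an admissible extension: `G` fixes the line `C` pointwise and acts on
`V ⧸ C` through the character `χ`. -/
structure Hyp (C : Submodule (ZMod p) V) (χ : G →* (ZMod p)ˣ) : Prop where
  fixed_sub : ∀ σ : G, ∀ x ∈ C, σ • x = x
  cyclo_quot : ∀ (σ : G) (x : V), σ • x - ((χ σ : (ZMod p)ˣ) : ZMod p) • x ∈ C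
  card_sub : Nat.card C = p
  card_total : Nat.card V = p ^ 2

variable (G V) in
/-- The kernel of the action of `G` on `V`. -/
def stab : Subgroup G := (MulAction.toPermHom G V).ker

theorem mem_stab {σ : G} : σ ∈ stab G V ↔ ∀ v : V, σ • v = v := by
  rw [stab, MonoidHom.mem_ker]
  constructor
  · intro h v
    have := congrArg (fun f : Equiv.Perm V => f v) h
    simpa using this
  · intro h
    ext v
    simpa using h v

instance stab_normal : (stab G V).Normal := by
  rw [stab]
  infer_instance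

variable {C : Submodule (ZMod p) V} {χ : G →* (ZMod p)ˣ}

namespace Hyp

variable (h : Hyp C χ)
include h

theorem finite_V : Finite V := by
  apply Nat.finite_of_card_ne_zero
  rw [h.card_total]
  exact pow_ne_zero 2 (Fact.out : p.Prime).ne_zero

/-- The quotient `V ⧸ C` has `p` elements. -/
theorem card_quot : Nat.card (V ⧸ C) = p := by
  have hp : 0 < p := (Fact.out : p.Prime).pos
  have h1 := Submodule.card_eq_card_quotient_mul_card C
  rw [h.card_total, h.card_sub, pow_two] at h1
  exact (Nat.eq_of_mul_eq_mul_left hp h1).symm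

/-- There is a vector outside `C`. -/
theorem exists_notMem : ∃ x₀ : V, x₀ ∉ C := by
  by_contra hcon
  have htop : C = ⊤ := eq_top_iff.mpr fun x _ => by
    by_contra hx
    exact hcon ⟨x, hx⟩
  have h1 : Nat.card C = Nat.card V := by
    rw [htop]
    exact Nat.card_congr (Submodule.topEquiv (R := ZMod p) (M := V)).toEquiv
  rw [h.card_sub, h.card_total] at h1
  have hp : 1 < p := (Fact.out : p.Prime).one_lt
  nlinarith

/-- Every vector is a multiple of `x₀ ∉ C` modulo `C`. -/
theorem exists_smul_add {x₀ : V} (hx₀ : x₀ ∉ C) (v : V) :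
    ∃ (a : ZMod p) (c : V), c ∈ C ∧ v = a • x₀ + c := by
  have hne : (Submodule.Quotient.mk x₀ : V ⧸ C) ≠ 0 := by
    rwa [Ne, Submodule.Quotient.mk_eq_zero]
  have hmem : (Submodule.Quotient.mk v : V ⧸ C) ∈
      AddSubgroup.zmultiples (Submodule.Quotient.mk x₀ : V ⧸ C) :=
    mem_zmultiples_of_prime_card h.card_quot hne
  obtain ⟨k, hk⟩ := AddSubgroup.mem_zmultiples_iff.mp hmem
  refine ⟨(k : ZMod p), v - (k : ZMod p) • x₀, ?_, by abel⟩
  rw [← Submodule.Quotient.mk_eq_zero, Submodule.Quotient.mk_sub, Submodule.Quotient.mk_smul,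
    Int.cast_smul_eq_zsmul, hk, sub_self]

/-- Elements of the kernel of `χ` move every vector by an element of `C`. -/
theorem smul_sub_mem {σ : G} (hσ : χ σ = 1) (x : V) : σ • x - x ∈ C := by
  have := h.cyclo_quot σ x
  rwa [hσ, Units.val_one, one_smul] at this

theorem smul_sub_eq_zero (σ : G) {c : V} (hc : c ∈ C) : σ • c - c = 0 := by
  rw [h.fixed_sub σ c hc, sub_self]

variable [SMulCommClass G (ZMod p) V]

omit [SMulCommClass G (ZMod p) V] in
/-- The cocycle `σ ↦ σ • x - x` is additive on the kernel of `χ`. -/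
theorem mul_smul_sub {σ τ : G} (hτ : χ τ = 1) (x : V) :
    (σ * τ) • x - x = (σ • x - x) + (τ • x - x) := by
  have h1 : σ • (τ • x - x) = τ • x - x := h.fixed_sub σ _ (h.smul_sub_mem hτ x)
  rw [smul_sub] at h1
  rw [mul_smul]
  have h2 : σ • τ • x = τ • x - x + σ • x := by rw [← h1]; abel
  rw [h2]
  abel

/-- The cocycle `σ ↦ σ • x - x` is `ZMod p`-linear in `x` modulo `C`. -/
theorem smul_smul_add_sub (σ : G) (a : ZMod p) (x₀ : V) {c : V} (hc : c ∈ C) :
    σ • (a • x₀ + c) - (a • x₀ + c) = a • (σ • x₀ - x₀) := by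
  rw [smul_add, h.fixed_sub σ c hc, smul_comm σ a x₀, smul_sub]
  abel

/-- An element of `G` fixing one vector outside `C` acts trivially. -/
theorem mem_stab_iff {x₀ : V} (hx₀ : x₀ ∉ C) {σ : G} : σ ∈ stab G V ↔ σ • x₀ = x₀ := by
  refine ⟨fun hσ => mem_stab.mp hσ x₀, fun hσ => mem_stab.mpr fun v => ?_⟩
  obtain ⟨a, c, hc, rfl⟩ := h.exists_smul_add hx₀ v
  have h1 := h.smul_smul_add_sub σ a x₀ hc
  rw [hσ, sub_self, smul_zero] at h1
  exact sub_eq_zero.mp h1

omit [SMulCommClass G (ZMod p) V] in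
/-- The kernel of the action is contained in the kernel of the character. -/
theorem stab_le_ker : stab G V ≤ χ.ker := by
  intro σ hσ
  rw [MonoidHom.mem_ker]
  obtain ⟨x₀, hx₀⟩ := h.exists_notMem
  have h1 := h.cyclo_quot σ x₀
  rw [mem_stab.mp hσ x₀] at h1
  by_contra hne
  have hne' : (1 : ZMod p) - ((χ σ : (ZMod p)ˣ) : ZMod p) ≠ 0 := by
    intro h0
    apply hne
    apply Units.ext
    rw [Units.val_one]
    exact (sub_eq_zero.mp h0).symm
  have h2 : x₀ - ((χ σ : (ZMod p)ˣ) : ZMod p) • x₀ =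
      ((1 : ZMod p) - ((χ σ : (ZMod p)ˣ) : ZMod p)) • x₀ := by
    rw [sub_smul, one_smul]
  rw [h2] at h1
  have h3 := C.smul_mem ((1 : ZMod p) - ((χ σ : (ZMod p)ˣ) : ZMod p))⁻¹ h1
  rw [smul_smul, inv_mul_cancel₀ hne', one_smul] at h3
  exact hx₀ h3

/-- The cocycle as a homomorphism `χ.ker →* Multiplicative C` (evaluation at `x₀`). -/
noncomputable def cocycleHom (x₀ : V) : χ.ker →* Multiplicative C where
  toFun σ := Multiplicative.ofAdd
    ⟨(σ : G) • x₀ - x₀, h.smul_sub_mem (MonoidHom.mem_ker.mp σ.2) x₀⟩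
  map_one' := by
    apply Multiplicative.toAdd.injective
    apply Subtype.ext
    simp
  map_mul' σ τ := by
    apply Multiplicative.toAdd.injective
    apply Subtype.ext
    have := h.mul_smul_sub (σ := (σ : G)) (MonoidHom.mem_ker.mp τ.2) x₀
    simpa using this

theorem cocycleHom_ker {x₀ : V} (hx₀ : x₀ ∉ C) :
    (h.cocycleHom x₀).ker = (stab G V).subgroupOf χ.ker := by
  ext σ
  rw [MonoidHom.mem_ker, Subgroup.mem_subgroupOf, h.mem_stab_iff hx₀]
  constructor
  · intro hσ
    have h1 := congrArg (fun c : Multiplicative C => ((Multiplicative.toAdd c : C) : V)) hσ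
    simp only [cocycleHom, MonoidHom.coe_mk, OneHom.coe_mk, toAdd_ofAdd, toAdd_one,
      ZeroMemClass.coe_zero] at h1
    exact sub_eq_zero.mp h1
  · intro hσ
    apply Multiplicative.toAdd.injective
    apply Subtype.ext
    simp only [cocycleHom, MonoidHom.coe_mk, OneHom.coe_mk, toAdd_ofAdd, toAdd_one,
      ZeroMemClass.coe_zero]
    rw [hσ, sub_self]

/-- The index of the kernel of the action in the kernel of the character is `1` or `p`. -/
theorem relIndex_stab : (stab G V).relIndex χ.ker = 1 ∨ (stab G V).relIndex χ.ker = p := by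
  obtain ⟨x₀, hx₀⟩ := h.exists_notMem
  haveI : Finite V := h.finite_V
  rw [Subgroup.relIndex, ← h.cocycleHom_ker hx₀, Subgroup.index_ker]
  have hdvd : Nat.card (h.cocycleHom x₀).range ∣ Nat.card (Multiplicative C) :=
    Subgroup.card_subgroup_dvd_card _
  have hcard : Nat.card (Multiplicative C) = p := h.card_sub
  rw [hcard] at hdvd
  exact (Nat.dvd_prime (Fact.out : p.Prime)).mp hdvd

omit [SMulCommClass G (ZMod p) V] in
theorem inv_smul_sub {σ : G} (hσ : χ σ = 1) (x : V) : σ⁻¹ • x - x = -(σ • x - x) := by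
  have hσ' : χ σ⁻¹ = 1 := by rw [map_inv, hσ, inv_one]
  have h1 := h.mul_smul_sub (σ := σ) hσ' x
  rw [mul_inv_cancel, one_smul, sub_self] at h1
  exact eq_neg_of_add_eq_zero_right h1.symm

omit [SMulCommClass G (ZMod p) V] in
theorem pow_smul_sub {σ : G} (hσ : χ σ = 1) (n : ℕ) (x : V) :
    (σ ^ n) • x - x = n • (σ • x - x) := by
  induction n with
  | zero => simp
  | succ n ih =>
    rw [pow_succ, h.mul_smul_sub hσ, ih, succ_nsmul]

/-- Conjugation acts on the cocycle through `χ⁻¹`. -/
theorem conj_smul_sub (g : G) {σ : G} (hσ : χ σ = 1) (x : V) :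
    (g * σ * g⁻¹) • x - x =
      (((χ g)⁻¹ : (ZMod p)ˣ) : ZMod p) • (σ • x - x) := by
  -- `y = g⁻¹ x = χ(g)⁻¹ x + c`
  set c : V := g⁻¹ • x - ((χ g⁻¹ : (ZMod p)ˣ) : ZMod p) • x with hc
  have hcC : c ∈ C := h.cyclo_quot g⁻¹ x
  have hy : g⁻¹ • x = ((χ g⁻¹ : (ZMod p)ˣ) : ZMod p) • x + c := by rw [hc]; abel
  have h1 : σ • (g⁻¹ • x) - g⁻¹ • x = ((χ g⁻¹ : (ZMod p)ˣ) : ZMod p) • (σ • x - x) := by
    rw [hy]
    exact h.smul_smul_add_sub σ _ x hcC
  have h2 : g • (σ • (g⁻¹ • x) - g⁻¹ • x) = σ • (g⁻¹ • x) - g⁻¹ • x :=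
    h.fixed_sub g _ (h.smul_sub_mem hσ _)
  rw [mul_smul, mul_smul, ← map_inv, ← h1, ← h2, smul_sub, smul_inv_smul]

/-- The group-level form of "`G / χ.ker` acts on `χ.ker / stab` through `χ⁻¹`": if `χ g = a` then
`g * σ ^ a * g⁻¹ ≡ σ` modulo the kernel of the action. -/
theorem conj_pow_mul_inv_mem_stab (g : G) (a : ℕ)
    (hg : ((χ g : (ZMod p)ˣ) : ZMod p) = (a : ZMod p)) {σ : G} (hσ : χ σ = 1) :
    g * σ ^ a * g⁻¹ * σ⁻¹ ∈ stab G V := by
  rw [mem_stab]
  intro x
  have hσa : χ (σ ^ a) = 1 := by rw [map_pow, hσ, one_pow]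
  have hσi : χ σ⁻¹ = 1 := by rw [map_inv, hσ, inv_one]
  have h1 := h.mul_smul_sub (σ := g * σ ^ a * g⁻¹) hσi x
  rw [h.conj_smul_sub g hσa, h.pow_smul_sub hσ, h.inv_smul_sub hσ] at h1
  have h2 : (((χ g)⁻¹ : (ZMod p)ˣ) : ZMod p) • (a • (σ • x - x)) = σ • x - x := by
    rw [← Nat.cast_smul_eq_nsmul (ZMod p) a, smul_smul, ← hg, ← Units.val_mul, inv_mul_cancel,
      Units.val_one, one_smul]
  rw [h2, add_neg_cancel] at h1
  exact sub_eq_zero.mp h1

omit [SMulCommClass G (ZMod p) V] in
/-- If a subgroup `D` stabilises a complement `C'` of `C`, then `D ⊓ χ.ker` acts trivially. -/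
theorem mem_stab_of_isCompl {D : Subgroup G} {C' : Submodule (ZMod p) V}
    (hstable : ∀ σ ∈ D, ∀ x ∈ C', σ • x ∈ C') (hcompl : IsCompl C C') {σ : G} (hσD : σ ∈ D)
    (hσ : χ σ = 1) : σ ∈ stab G V := by
  rw [mem_stab]
  intro v
  have hv : v ∈ C ⊔ C' := by
    rw [hcompl.sup_eq_top]
    exact Submodule.mem_top
  obtain ⟨c, hc, c', hc', rfl⟩ := Submodule.mem_sup.mp hv
  have h1 : σ • c' - c' ∈ C ⊓ C' :=
    Submodule.mem_inf.mpr ⟨h.smul_sub_mem hσ c', C'.sub_mem (hstable σ hσD c' hc') hc'⟩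
  rw [hcompl.inf_eq_bot, Submodule.mem_bot] at h1
  rw [smul_add, h.fixed_sub σ c hc, sub_eq_zero.mp h1]

/-- **Maschke case.** If the kernel of `χ` acts trivially on `V`, then `C` has a `G`-stable
complement. -/
theorem exists_isCompl_of_ker_le (hker : χ.ker ≤ stab G V) :
    ∃ C' : Submodule (ZMod p) V, (∀ σ : G, ∀ x ∈ C', σ • x ∈ C') ∧ IsCompl C C' := by
  by_cases hall : ∀ σ : G, χ σ = 1
  · -- the whole group acts trivially
    obtain ⟨C', hC'⟩ := Submodule.exists_isCompl C
    refine ⟨C', fun σ x hx => ?_, hC'⟩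
    rw [mem_stab.mp (hker (MonoidHom.mem_ker.mpr (hall σ))) x]
    exact hx
  · obtain ⟨σ₀, hσ₀⟩ := not_forall.mp hall
    set u : ZMod p := ((χ σ₀ : (ZMod p)ˣ) : ZMod p) with hu
    have hu1 : (1 : ZMod p) - u ≠ 0 := by
      intro h0
      apply hσ₀
      apply Units.ext
      rw [Units.val_one]
      exact (sub_eq_zero.mp h0).symm
    -- the eigenspace of `σ₀` for the eigenvalue `χ σ₀`
    set f : V →ₗ[ZMod p] V :=
      DistribSMul.toLinearMap (ZMod p) V σ₀ - u • LinearMap.id with hf
    have hfx : ∀ x : V, f x = σ₀ • x - u • x := fun x => by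
      simp [hf, DistribSMul.toLinearMap_apply]
    refine ⟨LinearMap.ker f, fun τ x hx => ?_, ?_⟩
    · -- stability: `τ⁻¹ σ₀ τ` and `σ₀` act in the same way
      rw [LinearMap.mem_ker, hfx] at hx ⊢
      have hcomm : σ₀⁻¹ * τ⁻¹ * σ₀ * τ ∈ stab G V := by
        apply hker
        rw [MonoidHom.mem_ker, map_mul, map_mul, map_mul, map_inv, map_inv]
        rw [mul_comm ((χ σ₀)⁻¹) ((χ τ)⁻¹), mul_assoc ((χ τ)⁻¹), inv_mul_cancel, mul_one,
          inv_mul_cancel]
      have h1 := mem_stab.mp hcomm x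
      have h2 : σ₀ • τ • x = τ • σ₀ • x := by
        have h3 := congrArg (fun y => τ • σ₀ • y) h1
        simp only [mul_smul, smul_inv_smul] at h3
        exact h3
      rw [h2, sub_eq_zero.mp hx, smul_comm τ u x, sub_self]
    · refine IsCompl.of_eq ?_ ?_
      · -- `C ⊓ ker f = ⊥`
        rw [eq_bot_iff]
        intro x hx
        obtain ⟨hxC, hxf⟩ := Submodule.mem_inf.mp hx
        rw [LinearMap.mem_ker, hfx, h.fixed_sub σ₀ x hxC] at hxf
        have h1 : ((1 : ZMod p) - u) • x = 0 := by rw [sub_smul, one_smul]; exact hxf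
        rw [Submodule.mem_bot]
        exact (smul_eq_zero.mp h1).resolve_left hu1
      · -- `C ⊔ ker f = ⊤`
        rw [eq_top_iff]
        intro x _
        set c : V := σ₀ • x - u • x with hc
        have hcC : c ∈ C := h.cyclo_quot σ₀ x
        set d : V := ((1 : ZMod p) - u)⁻¹ • c with hd
        have hdC : d ∈ C := C.smul_mem _ hcC
        refine Submodule.mem_sup.mpr ⟨d, hdC, x - d, ?_, by abel⟩
        rw [LinearMap.mem_ker, hfx, smul_sub, smul_sub, h.fixed_sub σ₀ d hdC]
        have h1 : d - u • d = c := by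
          rw [hd, smul_smul, ← sub_smul]
          have : ((1 : ZMod p) - u)⁻¹ - u * ((1 : ZMod p) - u)⁻¹ =
              ((1 : ZMod p) - u) * ((1 : ZMod p) - u)⁻¹ := by ring
          rw [this, mul_inv_cancel₀ hu1, one_smul]
        have h2 : σ₀ • x - d - (u • x - u • d) = c - (d - u • d) := by rw [hc]; abel
        rw [h2, h1, sub_self]

/-- If `C` has no `G`-stable complement, the kernel of the action has index `p` in the kernel of
the character. -/
theorem relIndex_stab_eq_of_not_splits
    (hns : ¬ ∃ C' : Submodule (ZMod p) V, (∀ σ : G, ∀ x ∈ C', σ • x ∈ C') ∧ IsCompl C C') :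
    (stab G V).relIndex χ.ker = p := by
  rcases h.relIndex_stab with h1 | h1
  · exact absurd (h.exists_isCompl_of_ker_le (Subgroup.relIndex_eq_one.mp h1)) hns
  · exact h1

end Hyp

/-! ### Instantiation at the frozen definitions -/

section Frozen

open ValuationSubring

local notation "GQ" => (AlgebraicClosure ℚ ≃ₐ[ℚ] AlgebraicClosure ℚ)

variable {p : ℕ} [Fact p.Prime] {V : Type} [AddCommGroup V] [Module (ZMod p) V]
  [DistribMulAction GQ V] [SMulCommClass GQ (ZMod p) V] {C : Submodule (ZMod p) V}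

omit [SMulCommClass GQ (ZMod p) V] in
/-- An admissible extension in the frozen sense satisfies the abstract hypotheses, with the
prelude cyclotomic character `ExtCitation.cycloChar p`. -/
theorem hyp_of_isAdmissibleExtension (hadm : ExtCitation.IsAdmissibleExtension p V C) :
    Hyp C (ExtCitation.cycloChar p) where
  fixed_sub := hadm.fixed_sub
  cyclo_quot σ x := by
    rw [ExtCitation.coe_cycloChar]
    exact hadm.cyclo_quot σ x
  card_sub := hadm.card_sub
  card_total := hadm.card_total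

omit [SMulCommClass GQ (ZMod p) V] in
/-- The kernel of the action is open for an admissible extension (continuous version). -/
theorem isOpen_stab (hadm : ExtCitation.IsAdmissibleExtensionCts p V C) :
    IsOpen ((stab GQ V : Subgroup GQ) : Set GQ) := by
  have h := hadm.open_kernel
  have e : ((stab GQ V : Subgroup GQ) : Set GQ) = {σ : GQ | ∀ v : V, σ • v = v} := by
    ext σ
    exact mem_stab
  rw [e]
  exact h

omit [SMulCommClass GQ (ZMod p) V] in
/-- Inertia at `ℓ ≠ p` acts trivially. -/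
theorem mem_stab_of_mem_inertia (hadm : ExtCitation.IsAdmissibleExtension p V C) {ℓ : ℕ}
    (hℓ : ℓ.Prime) (hℓp : ℓ ≠ p) (A : ValuationSubring (AlgebraicClosure ℚ))
    (hA : A.LiesOverPrime ℓ) {σ : GQ} (hσ : σ ∈ A.inertiaSubgroupIn ℚ) : σ ∈ stab GQ V :=
  mem_stab.mpr fun x => hadm.unramified_outside ℓ hℓ hℓp A hA σ hσ x

omit [SMulCommClass GQ (ZMod p) V] in
/-- The decomposition group at `p` meets the kernel of the cyclotomic character in the kernel
of the action (local splitting at `p`). -/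
theorem mem_stab_of_mem_decomposition (hadm : ExtCitation.IsAdmissibleExtension p V C)
    (A : ValuationSubring (AlgebraicClosure ℚ)) (hA : A.LiesOverPrime p) {σ : GQ}
    (hσ : σ ∈ A.decompositionSubgroup ℚ) (hχ : ExtCitation.cycloChar p σ = 1) :
    σ ∈ stab GQ V := by
  obtain ⟨C', hstable, hcompl⟩ := hadm.locally_split A hA
  exact (hyp_of_isAdmissibleExtension hadm).mem_stab_of_isCompl
    (D := A.decompositionSubgroup ℚ) hstable hcompl hσ hχ

/-- **Maschke case** in the frozen vocabulary: if the kernel of the cyclotomic character acts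
trivially on `V`, the extension splits globally. -/
theorem splitsGlobally_of_ker_le (hadm : ExtCitation.IsAdmissibleExtension p V C)
    (hker : (ExtCitation.cycloChar p).ker ≤ stab GQ V) : ExtCitation.SplitsGlobally C :=
  (hyp_of_isAdmissibleExtension hadm).exists_isCompl_of_ker_le hker

/-- If the extension does not split globally, the kernel of the action has index exactly `p` in
the kernel of the cyclotomic character. -/
theorem relIndex_stab_of_not_splitsGlobally (hadm : ExtCitation.IsAdmissibleExtension p V C)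
    (hns : ¬ ExtCitation.SplitsGlobally C) :
    (stab GQ V).relIndex (ExtCitation.cycloChar p).ker = p :=
  (hyp_of_isAdmissibleExtension hadm).relIndex_stab_eq_of_not_splits hns

end Frozen

end Fermat.Agent.S14.FrontF1
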