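import Mathlib
import Fermat.Agent.S14.FrontF1

/-!
# S14, package Front-F1 (second file): the four statements (A1)-(A4) consumed by S14/Front

`AdmData χ C` is the abstract admissible extension (same fields as `FrontF1.Hyp C χ`), and
(A1)-(A4) are stated exactly in the shapes used by the field-theoretic part of the front end:

* `AdmData.chi_eq_one_of_trivial` (A1), `AdmData.trivial_of_compl` (A2),
  `AdmData.exists_compl` (A3), `AdmData.card_and_conj` (A4).
-/

set_option autoImplicit false

namespace Fermat.Agent.S14.FrontF1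

variable {p : ℕ} [Fact p.Prime] {G : Type*} [Group G] {V : Type*} [AddCommGroup V]
  [Module (ZMod p) V] [DistribMulAction G V] [SMulCommClass G (ZMod p) V]

/-- The abstract admissible extension: `G` fixes the line `C` pointwise and acts on `V ⧸ C`
through the character `χ`. -/
structure AdmData (χ : G →* (ZMod p)ˣ) (C : Submodule (ZMod p) V) : Prop where
  fixed_sub : ∀ σ : G, ∀ x ∈ C, σ • x = x
  cyclo_quot : ∀ σ : G, ∀ x : V, σ • x - ((χ σ : (ZMod p)ˣ) : ZMod p) • x ∈ C
  card_sub : Nat.card C = p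
  card_total : Nat.card V = p ^ 2

variable {χ : G →* (ZMod p)ˣ} {C : Submodule (ZMod p) V}

omit [SMulCommClass G (ZMod p) V] in
theorem AdmData.toHyp (h : AdmData χ C) : Hyp C χ :=
  ⟨h.fixed_sub, h.cyclo_quot, h.card_sub, h.card_total⟩

omit [SMulCommClass G (ZMod p) V] in
/-- (A1) An element acting trivially on `V` lies in the kernel of the character. -/
theorem AdmData.chi_eq_one_of_trivial (h : AdmData χ C) {σ : G} (hσ : ∀ v : V, σ • v = v) :
    χ σ = 1 :=
  MonoidHom.mem_ker.mp (h.toHyp.stab_le_ker (mem_stab.mpr hσ))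

omit [SMulCommClass G (ZMod p) V] in
/-- (A2) An element of the kernel of the character stabilising a complement of `C` acts
trivially. -/
theorem AdmData.trivial_of_compl (h : AdmData χ C) {σ : G} (hχ : χ σ = 1)
    (C' : Submodule (ZMod p) V) (hC' : IsCompl C C') (hσ : ∀ x ∈ C', σ • x ∈ C') :
    ∀ v : V, σ • v = v := by
  intro v
  have hv : v ∈ C ⊔ C' := by
    rw [hC'.sup_eq_top]
    exact Submodule.mem_top
  obtain ⟨c, hc, c', hc', rfl⟩ := Submodule.mem_sup.mp hv
  have h1 : σ • c' - c' ∈ C ⊓ C' :=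
    Submodule.mem_inf.mpr ⟨h.toHyp.smul_sub_mem hχ c', C'.sub_mem (hσ c' hc') hc'⟩
  rw [hC'.inf_eq_bot, Submodule.mem_bot] at h1
  rw [smul_add, h.fixed_sub σ c hc, sub_eq_zero.mp h1]

set_option linter.unusedVariables false in
/-- (A3) Maschke case: if the kernel of the character acts trivially, `C` has a `G`-stable
complement. -/
theorem AdmData.exists_compl (h : AdmData χ C)
    (htriv : ∀ σ : G, χ σ = 1 → ∀ v : V, σ • v = v) (σ₀ : G) (hσ₀ : χ σ₀ ≠ 1) :
    ∃ C' : Submodule (ZMod p) V, (∀ σ : G, ∀ x ∈ C', σ • x ∈ C') ∧ IsCompl C C' :=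
  h.toHyp.exists_isCompl_of_ker_le fun σ hσ => mem_stab.mpr (htriv σ (MonoidHom.mem_ker.mp hσ))

/-- (A4) The quotient of the kernel of the character by the kernel of the action has order `p`
(in the non-split case) and carries the conjugation action `χ⁻¹`, stated for an abstract
quotient `res : G →* Γ` with kernel the kernel of the action and an abstract copy
`j : Γ₁ →* Γ` of the image of the kernel of the character. -/
theorem AdmData.card_and_conj (h : AdmData χ C) {Γ Γ₁ : Type*} [Group Γ] [Group Γ₁]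
    (res : G →* Γ) (hres : Function.Surjective res) (j : Γ₁ →* Γ) (hj : Function.Injective j)
    (hk : ∀ g : G, res g = 1 ↔ ∀ v : V, g • v = v)
    (hχ : ∀ g : G, χ g = 1 ↔ res g ∈ j.range)
    (hns : ∃ g : G, χ g = 1 ∧ ∃ v : V, g • v ≠ v) :
    Nat.card Γ₁ = p ∧ ∀ (g : G) (s : Γ₁) (a : ℕ),
      ((χ g : (ZMod p)ˣ) : ZMod p) = (a : ZMod p) → res g * (j s) ^ a * (res g)⁻¹ = j s := by
  have hH := h.toHyp
  have hker : res.ker = stab G V := by
    ext g
    rw [MonoidHom.mem_ker, hk, mem_stab]
  have hrange : j.range = χ.ker.map res := by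
    ext y
    constructor
    · intro hy
      obtain ⟨g, rfl⟩ := hres y
      exact ⟨g, MonoidHom.mem_ker.mpr ((hχ g).mpr hy), rfl⟩
    · rintro ⟨g, hg, rfl⟩
      exact (hχ g).mp (MonoidHom.mem_ker.mp hg)
  refine ⟨?_, fun g s a hga => ?_⟩
  · -- the cardinality
    have h1 : Nat.card Γ₁ = Nat.card j.range :=
      Nat.card_congr (MonoidHom.ofInjective hj).toEquiv
    have h2 : Nat.card (χ.ker.map res) = (stab G V).relIndex χ.ker := by
      rw [← MonoidHom.domRestrict_range, ← Subgroup.index_ker, MonoidHom.ker_domRestrict, hker]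
      rfl
    rw [h1, hrange, h2]
    rcases hH.relIndex_stab with h3 | h3
    · exfalso
      obtain ⟨g, hg, v, hv⟩ := hns
      have hle : χ.ker ≤ stab G V := Subgroup.relIndex_eq_one.mp h3
      exact hv (mem_stab.mp (hle (MonoidHom.mem_ker.mpr hg)) v)
    · exact h3
  · -- the conjugation action
    obtain ⟨t, ht⟩ := hres (j s)
    have hχt : χ t = 1 := (hχ t).mpr (ht ▸ ⟨s, rfl⟩)
    have hmem := hH.conj_pow_mul_inv_mem_stab g a hga hχt
    rw [← hker, MonoidHom.mem_ker, map_mul, map_mul, map_mul, map_pow, map_inv, map_inv, ht]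
      at hmem
    exact mul_inv_eq_one.mp hmem

end Fermat.Agent.S14.FrontF1
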