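/-
S14 front end (F2): valuation subrings of `AlgebraicClosure ℚ` over a given prime of a number
field inside it, and the lifting lemma for decomposition groups: the decomposition group of a
valuation subring `A` over a prime number surjects onto the stabiliser of the prime `𝔪_A ∩ 𝓞 L`
in `Gal(L/ℚ)`.

Main results (namespace `Fermat.Agent.S14.Front`):
* `mem_decompositionSubgroup_of_zbar`: an automorphism preserving the maximal ideal of `A` on
  algebraic integers lies in the decomposition group of `A`;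
* `exists_mem_decompositionSubgroup_restrict`: the lifting lemma;
* `exists_valuationSubring_over`: a valuation subring whose maximal ideal contracts to a given
  maximal ideal of the ring of integers of an intermediate field.
-/
import Mathlib
import Fermat.Prelude.Def_FLTPrelim_Ramification
import Fermat.Agent.S54_Frob
import Fermat.Agent.S13.InertiaLift

set_option autoImplicit false

open scoped Pointwise

namespace Fermat.Agent.S14.Front

open NumberField

local notation "Qbar" => AlgebraicClosure ℚ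
local notation "GQ" => (AlgebraicClosure ℚ ≃ₐ[ℚ] AlgebraicClosure ℚ)
local notation "Zbar" => integralClosure ℤ (AlgebraicClosure ℚ)

open Fermat.Agent.S54 Fermat.Agent.S13

attribute [local instance] galActIntegralClosure

/-- If `σ` reflects the maximal ideal of `A` on algebraic integers, then `σ` maps `A` into
itself. -/
theorem map_mem_of_zbar (A : ValuationSubring Qbar) {ℓ : ℕ} (hℓ : ℓ.Prime)
    (hA : A.LiesOverPrime ℓ) (σ : GQ)
    (hσ : ∀ z : Zbar, σ (z : Qbar) ∈ A.nonunits → (z : Qbar) ∈ A.nonunits) :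
    ∀ a : Qbar, a ∈ A → σ a ∈ A := by
  intro a ha
  have hA' : (ℓ : Qbar) ∈ A.nonunits := hA
  have hZA : ∀ x : Zbar, (x : Qbar) ∈ A := integralClosure_int_le A
  have halg : ∀ u : Qbar, IsAlgebraic ℤ u := fun u =>
    (IsFractionRing.isAlgebraic_iff ℤ ℚ Qbar).mpr (Algebra.IsAlgebraic.isAlgebraic u)
  have hσZ : ∀ z : Zbar, σ (z : Qbar) ∈ A := fun z =>
    hZA ⟨σ (z : Qbar), map_isIntegral_int σ z.2⟩
  obtain ⟨s, b, hs, hsb⟩ := exists_integral_mul_eq A hℓ hA' ha (halg a)
  have hσs : σ (s : Qbar) ∉ A.nonunits := fun h => hs (hσ s h)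
  have hσs1 : A.valuation (σ (s : Qbar)) = 1 :=
    valuation_eq_one_of_not_mem_nonunits A (hσZ s) hσs
  have hσs0 : σ (s : Qbar) ≠ 0 := by
    intro h0
    rw [h0, map_zero] at hσs1
    exact zero_ne_one hσs1
  have e1 : σ (s : Qbar) * σ a = σ (b : Qbar) := by rw [← map_mul, hsb]
  have hσa_eq : σ a = σ (b : Qbar) / σ (s : Qbar) := by
    rw [eq_div_iff hσs0, mul_comm]; exact e1
  rw [← ValuationSubring.valuation_le_one_iff, hσa_eq, map_div₀, hσs1, div_one]
  exact (ValuationSubring.valuation_le_one_iff A _).mpr (hσZ b)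

/-- If `σ` preserves the maximal ideal of `A` on algebraic integers, then `σ` lies in the
decomposition group of `A`. -/
theorem mem_decompositionSubgroup_of_zbar (A : ValuationSubring Qbar) {ℓ : ℕ} (hℓ : ℓ.Prime)
    (hA : A.LiesOverPrime ℓ) (σ : GQ)
    (hσ : ∀ z : Zbar, (z : Qbar) ∈ A.nonunits ↔ σ (z : Qbar) ∈ A.nonunits) :
    σ ∈ A.decompositionSubgroup ℚ := by
  rw [mem_decompositionSubgroup_iff]
  intro a
  constructor
  · exact map_mem_of_zbar A hℓ hA σ (fun z hz => (hσ z).mpr hz) a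
  · intro ha
    have h := map_mem_of_zbar A hℓ hA σ⁻¹ (fun z hz => ?_) (σ a) ha
    · rwa [AlgEquiv.aut_inv, AlgEquiv.symm_apply_apply] at h
    · have h1 := (hσ (σ⁻¹ • z)).mp hz
      have h2 : σ ((σ⁻¹ • z : Zbar) : Qbar) = (z : Qbar) := by
        change σ (σ⁻¹ (z : Qbar)) = _
        rw [AlgEquiv.aut_inv, AlgEquiv.apply_symm_apply]
      rwa [h2] at h1

open InertiaLift in
/-- Lifting lemma for decomposition groups: an automorphism `τ` of an intermediate field `L`
preserving the prime `𝔪_A ∩ 𝓞 L` is the restriction of an element of the decomposition group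
of `A`. -/
theorem exists_mem_decompositionSubgroup_restrict (A : ValuationSubring Qbar) {ℓ : ℕ}
    (hℓ : ℓ.Prime) (hA : A.LiesOverPrime ℓ) (L : IntermediateField ℚ Qbar) (τ : L ≃ₐ[ℚ] L)
    (hτ : ∀ b : L, IsIntegral ℤ b →
      ((b : Qbar) ∈ A.nonunits ↔ ((τ b : L) : Qbar) ∈ A.nonunits)) :
    ∃ σ ∈ A.decompositionSubgroup ℚ, ∀ b : L, σ (b : Qbar) = ((τ b : L) : Qbar) := by
  have hZA : ∀ x : Zbar, (x : Qbar) ∈ A := integralClosure_int_le A
  let f : Zbar →+* A := (algebraMap Zbar Qbar).codRestrict A.toSubring hZA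
  let Q : Ideal Zbar := (IsLocalRing.maximalIdeal A).comap f
  have hQmem : ∀ x : Zbar, x ∈ Q ↔ (x : Qbar) ∈ A.nonunits := by
    intro x
    rw [Ideal.mem_comap, ← ValuationSubring.coe_mem_nonunits_iff]
    rfl
  have hQprime : Q.IsPrime := Ideal.comap_isPrime f _
  -- extend `τ`
  let σ1 : GQ := τ.liftNormal Qbar
  have hσ1 : ∀ b : L, σ1 (b : Qbar) = ((τ b : L) : Qbar) := fun b => τ.liftNormal_commutes Qbar b
  -- the profinite group `H = Gal(Qbar/L)` and its fixed ring
  let R : Subalgebra ℤ Zbar := FixedPoints.subalgebra ℤ Zbar (Qbar ≃ₐ[L] Qbar)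
  have hRL : ∀ z : R, ∃ l : L, (l : Qbar) = ((z : Zbar) : Qbar) ∧ IsIntegral ℤ l := by
    intro z
    have h1 := fixed_mem L (z : Zbar) z.2
    refine ⟨⟨_, h1⟩, rfl, ?_⟩
    have h2 : IsIntegral ℤ ((z : Zbar) : Qbar) := (z : Zbar).2
    exact (isIntegral_algebraMap_iff (algebraMap L Qbar).injective).mp h2
  let _ : TopologicalSpace Zbar := ⊥
  have : DiscreteTopology Zbar := ⟨rfl⟩
  have : ContinuousSMul (Qbar ≃ₐ[L] Qbar) Zbar := continuousSMul_zbar L
  have : Algebra.IsInvariant R Zbar (Qbar ≃ₐ[L] Qbar) := ⟨fun b h => ⟨⟨b, h⟩, rfl⟩⟩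
  -- `σ1 • Q` and `Q` have the same contraction to `R`
  have hunder : (σ1 • Q).under R = Q.under R := by
    ext z
    obtain ⟨l, hl, hlint⟩ := hRL z
    rw [Ideal.under_def, Ideal.under_def, Ideal.mem_comap, Ideal.mem_comap,
      Ideal.mem_pointwise_smul_iff_inv_smul_mem, hQmem, hQmem]
    have h1 : ((σ1⁻¹ • (algebraMap R Zbar z) : Zbar) : Qbar) = ((τ.symm l : L) : Qbar) := by
      change σ1⁻¹ ((z : Zbar) : Qbar) = _
      rw [← hl, AlgEquiv.aut_inv, AlgEquiv.symm_apply_eq, hσ1, AlgEquiv.apply_symm_apply]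
    have h2 : ((algebraMap R Zbar z : Zbar) : Qbar) = (l : Qbar) := hl.symm
    rw [h1, h2]
    have h3 := hτ (τ.symm l) (map_isIntegral_int τ.symm hlint)
    rw [AlgEquiv.apply_symm_apply] at h3
    exact h3
  have hσ1prime : (σ1 • Q).IsPrime := by
    rw [Ideal.pointwise_smul_eq_comap]; exact Ideal.comap_isPrime _ _
  obtain ⟨h, hh⟩ := Algebra.IsInvariant.exists_smul_of_under_eq_of_profinite
    (A := R) (G := (Qbar ≃ₐ[L] Qbar)) (σ1 • Q) Q hunder
  -- `σ2` stabilises `Q` and restricts to `τ`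
  let σ2 : GQ := (h.restrictScalars ℚ) * σ1
  have hσ2 : ∀ b : L, σ2 (b : Qbar) = ((τ b : L) : Qbar) := by
    intro b
    change h (σ1 (b : Qbar)) = _
    rw [hσ1]
    exact h.commutes (τ b)
  have hσ2inv : ∀ z : Zbar, ((σ2⁻¹ • z : Zbar) : Qbar) =
      ((σ1⁻¹ • (h⁻¹ • z) : Zbar) : Qbar) := by
    intro z
    change σ2⁻¹ (z : Qbar) = σ1⁻¹ (h⁻¹ (z : Qbar))
    rw [AlgEquiv.aut_inv, AlgEquiv.symm_apply_eq]
    change _ = h (σ1 (σ1⁻¹ (h⁻¹ (z : Qbar))))
    rw [AlgEquiv.aut_inv, AlgEquiv.apply_symm_apply, AlgEquiv.aut_inv, AlgEquiv.apply_symm_apply]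
  have hσ2Q : σ2 • Q = Q := by
    ext z
    rw [Ideal.mem_pointwise_smul_iff_inv_smul_mem]
    conv_rhs => rw [hh, Ideal.mem_pointwise_smul_iff_inv_smul_mem,
      Ideal.mem_pointwise_smul_iff_inv_smul_mem]
    rw [hQmem, hQmem, hσ2inv]
  refine ⟨σ2, mem_decompositionSubgroup_of_zbar A hℓ hA σ2 fun z => ?_, hσ2⟩
  rw [← hQmem]
  have h1 : (σ2 • z : Zbar) ∈ σ2 • Q ↔ z ∈ Q := Ideal.smul_mem_pointwise_smul_iff
  rw [hσ2Q, hQmem] at h1
  exact h1.symm

/-- The inertia group of a valuation subring is contained in its decomposition group. -/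
theorem inertiaSubgroupIn_le_decompositionSubgroup {K L : Type*} [Field K] [Field L]
    [Algebra K L] (A : ValuationSubring L) :
    A.inertiaSubgroupIn K ≤ A.decompositionSubgroup K := by
  intro σ hσ
  obtain ⟨g, -, rfl⟩ := Subgroup.mem_map.mp hσ
  exact g.2

/-- A valuation subring of `AlgebraicClosure ℚ` whose maximal ideal contracts to a given
maximal ideal of the ring of integers of an intermediate field. -/
theorem exists_valuationSubring_over (L : IntermediateField ℚ Qbar) (P : Ideal (𝓞 L))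
    (hP : P.IsMaximal) :
    ∃ A : ValuationSubring Qbar, ∀ x : 𝓞 L, x ∈ P ↔ (((x : L) : Qbar)) ∈ A.nonunits := by
  let f₀ : 𝓞 L →+* Qbar := (algebraMap L Qbar).comp (algebraMap (𝓞 L) L)
  have hf₀ : Function.Injective f₀ :=
    (algebraMap L Qbar).injective.comp (RingOfIntegers.coe_injective)
  let R₀ : Subring Qbar := f₀.range
  let I : Ideal R₀ := P.map f₀.rangeRestrict
  have hsurj : Function.Surjective f₀.rangeRestrict := f₀.rangeRestrict_surjective
  have hI : I ≠ ⊤ := by
    intro h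
    have h1 : (1 : R₀) ∈ I := by rw [h]; trivial
    rw [Ideal.mem_map_iff_of_surjective _ hsurj] at h1
    obtain ⟨x, hx, hx1⟩ := h1
    have h2 : f₀ x = 1 := congrArg Subtype.val hx1
    have h3 : x = 1 := hf₀ (by rw [h2, map_one])
    exact hP.ne_top ((Ideal.eq_top_iff_one P).mpr (h3 ▸ hx))
  obtain ⟨B, hRB, hB⟩ := Ideal.image_subset_nonunits_valuationSubring I hI
  refine ⟨B, fun x => ⟨fun hx => ?_, fun hx => ?_⟩⟩
  · exact hB ⟨f₀.rangeRestrict x, Ideal.mem_map_of_mem _ hx, rfl⟩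
  · -- the contraction of the maximal ideal of `B` is a proper ideal containing `P`
    have hmemB : ∀ y : 𝓞 L, f₀ y ∈ B := fun y => hRB ⟨y, rfl⟩
    let g : 𝓞 L →+* B := f₀.codRestrict B.toSubring hmemB
    let J : Ideal (𝓞 L) := (IsLocalRing.maximalIdeal B).comap g
    have hJmem : ∀ y : 𝓞 L, y ∈ J ↔ f₀ y ∈ B.nonunits := by
      intro y
      rw [Ideal.mem_comap, ← ValuationSubring.coe_mem_nonunits_iff]
      rfl
    have hPJ : P ≤ J := fun y hy =>
      (hJmem y).mpr (hB ⟨f₀.rangeRestrict y, Ideal.mem_map_of_mem _ hy, rfl⟩)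
    have hJtop : J ≠ ⊤ := by
      intro h
      have h1 : (1 : 𝓞 L) ∈ J := by rw [h]; trivial
      rw [hJmem, map_one] at h1
      exact one_not_mem_nonunits B h1
    have hJP : J = P := (hP.eq_of_le hJtop hPJ).symm
    rw [← hJP]
    exact (hJmem x).mpr hx

end Fermat.Agent.S14.Front
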