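/-
S14 front end (F3): from the frozen definition `ExtCitation.IsAdmissibleExtensionCts` to number
fields.  For an admissible `V` either the kernel of the cyclotomic character acts trivially, and
then `V` splits (Maschke), or the fixed field `L` of the kernel of the action is a cyclic
extension of degree `p` of `K = ℚ(ζ_p)`, Galois over `ℚ`, unramified everywhere, totally split
above `p`, on whose Galois group `Gal(K/ℚ)` acts through the inverse cyclotomic character.

Main result: `Fermat.Agent.S14.Front.front_end`.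
-/
import Mathlib
import Fermat.Prelude.Def_ExtCitation_AdmissibleExtension_v2
import Fermat.Agent.S14.Defs
import Fermat.Agent.S14.FrontAlg
import Fermat.Agent.S14.FrontLift
import Fermat.Agent.S13.Cyclo
import Fermat.Agent.S13.InertiaLift
import Fermat.Agent.S54_Frob

set_option autoImplicit false

namespace Fermat.Agent.S14.Front

open NumberField IsDedekindDomain ExtCitation Fermat.Agent.S14.FrontF1
open scoped Pointwise nonZeroDivisors

local notation "Qbar" => AlgebraicClosure ℚ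
local notation "GQ" => (AlgebraicClosure ℚ ≃ₐ[ℚ] AlgebraicClosure ℚ)

theorem cycloExp_cast (p : ℕ) [Fact p.Prime] (σ : GQ) :
    ((cycloExp p σ : ℕ) : ZMod p) = ((S13.cycloChar p σ : (ZMod p)ˣ) : ZMod p) := by
  unfold cycloExp
  rw [ZMod.natCast_zmod_val]
  rfl

/-- Some element of the absolute Galois group has nontrivial mod `p` cyclotomic character
(`p ≥ 3`). -/
theorem exists_cycloChar_ne_one (p : ℕ) [Fact p.Prime] (h3 : 3 ≤ p) :
    ∃ σ : GQ, S13.cycloChar p σ ≠ 1 := by
  have hp : p.Prime := Fact.out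
  obtain ⟨ζ, hζ⟩ := HasEnoughRootsOfUnity.exists_primitiveRoot Qbar p
  have hζp : ζ ^ p = 1 := hζ.pow_eq_one
  have hζ1 : ζ ≠ 1 := hζ.ne_one hp.one_lt
  -- `ζ` and `ζ⁻¹` are conjugate
  have hinv : IsPrimitiveRoot ζ⁻¹ p := hζ.inv
  have hmin : minpoly ℚ ζ = minpoly ℚ ζ⁻¹ := by
    rw [← Polynomial.cyclotomic_eq_minpoly_rat hζ hp.pos,
      ← Polynomial.cyclotomic_eq_minpoly_rat hinv hp.pos]
  obtain ⟨σ, hσ⟩ := (isConjRoot_iff_exists_algEquiv (K := ℚ) (L := Qbar)).mp
    (show IsConjRoot ℚ ζ ζ⁻¹ from hmin)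
  refine ⟨σ, fun h1 => ?_⟩
  have h2 := S13.cycloChar_spec p σ hζp
  rw [h1] at h2
  have h3' : ((1 : (ZMod p)ˣ) : ZMod p).val = 1 := by
    have : Fact (1 < p) := ⟨hp.one_lt⟩
    rw [Units.val_one, ZMod.val_one]
  rw [h3', pow_one] at h2
  -- `ζ⁻¹ = ζ` forces `ζ ^ 2 = 1`
  have h4 : ζ ^ 2 = 1 := by
    have hinv' : ζ⁻¹ = ζ := by
      calc ζ⁻¹ = (σ ζ)⁻¹ := by rw [h2]
        _ = σ ζ⁻¹ := (map_inv₀ σ ζ).symm
        _ = ζ := hσ
    have hζ0 : ζ ≠ 0 := hζ.ne_zero hp.ne_zero
    calc ζ ^ 2 = ζ * ζ := sq ζ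
      _ = ζ * ζ⁻¹ := by rw [hinv']
      _ = 1 := mul_inv_cancel₀ hζ0
  have h5 := hζ.dvd_of_pow_eq_one 2 h4
  have := Nat.le_of_dvd (by norm_num) h5
  omega


/-- The frozen admissible datum as an abstract one, with the character `cycloChar p`. -/
theorem admData_of {p : ℕ} [Fact p.Prime] {V : Type} [AddCommGroup V] [Module (ZMod p) V]
    [DistribMulAction GQ V] [SMulCommClass GQ (ZMod p) V] {C : Submodule (ZMod p) V}
    (h : IsAdmissibleExtension p V C) : AdmData (S13.cycloChar p) C where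
  fixed_sub := h.fixed_sub
  cyclo_quot := fun σ x => by
    rw [← cycloExp_cast]
    exact h.cyclo_quot σ x
  card_sub := h.card_sub
  card_total := h.card_total

/-- The restriction of scalars as a group homomorphism. -/
def jHom {L : Type*} [Field L] [Algebra ℚ L] (K : IntermediateField ℚ L) :
    (L ≃ₐ[K] L) →* (L ≃ₐ[ℚ] L) where
  toFun s := s.restrictScalars ℚ
  map_one' := rfl
  map_mul' _ _ := rfl

theorem jHom_apply {L : Type*} [Field L] [Algebra ℚ L] (K : IntermediateField ℚ L)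
    (s : L ≃ₐ[K] L) (x : L) : jHom K s x = s x := rfl

theorem jHom_injective {L : Type*} [Field L] [Algebra ℚ L] (K : IntermediateField ℚ L) :
    Function.Injective (jHom K) := fun s t hst =>
  AlgEquiv.ext fun x => by
    have := congrArg (fun f : L ≃ₐ[ℚ] L => f x) hst
    exact this

/-- An automorphism of `L` over `ℚ` fixing `ζ` comes from an automorphism over `ℚ(ζ)`. -/
theorem mem_range_jHom {L : Type*} [Field L] [Algebra ℚ L] (ζ : L) (K : IntermediateField ℚ L)
    (hK : K = IntermediateField.adjoin ℚ {ζ}) (τ : L ≃ₐ[ℚ] L) :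
    τ ∈ (jHom K).range ↔ τ ζ = ζ := by
  subst hK
  constructor
  · rintro ⟨s, rfl⟩
    have h1 : ζ ∈ IntermediateField.adjoin ℚ {ζ} := IntermediateField.mem_adjoin_simple_self ℚ ζ
    exact s.commutes ⟨ζ, h1⟩
  · intro hτ
    have hle : IntermediateField.adjoin ℚ {ζ} ≤
        IntermediateField.fixedField (MulAction.stabilizer (L ≃ₐ[ℚ] L) ζ) := by
      rw [IntermediateField.adjoin_simple_le_iff, IntermediateField.mem_fixedField_iff]
      intro f hf
      exact MulAction.mem_stabilizer_iff.mp hf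
    have hfixK : ∀ k : IntermediateField.adjoin ℚ {ζ}, τ (k : L) = (k : L) := by
      intro k
      have h1 := (IntermediateField.mem_fixedField_iff _ _).mp (hle k.2)
      exact h1 τ (MulAction.mem_stabilizer_iff.mpr hτ)
    refine ⟨{ τ with commutes' := fun k => hfixK k }, ?_⟩
    ext x
    rfl


/-- A prime number in every nonzero prime ideal of the ring of integers of a number field. -/
theorem exists_prime_natCast_mem {L : Type*} [Field L] [NumberField L] (P : Ideal (𝓞 L))
    (hP : P.IsPrime) (hP0 : P ≠ ⊥) : ∃ ℓ : ℕ, ℓ.Prime ∧ ((ℓ : ℕ) : 𝓞 L) ∈ P := by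
  have hmax : P.IsMaximal := hP.isMaximal hP0
  have hfin : Finite (𝓞 L ⧸ P) := Ideal.finiteQuotientOfFreeOfNeBot P hP0
  let ℓ := ringChar (𝓞 L ⧸ P)
  have : CharP (𝓞 L ⧸ P) ℓ := ringChar.charP _
  let _ : Field (𝓞 L ⧸ P) := Ideal.Quotient.field P
  have hℓ : ℓ.Prime := CharP.char_is_prime (𝓞 L ⧸ P) ℓ
  refine ⟨ℓ, hℓ, ?_⟩
  rw [← Ideal.Quotient.eq_zero_iff_mem, map_natCast]
  exact CharP.cast_eq_zero _ _

section Main

variable {p : ℕ} [Fact p.Prime]

theorem nonsplit_false_aux
    (hcore : ∀ (K L : Type) [Field K] [NumberField K] [Field L] [NumberField L] [Algebra K L]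
      [IsCyclotomicExtension {p} ℚ K] [IsGalois ℚ L] [IsGalois K L],
      Module.finrank K L = p → UnramifiedEverywhere K L →
      (∀ w : HeightOneSpectrum (𝓞 L), (p : 𝓞 L) ∈ w.asIdeal →
        ∀ σ : L ≃ₐ[K] L, σ • w.asIdeal = w.asIdeal → σ = 1) →
      (∀ (g : L ≃ₐ[ℚ] L) (a : ℕ), (∀ ζ : L, ζ ^ p = 1 → g ζ = ζ ^ a) →
        ∀ σ : L ≃ₐ[K] L, g * (σ.restrictScalars ℚ) ^ a * g⁻¹ = σ.restrictScalars ℚ) → False)
    (V : Type) [AddCommGroup V] [Module (ZMod p) V] [DistribMulAction GQ V]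
    [SMulCommClass GQ (ZMod p) V] (C : Submodule (ZMod p) V)
    (h : IsAdmissibleExtension p V C)
    (L : IntermediateField ℚ Qbar) [FiniteDimensional ℚ L] [IsGalois ℚ L]
    (hL : ∀ σ : GQ, σ ∈ L.fixingSubgroup ↔ ∀ v : V, σ • v = v)
    (ζL : L) (hζp : ζL ^ p = 1) (hζ1 : ζL ≠ 1)
    (K : IntermediateField ℚ L) (hK : K = IntermediateField.adjoin ℚ {ζL})
    (hns : ∃ g : GQ, S13.cycloChar p g = 1 ∧ ∃ v : V, g • v ≠ v) : False := by
  have hp : p.Prime := Fact.out
  have hadm : AdmData (S13.cycloChar p) C := admData_of h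
  have hnfL : NumberField L :=
    { to_charZero := inferInstance, to_finiteDimensional := inferInstance }
  -- restriction to `L`
  let res : GQ →* (L ≃ₐ[ℚ] L) := AlgEquiv.restrictNormalHom L
  have hrescomm : ∀ (g : GQ) (b : L), ((res g b : L) : Qbar) = g (b : Qbar) := fun g b =>
    AlgEquiv.restrictNormal_commutes g L b
  have hres : Function.Surjective res := AlgEquiv.restrictNormalHom_surjective Qbar
  have hresext : ∀ (g : GQ) (τ : L ≃ₐ[ℚ] L),
      (∀ b : L, g (b : Qbar) = ((τ b : L) : Qbar)) → res g = τ := by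
    intro g τ hg
    ext b
    rw [hrescomm, hg]
  have hk : ∀ g : GQ, res g = 1 ↔ ∀ v : V, g • v = v := by
    intro g
    rw [← hL g, IntermediateField.mem_fixingSubgroup_iff]
    constructor
    · intro h1 x hx
      have h2 := hrescomm g ⟨x, hx⟩
      rw [h1] at h2
      exact h2.symm
    · intro h1
      exact hresext g 1 (fun b => h1 b b.2)
  -- the root of unity
  have hζQp : (ζL : Qbar) ^ p = 1 := by
    have := congrArg (fun x : L => (x : Qbar)) hζp
    simpa using this
  have hζQ1 : (ζL : Qbar) ≠ 1 := fun h1 => hζ1 (Subtype.ext (by simpa using h1))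
  have hχ1 : ∀ g : GQ, S13.cycloChar p g = 1 ↔ g (ζL : Qbar) = (ζL : Qbar) := by
    intro g
    constructor
    · intro h1
      have h2 := S13.cycloChar_spec p g hζQp
      rw [h1] at h2
      have h3 : ((1 : (ZMod p)ˣ) : ZMod p).val = 1 := by
        have : Fact (1 < p) := ⟨hp.one_lt⟩
        rw [Units.val_one, ZMod.val_one]
      rwa [h3, pow_one] at h2
    · exact S13.cycloChar_eq_one_of_map_eq p g hζQp hζQ1
  have hresζ : ∀ g : GQ, res g ζL = ζL ↔ g (ζL : Qbar) = (ζL : Qbar) := by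
    intro g
    rw [← hrescomm]
    exact Subtype.ext_iff
  have hχ : ∀ g : GQ, S13.cycloChar p g = 1 ↔ res g ∈ (jHom K).range := by
    intro g
    rw [mem_range_jHom ζL K hK, hresζ, hχ1]
  obtain ⟨hcard, hconj⟩ := hadm.card_and_conj res hres (jHom K) (jHom_injective K) hk hχ hns
  -- instances for `K`
  have hnfK : NumberField K :=
    { to_charZero := inferInstance, to_finiteDimensional := inferInstance }
  have hprim : IsPrimitiveRoot ζL p := by
    have h1 := IsPrimitiveRoot.orderOf ζL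
    rwa [orderOf_eq_prime hζp hζ1] at h1
  have hcyc : IsCyclotomicExtension {p} ℚ K := by
    subst hK
    exact IsPrimitiveRoot.intermediateField_adjoin_isCyclotomicExtension ℚ hprim
  have hgalK : IsGalois K L := IsGalois.tower_top_intermediateField K
  -- degree
  have hdeg : Module.finrank K L = p := by
    rw [← IsGalois.card_aut_eq_finrank K L]
    exact hcard
  -- the conjugation action
  have hact : ∀ (g : L ≃ₐ[ℚ] L) (a : ℕ), (∀ ζ : L, ζ ^ p = 1 → g ζ = ζ ^ a) →
      ∀ σ : L ≃ₐ[K] L, g * (σ.restrictScalars ℚ) ^ a * g⁻¹ = σ.restrictScalars ℚ := by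
    intro g a hga σ
    obtain ⟨g', rfl⟩ := hres g
    refine hconj g' σ a ?_
    refine S13.cycloChar_eq_of_map_eq_pow p g' hζQp hζQ1 a ?_
    rw [← hrescomm, hga ζL hζp]
    simp
  -- local triviality
  have hloc2 : ∀ (A : ValuationSubring Qbar), A.LiesOverPrime p →
      ∀ g ∈ A.decompositionSubgroup ℚ, g (ζL : Qbar) = (ζL : Qbar) → ∀ v : V, g • v = v := by
    intro A hA g hg hgζ
    obtain ⟨C', hC'stab, hC'⟩ := h.locally_split A hA
    exact hadm.trivial_of_compl ((hχ1 g).mpr hgζ) C' hC' (fun x hx => hC'stab g hg x hx)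
  have hloc1 : ∀ (ℓ : ℕ), ℓ.Prime → ∀ (A : ValuationSubring Qbar), A.LiesOverPrime ℓ →
      ∀ g ∈ A.inertiaSubgroupIn ℚ, g (ζL : Qbar) = (ζL : Qbar) → ∀ v : V, g • v = v := by
    intro ℓ hℓ A hA g hg hgζ
    by_cases hℓp : ℓ = p
    · have hA' : A.LiesOverPrime p := hℓp ▸ hA
      exact hloc2 A hA' g (inertiaSubgroupIn_le_decompositionSubgroup A hg) hgζ
    · exact h.unramified_outside ℓ hℓ hℓp A hA g hg
  have hσζ : ∀ σ : L ≃ₐ[K] L, jHom K σ ζL = ζL := fun σ =>
    (mem_range_jHom ζL K hK (jHom K σ)).mp ⟨σ, rfl⟩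
  -- a lift acting trivially forces `σ = 1`
  have hfinish : ∀ (σ : L ≃ₐ[K] L) (g : GQ),
      (∀ b : L, g (b : Qbar) = ((jHom K σ b : L) : Qbar)) → (∀ v : V, g • v = v) → σ = 1 := by
    intro σ g hg htriv
    have h1 : res g = 1 := (hk g).mpr htriv
    have h2 : res g = jHom K σ := hresext g _ hg
    have h3 : jHom K σ = jHom K 1 := by rw [← h2, h1, map_one]
    exact jHom_injective K h3
  have hunr : UnramifiedEverywhere K L := by
    intro P hPprime hP0 σ hσ
    have hPmax : P.IsMaximal := hPprime.isMaximal hP0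
    obtain ⟨ℓ, hℓ, hℓP⟩ := exists_prime_natCast_mem P hPprime hP0
    obtain ⟨A, hAP⟩ := exists_valuationSubring_over L P hPmax
    have hA : A.LiesOverPrime ℓ := by
      have h1 := (hAP (ℓ : 𝓞 L)).mp hℓP
      change (ℓ : Qbar) ∈ A.nonunits
      simpa using h1
    have hτ : ∀ b : L, IsIntegral ℤ b →
        ((jHom K σ b : L) : Qbar) - (b : Qbar) ∈ A.nonunits := by
      intro b hb
      obtain ⟨x, rfl⟩ := (IsIntegralClosure.isIntegral_iff (R := ℤ) (A := 𝓞 L) (B := L)).mp hb
      have h1 : σ • x - x ∈ P := hσ x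
      have h2 := (hAP _).mp h1
      have h3 : algebraMap (𝓞 L) L (σ • x - x) =
          jHom K σ (algebraMap (𝓞 L) L x) - algebraMap (𝓞 L) L x := by
        rw [map_sub]; rfl
      have h4 : (((σ • x - x : 𝓞 L) : L) : Qbar) =
          ((jHom K σ (algebraMap (𝓞 L) L x) : L) : Qbar) - ((algebraMap (𝓞 L) L x : L) : Qbar) := by
        rw [show ((σ • x - x : 𝓞 L) : L) = algebraMap (𝓞 L) L (σ • x - x) from rfl, h3]
        rfl
      rwa [h4] at h2
    obtain ⟨g, hgI, hg⟩ := S13.exists_mem_inertiaSubgroupIn_restrict A hℓ hA L (jHom K σ) hτ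
    have hgζ : g (ζL : Qbar) = (ζL : Qbar) := by rw [hg, hσζ]
    exact hfinish σ g hg (hloc1 ℓ hℓ A hA g hgI hgζ)
  have hsplit : ∀ w : HeightOneSpectrum (𝓞 L), (p : 𝓞 L) ∈ w.asIdeal →
      ∀ σ : L ≃ₐ[K] L, σ • w.asIdeal = w.asIdeal → σ = 1 := by
    intro w hpw σ hσw
    obtain ⟨A, hAP⟩ := exists_valuationSubring_over L w.asIdeal w.isMaximal
    have hA : A.LiesOverPrime p := by
      have h1 := (hAP (p : 𝓞 L)).mp hpw
      change (p : Qbar) ∈ A.nonunits
      simpa using h1
    have hτ : ∀ b : L, IsIntegral ℤ b →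
        ((b : Qbar) ∈ A.nonunits ↔ ((jHom K σ b : L) : Qbar) ∈ A.nonunits) := by
      intro b hb
      obtain ⟨x, rfl⟩ := (IsIntegralClosure.isIntegral_iff (R := ℤ) (A := 𝓞 L) (B := L)).mp hb
      have h1 : σ • x ∈ σ • w.asIdeal ↔ x ∈ w.asIdeal := Ideal.smul_mem_pointwise_smul_iff
      rw [hσw] at h1
      have h2 := hAP x
      have h3 := hAP (σ • x)
      rw [← h2, ← h1, h3]
      rfl
    obtain ⟨g, hgD, hg⟩ := exists_mem_decompositionSubgroup_restrict A hp hA L (jHom K σ) hτ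
    have hgζ : g (ζL : Qbar) = (ζL : Qbar) := by rw [hg, hσζ]
    exact hfinish σ g hg (hloc2 A hA g hgD hgζ)
  exact hcore K L hdeg hunr hsplit hact

/-- **Front end of S14**: the number-field statement `core` implies the frozen
`ExtVanishingCts p`. -/
theorem front_end (h3 : 3 ≤ p)
    (hcore : ∀ (K L : Type) [Field K] [NumberField K] [Field L] [NumberField L] [Algebra K L]
      [IsCyclotomicExtension {p} ℚ K] [IsGalois ℚ L] [IsGalois K L],
      Module.finrank K L = p → UnramifiedEverywhere K L →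
      (∀ w : HeightOneSpectrum (𝓞 L), (p : 𝓞 L) ∈ w.asIdeal →
        ∀ σ : L ≃ₐ[K] L, σ • w.asIdeal = w.asIdeal → σ = 1) →
      (∀ (g : L ≃ₐ[ℚ] L) (a : ℕ), (∀ ζ : L, ζ ^ p = 1 → g ζ = ζ ^ a) →
        ∀ σ : L ≃ₐ[K] L, g * (σ.restrictScalars ℚ) ^ a * g⁻¹ = σ.restrictScalars ℚ) → False) :
    ExtCitation.ExtVanishingCts p := by
  intro V _ _ _ _ C hadmC
  have hp : p.Prime := Fact.out
  have h := hadmC.toIsAdmissibleExtension
  have hadm : AdmData (S13.cycloChar p) C := admData_of h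
  by_cases htriv : ∀ σ : GQ, S13.cycloChar p σ = 1 → ∀ v : V, σ • v = v
  · obtain ⟨σ₀, hσ₀⟩ := exists_cycloChar_ne_one p h3
    exact hadm.exists_compl htriv σ₀ hσ₀
  · exfalso
    have hns : ∃ g : GQ, S13.cycloChar p g = 1 ∧ ∃ v : V, g • v ≠ v := by
      by_contra hcon
      apply htriv
      intro σ hσ v
      by_contra hv
      exact hcon ⟨σ, hσ, v, hv⟩
    -- the kernel of the action
    obtain ⟨N, hNmem⟩ : ∃ N : Subgroup GQ, ∀ σ : GQ, σ ∈ N ↔ ∀ v : V, σ • v = v := by
      refine ⟨(MulAction.toPermHom GQ V).ker, fun σ => ?_⟩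
      rw [MonoidHom.mem_ker]
      constructor
      · intro h1 v
        exact congrArg (fun f : Equiv.Perm V => f v) h1
      · intro h1
        ext v
        exact h1 v
    have hNnormal : N.Normal := by
      refine ⟨fun n hn g => ?_⟩
      rw [hNmem] at hn ⊢
      intro v
      rw [mul_smul, mul_smul, hn, smul_inv_smul]
    have hNopen : IsOpen (N : Set GQ) := by
      have h2 : (N : Set GQ) = {σ : GQ | ∀ v : V, σ • v = v} := by
        ext σ; exact hNmem σ
      rw [h2]; exact hadmC.open_kernel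
    have hNclosed : IsClosed (N : Set GQ) := N.isClosed_of_isOpen hNopen
    obtain ⟨L, hLdef⟩ : ∃ L : IntermediateField ℚ Qbar, L = IntermediateField.fixedField N :=
      ⟨_, rfl⟩
    have hfix : L.fixingSubgroup = N := by
      rw [hLdef]
      exact InfiniteGalois.fixingSubgroup_fixedField ⟨N, hNclosed⟩
    have hfin : FiniteDimensional ℚ L :=
      (InfiniteGalois.isOpen_iff_finite L).mp (by rw [hfix]; exact hNopen)
    have hgal : IsGalois ℚ L :=
      (InfiniteGalois.normal_iff_isGalois L).mp (by rw [hfix]; exact hNnormal)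
    have hL : ∀ σ : GQ, σ ∈ L.fixingSubgroup ↔ ∀ v : V, σ • v = v := by
      intro σ; rw [hfix]; exact hNmem σ
    -- a primitive `p`-th root of unity lies in `L`
    obtain ⟨ζ, hζ, hζ1⟩ := S13.exists_root_ne_one p
    have hζL : ζ ∈ L := by
      rw [hLdef, IntermediateField.mem_fixedField_iff]
      intro σ hσ
      have h1 : S13.cycloChar p σ = 1 := hadm.chi_eq_one_of_trivial ((hNmem σ).mp hσ)
      have h2 := S13.cycloChar_spec p σ hζ
      rw [h1] at h2
      have h3' : ((1 : (ZMod p)ˣ) : ZMod p).val = 1 := by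
        have : Fact (1 < p) := ⟨hp.one_lt⟩
        rw [Units.val_one, ZMod.val_one]
      rwa [h3', pow_one] at h2
    exact nonsplit_false_aux hcore V C h L hL ⟨ζ, hζL⟩ (Subtype.ext (by simpa using hζ))
      (fun h1 => hζ1 (congrArg Subtype.val h1)) _ rfl hns

end Main

end Fermat.Agent.S14.Front
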