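/-
S14 / package BL, complex-valued corollaries: for a complex class function `f` with
`∑_C f C = 0`, the series `∑_I f([I]) N(I)^(-s)` is bounded on `(1, 2]`; regrouping by classes;
summability.  Two shapes of the term: the real power cast to `ℂ`, and the complex power.
-/
import Fermat.Agent.S14.BL

set_option autoImplicit false
noncomputable section

open scoped nonZeroDivisors Classical
open NumberField

namespace Fermat.Agent.S14.BL

variable (K : Type*) [Field K] [NumberField K]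

/-- the real power cast to `ℂ` is the complex power -/
theorem ofReal_absNorm_rpow (I : (Ideal (𝓞 K))⁰) (s : ℝ) :
    (((Ideal.absNorm (I : Ideal (𝓞 K)) : ℝ) ^ (-s) : ℝ) : ℂ) =
      ((Ideal.absNorm (I : Ideal (𝓞 K)) : ℕ) : ℂ) ^ (-(s : ℂ)) := by
  rw [Complex.ofReal_cpow (Nat.cast_nonneg _)]
  push_cast
  rfl

/-- Summability of a complex class-function-weighted ideal series (`s > 1`). -/
theorem summable_classFun_mul_ofReal (f : ClassGroup (𝓞 K) → ℂ) {s : ℝ} (hs : 1 < s) :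
    Summable fun I : (Ideal (𝓞 K))⁰ ↦
      f (ClassGroup.mk0 I) * (((Ideal.absNorm (I : Ideal (𝓞 K)) : ℝ) ^ (-s) : ℝ) : ℂ) := by
  refine Summable.of_norm ?_
  have hM : Summable fun I : (Ideal (𝓞 K))⁰ ↦
      (∑ C, ‖f C‖) * (Ideal.absNorm (I : Ideal (𝓞 K)) : ℝ) ^ (-s) :=
    (summable_absNorm_rpow K hs).mul_left _
  refine Summable.of_nonneg_of_le (fun I => norm_nonneg _) (fun I => ?_) hM
  have h0 : (0 : ℝ) ≤ (Ideal.absNorm (I : Ideal (𝓞 K)) : ℝ) ^ (-s) :=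
    Real.rpow_nonneg (Nat.cast_nonneg _) _
  rw [norm_mul, Complex.norm_real, Real.norm_of_nonneg h0]
  refine mul_le_mul_of_nonneg_right ?_ h0
  exact Finset.single_le_sum (f := fun C => ‖f C‖) (fun C _ => norm_nonneg _)
    (Finset.mem_univ (ClassGroup.mk0 I))

/-- Regrouping a complex class-function-weighted ideal series by classes. -/
theorem tsum_classFun_mul_ofReal (f : ClassGroup (𝓞 K) → ℂ) {s : ℝ} (hs : 1 < s) :
    ∑' I : (Ideal (𝓞 K))⁰,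
      f (ClassGroup.mk0 I) * (((Ideal.absNorm (I : Ideal (𝓞 K)) : ℝ) ^ (-s) : ℝ) : ℂ) =
      ∑ C, f C * ((classZeta K C s : ℝ) : ℂ) := by
  have hfib : ∀ C : ClassGroup (𝓞 K),
      Summable fun I : {I : (Ideal (𝓞 K))⁰ // ClassGroup.mk0 I = C} ↦
        f (ClassGroup.mk0 I.1) * (((Ideal.absNorm (I.1 : Ideal (𝓞 K)) : ℝ) ^ (-s) : ℝ) : ℂ) :=
    fun C => (summable_classFun_mul_ofReal K f hs).subtype _
  have hall : Summable fun p :
      (Σ C : ClassGroup (𝓞 K), {I : (Ideal (𝓞 K))⁰ // ClassGroup.mk0 I = C}) ↦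
      f (ClassGroup.mk0 p.2.1) * (((Ideal.absNorm (p.2.1 : Ideal (𝓞 K)) : ℝ) ^ (-s) : ℝ) : ℂ) :=
    (Equiv.sigmaFiberEquiv (ClassGroup.mk0 (R := 𝓞 K))).summable_iff.mpr
      (summable_classFun_mul_ofReal K f hs)
  have e0 : ∑' I : (Ideal (𝓞 K))⁰,
      f (ClassGroup.mk0 I) * (((Ideal.absNorm (I : Ideal (𝓞 K)) : ℝ) ^ (-s) : ℝ) : ℂ) =
      ∑' p : (Σ C : ClassGroup (𝓞 K), {I : (Ideal (𝓞 K))⁰ // ClassGroup.mk0 I = C}),
        f (ClassGroup.mk0 p.2.1) *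
          (((Ideal.absNorm (p.2.1 : Ideal (𝓞 K)) : ℝ) ^ (-s) : ℝ) : ℂ) :=
    ((Equiv.sigmaFiberEquiv (ClassGroup.mk0 (R := 𝓞 K))).tsum_eq
      (fun I : (Ideal (𝓞 K))⁰ =>
        f (ClassGroup.mk0 I) *
          (((Ideal.absNorm (I : Ideal (𝓞 K)) : ℝ) ^ (-s) : ℝ) : ℂ))).symm
  rw [e0, hall.tsum_sigma, tsum_fintype]
  refine Finset.sum_congr rfl fun C _ => ?_
  rw [classZeta, Complex.ofReal_tsum, ← tsum_mul_left]
  refine tsum_congr fun I => ?_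
  show f (ClassGroup.mk0 I.1) * _ = _
  rw [I.2]

/-- **Bounded class-character series, complex form.** There is `B` such that for every complex
class function `f` with `∑_C f C = 0`, the series `∑_I f([I]) N(I)^(-s)` has norm at most
`B * ∑_C ‖f C‖` for `1 < s ≤ 2`. -/
theorem exists_bound_tsum_classFun_ofReal :
    ∃ B : ℝ, 0 ≤ B ∧ ∀ s : ℝ, 1 < s → s ≤ 2 → ∀ f : ClassGroup (𝓞 K) → ℂ, ∑ C, f C = 0 →
      ‖∑' I : (Ideal (𝓞 K))⁰,
        f (ClassGroup.mk0 I) * (((Ideal.absNorm (I : Ideal (𝓞 K)) : ℝ) ^ (-s) : ℝ) : ℂ)‖ ≤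
        B * ∑ C, ‖f C‖ := by
  obtain ⟨B, hB⟩ := exists_bound_classZeta_sub K
  refine ⟨|B|, abs_nonneg _, fun s hs hs2 f hf => ?_⟩
  rw [tsum_classFun_mul_ofReal K f hs]
  have e : ∑ C, f C * ((classZeta K C s : ℝ) : ℂ) =
      ∑ C, f C * (((classZeta K C s - classZeta K 1 s : ℝ)) : ℂ) := by
    simp only [Complex.ofReal_sub, mul_sub, Finset.sum_sub_distrib, ← Finset.sum_mul, hf,
      zero_mul, sub_zero]
  rw [e, Finset.mul_sum]
  refine (norm_sum_le _ _).trans (Finset.sum_le_sum fun C _ => ?_)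
  rw [norm_mul, Complex.norm_real, Real.norm_eq_abs, mul_comm]
  exact mul_le_mul_of_nonneg_right ((hB s hs hs2 C 1).trans (le_abs_self B)) (norm_nonneg _)

/-! ### The same three statements with the complex power `(N I : ℂ) ^ (-(s : ℂ))` -/

theorem summable_classFun_mul_cpow (f : ClassGroup (𝓞 K) → ℂ) {s : ℝ} (hs : 1 < s) :
    Summable fun I : (Ideal (𝓞 K))⁰ ↦
      f (ClassGroup.mk0 I) * ((Ideal.absNorm (I : Ideal (𝓞 K)) : ℕ) : ℂ) ^ (-(s : ℂ)) :=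
  (summable_classFun_mul_ofReal K f hs).congr fun I => by rw [ofReal_absNorm_rpow]

theorem tsum_classFun_mul_cpow (f : ClassGroup (𝓞 K) → ℂ) {s : ℝ} (hs : 1 < s) :
    ∑' I : (Ideal (𝓞 K))⁰,
      f (ClassGroup.mk0 I) * ((Ideal.absNorm (I : Ideal (𝓞 K)) : ℕ) : ℂ) ^ (-(s : ℂ)) =
      ∑ C, f C * ((classZeta K C s : ℝ) : ℂ) := by
  rw [← tsum_classFun_mul_ofReal K f hs]
  exact tsum_congr fun I => by rw [ofReal_absNorm_rpow]

theorem exists_bound_tsum_classFun_cpow :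
    ∃ B : ℝ, 0 ≤ B ∧ ∀ s : ℝ, 1 < s → s ≤ 2 → ∀ f : ClassGroup (𝓞 K) → ℂ, ∑ C, f C = 0 →
      ‖∑' I : (Ideal (𝓞 K))⁰,
        f (ClassGroup.mk0 I) * ((Ideal.absNorm (I : Ideal (𝓞 K)) : ℕ) : ℂ) ^ (-(s : ℂ))‖ ≤
        B * ∑ C, ‖f C‖ := by
  obtain ⟨B, hB0, hB⟩ := exists_bound_tsum_classFun_ofReal K
  refine ⟨B, hB0, fun s hs hs2 f hf => ?_⟩
  have e : ∑' I : (Ideal (𝓞 K))⁰,
      f (ClassGroup.mk0 I) * ((Ideal.absNorm (I : Ideal (𝓞 K)) : ℕ) : ℂ) ^ (-(s : ℂ)) =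
      ∑' I : (Ideal (𝓞 K))⁰,
        f (ClassGroup.mk0 I) * (((Ideal.absNorm (I : Ideal (𝓞 K)) : ℝ) ^ (-s) : ℝ) : ℂ) :=
    tsum_congr fun I => by rw [ofReal_absNorm_rpow]
  rw [e]
  exact hB s hs hs2 f hf

/-- The class zeta functions are nonnegative. -/
theorem classZeta_nonneg (C : ClassGroup (𝓞 K)) (s : ℝ) : 0 ≤ classZeta K C s :=
  tsum_nonneg fun _ => Real.rpow_nonneg (Nat.cast_nonneg _) _

end Fermat.Agent.S14.BL
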