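/-
S14 / package BL, sub-package LB1 (core): summability and the `O(1/(s-1))` bound for the
smoothed lattice sum `∑_{a ∈ 𝓞 K} G K s a`, from a pointwise bound
`G K s x ≤ c ‖x‖ ^ (-n s)` (`n = [K : ℚ]`) taken as a hypothesis.
-/
import Fermat.Agent.S14.BLDefs

set_option autoImplicit false
noncomputable section

open scoped nonZeroDivisors Classical
open NumberField NumberField.mixedEmbedding NumberField.InfinitePlace NumberField.Units
  NumberField.Units.dirichletUnitTheorem Module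

namespace Fermat.Agent.S14.BL

namespace LB1

/-! ### The elementary `p`-series bound -/

theorem rpow_succ_le_sub {ε x : ℝ} (hε : 0 < ε) (hx : 0 < x) :
    (x + 1) ^ (-(1 + ε)) ≤ (1 / ε) * (x ^ (-ε) - (x + 1) ^ (-ε)) := by
  have hy : 0 < x + 1 := by linarith
  set t : ℝ := x / (x + 1) with ht
  have ht0 : 0 < t := div_pos hx hy
  have hxt : x = t * (x + 1) := by rw [ht]; field_simp
  have h1 : 1 + ε * (1 - t) ≤ t ^ (-ε) := by
    rw [Real.rpow_def_of_pos ht0]
    have h2 := Real.add_one_le_exp (Real.log t * -ε)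
    have h3 := Real.log_le_sub_one_of_pos ht0
    nlinarith
  have h4 : x ^ (-ε) = t ^ (-ε) * (x + 1) ^ (-ε) := by
    conv_lhs => rw [hxt]
    rw [Real.mul_rpow ht0.le hy.le]
  have h5 : (x + 1) ^ (-(1 + ε)) = (x + 1) ^ (-ε) * (x + 1)⁻¹ := by
    rw [show -(1 + ε) = -ε + -1 by ring, Real.rpow_add hy, Real.rpow_neg_one]
  have h6 : 1 - t = (x + 1)⁻¹ := by rw [ht]; field_simp; ring
  have h7 : 0 < (x + 1) ^ (-ε) := Real.rpow_pos_of_pos hy _
  rw [h4, h5]
  have h8 : (x + 1) ^ (-ε) * (x + 1)⁻¹ * ε ≤ (t ^ (-ε) - 1) * (x + 1) ^ (-ε) := by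
    rw [h6] at h1
    nlinarith
  rw [show (1 / ε) * (t ^ (-ε) * (x + 1) ^ (-ε) - (x + 1) ^ (-ε))
      = ((t ^ (-ε) - 1) * (x + 1) ^ (-ε)) / ε by ring, le_div_iff₀ hε]
  exact h8

theorem sum_range_rpow_le {ε : ℝ} (hε : 0 < ε) (M : ℕ) :
    ∑ k ∈ Finset.range (M + 2), (k : ℝ) ^ (-(1 + ε))
      ≤ 1 + (1 / ε) * (1 - ((M + 1 : ℕ) : ℝ) ^ (-ε)) := by
  induction M with
  | zero =>
    have h0 : (0 : ℝ) ^ (-(1 + ε)) = 0 := Real.zero_rpow (by linarith)
    rw [Finset.sum_range_succ, Finset.sum_range_one]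
    simp only [Nat.cast_zero, zero_add, Nat.cast_one, Real.one_rpow, sub_self, mul_zero, add_zero]
    rw [h0]; norm_num
  | succ M ih =>
    rw [Finset.sum_range_succ]
    have h1 := rpow_succ_le_sub hε (x := ((M + 1 : ℕ) : ℝ)) (by positivity)
    have h2 : (((M + 1 : ℕ) : ℝ) + 1) = ((M + 1 + 1 : ℕ) : ℝ) := by push_cast; ring
    rw [h2] at h1
    linarith

theorem tsum_nat_rpow_le {ε : ℝ} (hε : 0 < ε) :
    ∑' k : ℕ, (k : ℝ) ^ (-(1 + ε)) ≤ 1 + 1 / ε := by
  refine Real.tsum_le_of_sum_range_le (fun k => by positivity) fun n => ?_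
  have hmono : ∑ k ∈ Finset.range n, (k : ℝ) ^ (-(1 + ε))
      ≤ ∑ k ∈ Finset.range (n + 2), (k : ℝ) ^ (-(1 + ε)) :=
    Finset.sum_le_sum_of_subset_of_nonneg (Finset.range_mono (by omega))
      fun k _ _ => by positivity
  refine hmono.trans ((sum_range_rpow_le hε n).trans ?_)
  have h1 : 0 ≤ ((n + 1 : ℕ) : ℝ) ^ (-ε) := by positivity
  have h2 : 0 ≤ 1 / ε := by positivity
  nlinarith

variable (K : Type*) [Field K] [NumberField K]

/-! ### The integer lattice -/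

theorem finrank_integerLattice :
    finrank ℤ (mixedEmbedding.integerLattice K) = finrank ℚ K := by
  rw [ZLattice.rank ℝ, mixedEmbedding.finrank]

/-- The ring of integers as the integer lattice of the mixed space. -/
def intEquiv : 𝓞 K ≃ mixedEmbedding.integerLattice K :=
  Equiv.ofBijective (fun a => ⟨mixedEmbedding K (a : K), ⟨a, rfl⟩⟩)
    ⟨fun a b hab => by
      have h1 : mixedEmbedding K (a : K) = mixedEmbedding K (b : K) := congrArg Subtype.val hab
      exact RingOfIntegers.ext (mixedEmbedding_injective K h1),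
     fun z => by
      obtain ⟨a, ha⟩ := z.2
      exact ⟨a, Subtype.ext ha⟩⟩

theorem intEquiv_coe (a : 𝓞 K) :
    ((intEquiv K a : mixedEmbedding.integerLattice K) : mixedSpace K)
      = mixedEmbedding K (a : K) := rfl

theorem summable_norm_rpow {r : ℝ} (hr : r < -(finrank ℚ K : ℝ)) :
    Summable fun a : 𝓞 K => ‖mixedEmbedding K (a : K)‖ ^ r := by
  have h := ZLattice.summable_norm_rpow (mixedEmbedding.integerLattice K) r
    (by rw [finrank_integerLattice]; exact hr)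
  exact ((intEquiv K).summable_iff).mpr h

theorem tsum_norm_rpow_le {r : ℝ} (hr : r < -(finrank ℚ K : ℝ)) :
    ∑' a : 𝓞 K, ‖mixedEmbedding K (a : K)‖ ^ r
      ≤ ZLattice.tsumNormRPowBound (mixedEmbedding.integerLattice K) ^ r
        * ∑' k : ℕ, (k : ℝ) ^ ((finrank ℚ K : ℝ) - 1 + r) := by
  have h := ZLattice.tsum_norm_rpow_le (mixedEmbedding.integerLattice K) r
    (by rw [finrank_integerLattice]; exact hr)
  rw [finrank_integerLattice] at h
  have h2 : ∑' a : 𝓞 K, ‖mixedEmbedding K (a : K)‖ ^ r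
      = ∑' z : mixedEmbedding.integerLattice K, ‖z‖ ^ r :=
    (intEquiv K).tsum_eq (fun z : mixedEmbedding.integerLattice K => ‖z‖ ^ r)
  rw [h2]
  exact h

/-! ### Positivity and monotonicity of `G` on integers -/

theorem theta_nonneg' (y : logSpace K) : 0 ≤ theta K y :=
  Finset.prod_nonneg fun _ _ => le_max_left _ _

theorem G_nonneg (s : ℝ) (x : mixedSpace K) : 0 ≤ G K s x :=
  mul_nonneg (theta_nonneg' K _) (Real.rpow_nonneg (mixedEmbedding.norm_nonneg _) _)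

theorem one_le_norm_of_ne_zero {a : 𝓞 K} (ha : a ≠ 0) :
    1 ≤ mixedEmbedding.norm (mixedEmbedding K (a : K)) := by
  rw [mixedEmbedding.norm_eq_norm, ← Algebra.coe_norm_int, ← Int.cast_abs]
  have h1 : Algebra.norm ℤ a ≠ 0 := Algebra.norm_ne_zero_iff.mpr ha
  have h2 : (1 : ℤ) ≤ |Algebra.norm ℤ a| := Int.one_le_abs h1
  exact_mod_cast h2

theorem G_le_G_two {s : ℝ} (hs : 2 ≤ s) (a : 𝓞 K) :
    G K s (mixedEmbedding K (a : K)) ≤ G K 2 (mixedEmbedding K (a : K)) := by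
  unfold G
  refine mul_le_mul_of_nonneg_left ?_ (theta_nonneg' K _)
  by_cases ha : a = 0
  · subst ha
    have h0 : mixedEmbedding.norm (mixedEmbedding K ((0 : 𝓞 K) : K)) = 0 := by
      simp
    rw [h0, Real.zero_rpow (by linarith), Real.zero_rpow (by norm_num)]
  · exact Real.rpow_le_rpow_of_exponent_le (one_le_norm_of_ne_zero K ha) (by linarith)

end LB1

variable (K : Type*) [Field K] [NumberField K]

/-- Summability of the smoothed lattice sum, from the pointwise bound on `1 ≤ s ≤ 2`. -/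
theorem summable_G_of_le
    (hG : ∃ c : ℝ, 0 < c ∧ ∀ s : ℝ, 1 ≤ s → s ≤ 2 → ∀ x : mixedSpace K,
      G K s x ≤ c * ‖x‖ ^ (-(finrank ℚ K : ℝ) * s))
    (s : ℝ) (hs : 1 < s) :
    Summable fun a : 𝓞 K ↦ G K s (mixedEmbedding K (a : K)) := by
  obtain ⟨c, hc, hG⟩ := hG
  have hn : (0 : ℝ) < finrank ℚ K := by exact_mod_cast (Module.finrank_pos : 0 < finrank ℚ K)
  have key : ∀ s : ℝ, 1 < s → s ≤ 2 →
      Summable fun a : 𝓞 K ↦ G K s (mixedEmbedding K (a : K)) := by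
    intro s hs hs2
    have hr : -(finrank ℚ K : ℝ) * s < -(finrank ℚ K : ℝ) := by nlinarith
    exact Summable.of_nonneg_of_le (fun a => LB1.G_nonneg K s _)
      (fun a => hG s hs.le hs2 _) ((LB1.summable_norm_rpow K hr).mul_left c)
  rcases le_or_gt s 2 with hs2 | hs2
  · exact key s hs hs2
  · exact Summable.of_nonneg_of_le (fun a => LB1.G_nonneg K s _)
      (fun a => LB1.G_le_G_two K hs2.le a) (key 2 (by norm_num) le_rfl)

/-- The `O(1/(s-1))` bound for the smoothed lattice sum, from the pointwise bound. -/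
theorem exists_bound_tsum_G_of_le
    (hG : ∃ c : ℝ, 0 < c ∧ ∀ s : ℝ, 1 ≤ s → s ≤ 2 → ∀ x : mixedSpace K,
      G K s x ≤ c * ‖x‖ ^ (-(finrank ℚ K : ℝ) * s)) :
    ∃ B : ℝ, ∀ s : ℝ, 1 < s → s ≤ 2 →
      (∑' a : 𝓞 K, G K s (mixedEmbedding K (a : K))) ≤ B / (s - 1) := by
  have hsum := summable_G_of_le K hG
  obtain ⟨c, hc, hG⟩ := hG
  set n : ℝ := (finrank ℚ K : ℝ) with hn_def
  have hn1 : (1 : ℝ) ≤ n := by
    rw [hn_def]; exact_mod_cast (Module.finrank_pos : 0 < finrank ℚ K)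
  set A : ℝ := ZLattice.tsumNormRPowBound (mixedEmbedding.integerLattice K) with hA_def
  have hA : 0 < A := ZLattice.tsumNormRPowBound_pos _
  refine ⟨c * ((A ^ (-n) + A ^ (-(2 * n))) * 2), fun s hs hs2 => ?_⟩
  have hs1 : 0 < s - 1 := sub_pos.mpr hs
  have hr : -n * s < -n := by nlinarith
  have h1 : (∑' a : 𝓞 K, G K s (mixedEmbedding K (a : K)))
      ≤ ∑' a : 𝓞 K, c * ‖mixedEmbedding K (a : K)‖ ^ (-n * s) :=
    (hsum s hs).tsum_le_tsum (fun a => hG s hs.le hs2 _)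
      ((LB1.summable_norm_rpow K hr).mul_left c)
  rw [tsum_mul_left] at h1
  have h2 := LB1.tsum_norm_rpow_le K hr
  have hε : 0 < n * (s - 1) := by nlinarith
  have h3 : ∑' k : ℕ, (k : ℝ) ^ (n - 1 + -n * s) ≤ 1 + 1 / (n * (s - 1)) := by
    have h4 := LB1.tsum_nat_rpow_le hε
    rw [show -(1 + n * (s - 1)) = n - 1 + -n * s by ring] at h4
    exact h4
  have h5 : 1 + 1 / (n * (s - 1)) ≤ 2 / (s - 1) := by
    have h6 : 1 / (n * (s - 1)) ≤ 1 / (s - 1) :=
      one_div_le_one_div_of_le hs1 (by nlinarith)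
    have h7 : 1 ≤ 1 / (s - 1) := by
      rw [le_div_iff₀ hs1]; linarith
    have h8 : 2 / (s - 1) = 1 / (s - 1) + 1 / (s - 1) := by ring
    linarith
  have h9 : A ^ (-n * s) ≤ A ^ (-n) + A ^ (-(2 * n)) := by
    have hp1 : 0 ≤ A ^ (-n) := (Real.rpow_pos_of_pos hA _).le
    have hp2 : 0 ≤ A ^ (-(2 * n)) := (Real.rpow_pos_of_pos hA _).le
    rcases le_or_gt 1 A with hA1 | hA1
    · have := Real.rpow_le_rpow_of_exponent_le hA1 hr.le
      linarith
    · have := Real.rpow_le_rpow_of_exponent_ge hA hA1.le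
        (show -(2 * n) ≤ -n * s by nlinarith)
      linarith
  have h10 : 0 ≤ ∑' k : ℕ, (k : ℝ) ^ (n - 1 + -n * s) := tsum_nonneg fun k => by positivity
  have h11 : 0 ≤ A ^ (-n * s) := (Real.rpow_pos_of_pos hA _).le
  have h12 : 0 ≤ 2 / (s - 1) := by positivity
  calc (∑' a : 𝓞 K, G K s (mixedEmbedding K (a : K)))
      ≤ c * ∑' a : 𝓞 K, ‖mixedEmbedding K (a : K)‖ ^ (-n * s) := h1
    _ ≤ c * (A ^ (-n * s) * ∑' k : ℕ, (k : ℝ) ^ (n - 1 + -n * s)) :=
        mul_le_mul_of_nonneg_left h2 hc.le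
    _ ≤ c * ((A ^ (-n) + A ^ (-(2 * n))) * (2 / (s - 1))) := by
        refine mul_le_mul_of_nonneg_left ?_ hc.le
        exact mul_le_mul h9 (h3.trans h5) h10 (by positivity)
    _ = c * ((A ^ (-n) + A ^ (-(2 * n))) * 2) / (s - 1) := by ring

end Fermat.Agent.S14.BL
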