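import Fermat.Agent.S14.Defs

/-!
# S14, package Core (abstract form)

`Core.core_aux`: the core contradiction of S14 with the three global inputs
(`exists_not_split`, `reciprocity`, `exists_jacobi` of the blueprint) as explicit hypotheses.

Setting: `K = ℚ(ζ_p)`, `L/K` Galois of degree `p`, unramified everywhere, split at `p`,
`L/ℚ` Galois with `Gal(K/ℚ)` acting on `Gal(L/K)` through `ω⁻¹` (`hact`).

* primes of `L` over `ℓ ≢ 1 mod p` have trivial decomposition group in `L/K`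
  (`stabilizer_trivial_of_not_modEq`, commutator with a Frobenius over `ℤ`);
* for a prime `v` of `K` over `q ≡ 1 mod p`: the Frobenius exponents satisfy
  `a * t v ≡ t (σ_a⁻¹ v)` (`frob_exponent_conj`), the divisor of the Jacobi element is
  `∑_{0 < a < p/2} σ_a⁻¹ v`, so reciprocity at an auxiliary prime `r ∣ Φ_p(q)`, `r ≠ p`
  (`exists_aux_prime`) gives `p ∣ t v * ∑_{a < p/2} a`, hence `p ∣ t v` (`dvd_frob_exponent`).
-/

set_option autoImplicit false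
set_option linter.unusedSectionVars false
set_option linter.style.haveILetI false

namespace Fermat.Agent.S14.Core

open NumberField IsDedekindDomain
open scoped nonZeroDivisors Pointwise

section GaloisBasics

variable {p : ℕ} [Fact p.Prime]
    {K L : Type} [Field K] [NumberField K] [Field L] [NumberField L] [Algebra K L]
    [IsGalois K L]

theorem card_gal (hdeg : Module.finrank K L = p) : Nat.card (L ≃ₐ[K] L) = p := by
  rw [IsGalois.card_aut_eq_finrank, hdeg]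

theorem mem_powers_gen (hdeg : Module.finrank K L = p) {τ : L ≃ₐ[K] L} (hτ : τ ≠ 1)
    (φ : L ≃ₐ[K] L) : ∃ n : ℕ, τ ^ n = φ := by
  have := mem_powers_of_prime_card (card_gal hdeg) hτ (g' := φ)
  exact this

theorem gal_comm (hdeg : Module.finrank K L = p) (σ φ : L ≃ₐ[K] L) : σ * φ = φ * σ := by
  by_cases hσ : σ = 1
  · subst hσ; simp
  · obtain ⟨n, rfl⟩ := mem_powers_gen hdeg hσ φ
    exact (Commute.self_pow σ n).eq

theorem orderOf_gen (hdeg : Module.finrank K L = p) {τ : L ≃ₐ[K] L} (hτ : τ ≠ 1) :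
    orderOf τ = p := by
  have h1 : orderOf τ ∣ p := by
    have := orderOf_dvd_natCard τ
    rwa [card_gal hdeg] at this
  rcases (Nat.dvd_prime (Fact.out : p.Prime)).mp h1 with h | h
  · exact absurd (orderOf_eq_one_iff.mp h) hτ
  · exact h

/-- A Frobenius exponent function: `τ ^ t v` is the Frobenius at every prime above `v`. -/
theorem exists_frob_exponent (hdeg : Module.finrank K L = p) {τ : L ≃ₐ[K] L} (hτ : τ ≠ 1) :
    ∃ t : HeightOneSpectrum (𝓞 K) → ℕ,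
      ∀ (v : HeightOneSpectrum (𝓞 K)) (w : HeightOneSpectrum (𝓞 L)),
        w.asIdeal.comap (algebraMap (𝓞 K) (𝓞 L)) = v.asIdeal →
          IsArithFrobAt (𝓞 K) (τ ^ t v) w.asIdeal := by
  classical
  have key : ∀ v : HeightOneSpectrum (𝓞 K), ∃ n : ℕ, ∀ w : HeightOneSpectrum (𝓞 L),
      w.asIdeal.comap (algebraMap (𝓞 K) (𝓞 L)) = v.asIdeal →
        IsArithFrobAt (𝓞 K) (τ ^ n) w.asIdeal := by
    intro v
    by_cases hex : ∃ w₀ : HeightOneSpectrum (𝓞 L),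
        w₀.asIdeal.comap (algebraMap (𝓞 K) (𝓞 L)) = v.asIdeal
    · obtain ⟨w₀, hw₀⟩ := hex
      obtain ⟨φ, hφ⟩ := IsArithFrobAt.exists_of_isInvariant (𝓞 K) (L ≃ₐ[K] L) w₀.asIdeal
      obtain ⟨n, rfl⟩ := mem_powers_gen hdeg hτ φ
      refine ⟨n, fun w hw => ?_⟩
      obtain ⟨g, hg⟩ := Algebra.IsInvariant.exists_smul_of_under_eq (𝓞 K) (𝓞 L) (L ≃ₐ[K] L)
        w₀.asIdeal w.asIdeal (by rw [Ideal.under, Ideal.under, hw₀, hw])
      have h2 := hφ.conj g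
      rw [← hg] at h2
      have h3 : g * τ ^ n * g⁻¹ = τ ^ n := by
        rw [gal_comm hdeg g (τ ^ n), mul_assoc, mul_inv_cancel, mul_one]
      rwa [h3] at h2
    · exact ⟨0, fun w hw => absurd ⟨w, hw⟩ hex⟩
  choose t ht using key
  exact ⟨t, ht⟩

end GaloisBasics

section Unram

variable {K L : Type} [Field K] [NumberField K] [Field L] [NumberField L] [Algebra K L]
    [IsGalois K L]

/-- Two "Frobenius-like" elements with the same exponent agree (trivial inertia). -/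
theorem frob_unique (hunr : UnramifiedEverywhere K L) (w : HeightOneSpectrum (𝓞 L)) (N : ℕ)
    {φ ψ : L ≃ₐ[K] L} (hφ : ∀ x : 𝓞 L, φ • x - x ^ N ∈ w.asIdeal)
    (hψ : ∀ x : 𝓞 L, ψ • x - x ^ N ∈ w.asIdeal) : φ = ψ := by
  have h : φ * ψ⁻¹ = 1 := by
    refine hunr w.asIdeal w.isPrime w.ne_bot _ fun x => ?_
    have h1 := hφ (ψ⁻¹ • x)
    have h2 := hψ (ψ⁻¹ • x)
    have h3 := sub_mem h1 h2
    simpa [mul_smul] using h3
  exact mul_inv_eq_one.mp h

/-- If the identity is a Frobenius at `w`, the decomposition group at `w` is trivial. -/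
theorem stabilizer_trivial_of_frob_one (hunr : UnramifiedEverywhere K L)
    (w : HeightOneSpectrum (𝓞 L))
    (h1 : IsArithFrobAt (𝓞 K) (1 : L ≃ₐ[K] L) w.asIdeal)
    (σ : L ≃ₐ[K] L) (hσ : σ • w.asIdeal = w.asIdeal) : σ = 1 := by
  classical
  set v : Ideal (𝓞 K) := w.asIdeal.under (𝓞 K) with hv
  set N := Nat.card (𝓞 K ⧸ v) with hN
  have hx : ∀ x : 𝓞 L, x - x ^ N ∈ w.asIdeal := by
    intro x
    have := h1 x
    simpa using this
  haveI : w.asIdeal.IsMaximal := w.isMaximal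
  letI : Field (𝓞 L ⧸ w.asIdeal) := Ideal.Quotient.field _
  haveI : Finite (𝓞 L ⧸ w.asIdeal) := inferInstance
  haveI : Fintype (𝓞 L ⧸ w.asIdeal) := Fintype.ofFinite _
  have hinj : Function.Injective (algebraMap (𝓞 K ⧸ v) (𝓞 L ⧸ w.asIdeal)) :=
    Ideal.algebraMap_quotient_injective
  haveI : Finite (𝓞 K ⧸ v) := Finite.of_injective _ hinj
  haveI : v.IsPrime := Ideal.IsPrime.under _ _
  haveI : Nontrivial (𝓞 K ⧸ v) := Ideal.Quotient.nontrivial_iff.mpr (Ideal.IsPrime.ne_top inferInstance)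
  have hN2 : 1 < N := Finite.one_lt_card
  -- all elements of the residue field are roots of X^N - X
  have hroot : ∀ y : 𝓞 L ⧸ w.asIdeal, y ^ N = y := by
    intro y
    obtain ⟨x, rfl⟩ := Ideal.Quotient.mk_surjective y
    rw [← map_pow, eq_comm, Ideal.Quotient.eq]
    exact hx x
  have hcard : Nat.card (𝓞 L ⧸ w.asIdeal) ≤ N := by
    rw [Nat.card_eq_fintype_card, ← Finset.card_univ]
    have hsub : (Finset.univ : Finset (𝓞 L ⧸ w.asIdeal)).val ⊆
        (Polynomial.X ^ N - Polynomial.X : Polynomial (𝓞 L ⧸ w.asIdeal)).roots := by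
      intro y _
      rw [Polynomial.mem_roots (FiniteField.X_pow_card_sub_X_ne_zero _ hN2)]
      simp [hroot y]
    calc (Finset.univ : Finset (𝓞 L ⧸ w.asIdeal)).card
        ≤ (Polynomial.X ^ N - Polynomial.X : Polynomial (𝓞 L ⧸ w.asIdeal)).natDegree :=
          Polynomial.card_le_degree_of_subset_roots hsub
      _ = N := FiniteField.X_pow_card_sub_X_natDegree_eq _ hN2
  have hsurj : Function.Surjective (algebraMap (𝓞 K ⧸ v) (𝓞 L ⧸ w.asIdeal)) :=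
    (Function.Injective.bijective_of_nat_card_le hinj hcard).2
  refine hunr w.asIdeal w.isPrime w.ne_bot σ fun x => ?_
  obtain ⟨y', hy'⟩ := hsurj (Ideal.Quotient.mk _ x)
  obtain ⟨y, rfl⟩ := Ideal.Quotient.mk_surjective y'
  have hmem : x - algebraMap (𝓞 K) (𝓞 L) y ∈ w.asIdeal := by
    rw [← Ideal.Quotient.eq, ← hy']
    rfl
  have h2 : σ • (x - algebraMap (𝓞 K) (𝓞 L) y) ∈ w.asIdeal := by
    have := Ideal.smul_mem_pointwise_smul σ _ _ hmem
    rwa [hσ] at this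
  have h3 : σ • x - x = σ • (x - algebraMap (𝓞 K) (𝓞 L) y) - (x - algebraMap (𝓞 K) (𝓞 L) y) := by
    rw [smul_sub, smul_algebraMap]; ring
  rw [h3]
  exact sub_mem h2 hmem

end Unram

section RatFrob

variable {L : Type} [Field L] [NumberField L]

theorem under_int_eq (w : HeightOneSpectrum (𝓞 L)) {ℓ : ℕ} (hℓ : ℓ.Prime)
    (hℓw : (ℓ : 𝓞 L) ∈ w.asIdeal) : w.asIdeal.under ℤ = Ideal.span {(ℓ : ℤ)} := by
  have hmax : (Ideal.span {(ℓ : ℤ)}).IsMaximal :=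
    PrincipalIdealRing.isMaximal_of_irreducible
      (Nat.prime_iff_prime_int.mp hℓ).irreducible
  have hle : Ideal.span {(ℓ : ℤ)} ≤ w.asIdeal.under ℤ := by
    rw [Ideal.span_singleton_le_iff_mem, Ideal.under, Ideal.mem_comap]
    simpa using hℓw
  have hne : w.asIdeal.under ℤ ≠ ⊤ := (Ideal.IsPrime.under ℤ w.asIdeal).ne_top
  exact (hmax.eq_of_le hne hle).symm

theorem card_under_int (w : HeightOneSpectrum (𝓞 L)) {ℓ : ℕ} (hℓ : ℓ.Prime)
    (hℓw : (ℓ : 𝓞 L) ∈ w.asIdeal) : Nat.card (ℤ ⧸ w.asIdeal.under ℤ) = ℓ := by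
  rw [under_int_eq w hℓ hℓw, ← Submodule.cardQuot_apply, ← Ideal.absNorm_apply,
    Ideal.absNorm_span_singleton]
  simp

theorem natCast_not_mem_of_ne (w : HeightOneSpectrum (𝓞 L)) {ℓ q : ℕ} (hℓ : ℓ.Prime)
    (hq : q.Prime) (hne : ℓ ≠ q) (hℓw : (ℓ : 𝓞 L) ∈ w.asIdeal) : (q : 𝓞 L) ∉ w.asIdeal := by
  intro hqw
  have hcop : Nat.Coprime ℓ q := (Nat.coprime_primes hℓ hq).mpr hne
  have h1 : ((1 : ℤ) : 𝓞 L) ∈ w.asIdeal := by
    obtain ⟨a, b, hab⟩ := Nat.isCoprime_iff_coprime.mpr hcop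
    have : ((a * ℓ + b * q : ℤ) : 𝓞 L) ∈ w.asIdeal := by
      push_cast
      exact add_mem (Ideal.mul_mem_left _ _ hℓw) (Ideal.mul_mem_left _ _ hqw)
    rwa [hab] at this
  exact w.isPrime.ne_top ((Ideal.eq_top_iff_one _).mpr (by simpa using h1))

variable [IsGalois ℚ L]

/-- A Frobenius over `ℤ` at `w`: acts as `x ↦ x ^ ℓ` mod `w`, and raises `p`-th roots of unity
to the `ℓ`-th power. -/
theorem exists_rat_frob (w : HeightOneSpectrum (𝓞 L)) {ℓ p : ℕ} (hℓ : ℓ.Prime) (hp : p.Prime)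
    (hℓp : ℓ ≠ p) (hℓw : (ℓ : 𝓞 L) ∈ w.asIdeal) :
    ∃ s : L ≃ₐ[ℚ] L, (∀ x : 𝓞 L, s • x - x ^ ℓ ∈ w.asIdeal) ∧
      ∀ ζ : L, ζ ^ p = 1 → s ζ = ζ ^ ℓ := by
  obtain ⟨s, hs⟩ := IsArithFrobAt.exists_of_isInvariant ℤ (L ≃ₐ[ℚ] L) w.asIdeal
  have hcard := card_under_int w hℓ hℓw
  refine ⟨s, fun x => ?_, fun ζ hζ => ?_⟩
  · have := hs x
    rwa [hcard] at this
  · have hint : IsIntegral ℤ ζ := by
      refine ⟨Polynomial.X ^ p - 1, Polynomial.monic_X_pow_sub_C 1 hp.ne_zero, ?_⟩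
      simp [hζ]
    let ζ' : 𝓞 L := ⟨ζ, hint⟩
    have hcoe : ((ζ' : 𝓞 L) : L) = ζ := rfl
    have hζ' : ζ' ^ p = 1 := by
      apply RingOfIntegers.ext
      show algebraMap (𝓞 L) L (ζ' ^ p) = algebraMap (𝓞 L) L 1
      rw [map_pow, map_one]
      exact hζ
    have hpw : ((p : ℕ) : 𝓞 L) ∉ w.asIdeal := natCast_not_mem_of_ne w hℓ hp hℓp hℓw
    have h := AlgHom.IsArithFrobAt.apply_of_pow_eq_one hs hζ' hpw
    rw [hcard] at h
    have h2 := congrArg (fun y : 𝓞 L => (y : L)) h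
    have h3 : algebraMap (𝓞 L) L (ζ' ^ ℓ) = ζ ^ ℓ := by rw [map_pow]; rfl
    exact h2.trans h3

end RatFrob


section Comm

variable {p : ℕ} [Fact p.Prime]
    {K L : Type} [Field K] [NumberField K] [Field L] [NumberField L] [Algebra K L]
    [IsGalois ℚ L] [IsGalois K L]

theorem restrictScalars_pow (σ : L ≃ₐ[K] L) (n : ℕ) :
    (σ ^ n).restrictScalars ℚ = (σ.restrictScalars ℚ) ^ n := by
  induction n with
  | zero => rfl
  | succ n ih => rw [pow_succ, pow_succ, ← ih]; rfl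

/-- Primes over `ℓ ≢ 1 mod p`, `ℓ ≠ p`, have trivial decomposition group in `L/K`. -/
theorem stabilizer_trivial_of_not_modEq (hdeg : Module.finrank K L = p)
    (hunr : UnramifiedEverywhere K L)
    (hact : ∀ (g : L ≃ₐ[ℚ] L) (a : ℕ), (∀ ζ : L, ζ ^ p = 1 → g ζ = ζ ^ a) →
      ∀ σ : L ≃ₐ[K] L, g * (σ.restrictScalars ℚ) ^ a * g⁻¹ = σ.restrictScalars ℚ)
    (w : HeightOneSpectrum (𝓞 L)) {ℓ : ℕ} (hℓ : ℓ.Prime) (hℓp : ℓ ≠ p)
    (hℓw : (ℓ : 𝓞 L) ∈ w.asIdeal) (hmod : ¬ ℓ ≡ 1 [MOD p])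
    (σ : L ≃ₐ[K] L) (hσ : σ • w.asIdeal = w.asIdeal) : σ = 1 := by
  have hp : p.Prime := Fact.out
  obtain ⟨s, hs, hsζ⟩ := exists_rat_frob w hℓ hp hℓp hℓw
  have h4 := hact s ℓ hsζ σ
  set σ' : L ≃ₐ[ℚ] L := σ.restrictScalars ℚ with hσ'
  have h5 : s * σ' ^ ℓ = σ' * s := by
    calc s * σ' ^ ℓ = (s * σ' ^ ℓ * s⁻¹) * s := by group
      _ = σ' * s := by rw [h4]
  -- `ρ = σ'^ℓ` stabilises `w`
  have hρw : ∀ x : 𝓞 L, x ∈ w.asIdeal → (σ ^ ℓ) • x ∈ w.asIdeal := by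
    intro x hx
    have h : (σ ^ ℓ) • w.asIdeal = w.asIdeal := by
      have : ∀ n : ℕ, (σ ^ n) • w.asIdeal = w.asIdeal := by
        intro n
        induction n with
        | zero => simp
        | succ n ih => rw [pow_succ, mul_smul, hσ, ih]
      exact this ℓ
    have := Ideal.smul_mem_pointwise_smul (σ ^ ℓ) _ _ hx
    rwa [h] at this
  -- key congruence
  have h6 : ∀ y : 𝓞 L, σ • y - (σ ^ ℓ) • y ∈ w.asIdeal := by
    intro y
    obtain ⟨x, rfl⟩ : ∃ x : 𝓞 L, s • x = y := ⟨s⁻¹ • y, by simp⟩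
    have e1 : σ • s • x = s • (σ ^ ℓ) • x := by
      have : (σ' * s) • x = (s * σ' ^ ℓ) • x := by rw [h5]
      rw [mul_smul, mul_smul] at this
      have e2 : σ' ^ ℓ = (σ ^ ℓ).restrictScalars ℚ := (restrictScalars_pow σ ℓ).symm
      rw [e2] at this
      exact this
    have a1 := hs ((σ ^ ℓ) • x)
    have a2 := hρw _ (hs x)
    rw [smul_sub, smul_pow'] at a2
    rw [e1]
    have := sub_mem a1 a2
    simpa using this
  have h7 : σ ^ (ℓ - 1) = 1 := by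
    refine hunr w.asIdeal w.isPrime w.ne_bot _ fun z => ?_
    have := h6 (σ⁻¹ • z)
    have e3 : (σ ^ ℓ) • σ⁻¹ • z = (σ ^ (ℓ - 1)) • z := by
      rw [← mul_smul]
      congr 1
      obtain ⟨m, rfl⟩ : ∃ m, ℓ = m + 1 := ⟨ℓ - 1, (Nat.sub_add_cancel hℓ.one_le).symm⟩
      rw [pow_succ, Nat.add_sub_cancel, mul_assoc, mul_inv_cancel, mul_one]
    rw [smul_inv_smul, e3] at this
    have h' := neg_mem this
    rwa [neg_sub] at h'
  have h8 : σ ^ p = 1 := by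
    have := pow_card_eq_one' (G := L ≃ₐ[K] L) (x := σ)
    rwa [card_gal hdeg] at this
  have hcop : Nat.Coprime (ℓ - 1) p := by
    rw [Nat.coprime_comm, Nat.Prime.coprime_iff_not_dvd hp]
    intro hdvd
    exact hmod ((Nat.modEq_iff_dvd' hℓ.one_le).mpr hdvd).symm
  have h9 : orderOf σ ∣ 1 := by
    have := Nat.dvd_gcd (orderOf_dvd_of_pow_eq_one h7) (orderOf_dvd_of_pow_eq_one h8)
    rwa [hcop] at this
  exact orderOf_eq_one_iff.mp (Nat.dvd_one.mp h9)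

end Comm

section Cyclo

variable {p : ℕ} [Fact p.Prime]
    {K : Type} [Field K] [NumberField K] [IsCyclotomicExtension {p} ℚ K]

theorem liesOver_span_of_mem {M : Type} [Field M] [NumberField M] (P : Ideal (𝓞 M)) [P.IsPrime]
    {ℓ : ℕ} (hℓ : ℓ.Prime) (hℓw : (ℓ : 𝓞 M) ∈ P) : P.LiesOver (Ideal.span {(ℓ : ℤ)}) := by
  constructor
  have hmax : (Ideal.span {(ℓ : ℤ)}).IsMaximal :=
    PrincipalIdealRing.isMaximal_of_irreducible
      (Nat.prime_iff_prime_int.mp hℓ).irreducible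
  have hle : Ideal.span {(ℓ : ℤ)} ≤ P.under ℤ := by
    rw [Ideal.span_singleton_le_iff_mem, Ideal.under, Ideal.mem_comap]
    simpa using hℓw
  have hne : P.under ℤ ≠ ⊤ := (Ideal.IsPrime.under ℤ P).ne_top
  exact hmax.eq_of_le hne hle

/-- A prime of `ℚ(ζ_p)` over `ℓ ≡ 1 mod p` has norm `ℓ`. -/
theorem absNorm_eq_of_modEq_one (v : HeightOneSpectrum (𝓞 K)) {ℓ : ℕ} (hℓ : ℓ.Prime)
    (hℓp : ℓ ≠ p) (hℓv : (ℓ : 𝓞 K) ∈ v.asIdeal) (hmod : ℓ ≡ 1 [MOD p]) :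
    Ideal.absNorm v.asIdeal = ℓ := by
  have hp : p.Prime := Fact.out
  haveI : Fact ℓ.Prime := ⟨hℓ⟩
  haveI : NeZero p := ⟨hp.ne_zero⟩
  haveI := liesOver_span_of_mem v.asIdeal hℓ hℓv
  have hnd : ¬ ℓ ∣ p := fun h => hℓp ((Nat.prime_dvd_prime_iff_eq hℓ hp).mp h)
  have h1 := IsCyclotomicExtension.Rat.inertiaDeg_eq_of_not_dvd ℓ K v.asIdeal hnd
  have h2 : (ℓ : ZMod p) = 1 := by
    have := (ZMod.natCast_eq_natCast_iff ℓ 1 p).mpr hmod
    simpa using this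
  rw [h2, orderOf_one] at h1
  have h3 := Ideal.pow_inertiaDeg ℓ v.asIdeal
  rw [h1, pow_one] at h3
  exact h3.symm

end Cyclo

section Ram

variable {p : ℕ} [Fact p.Prime]
    {K L : Type} [Field K] [NumberField K] [Field L] [NumberField L] [Algebra K L]
    [IsCyclotomicExtension {p} ℚ K] [IsGalois K L]

/-- A prime `r ≠ p` is unramified in `L` (`L/K` unramified, `K = ℚ(ζ_p)`). -/
theorem natCast_not_mem_sq (hunr : UnramifiedEverywhere K L) (w : HeightOneSpectrum (𝓞 L))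
    {r : ℕ} (hr : r.Prime) (hrp : r ≠ p) (hrw : (r : 𝓞 L) ∈ w.asIdeal) :
    (r : 𝓞 L) ∉ w.asIdeal ^ 2 := by
  have hp : p.Prime := Fact.out
  haveI : Fact r.Prime := ⟨hr⟩
  haveI : NeZero p := ⟨hp.ne_zero⟩
  set v : Ideal (𝓞 K) := w.asIdeal.under (𝓞 K) with hv
  haveI : v.IsPrime := Ideal.IsPrime.under _ _
  haveI hwv : w.asIdeal.LiesOver v := ⟨rfl⟩
  haveI hwr : w.asIdeal.LiesOver (Ideal.span {(r : ℤ)}) := liesOver_span_of_mem w.asIdeal hr hrw
  haveI hvr : v.LiesOver (Ideal.span {(r : ℤ)}) := Ideal.LiesOver.tower_bot w.asIdeal v _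
  have hnd : ¬ r ∣ p := fun h => hrp ((Nat.prime_dvd_prime_iff_eq hr hp).mp h)
  have e1 : v.ramificationIdx ℤ = 1 :=
    IsCyclotomicExtension.Rat.ramificationIdx_eq_of_not_dvd r K v hnd
  have hv0 : v ≠ ⊥ := by
    intro h0
    have : (r : 𝓞 K) ∈ v := by
      have h := (Ideal.LiesOver.over (P := v) (p := Ideal.span {(r : ℤ)}))
      have : (r : ℤ) ∈ v.under ℤ := by rw [← h]; exact Ideal.mem_span_singleton_self _
      simpa [Ideal.under, Ideal.mem_comap] using this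
    rw [h0, Ideal.mem_bot] at this
    exact hr.ne_zero (by exact_mod_cast this)
  haveI : v.IsMaximal := Ideal.IsPrime.isMaximal inferInstance hv0
  have e2 : w.asIdeal.ramificationIdx (𝓞 K) = 1 := by
    rw [← Ideal.ramificationIdxIn_eq_ramificationIdx v w.asIdeal (L ≃ₐ[K] L),
      ← Ideal.card_inertia_eq_ramificationIdxIn (G := L ≃ₐ[K] L) v w.asIdeal]
    have : w.asIdeal.inertia (L ≃ₐ[K] L) = ⊥ := by
      rw [eq_bot_iff]
      intro σ hσ
      exact hunr w.asIdeal w.isPrime w.ne_bot σ hσ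
    rw [this]
    simp
  have e3 : w.asIdeal.ramificationIdx ℤ = 1 := by
    rw [Ideal.ramificationIdx_tower (R := ℤ) v w.asIdeal, e1, e2]
  have hmap : (Ideal.span {(r : ℤ)}).map (algebraMap ℤ (𝓞 L)) ≠ ⊥ := by
    rw [Ideal.map_span, Set.image_singleton, Ne, Ideal.span_singleton_eq_bot]
    simpa using hr.ne_zero
  have e4 := Ideal.IsDedekindDomain.ramificationIdx_eq_multiplicity (Ideal.span {(r : ℤ)}) w.asIdeal hmap
  rw [e3] at e4
  intro hmem
  have hle : (Ideal.span {(r : ℤ)}).map (algebraMap ℤ (𝓞 L)) ≤ w.asIdeal ^ 2 := by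
    rw [Ideal.map_span, Set.image_singleton, Ideal.span_singleton_le_iff_mem]
    simpa using hmem
  have hdvd : w.asIdeal ^ 2 ∣ (Ideal.span {(r : ℤ)}).map (algebraMap ℤ (𝓞 L)) :=
    Ideal.dvd_iff_le.mpr hle
  have hfin : FiniteMultiplicity w.asIdeal ((Ideal.span {(r : ℤ)}).map (algebraMap ℤ (𝓞 L))) := by
    apply FiniteMultiplicity.of_not_isUnit
    · exact (Ideal.prime_of_isPrime w.ne_bot w.isPrime).not_isUnit
    · exact hmap
  have := hfin.le_multiplicity_of_pow_dvd hdvd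
  omega

end Ram

section AuxPrime

theorem geom_sum_modEq_sq {p q M : ℕ} (hp : p.Prime) (hp2 : p ≠ 2) (hqp : q ≡ 1 [MOD p])
    (hM : M = p * p) :
    ((∑ i ∈ Finset.range p, q ^ i : ℕ) : ZMod M) = (p : ZMod M) := by
  have hodd : Odd p := hp.odd_of_ne_two hp2
  obtain ⟨k, hk⟩ := hodd
  -- q = 1 + x with x^2 = 0
  set x : ZMod M := (q : ZMod M) - 1 with hx
  have hxp : ∃ m : ZMod M, x = (p : ZMod M) * m := by
    have h1 : (p : ℤ) ∣ (q : ℤ) - 1 := by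
      have := (Nat.modEq_iff_dvd.mp hqp.symm)
      simpa using this
    obtain ⟨m, hm⟩ := h1
    refine ⟨(m : ZMod M), ?_⟩
    have h2 := congrArg (fun z : ℤ => (z : ZMod M)) hm
    simpa [hx] using h2
  obtain ⟨m, hm⟩ := hxp
  have hpp : (p : ZMod M) * p = 0 := by
    have : ((M : ℕ) : ZMod M) = 0 := ZMod.natCast_self _
    rw [← this, hM]; push_cast; ring
  have hx2 : x * x = 0 := by
    rw [hm]; calc (p : ZMod M) * m * (p * m) = (p * p) * (m * m) := by ring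
      _ = 0 := by rw [hpp, zero_mul]
  have hpx : (p : ZMod M) * x = 0 := by
    rw [hm, ← mul_assoc, hpp, zero_mul]
  have hpow : ∀ i : ℕ, (q : ZMod M) ^ i = 1 + i * x := by
    intro i
    induction i with
    | zero => simp
    | succ i ih =>
      have hq : (q : ZMod M) = 1 + x := by rw [hx]; ring
      rw [pow_succ, ih, hq]
      push_cast
      calc (1 + (i : ZMod M) * x) * (1 + x) = 1 + (i + 1) * x + i * (x * x) := by ring
        _ = 1 + (i + 1) * x := by rw [hx2]; ring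
  push_cast
  simp only [hpow]
  rw [Finset.sum_add_distrib, ← Finset.sum_mul]
  simp only [Finset.sum_const, Finset.card_range, nsmul_eq_mul, mul_one]
  have hsum : ((∑ i ∈ Finset.range p, (i : ZMod M)) : ZMod M) = (p : ZMod M) * k := by
    have h := Finset.sum_range_id_mul_two p
    have h2 : (∑ i ∈ Finset.range p, i) = p * k := by
      have h3 : p * (p - 1) = p * k * 2 := by rw [hk]; simp; ring
      rw [h3] at h
      exact Nat.eq_of_mul_eq_mul_right (by norm_num) h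
    have := congrArg (fun n : ℕ => (n : ZMod M)) h2
    simpa using this
  rw [hsum]
  calc (p : ZMod M) + p * k * x = p + k * (p * x) := by ring
    _ = p := by rw [hpx]; ring

/-- The auxiliary prime `r`: a prime divisor `≠ p` of `Φ_p(q)`. -/
theorem exists_aux_prime {p q : ℕ} (hp : p.Prime) (hp2 : p ≠ 2) (hq : q.Prime)
    (hqp : q ≡ 1 [MOD p]) :
    ∃ r : ℕ, r.Prime ∧ r ≠ p ∧ r ≠ q ∧ r ≡ 1 [MOD p] ∧ orderOf ((q : ℕ) : ZMod r) = p := by
  set N : ℕ := ∑ i ∈ Finset.range p, q ^ i with hN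
  have hNp : ((N : ℕ) : ZMod (p * p)) = (p : ZMod (p * p)) := geom_sum_modEq_sq hp hp2 hqp rfl
  have hp2' : 2 ≤ p := hp.two_le
  -- N > p
  have hNgt : p < N := by
    have h1 : ∀ i ∈ Finset.range p, 1 ≤ q ^ i := fun i _ => Nat.one_le_pow _ _ hq.pos
    have h2 : ∑ i ∈ Finset.range p, 1 < ∑ i ∈ Finset.range p, q ^ i := by
      apply Finset.sum_lt_sum h1
      refine ⟨1, Finset.mem_range.mpr (by omega), ?_⟩
      simpa using hq.one_lt
    simpa using h2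
  -- p^2 does not divide N
  have hsq : ¬ p ^ 2 ∣ N := by
    intro h
    rw [pow_two] at h
    have h0 : ((N : ℕ) : ZMod (p * p)) = 0 := (ZMod.natCast_eq_zero_iff _ _).mpr h
    rw [hNp, ZMod.natCast_eq_zero_iff] at h0
    have := Nat.le_of_dvd hp.pos h0
    nlinarith
  -- a prime factor other than p
  have hex : ∃ r : ℕ, r.Prime ∧ r ∣ N ∧ r ≠ p := by
    by_contra hcon
    have hcon : ∀ r : ℕ, r.Prime → r ∣ N → r = p := fun r hr hrN => by
      by_contra hne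
      exact hcon ⟨r, hr, hrN, hne⟩
    have hN0 : N ≠ 0 := by omega
    have := Nat.eq_prime_pow_of_unique_prime_dvd hN0 (fun {d} hd hdN => hcon d hd hdN)
    set e := N.primeFactorsList.length
    rcases Nat.lt_or_ge e 2 with he | he
    · interval_cases e
      · rw [pow_zero] at this; omega
      · rw [pow_one] at this; omega
    · exact hsq (this ▸ pow_dvd_pow p he)
  obtain ⟨r, hr, hrN, hrp⟩ := hex
  haveI : Fact r.Prime := ⟨hr⟩
  have hN0 : ((N : ℕ) : ZMod r) = 0 := (ZMod.natCast_eq_zero_iff _ _).mpr hrN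
  have hpow : ((q : ℕ) : ZMod r) ^ p = 1 := by
    have h := geom_sum_mul ((q : ℕ) : ZMod r) p
    have h2 : (∑ i ∈ Finset.range p, ((q : ℕ) : ZMod r) ^ i) = 0 := by
      rw [← hN0, hN]; push_cast; rfl
    rw [h2, zero_mul] at h
    exact (sub_eq_zero.mp h.symm)
  have hord : orderOf ((q : ℕ) : ZMod r) = p := by
    have hdvd := orderOf_dvd_of_pow_eq_one hpow
    rcases (Nat.dvd_prime hp).mp hdvd with h1 | h1
    · exfalso
      rw [orderOf_eq_one_iff] at h1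
      have h2 : ((N : ℕ) : ZMod r) = (p : ZMod r) := by
        rw [hN]; push_cast; simp [h1]
      rw [hN0] at h2
      have h3 : r ∣ p := (ZMod.natCast_eq_zero_iff _ _).mp h2.symm
      exact hrp ((Nat.prime_dvd_prime_iff_eq hr hp).mp h3)
    · exact h1
  refine ⟨r, hr, hrp, ?_, ?_, hord⟩
  · rintro rfl
    have h0 : ((r : ℕ) : ZMod r) = 0 := ZMod.natCast_self _
    rw [h0, zero_pow hp.ne_zero] at hpow
    exact zero_ne_one hpow
  · have hq0 : ((q : ℕ) : ZMod r) ≠ 0 := by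
      intro h0
      rw [h0, zero_pow hp.ne_zero] at hpow
      exact zero_ne_one hpow
    have h1 : ((q : ℕ) : ZMod r) ^ (r - 1) = 1 := ZMod.pow_card_sub_one_eq_one hq0
    have h2 : p ∣ r - 1 := hord ▸ orderOf_dvd_of_pow_eq_one h1
    exact ((Nat.modEq_iff_dvd' hr.one_le).mpr h2).symm

end AuxPrime

section CycloAut

variable {p : ℕ} [Fact p.Prime]
    {K : Type} [Field K] [NumberField K] [IsCyclotomicExtension {p} ℚ K]

/-- For `a` prime to `p` there is an automorphism of `K = ℚ(ζ_p)` raising `p`-th roots of unity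
to the `a`-th power. -/
theorem exists_gal_pow {a : ℕ} (ha : a.Coprime p) :
    ∃ g : K ≃ₐ[ℚ] K, ∀ ζ : K, ζ ^ p = 1 → g ζ = ζ ^ a := by
  have hp : p.Prime := Fact.out
  haveI : NeZero p := ⟨hp.ne_zero⟩
  have hζ := IsCyclotomicExtension.zeta_spec p ℚ K
  have hμ : IsPrimitiveRoot (IsCyclotomicExtension.zeta p ℚ K ^ a) p := hζ.pow_of_coprime a ha
  have hirr : Irreducible (Polynomial.cyclotomic p ℚ) :=
    Polynomial.cyclotomic.irreducible_rat hp.pos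
  refine ⟨IsCyclotomicExtension.fromZetaAut hμ hirr, fun ζ hζp => ?_⟩
  obtain ⟨j, -, rfl⟩ := hζ.eq_pow_of_pow_eq_one hζp
  rw [map_pow, IsCyclotomicExtension.fromZetaAut_spec, ← pow_mul, ← pow_mul, mul_comm]

/-- Such an automorphism is unique. -/
theorem gal_pow_unique {a : ℕ} {g g' : K ≃ₐ[ℚ] K} (h : ∀ ζ : K, ζ ^ p = 1 → g ζ = ζ ^ a)
    (h' : ∀ ζ : K, ζ ^ p = 1 → g' ζ = ζ ^ a) : g = g' := by
  have hp : p.Prime := Fact.out
  haveI : NeZero p := ⟨hp.ne_zero⟩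
  have hζ := IsCyclotomicExtension.zeta_spec p ℚ K
  have htop := IsCyclotomicExtension.adjoin_primitive_root_eq_top (A := ℚ) hζ
  have : (g : K →ₐ[ℚ] K) = (g' : K →ₐ[ℚ] K) := by
    apply AlgHom.ext_of_adjoin_eq_top htop
    intro x hx
    rw [Set.mem_singleton_iff] at hx
    subst hx
    show g _ = g' _
    rw [h _ hζ.pow_eq_one, h' _ hζ.pow_eq_one]
  exact AlgEquiv.coe_toAlgHom_injective this

/-- The prime `g • v` of `𝓞 K`. -/
noncomputable def smulPrime {M : Type} [Field M] [NumberField M] (g : M ≃ₐ[ℚ] M)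
    (v : HeightOneSpectrum (𝓞 M)) : HeightOneSpectrum (𝓞 M) where
  asIdeal := g • v.asIdeal
  isPrime := Ideal.IsPrime.smul g
  ne_bot := by
    intro h
    apply v.ne_bot
    have := congrArg (fun I : Ideal (𝓞 M) => g⁻¹ • I) h
    simpa using this

@[simp] theorem smulPrime_asIdeal {M : Type} [Field M] [NumberField M] (g : M ≃ₐ[ℚ] M)
    (v : HeightOneSpectrum (𝓞 M)) : (smulPrime g v).asIdeal = g • v.asIdeal := rfl

theorem natCast_mem_smul_iff {M : Type} [Field M] [NumberField M] (g : M ≃ₐ[ℚ] M)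
    (I : Ideal (𝓞 M)) (n : ℕ) : (n : 𝓞 M) ∈ g • I ↔ (n : 𝓞 M) ∈ I := by
  rw [Ideal.mem_pointwise_smul_iff_inv_smul_mem]
  have : g⁻¹ • (n : 𝓞 M) = (n : 𝓞 M) := by
    apply RingOfIntegers.ext
    show g⁻¹ ((n : 𝓞 M) : M) = ((n : 𝓞 M) : M)
    simp
  rw [this]

end CycloAut

section Lift

variable {K L : Type} [Field K] [NumberField K] [Field L] [NumberField L] [Algebra K L]
    [IsGalois ℚ L]

/-- Lift an automorphism of `K` to `L`. -/
theorem exists_lift [IsGalois ℚ K] (g : K ≃ₐ[ℚ] K) :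
    ∃ g' : L ≃ₐ[ℚ] L, ∀ x : K, g' (algebraMap K L x) = algebraMap K L (g x) := by
  obtain ⟨g', hg'⟩ := AlgEquiv.restrictNormalHom_surjective (F := ℚ) (K₁ := K) L g
  refine ⟨g', fun x => ?_⟩
  rw [← hg']
  exact (AlgEquiv.restrictNormal_commutes g' K x).symm

theorem lift_smul_algebraMap {g : K ≃ₐ[ℚ] K} {g' : L ≃ₐ[ℚ] L}
    (h : ∀ x : K, g' (algebraMap K L x) = algebraMap K L (g x)) (y : 𝓞 K) :
    g' • (algebraMap (𝓞 K) (𝓞 L) y) = algebraMap (𝓞 K) (𝓞 L) (g • y) := by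
  apply RingOfIntegers.ext
  show g' (algebraMap K L (y : K)) = algebraMap K L (g (y : K))
  exact h _

theorem lift_inv {g : K ≃ₐ[ℚ] K} {g' : L ≃ₐ[ℚ] L}
    (h : ∀ x : K, g' (algebraMap K L x) = algebraMap K L (g x)) (x : K) :
    g'⁻¹ (algebraMap K L x) = algebraMap K L (g⁻¹ x) := by
  have := h (g⁻¹ x)
  have e : g (g⁻¹ x) = x := by
    show g (g.symm x) = x
    simp
  rw [e] at this
  rw [← this]
  show g'.symm (g' _) = _
  simp

/-- `g' • w` lies over `g • v` when `w` lies over `v`. -/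
theorem comap_lift_smul {g : K ≃ₐ[ℚ] K} {g' : L ≃ₐ[ℚ] L}
    (h : ∀ x : K, g' (algebraMap K L x) = algebraMap K L (g x)) (w : Ideal (𝓞 L)) :
    (g' • w).comap (algebraMap (𝓞 K) (𝓞 L)) = g • (w.comap (algebraMap (𝓞 K) (𝓞 L))) := by
  ext y
  rw [Ideal.mem_comap, Ideal.mem_pointwise_smul_iff_inv_smul_mem,
    Ideal.mem_pointwise_smul_iff_inv_smul_mem, Ideal.mem_comap,
    lift_smul_algebraMap (lift_inv h) y]

/-- The lift acts on `p`-th roots of unity of `L` as `g` does on those of `K`. -/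
theorem lift_zeta {p : ℕ} [Fact p.Prime] [IsCyclotomicExtension {p} ℚ K]
    {a : ℕ} {g : K ≃ₐ[ℚ] K} {g' : L ≃ₐ[ℚ] L}
    (h : ∀ x : K, g' (algebraMap K L x) = algebraMap K L (g x))
    (hg : ∀ ζ : K, ζ ^ p = 1 → g ζ = ζ ^ a) :
    ∀ ζ : L, ζ ^ p = 1 → g' ζ = ζ ^ a := by
  have hp : p.Prime := Fact.out
  haveI : NeZero p := ⟨hp.ne_zero⟩
  intro ζ hζp
  have hζK := IsCyclotomicExtension.zeta_spec p ℚ K
  have hζL : IsPrimitiveRoot (algebraMap K L (IsCyclotomicExtension.zeta p ℚ K)) p :=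
    hζK.map_of_injective (algebraMap K L).injective
  obtain ⟨j, -, rfl⟩ := hζL.eq_pow_of_pow_eq_one hζp
  rw [← map_pow, h, hg _ (by rw [← pow_mul, mul_comm, pow_mul, hζK.pow_eq_one, one_pow]), map_pow]

end Lift


section Conj

variable {p : ℕ} [Fact p.Prime]
    {K L : Type} [Field K] [NumberField K] [Field L] [NumberField L] [Algebra K L]
    [IsCyclotomicExtension {p} ℚ K] [IsGalois ℚ L] [IsGalois K L]

/-- There is a prime of `L` above every prime of `K`. -/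
theorem exists_prime_above (v : HeightOneSpectrum (𝓞 K)) :
    ∃ w : HeightOneSpectrum (𝓞 L), w.asIdeal.comap (algebraMap (𝓞 K) (𝓞 L)) = v.asIdeal := by
  obtain ⟨⟨P, hP, hPv⟩⟩ := (inferInstance : Nonempty (v.asIdeal.primesOver (𝓞 L)))
  have hne : P ≠ ⊥ := Ideal.ne_bot_of_liesOver_of_ne_bot v.ne_bot P
  exact ⟨⟨P, hP, hne⟩, hPv.over.symm⟩

theorem card_quot_under (w : HeightOneSpectrum (𝓞 L)) (v : HeightOneSpectrum (𝓞 K))
    (hw : w.asIdeal.comap (algebraMap (𝓞 K) (𝓞 L)) = v.asIdeal) :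
    Nat.card (𝓞 K ⧸ w.asIdeal.under (𝓞 K)) = Ideal.absNorm v.asIdeal := by
  rw [Ideal.under, hw, Ideal.absNorm_apply, Submodule.cardQuot_apply]

/-- Conjugating the Frobenius: if `g` raises `p`-th roots of unity to the `a`-th power and
`g • v' = v`, then `a * t v ≡ t v' mod p`. -/
theorem frob_exponent_conj (hdeg : Module.finrank K L = p)
    (hunr : UnramifiedEverywhere K L)
    (hact : ∀ (g : L ≃ₐ[ℚ] L) (a : ℕ), (∀ ζ : L, ζ ^ p = 1 → g ζ = ζ ^ a) →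
      ∀ σ : L ≃ₐ[K] L, g * (σ.restrictScalars ℚ) ^ a * g⁻¹ = σ.restrictScalars ℚ)
    {τ : L ≃ₐ[K] L} (hτ : τ ≠ 1) (t : HeightOneSpectrum (𝓞 K) → ℕ)
    (ht : ∀ (v : HeightOneSpectrum (𝓞 K)) (w : HeightOneSpectrum (𝓞 L)),
      w.asIdeal.comap (algebraMap (𝓞 K) (𝓞 L)) = v.asIdeal →
        IsArithFrobAt (𝓞 K) (τ ^ t v) w.asIdeal)
    {q : ℕ} (v v' : HeightOneSpectrum (𝓞 K)) (hv : Ideal.absNorm v.asIdeal = q)
    (hv' : Ideal.absNorm v'.asIdeal = q)
    {a : ℕ} (g : K ≃ₐ[ℚ] K) (hg : ∀ ζ : K, ζ ^ p = 1 → g ζ = ζ ^ a)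
    (hgv : g • v'.asIdeal = v.asIdeal) :
    a * t v ≡ t v' [MOD p] := by
  have hp : p.Prime := Fact.out
  haveI : NeZero p := ⟨hp.ne_zero⟩
  haveI : IsGalois ℚ K := IsCyclotomicExtension.isGalois {p} ℚ K
  obtain ⟨g', hg'⟩ := exists_lift (L := L) g
  have hζ' := lift_zeta hg' hg
  have hconj := hact g' a hζ' τ
  set ρ : L ≃ₐ[ℚ] L := τ.restrictScalars ℚ with hρ
  have hc1 : g' * ρ ^ a = ρ * g' := by
    calc g' * ρ ^ a = (g' * ρ ^ a * g'⁻¹) * g' := by group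
      _ = ρ * g' := by rw [hconj]
  have hc : ∀ m : ℕ, g' * (ρ ^ a) ^ m = ρ ^ m * g' := by
    intro m
    induction m with
    | zero => simp
    | succ m ih =>
      calc g' * (ρ ^ a) ^ (m + 1) = (g' * (ρ ^ a) ^ m) * ρ ^ a := by rw [pow_succ, mul_assoc]
        _ = ρ ^ m * (g' * ρ ^ a) := by rw [ih, mul_assoc]
        _ = ρ ^ (m + 1) * g' := by rw [hc1, ← mul_assoc, ← pow_succ]
  obtain ⟨W', hW'⟩ := exists_prime_above (L := L) v'
  set W : HeightOneSpectrum (𝓞 L) := smulPrime g' W' with hWdef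
  have hW : W.asIdeal.comap (algebraMap (𝓞 K) (𝓞 L)) = v.asIdeal := by
    rw [hWdef, smulPrime_asIdeal, comap_lift_smul hg', hW', hgv]
  have H1 := ht v' W' hW'
  have H2 := ht v W hW
  have H1' : ∀ x : 𝓞 L, (τ ^ t v') • x - x ^ q ∈ W'.asIdeal := by
    intro x
    have := H1 x
    rwa [card_quot_under W' v' hW', hv'] at this
  have H2' : ∀ x : 𝓞 L, (τ ^ t v) • x - x ^ q ∈ W.asIdeal := by
    intro x
    have := H2 x
    rwa [card_quot_under W v hW, hv] at this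
  have key : ∀ x : 𝓞 L, (τ ^ (a * t v)) • x - x ^ q ∈ W'.asIdeal := by
    intro x
    have h1 := H2' (g' • x)
    have e1 : (τ ^ t v) • g' • x = g' • (τ ^ (a * t v)) • x := by
      have e2 : (ρ ^ t v * g') • x = (g' * (ρ ^ a) ^ t v) • x := by rw [hc]
      rw [mul_smul, mul_smul, ← pow_mul] at e2
      have e3 : ρ ^ t v = (τ ^ t v).restrictScalars ℚ := (restrictScalars_pow τ _).symm
      have e4 : ρ ^ (a * t v) = (τ ^ (a * t v)).restrictScalars ℚ := (restrictScalars_pow τ _).symm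
      rw [e3, e4] at e2
      exact e2
    rw [e1, ← smul_pow', ← smul_sub] at h1
    rw [hWdef, smulPrime_asIdeal] at h1
    exact Ideal.smul_mem_pointwise_smul_iff.mp h1
  have heq : τ ^ (a * t v) = τ ^ t v' := frob_unique hunr W' q key H1'
  have := pow_eq_pow_iff_modEq.mp heq
  rwa [orderOf_gen hdeg hτ] at this

end Conj


section Sum

/-- The index set `{a : 0 < a, 2a < p}`. -/
def halfSet (p : ℕ) : Finset ℕ := (Finset.range p).filter (fun a => 0 < a ∧ 2 * a < p)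

theorem mem_halfSet {p a : ℕ} : a ∈ halfSet p ↔ 0 < a ∧ 2 * a < p := by
  unfold halfSet
  rw [Finset.mem_filter, Finset.mem_range]
  constructor
  · exact fun h => h.2
  · exact fun h => ⟨by omega, h⟩

theorem coprime_of_mem_halfSet {p a : ℕ} (hp : p.Prime) (ha : a ∈ halfSet p) : a.Coprime p := by
  rw [mem_halfSet] at ha
  rw [Nat.coprime_comm, Nat.Prime.coprime_iff_not_dvd hp]
  intro hdvd
  have := Nat.le_of_dvd ha.1 hdvd
  omega

theorem not_dvd_sum_halfSet {p : ℕ} (hp : p.Prime) (hp2 : p ≠ 2) :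
    ¬ p ∣ ∑ a ∈ halfSet p, a := by
  obtain ⟨m, hm⟩ := hp.odd_of_ne_two hp2
  have hm1 : 1 ≤ m := by
    rcases Nat.eq_zero_or_pos m with h | h
    · subst h; exact absurd hp (by rw [hm]; norm_num)
    · exact h
  have hset : halfSet p = (Finset.range (m + 1)).filter (fun a => a ≠ 0) := by
    ext a
    rw [mem_halfSet, Finset.mem_filter, Finset.mem_range]
    omega
  have hsum : (∑ a ∈ halfSet p, a) * 2 = (m + 1) * m := by
    rw [hset, Finset.sum_filter_ne_zero, Finset.sum_range_id_mul_two]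
    simp
  intro hdvd
  have h2 : p ∣ (m + 1) * m := by
    rw [← hsum]; exact Dvd.dvd.mul_right hdvd 2
  rcases (Nat.Prime.dvd_mul hp).mp h2 with h | h
  · have := Nat.le_of_dvd (by omega) h; omega
  · have := Nat.le_of_dvd (by omega) h; omega

variable {K : Type} [Field K] [NumberField K]

open scoped Classical in
/-- Interchanging the finite sum over primes with the sum over the index set. -/
theorem finsum_mul_card_filter (S : Finset ℕ) (V : ℕ → HeightOneSpectrum (𝓞 K))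
    (t : HeightOneSpectrum (𝓞 K) → ℕ) (f : HeightOneSpectrum (𝓞 K) → ℤ)
    (hf : ∀ w, f w = ((S.filter (fun a => V a = w)).card : ℤ)) :
    ∑ᶠ w : HeightOneSpectrum (𝓞 K), (t w : ℤ) * f w = ∑ a ∈ S, (t (V a) : ℤ) := by
  have h1 : ∀ w : HeightOneSpectrum (𝓞 K),
      (t w : ℤ) * f w = ∑ a ∈ S, (if V a = w then (t w : ℤ) else 0) := by
    intro w
    rw [hf w, Finset.card_filter]
    push_cast
    rw [Finset.mul_sum]
    refine Finset.sum_congr rfl fun a _ => ?_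
    split_ifs <;> simp
  simp_rw [h1]
  rw [finsum_sum_comm]
  · refine Finset.sum_congr rfl fun a _ => ?_
    rw [finsum_eq_single _ (V a) (fun w hw => if_neg (Ne.symm hw))]
    simp
  · intro a _
    apply Set.Finite.subset (Set.finite_singleton (V a))
    intro w hw
    rw [Function.mem_support] at hw
    rw [Set.mem_singleton_iff]
    by_contra hne
    exact hw (if_neg (Ne.symm hne))

end Sum


section Main

variable {p : ℕ} [Fact p.Prime]
    {K L : Type} [Field K] [NumberField K] [Field L] [NumberField L] [Algebra K L]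
    [IsCyclotomicExtension {p} ℚ K] [IsGalois ℚ L] [IsGalois K L]

/-- The rational prime below a prime of `𝓞 L`. -/
theorem exists_prime_natCast_mem (w : HeightOneSpectrum (𝓞 L)) :
    ∃ ℓ : ℕ, ℓ.Prime ∧ (ℓ : 𝓞 L) ∈ w.asIdeal := by
  haveI : w.asIdeal.IsMaximal := w.isMaximal
  letI : Field (𝓞 L ⧸ w.asIdeal) := Ideal.Quotient.field _
  obtain ⟨ℓ, hℓ⟩ := CharP.exists (𝓞 L ⧸ w.asIdeal)
  have hprime : ℓ.Prime := CharP.char_is_prime (𝓞 L ⧸ w.asIdeal) ℓ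
  refine ⟨ℓ, hprime, ?_⟩
  rw [← Ideal.Quotient.eq_zero_iff_mem, map_natCast]
  exact CharP.cast_eq_zero _ _

open scoped Classical in
/-- The degree-one case: for a prime `v` of `K = ℚ(ζ_p)` of norm `q ≡ 1 mod p`, the Frobenius
exponent `t v` is divisible by `p` (crossing + Jacobi sum). -/
theorem dvd_frob_exponent (hp2 : p ≠ 2) (hdeg : Module.finrank K L = p)
    (hunr : UnramifiedEverywhere K L)
    (hact : ∀ (g : L ≃ₐ[ℚ] L) (a : ℕ), (∀ ζ : L, ζ ^ p = 1 → g ζ = ζ ^ a) →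
      ∀ σ : L ≃ₐ[K] L, g * (σ.restrictScalars ℚ) ^ a * g⁻¹ = σ.restrictScalars ℚ)
    (h_rec : ∀ (r : ℕ) [Fact r.Prime],
      (∀ w : HeightOneSpectrum (𝓞 L), (r : 𝓞 L) ∈ w.asIdeal → (r : 𝓞 L) ∉ w.asIdeal ^ 2) →
      (∀ v : HeightOneSpectrum (𝓞 K), (r : 𝓞 K) ∈ v.asIdeal → Ideal.absNorm v.asIdeal = r) →
      ∀ (b : K), b ≠ 0 →
      (∀ v : HeightOneSpectrum (𝓞 K), (r : 𝓞 K) ∈ v.asIdeal → ord v b = 0) →
      (∀ v : HeightOneSpectrum (𝓞 K), ord v b ≠ 0 →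
        p ∣ orderOf ((Ideal.absNorm v.asIdeal : ℕ) : ZMod r)) →
      ∀ (τ : L ≃ₐ[K] L) (t : HeightOneSpectrum (𝓞 K) → ℕ),
      (∀ (v : HeightOneSpectrum (𝓞 K)) (w : HeightOneSpectrum (𝓞 L)),
        w.asIdeal.comap (algebraMap (𝓞 K) (𝓞 L)) = v.asIdeal →
          IsArithFrobAt (𝓞 K) (τ ^ t v) w.asIdeal) →
      (p : ℤ) ∣ ∑ᶠ v : HeightOneSpectrum (𝓞 K), (t v : ℤ) * ord v b)
    (h_jac : ∀ (v : HeightOneSpectrum (𝓞 K)) (q : ℕ), q.Prime → q ≠ p →
      Ideal.absNorm v.asIdeal = q →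
      ∃ J : K, J ≠ 0 ∧ ∀ w : HeightOneSpectrum (𝓞 K),
        ord w J = Nat.card {a : ℕ // 0 < a ∧ 2 * a < p ∧ ∃ g : K ≃ₐ[ℚ] K,
          (∀ ζ : K, ζ ^ p = 1 → g ζ = ζ ^ a) ∧ g • w.asIdeal = v.asIdeal})
    {τ : L ≃ₐ[K] L} (hτ : τ ≠ 1) (t : HeightOneSpectrum (𝓞 K) → ℕ)
    (ht : ∀ (v : HeightOneSpectrum (𝓞 K)) (w : HeightOneSpectrum (𝓞 L)),
      w.asIdeal.comap (algebraMap (𝓞 K) (𝓞 L)) = v.asIdeal →
        IsArithFrobAt (𝓞 K) (τ ^ t v) w.asIdeal)
    (v : HeightOneSpectrum (𝓞 K)) {q : ℕ} (hq : q.Prime) (hqp : q ≠ p)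
    (hqv : (q : 𝓞 K) ∈ v.asIdeal) (hmod : q ≡ 1 [MOD p]) : p ∣ t v := by
  have hp : p.Prime := Fact.out
  have hv : Ideal.absNorm v.asIdeal = q := absNorm_eq_of_modEq_one v hq hqp hqv hmod
  obtain ⟨J, hJ0, hJ⟩ := h_jac v q hq hqp hv
  obtain ⟨r, hr, hrp, hrq, hr1, hord⟩ := exists_aux_prime hp hp2 hq hmod
  haveI : Fact r.Prime := ⟨hr⟩
  -- the automorphisms `γ a` and the primes `V a = (γ a)⁻¹ • v`
  have hγ : ∀ a : ℕ, ∃ g : K ≃ₐ[ℚ] K, a ∈ halfSet p → ∀ ζ : K, ζ ^ p = 1 → g ζ = ζ ^ a := by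
    intro a
    by_cases ha : a ∈ halfSet p
    · obtain ⟨g, hg⟩ := exists_gal_pow (K := K) (coprime_of_mem_halfSet hp ha)
      exact ⟨g, fun _ => hg⟩
    · exact ⟨1, fun h => absurd h ha⟩
  choose γ hγ using hγ
  set V : ℕ → HeightOneSpectrum (𝓞 K) := fun a => smulPrime (γ a)⁻¹ v with hVdef
  have hVsmul : ∀ a, γ a • (V a).asIdeal = v.asIdeal := by
    intro a
    rw [hVdef]
    simp only [smulPrime_asIdeal, smul_inv_smul]
  have hVq : ∀ a, (q : 𝓞 K) ∈ (V a).asIdeal := by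
    intro a
    rw [hVdef]
    simp only [smulPrime_asIdeal]
    exact (natCast_mem_smul_iff _ _ _).mpr hqv
  have hVnorm : ∀ a, Ideal.absNorm (V a).asIdeal = q :=
    fun a => absNorm_eq_of_modEq_one (V a) hq hqp (hVq a) hmod
  -- the divisor of `J`
  have hord : ∀ w : HeightOneSpectrum (𝓞 K),
      ord w J = (((halfSet p).filter (fun a => V a = w)).card : ℤ) := by
    intro w
    rw [hJ w]
    congr 1
    apply Nat.subtype_card
    intro a
    rw [Finset.mem_filter, mem_halfSet]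
    constructor
    · rintro ⟨⟨h1, h2⟩, h3⟩
      refine ⟨h1, h2, γ a, hγ a (mem_halfSet.mpr ⟨h1, h2⟩), ?_⟩
      rw [← h3]; exact hVsmul a
    · rintro ⟨h1, h2, g, hg, hgw⟩
      refine ⟨⟨h1, h2⟩, ?_⟩
      have hgeq : g = γ a := gal_pow_unique hg (hγ a (mem_halfSet.mpr ⟨h1, h2⟩))
      apply HeightOneSpectrum.ext
      rw [hVdef]
      simp only [smulPrime_asIdeal]
      rw [← hgw, hgeq, inv_smul_smul]
  -- hypotheses of reciprocity
  have hA : ∀ w : HeightOneSpectrum (𝓞 L), (r : 𝓞 L) ∈ w.asIdeal → (r : 𝓞 L) ∉ w.asIdeal ^ 2 :=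
    fun w hw => natCast_not_mem_sq hunr w hr hrp hw
  have hB : ∀ v' : HeightOneSpectrum (𝓞 K), (r : 𝓞 K) ∈ v'.asIdeal →
      Ideal.absNorm v'.asIdeal = r :=
    fun v' hv' => absNorm_eq_of_modEq_one v' hr hrp hv' hr1
  have hC : ∀ v' : HeightOneSpectrum (𝓞 K), (r : 𝓞 K) ∈ v'.asIdeal → ord v' J = 0 := by
    intro v' hv'
    rw [hord v']
    norm_cast
    rw [Finset.card_eq_zero, Finset.filter_eq_empty_iff]
    intro a _ hVa
    exact natCast_not_mem_of_ne v' hr hq hrq hv' (hVa ▸ hVq a)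
  have hD : ∀ v' : HeightOneSpectrum (𝓞 K), ord v' J ≠ 0 →
      p ∣ orderOf ((Ideal.absNorm v'.asIdeal : ℕ) : ZMod r) := by
    intro v' hv'
    rw [hord v'] at hv'
    have hne : ((halfSet p).filter (fun a => V a = v')).Nonempty := by
      rw [Finset.nonempty_iff_ne_empty]
      intro h
      rw [h] at hv'
      simp at hv'
    obtain ⟨a, ha⟩ := hne
    rw [Finset.mem_filter] at ha
    rw [← ha.2, hVnorm a, ‹orderOf ((q : ℕ) : ZMod r) = p›]
  have hmain := h_rec r hA hB J hJ0 hC hD τ t ht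
  rw [finsum_mul_card_filter (halfSet p) V t (fun w => ord w J) hord] at hmain
  -- reduce mod p
  have hcong : ∀ a ∈ halfSet p, a * t v ≡ t (V a) [MOD p] := fun a ha =>
    frob_exponent_conj hdeg hunr hact hτ t ht v (V a) hv (hVnorm a) (γ a) (hγ a ha) (hVsmul a)
  have hsum : (∑ a ∈ halfSet p, a) * t v ≡ ∑ a ∈ halfSet p, t (V a) [MOD p] := by
    rw [Finset.sum_mul]
    exact Nat.ModEq.sum hcong
  have hdvd : p ∣ ∑ a ∈ halfSet p, t (V a) := by
    have : ((p : ℕ) : ℤ) ∣ ((∑ a ∈ halfSet p, t (V a) : ℕ) : ℤ) := by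
      push_cast
      exact hmain
    exact Int.natCast_dvd_natCast.mp this
  have hdvd2 : p ∣ (∑ a ∈ halfSet p, a) * t v :=
    (Nat.modEq_zero_iff_dvd.mp (hsum.trans (Nat.modEq_zero_iff_dvd.mpr hdvd)))
  rcases (Nat.Prime.dvd_mul hp).mp hdvd2 with h | h
  · exact absurd h (not_dvd_sum_halfSet hp hp2)
  · exact h

/-- The core contradiction, with the three global inputs as hypotheses. -/
theorem core_aux (hp3 : 3 ≤ p) (hdeg : Module.finrank K L = p)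
    (hunr : UnramifiedEverywhere K L)
    (hsplit : ∀ w : HeightOneSpectrum (𝓞 L), (p : 𝓞 L) ∈ w.asIdeal →
      ∀ σ : L ≃ₐ[K] L, σ • w.asIdeal = w.asIdeal → σ = 1)
    (hact : ∀ (g : L ≃ₐ[ℚ] L) (a : ℕ), (∀ ζ : L, ζ ^ p = 1 → g ζ = ζ ^ a) →
      ∀ σ : L ≃ₐ[K] L, g * (σ.restrictScalars ℚ) ^ a * g⁻¹ = σ.restrictScalars ℚ)
    (h_ns : ∃ v : HeightOneSpectrum (𝓞 L), ∃ σ : L ≃ₐ[K] L, σ ≠ 1 ∧ σ • v.asIdeal = v.asIdeal)
    (h_rec : ∀ (r : ℕ) [Fact r.Prime],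
      (∀ w : HeightOneSpectrum (𝓞 L), (r : 𝓞 L) ∈ w.asIdeal → (r : 𝓞 L) ∉ w.asIdeal ^ 2) →
      (∀ v : HeightOneSpectrum (𝓞 K), (r : 𝓞 K) ∈ v.asIdeal → Ideal.absNorm v.asIdeal = r) →
      ∀ (b : K), b ≠ 0 →
      (∀ v : HeightOneSpectrum (𝓞 K), (r : 𝓞 K) ∈ v.asIdeal → ord v b = 0) →
      (∀ v : HeightOneSpectrum (𝓞 K), ord v b ≠ 0 →
        p ∣ orderOf ((Ideal.absNorm v.asIdeal : ℕ) : ZMod r)) →
      ∀ (τ : L ≃ₐ[K] L) (t : HeightOneSpectrum (𝓞 K) → ℕ),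
      (∀ (v : HeightOneSpectrum (𝓞 K)) (w : HeightOneSpectrum (𝓞 L)),
        w.asIdeal.comap (algebraMap (𝓞 K) (𝓞 L)) = v.asIdeal →
          IsArithFrobAt (𝓞 K) (τ ^ t v) w.asIdeal) →
      (p : ℤ) ∣ ∑ᶠ v : HeightOneSpectrum (𝓞 K), (t v : ℤ) * ord v b)
    (h_jac : ∀ (v : HeightOneSpectrum (𝓞 K)) (q : ℕ), q.Prime → q ≠ p →
      Ideal.absNorm v.asIdeal = q →
      ∃ J : K, J ≠ 0 ∧ ∀ w : HeightOneSpectrum (𝓞 K),
        ord w J = Nat.card {a : ℕ // 0 < a ∧ 2 * a < p ∧ ∃ g : K ≃ₐ[ℚ] K,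
          (∀ ζ : K, ζ ^ p = 1 → g ζ = ζ ^ a) ∧ g • w.asIdeal = v.asIdeal}) : False := by
  have hp : p.Prime := Fact.out
  have hp2 : p ≠ 2 := by omega
  obtain ⟨w₀, σ₀, hσ₀, hσ₀w⟩ := h_ns
  apply hσ₀
  obtain ⟨ℓ, hℓ, hℓw⟩ := exists_prime_natCast_mem w₀
  by_cases hℓp : ℓ = p
  · subst hℓp
    exact hsplit w₀ hℓw σ₀ hσ₀w
  by_cases hmod : ℓ ≡ 1 [MOD p]
  · -- degree one primes: crossing + Jacobi
    obtain ⟨t, ht⟩ := exists_frob_exponent hdeg hσ₀
    -- the prime of K below w₀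
    have hvne : w₀.asIdeal.comap (algebraMap (𝓞 K) (𝓞 L)) ≠ ⊥ := by
      intro h0
      have h1 : (ℓ : 𝓞 K) ∈ w₀.asIdeal.comap (algebraMap (𝓞 K) (𝓞 L)) := by
        rw [Ideal.mem_comap]; simpa using hℓw
      rw [h0, Ideal.mem_bot] at h1
      exact hℓ.ne_zero (by exact_mod_cast h1)
    let v : HeightOneSpectrum (𝓞 K) :=
      ⟨w₀.asIdeal.comap (algebraMap (𝓞 K) (𝓞 L)), Ideal.comap_isPrime _ _, hvne⟩
    have hℓv : (ℓ : 𝓞 K) ∈ v.asIdeal := by
      show (ℓ : 𝓞 K) ∈ w₀.asIdeal.comap (algebraMap (𝓞 K) (𝓞 L))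
      rw [Ideal.mem_comap]; simpa using hℓw
    have hdvd : p ∣ t v :=
      dvd_frob_exponent hp2 hdeg hunr hact h_rec h_jac hσ₀ t ht v hℓ hℓp hℓv hmod
    have hfrob := ht v w₀ rfl
    have hone : σ₀ ^ t v = 1 := by
      obtain ⟨c, hc⟩ := hdvd
      rw [hc, pow_mul]
      have : σ₀ ^ p = 1 := by
        have := pow_card_eq_one' (G := L ≃ₐ[K] L) (x := σ₀)
        rwa [card_gal hdeg] at this
      rw [this, one_pow]
    rw [hone] at hfrob
    exact stabilizer_trivial_of_frob_one hunr w₀ hfrob σ₀ hσ₀w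
  · exact stabilizer_trivial_of_not_modEq hdeg hunr hact w₀ hℓ hℓp hℓw hmod σ₀ hσ₀w

end Main

end Fermat.Agent.S14.Core
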