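import Fermat.Agent.S14.GalDiv

/-!
# S14 / Core: arithmetic glue

* `CoreArith.exists_aux_prime` : for an odd prime `p` and a prime `q` there is a prime `r ≠ p, q`
  with `orderOf (q : ZMod r) = p` (a prime factor of `Σ_{i<p} q^i`); in particular `p ∣ r - 1`.
* `CoreArith.absNorm_eq_of_mem` : primes `r ≡ 1 mod p` split completely in `ℚ(ζ_p)`.
* `CoreArith.natCast_not_mem_sq` : primes `ℓ ≠ p` are unramified in `ℚ(ζ_p)`.
* `CoreArith.natCast_not_mem_sq_top` : ... and in an everywhere unramified extension of it.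
-/

set_option autoImplicit false

namespace Fermat.Agent.S14

open NumberField IsDedekindDomain
open scoped nonZeroDivisors Pointwise

namespace CoreArith

/-- For an odd prime `p`, `p ^ 2` does not divide `Σ_{i<p} q^i`. -/
theorem not_sq_dvd_geom_sum (p q : ℕ) (hp : p.Prime) (hp2 : p ≠ 2) :
    ¬ p ^ 2 ∣ ∑ i ∈ Finset.range p, q ^ i := by
  intro hdvd
  have : Fact p.Prime := ⟨hp⟩
  -- `q ≡ 1 mod p`
  have h1 : ((∑ i ∈ Finset.range p, q ^ i : ℕ) : ZMod p) = 0 :=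
    (ZMod.natCast_eq_zero_iff _ _).mpr (dvd_trans (dvd_pow_self p two_ne_zero) hdvd)
  have hq1 : (q : ZMod p) = 1 := by
    have h2 : (∑ i ∈ Finset.range p, (q : ZMod p) ^ i) * ((q : ZMod p) - 1) = (q : ZMod p) ^ p - 1 :=
      geom_sum_mul _ _
    have h3 : (∑ i ∈ Finset.range p, (q : ZMod p) ^ i) = 0 := by
      rw [← h1]
      push_cast
      rfl
    rw [h3, zero_mul, ZMod.pow_card] at h2
    exact (sub_eq_zero.mp h2.symm)
  have hqmod : q % p = 1 := by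
    have h2 : (q : ZMod p) = ((1 : ℕ) : ZMod p) := by simpa using hq1
    have h3 := (ZMod.natCast_eq_natCast_iff' q 1 p).mp h2
    rw [h3]
    exact Nat.mod_eq_of_lt hp.one_lt
  obtain ⟨m, hm⟩ : ∃ m : ℕ, q = 1 + p * m := ⟨q / p, by
    have := Nat.div_add_mod q p
    omega⟩
  -- work mod `p ^ 2`
  have hpsq : ((p : ℕ) : ZMod (p ^ 2)) ^ 2 = 0 := by
    have := ZMod.natCast_self (p ^ 2)
    push_cast at this
    exact this
  have hpow : ∀ i : ℕ, ((q : ℕ) : ZMod (p ^ 2)) ^ i = 1 + (i : ZMod (p ^ 2)) * p * m := by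
    intro i
    induction i with
    | zero => simp
    | succ i ih =>
      rw [pow_succ ((q : ℕ) : ZMod (p ^ 2)) i, ih, hm]
      push_cast
      linear_combination ((i : ZMod (p ^ 2)) * (m : ZMod (p ^ 2)) ^ 2) * hpsq
  have hS : ((∑ i ∈ Finset.range p, q ^ i : ℕ) : ZMod (p ^ 2)) = 0 :=
    (ZMod.natCast_eq_zero_iff _ _).mpr hdvd
  have hS2 : (2 : ZMod (p ^ 2)) * ((∑ i ∈ Finset.range p, q ^ i : ℕ) : ZMod (p ^ 2)) =
      2 * (p : ZMod (p ^ 2)) := by
    have hsum := Finset.sum_range_id_mul_two p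
    have hsum' : ((∑ i ∈ Finset.range p, i : ℕ) : ZMod (p ^ 2)) * 2 =
        (p : ZMod (p ^ 2)) * ((p - 1 : ℕ) : ZMod (p ^ 2)) := by
      rw [← Nat.cast_mul, ← hsum]
      push_cast
      rfl
    push_cast
    simp_rw [hpow]
    rw [Finset.sum_add_distrib, ← Finset.sum_mul, ← Finset.sum_mul]
    simp only [Finset.sum_const, Finset.card_range, nsmul_eq_mul, mul_one]
    push_cast at hsum'
    linear_combination ((p : ZMod (p ^ 2)) * (m : ZMod (p ^ 2))) * hsum' +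
      ((m : ZMod (p ^ 2)) * ((p - 1 : ℕ) : ZMod (p ^ 2))) * hpsq
  rw [hS, mul_zero] at hS2
  have h4 : ((2 * p : ℕ) : ZMod (p ^ 2)) = 0 := by
    push_cast
    exact hS2.symm
  have h5 : p ^ 2 ∣ 2 * p := (ZMod.natCast_eq_zero_iff _ _).mp h4
  have h6 : p ∣ 2 := by
    rw [pow_two] at h5
    exact Nat.dvd_of_mul_dvd_mul_right hp.pos h5
  exact hp2 ((Nat.prime_dvd_prime_iff_eq hp Nat.prime_two).mp h6)

/-- For an odd prime `p` and a prime `q`, there is a prime `r ≠ p, q` such that `q` has order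
exactly `p` modulo `r`. -/
theorem exists_aux_prime (p q : ℕ) [Fact p.Prime] (hp2 : p ≠ 2) (hq : q.Prime) :
    ∃ r : ℕ, r.Prime ∧ r ≠ p ∧ r ≠ q ∧ orderOf ((q : ℕ) : ZMod r) = p ∧ p ∣ r - 1 := by
  have hp : p.Prime := Fact.out
  set S : ℕ := ∑ i ∈ Finset.range p, q ^ i with hSdef
  have hSgt : p < S := by
    have h1 : ∑ _i ∈ Finset.range p, 1 < ∑ i ∈ Finset.range p, q ^ i := by
      apply Finset.sum_lt_sum
      · intro i _
        exact Nat.one_le_pow _ _ hq.pos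
      · refine ⟨1, Finset.mem_range.mpr hp.one_lt, ?_⟩
        rw [pow_one]
        exact hq.one_lt
    simpa using h1
  have hS0 : S ≠ 0 := by omega
  -- a prime factor `r ≠ p`
  obtain ⟨r, hr, hrS, hrp⟩ : ∃ r : ℕ, r.Prime ∧ r ∣ S ∧ r ≠ p := by
    by_contra hcon
    push Not at hcon
    have h1 := Nat.eq_prime_pow_of_unique_prime_dvd hS0 (fun {d} hd hdS => hcon d hd hdS)
    set k := S.primeFactorsList.length with hk
    have hk2 : 2 ≤ k := by
      by_contra hk2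
      have hk1 : k ≤ 1 := by omega
      have : p ^ k ≤ p ^ 1 := Nat.pow_le_pow_right hp.pos hk1
      rw [pow_one] at this
      omega
    apply not_sq_dvd_geom_sum p q hp hp2
    change p ^ 2 ∣ S
    rw [h1]
    exact pow_dvd_pow p hk2
  have : Fact r.Prime := ⟨hr⟩
  have hrq : r ≠ q := by
    rintro rfl
    have h1 : S = (∑ i ∈ Finset.range (p - 1), r ^ (i + 1)) + 1 := by
      rw [hSdef]
      have hp1 : p = (p - 1) + 1 := by have := hp.pos; omega
      conv_lhs => rw [hp1]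
      rw [Finset.sum_range_succ', pow_zero]
    have h2 : r ∣ ∑ i ∈ Finset.range (p - 1), r ^ (i + 1) :=
      Finset.dvd_sum fun i _ => dvd_pow_self r (Nat.succ_ne_zero i)
    have h3 : r ∣ 1 := by
      have := (Nat.dvd_add_right h2).mp (h1 ▸ hrS)
      exact this
    exact hr.one_lt.ne' (Nat.dvd_one.mp h3)
  have hS0' : ((S : ℕ) : ZMod r) = 0 := (ZMod.natCast_eq_zero_iff _ _).mpr hrS
  have hsum : (∑ i ∈ Finset.range p, (q : ZMod r) ^ i) = 0 := by
    rw [← hS0', hSdef]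
    push_cast
    rfl
  have hqp : (q : ZMod r) ^ p = 1 := by
    have h2 : (∑ i ∈ Finset.range p, (q : ZMod r) ^ i) * ((q : ZMod r) - 1) = (q : ZMod r) ^ p - 1 :=
      geom_sum_mul _ _
    rw [hsum, zero_mul] at h2
    exact (sub_eq_zero.mp h2.symm)
  have hord : orderOf (q : ZMod r) = p := by
    rcases hp.eq_one_or_self_of_dvd _ (orderOf_dvd_of_pow_eq_one hqp) with h1 | h1
    · exfalso
      rw [orderOf_eq_one_iff] at h1
      rw [h1] at hsum
      simp only [one_pow, Finset.sum_const, Finset.card_range, nsmul_eq_mul, mul_one] at hsum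
      have h2 : r ∣ p := (ZMod.natCast_eq_zero_iff _ _).mp hsum
      exact hrp ((Nat.prime_dvd_prime_iff_eq hr hp).mp h2)
    · exact h1
  refine ⟨r, hr, hrp, hrq, hord, ?_⟩
  have hq0 : (q : ZMod r) ≠ 0 := by
    intro h0
    rw [h0, zero_pow hp.ne_zero] at hqp
    exact zero_ne_one hqp
  rw [← hord]
  exact ZMod.orderOf_dvd_card_sub_one hq0

/-- A prime of `𝓞 K` containing the prime number `ℓ` lies over `(ℓ)`. -/
theorem liesOver_of_mem {K : Type*} [Field K] [NumberField K] (ℓ : ℕ) [Fact ℓ.Prime]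
    (v : HeightOneSpectrum (𝓞 K)) (hv : (ℓ : 𝓞 K) ∈ v.asIdeal) :
    v.asIdeal.LiesOver (Ideal.span {(ℓ : ℤ)}) := by
  constructor
  have hmax : (Ideal.span {(ℓ : ℤ)}).IsMaximal := Int.ideal_span_isMaximal_of_prime ℓ
  have hvp : v.asIdeal.IsPrime := v.isPrime
  have hle : Ideal.span {(ℓ : ℤ)} ≤ v.asIdeal.under ℤ := by
    rw [Ideal.span_singleton_le_iff_mem, Ideal.under_def, Ideal.mem_comap]
    simpa using hv
  have hne : v.asIdeal.under ℤ ≠ ⊤ := Ideal.comap_ne_top _ hvp.ne_top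
  exact hmax.eq_of_le hne hle

section Cyclo

variable (p : ℕ) [Fact p.Prime] (K : Type*) [Field K] [NumberField K]
  [IsCyclotomicExtension {p} ℚ K]

/-- Primes `r ≡ 1 mod p` split completely in `ℚ(ζ_p)`: every prime above `r` has norm `r`. -/
theorem absNorm_eq_of_mem (r : ℕ) [Fact r.Prime] (hr : p ∣ r - 1) (v : HeightOneSpectrum (𝓞 K))
    (hv : (r : 𝓞 K) ∈ v.asIdeal) : Ideal.absNorm v.asIdeal = r := by
  have hp : p.Prime := Fact.out
  have hrp : r.Prime := Fact.out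
  have : NeZero p := ⟨hp.ne_zero⟩
  have hl : v.asIdeal.LiesOver (Ideal.span {(r : ℤ)}) := liesOver_of_mem r v hv
  have hvp : v.asIdeal.IsPrime := v.isPrime
  have hvmax : v.asIdeal.IsMaximal := v.isMaximal
  have hmax : (Ideal.span {(r : ℤ)}).IsMaximal := Int.ideal_span_isMaximal_of_prime r
  have hne : ¬ r ∣ p := by
    intro h
    have h1 := (Nat.prime_dvd_prime_iff_eq hrp hp).mp h
    subst h1
    have h2 := Nat.le_of_dvd (by have := hrp.two_le; omega) hr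
    have := hrp.two_le
    omega
  have h1 := IsCyclotomicExtension.Rat.inertiaDeg_eq_of_not_dvd r K v.asIdeal hne
  have h2 : orderOf ((r : ℕ) : ZMod p) = 1 := by
    rw [orderOf_eq_one_iff]
    have h3 : ((r - 1 : ℕ) : ZMod p) = 0 := (ZMod.natCast_eq_zero_iff _ _).mpr hr
    have h4 : r = (r - 1) + 1 := by have := hrp.pos; omega
    rw [h4]
    push_cast
    rw [h3, zero_add]
  rw [Ideal.absNorm_eq_pow_inertiaDeg' v.asIdeal hrp, Ideal.inertiaDeg'_eq_inertiaDeg, h1, h2,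
    pow_one]

/-- Primes `ℓ ≠ p` are unramified in `ℚ(ζ_p)`. -/
theorem natCast_not_mem_sq (ℓ : ℕ) [Fact ℓ.Prime] (hℓ : ℓ ≠ p) (v : HeightOneSpectrum (𝓞 K))
    (hv : (ℓ : 𝓞 K) ∈ v.asIdeal) : (ℓ : 𝓞 K) ∉ v.asIdeal ^ 2 := by
  have hp : p.Prime := Fact.out
  have hℓp : ℓ.Prime := Fact.out
  have : NeZero p := ⟨hp.ne_zero⟩
  have hl : v.asIdeal.LiesOver (Ideal.span {(ℓ : ℤ)}) := liesOver_of_mem ℓ v hv
  have hvp : v.asIdeal.IsPrime := v.isPrime
  have hne : ¬ ℓ ∣ p := fun h => hℓ ((Nat.prime_dvd_prime_iff_eq hℓp hp).mp h)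
  have h1 := IsCyclotomicExtension.Rat.ramificationIdx_eq_of_not_dvd ℓ K v.asIdeal hne
  have hbot : Ideal.span {(ℓ : ℤ)} ≠ ⊥ := by
    rw [Ne, Ideal.span_singleton_eq_bot]
    exact_mod_cast hℓp.ne_zero
  have h2 : (Ideal.span {(ℓ : ℤ)}).ramificationIdx' v.asIdeal = 1 := by
    rw [Ideal.ramificationIdx'_eq_ramificationIdx _ _ hbot, h1]
  have hmap : Ideal.map (algebraMap ℤ (𝓞 K)) (Ideal.span {(ℓ : ℤ)}) = Ideal.span {(ℓ : 𝓞 K)} := by
    rw [Ideal.map_span, Set.image_singleton]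
    simp
  have hle : Ideal.map (algebraMap ℤ (𝓞 K)) (Ideal.span {(ℓ : ℤ)}) ≤ v.asIdeal := by
    rw [hmap, Ideal.span_singleton_le_iff_mem]
    exact hv
  intro hmem
  have h3 := (Ideal.ramificationIdx'_ne_one_iff hle).mpr (by
    rw [hmap, Ideal.span_singleton_le_iff_mem]
    exact hmem)
  exact h3 h2

/-- Primes `ℓ ≠ p` are unramified in an everywhere unramified Galois extension of `ℚ(ζ_p)`. -/
theorem natCast_not_mem_sq_top (L : Type*) [Field L] [NumberField L] [Algebra K L] [IsGalois K L]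
    (hunr : UnramifiedEverywhere K L) (ℓ : ℕ) [Fact ℓ.Prime] (hℓ : ℓ ≠ p)
    (w : HeightOneSpectrum (𝓞 L)) (hw : (ℓ : 𝓞 L) ∈ w.asIdeal) :
    (ℓ : 𝓞 L) ∉ w.asIdeal ^ 2 := by
  have hℓp : ℓ.Prime := Fact.out
  have hcast : algebraMap (𝓞 K) (𝓞 L) (ℓ : 𝓞 K) = (ℓ : 𝓞 L) := map_natCast _ _
  have hv : (ℓ : 𝓞 K) ∈ (primeBelow K L w).asIdeal := by
    rw [mem_primeBelow_iff, hcast]
    exact hw
  have h3 := natCast_not_mem_sq p K ℓ hℓ (primeBelow K L w) hv
  have hℓ0 : (ℓ : 𝓞 K) ≠ 0 := Nat.cast_ne_zero.mpr hℓp.ne_zero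
  have hℓ0' : (ℓ : 𝓞 L) ≠ 0 := Nat.cast_ne_zero.mpr hℓp.ne_zero
  have hcnt := GalDiv.cnt_algebraMap K L w hℓ0
  rw [GalDiv.ramIdx_eq_one K L w (fun σ hσ => hunr w.asIdeal w.isPrime w.ne_bot σ hσ), one_mul,
    hcast] at hcnt
  intro hmem
  have h4 : 2 ≤ GalDiv.cnt w (ℓ : 𝓞 L) := (GalDiv.le_cnt_iff w hℓ0' 2).mpr hmem
  rw [hcnt, GalDiv.le_cnt_iff _ hℓ0] at h4
  exact h3 h4

end Cyclo

end CoreArith

end Fermat.Agent.S14
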