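import Fermat.Agent.S14.CrossDefs

/-!
# S14 / CrossSetup: `M = L(ζ_r)` is Galois over `K` when `L/K` is Galois

`isGalois_top r K L M : IsGalois K M` (the fields `L` and `r` are explicit arguments).
-/

set_option autoImplicit false

namespace Fermat.Agent.S14

open Polynomial

/-- `M = L(ζ_r)` is Galois over `K` if `L/K` is finite Galois. -/
theorem isGalois_top (r : ℕ) [Fact r.Prime] (K L M : Type*) [Field K] [NumberField K]
    [Field L] [NumberField L] [Field M] [NumberField M]
    [Algebra K L] [Algebra L M] [Algebra K M] [IsScalarTower K L M]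
    [IsGalois K L] [IsCyclotomicExtension {r} L M] : IsGalois K M := by
  have : NeZero r := ⟨(Fact.out : r.Prime).ne_zero⟩
  obtain ⟨q, hqsep, hq⟩ := IsGalois.is_separable_splitting_field K L
  have hq0 : q ≠ 0 := hqsep.ne_zero
  have hX : (X ^ r - 1 : K[X]) ≠ 0 := by
    simpa using X_pow_sub_C_ne_zero (NeZero.pos r) (1 : K)
  have h1 : IsSplittingField L M (X ^ r - 1) :=
    IsCyclotomicExtension.isSplittingField_X_pow_sub_one r L M
  have h2 : IsSplittingField L M ((X ^ r - 1 : K[X]).map (algebraMap K L)) := by
    simpa using h1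
  have h3 : IsSplittingField K M (q * (X ^ r - 1)) :=
    IsSplittingField.mul (F := K) (K := L) M q (X ^ r - 1) hq0 hX
  have hn : Normal K M := Normal.of_isSplittingField (q * (X ^ r - 1))
  exact IsGalois.mk

end Fermat.Agent.S14
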