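/-
S14, crossing argument, sub-package X3 (CrossLocal): the local computation at the primes
above `r`.

`K ⊆ L ⊆ M = L(ζ_r)`, `r` unramified in `L`.  For a prime `v` of `K` over `r` of absolute norm `r`
and `b, c ∈ K`, `γ, δ ∈ M` with `N_τ' γ = b`, `ρ' γ / γ = τ' δ / δ`, `N_ρ' δ = c`, `ord_v b = 0`:
`c * r ^ (- ord_v c) ≡ 1 mod v`.

Method: everything is done with the adic valuations.  Every `x ∈ M` is `∑_{i < r-1} a_i (1-ζ)^i`
with `a_i ∈ L`, and the valuations at a prime `W ∣ r` of the nonzero terms are pairwise distinct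
(they are `exp (-n ((r-1) t_i + i))`), so the valuation of the sum is the maximum of the
valuations of the terms.  This gives: `ρ'` preserves the valuation and acts trivially on the
residue field (total ramification of `M/L` at `W`), without any ramification-group theory.
-/
import Fermat.Agent.S14.CrossDefs

set_option autoImplicit false

namespace Fermat.Agent.S14

open NumberField IsDedekindDomain
open scoped nonZeroDivisors Pointwise

namespace CrossLocal

open WithZero

/-! ### Arithmetic of exponents -/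

theorem idx_eq {N i j : ℕ} (hi : i < N) (hj : j < N) {t t' : ℤ}
    (h : (N : ℤ) * t + i = N * t' + j) : i = j := by
  have h1 : ((N : ℤ) * t + i) % N = i := by
    rw [Int.add_comm, Int.add_mul_emod_self_left]
    exact Int.emod_eq_of_lt (by positivity) (by exact_mod_cast hi)
  have h2 : ((N : ℤ) * t' + j) % N = j := by
    rw [Int.add_comm, Int.add_mul_emod_self_left]
    exact Int.emod_eq_of_lt (by positivity) (by exact_mod_cast hj)
  rw [h, h2] at h1
  exact_mod_cast h1.symm

theorem le_of_forall_exp {y z : ℤᵐ⁰} (hy : y ≤ 1)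
    (h : ∀ n : ℕ, y ≤ exp (-(n : ℤ)) → z ≤ exp (-(n : ℤ))) : z ≤ y := by
  by_cases hy0 : y = 0
  · subst hy0
    by_contra hz
    have hz0 : z ≠ 0 := fun h0 => hz (h0 ▸ le_rfl)
    have h1 := h (1 - log z).toNat zero_le
    rw [← log_le_iff_le_exp hz0] at h1
    have h2 := Int.self_le_toNat (1 - log z)
    omega
  · have hlog : log y ≤ 0 := by
      rw [log_le_iff_le_exp hy0, exp_zero]
      exact hy
    have h1 := h (-log y).toNat
    have h2 : (((-log y).toNat : ℕ) : ℤ) = -log y := Int.toNat_of_nonneg (by omega)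
    rw [h2, neg_neg, exp_log hy0] at h1
    exact h1 le_rfl

/-! ### Abstract valuation lemmas -/

section Abstract

variable {F : Type*} [Field F] (V : Valuation F ℤᵐ⁰)

/-- Terms whose valuations lie in pairwise distinct classes: the valuation of the sum is the
maximum of the valuations of the terms. -/
theorem val_sum_eq_sup (N : ℕ) (n : ℤ) (hn : 0 < n) (f : ℕ → F)
    (hf : ∀ i < N, f i = 0 ∨ ∃ t : ℤ, V (f i) = exp (-(n * (N * t + i)))) :
    V (∑ i ∈ Finset.range N, f i) = (Finset.range N).sup (fun i => V (f i)) := by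
  by_cases hall : ∀ i ∈ Finset.range N, f i = 0
  · rw [Finset.sum_eq_zero hall, map_zero]
    symm
    rw [← bot_eq_zero, Finset.sup_eq_bot_iff]
    intro i hi
    rw [hall i hi, map_zero, bot_eq_zero]
  · simp only [not_forall] at hall
    obtain ⟨i1, hi1, hfi1⟩ := hall
    obtain ⟨i0, hi0, hmax⟩ := Finset.exists_max_image (Finset.range N) (fun i => V (f i))
      ⟨i1, hi1⟩
    have hpos : V (f i0) ≠ 0 := by
      have h1 : V (f i1) ≠ 0 := (Valuation.ne_zero_iff V).mpr hfi1
      have h2 := hmax i1 hi1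
      intro h0
      rw [h0] at h2
      exact h1 (le_antisymm h2 zero_le)
    have hfi0 : f i0 ≠ 0 := (Valuation.ne_zero_iff V).mp hpos
    have hsup : (Finset.range N).sup (fun i => V (f i)) = V (f i0) :=
      le_antisymm (Finset.sup_le hmax) (Finset.le_sup (f := fun i => V (f i)) hi0)
    rw [hsup, ← Finset.add_sum_erase _ _ hi0]
    apply Valuation.map_add_eq_of_lt_left
    apply Valuation.map_sum_lt V hpos
    intro j hj
    rw [Finset.mem_erase] at hj
    refine lt_of_le_of_ne (hmax j hj.2) ?_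
    intro heq
    have hfj : f j ≠ 0 := (Valuation.ne_zero_iff V).mp (heq ▸ hpos)
    rcases hf j (Finset.mem_range.mp hj.2) with h | ⟨t, ht⟩
    · exact hfj h
    rcases hf i0 (Finset.mem_range.mp hi0) with h | ⟨t', ht'⟩
    · exact hfi0 h
    rw [ht, ht', exp_inj, neg_inj] at heq
    have h3 : (N : ℤ) * t + j = N * t' + i0 := mul_left_cancel₀ hn.ne' heq
    exact hj.1 (idx_eq (Finset.mem_range.mp hj.2) (Finset.mem_range.mp hi0) h3)

/-- A unit which is a sum of terms in pairwise distinct valuation classes: the `0`-th term is a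
unit and all the others are in the maximal ideal. -/
theorem val_terms_of_unit (N : ℕ) (n : ℤ) (hn : 0 < n) (f : ℕ → F)
    (hf : ∀ i < N, f i = 0 ∨ ∃ t : ℤ, V (f i) = exp (-(n * (N * t + i))))
    (h1 : V (∑ i ∈ Finset.range N, f i) = 1) :
    0 < N ∧ V (f 0) = 1 ∧ ∀ i, 0 < i → i < N → V (f i) < 1 := by
  have hsup := val_sum_eq_sup V N n hn f hf
  rw [h1] at hsup
  have hN : 0 < N := by
    rcases Nat.eq_zero_or_pos N with rfl | h
    · simp at hsup
    · exact h
  have hne : (Finset.range N).Nonempty := ⟨0, Finset.mem_range.mpr hN⟩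
  obtain ⟨i0, hi0, hi0eq⟩ := Finset.exists_mem_eq_sup (Finset.range N) hne (fun i => V (f i))
  rw [← hsup] at hi0eq
  have hle : ∀ i ∈ Finset.range N, V (f i) ≤ 1 := by
    intro i hi
    rw [hsup]
    exact Finset.le_sup (f := fun i => V (f i)) hi
  have hi00 : i0 = 0 := by
    rcases hf i0 (Finset.mem_range.mp hi0) with h | ⟨t, ht⟩
    · rw [h, map_zero] at hi0eq
      exact absurd hi0eq one_ne_zero
    · rw [ht, eq_comm, exp_eq_one, neg_eq_zero] at hi0eq
      have h3 : (N : ℤ) * t + i0 = N * 0 + (0 : ℕ) := by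
        rcases mul_eq_zero.mp hi0eq with h | h
        · exact absurd h hn.ne'
        · simpa using h
      exact idx_eq (Finset.mem_range.mp hi0) hN h3
  subst hi00
  refine ⟨hN, hi0eq.symm, ?_⟩
  intro i hipos hiN
  refine lt_of_le_of_ne (hle i (Finset.mem_range.mpr hiN)) ?_
  intro heq
  rcases hf i hiN with h | ⟨t, ht⟩
  · rw [h, map_zero] at heq
    exact zero_ne_one heq
  · rw [ht, exp_eq_one, neg_eq_zero] at heq
    have h3 : (N : ℤ) * t + i = N * 0 + (0 : ℕ) := by
      rcases mul_eq_zero.mp heq with h | h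
      · exact absurd h hn.ne'
      · simpa using h
    have := idx_eq hiN hN h3
    omega

theorem val_le_one_of_sub_lt {x a : F} (ha : V a ≤ 1) (h : V (x - a) < 1) : V x ≤ 1 := by
  have h1 : x = (x - a) + a := by ring
  rw [h1]
  exact (V.map_add _ _).trans (max_le h.le ha)

theorem val_prod_sub_pow_lt (a : F) (ha : V a ≤ 1) (s : Finset ℕ) (x : ℕ → F)
    (hx : ∀ j ∈ s, V (x j - a) < 1) : V (∏ j ∈ s, x j - a ^ s.card) < 1 := by
  classical
  induction s using Finset.induction_on with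
  | empty => simp
  | insert j s hj ih =>
    rw [Finset.prod_insert hj, Finset.card_insert_of_notMem hj, pow_succ']
    have h1 : x j * ∏ i ∈ s, x i - a * a ^ s.card =
        x j * (∏ i ∈ s, x i - a ^ s.card) + (x j - a) * a ^ s.card := by ring
    rw [h1]
    refine lt_of_le_of_lt (V.map_add _ _) (max_lt ?_ ?_)
    · rw [map_mul]
      exact mul_lt_one_of_nonneg_of_lt_one_right
        (val_le_one_of_sub_lt V ha (hx j (Finset.mem_insert_self j s))) zero_le
        (ih (fun i hi => hx i (Finset.mem_insert_of_mem hi)))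
    · rw [map_mul, map_pow]
      exact mul_lt_one_of_nonneg_of_lt_one_left zero_le (hx j (Finset.mem_insert_self j s))
        (pow_le_one₀ zero_le ha)

theorem val_sum_sub_lt (N : ℕ) (f : ℕ → F) (h : ∀ i, 0 < i → i < N → V (f i) < 1)
    (hN : 0 < N) : V (∑ i ∈ Finset.range N, f i - f 0) < 1 := by
  obtain ⟨N, rfl⟩ : ∃ N', N = N' + 1 := ⟨N - 1, by omega⟩
  rw [Finset.sum_range_succ', add_sub_cancel_right]
  apply Valuation.map_sum_lt V one_ne_zero
  intro i hi
  exact h (i + 1) (Nat.succ_pos i) (by have := Finset.mem_range.mp hi; omega)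

end Abstract

/-! ### Valuations on number fields -/

section Basic

variable {E : Type*} [Field E] [NumberField E]

/-- dictionary: the adic valuation is `exp (- ord)`. -/
theorem valuation_eq_exp_neg_ord (v : HeightOneSpectrum (𝓞 E)) {x : E} (hx : x ≠ 0) :
    v.valuation E x = exp (-(ord v x)) := by
  obtain ⟨n, d, hd, rfl⟩ := IsFractionRing.div_surjective (A := 𝓞 E) x
  have hd0 : d ≠ 0 := nonZeroDivisors.ne_zero hd
  have hn0 : n ≠ 0 := by
    rintro rfl
    simp at hx
  have hI : (FractionalIdeal.spanSingleton (𝓞 E)⁰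
      (algebraMap (𝓞 E) E n / algebraMap (𝓞 E) E d)) =
      FractionalIdeal.spanSingleton (𝓞 E)⁰ (algebraMap (𝓞 E) E d)⁻¹ *
        ((Ideal.span {n} : Ideal (𝓞 E)) : FractionalIdeal (𝓞 E)⁰ E) := by
    rw [FractionalIdeal.coeIdeal_span_singleton, FractionalIdeal.spanSingleton_mul_spanSingleton,
      div_eq_inv_mul]
  have hne : (FractionalIdeal.spanSingleton (𝓞 E)⁰
      (algebraMap (𝓞 E) E n / algebraMap (𝓞 E) E d)) ≠ 0 := by
    rw [Ne, FractionalIdeal.spanSingleton_eq_zero_iff]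
    exact hx
  unfold ord
  rw [FractionalIdeal.count_well_defined E v hne hI, map_div₀,
    HeightOneSpectrum.valuation_of_algebraMap, HeightOneSpectrum.valuation_of_algebraMap,
    HeightOneSpectrum.intValuation_if_neg v hn0, HeightOneSpectrum.intValuation_if_neg v hd0,
    ← exp_sub]
  congr 1
  ring

/-- `r ∈ w`, `r ∉ w ^ 2`: the valuation of `r` is `exp (-1)`. -/
theorem val_natCast_eq (w : HeightOneSpectrum (𝓞 E)) (r : ℕ) (h1 : (r : 𝓞 E) ∈ w.asIdeal)
    (h2 : (r : 𝓞 E) ∉ w.asIdeal ^ 2) : w.valuation E (r : E) = exp (-1 : ℤ) := by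
  have hr0 : (r : 𝓞 E) ≠ 0 := by
    rintro h
    rw [h] at h2
    exact h2 (Ideal.zero_mem _)
  have hcast : (r : E) = algebraMap (𝓞 E) E (r : 𝓞 E) := by simp
  rw [hcast, HeightOneSpectrum.valuation_of_algebraMap]
  have hne : w.intValuation (r : 𝓞 E) ≠ 0 := w.intValuation_ne_zero _ hr0
  have ha : w.intValuation (r : 𝓞 E) ≤ exp (-((1 : ℕ) : ℤ)) := by
    rw [HeightOneSpectrum.intValuation_le_pow_iff_mem, pow_one]
    exact h1
  have hb : ¬ w.intValuation (r : 𝓞 E) ≤ exp (-((2 : ℕ) : ℤ)) := by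
    rw [HeightOneSpectrum.intValuation_le_pow_iff_mem]
    exact h2
  rw [← log_le_iff_le_exp hne] at ha hb
  rw [← exp_log hne, exp_inj]
  push_cast at ha hb
  omega

/-- `1 - ξ ^ m` is divisible by `1 - ξ` for integral `ξ`. -/
theorem val_one_sub_pow_le (W : HeightOneSpectrum (𝓞 E)) (z : 𝓞 E) (m : ℕ) :
    W.valuation E (1 - (z : E) ^ m) ≤ W.valuation E (1 - (z : E)) := by
  have h : (1 : E) - (z : E) ^ m =
      (algebraMap (𝓞 E) E (∑ i ∈ Finset.range m, z ^ i)) * (1 - (z : E)) := by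
    rw [map_sum]
    simp only [map_pow]
    exact (geom_sum_mul_neg (z : E) m).symm
  rw [h, map_mul]
  calc W.valuation E (algebraMap (𝓞 E) E (∑ i ∈ Finset.range m, z ^ i)) *
        W.valuation E (1 - (z : E))
      ≤ 1 * W.valuation E (1 - (z : E)) := by
        gcongr
        exact HeightOneSpectrum.valuation_le_one W _
    _ = _ := one_mul _

theorem val_one_sub_zeta_pow (W : HeightOneSpectrum (𝓞 E)) {r : ℕ} (hr : r.Prime) {ζ : E}
    (hζ : IsPrimitiveRoot ζ r) (m : ℕ) (hm : ¬ r ∣ m) :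
    W.valuation E (1 - ζ ^ m) = W.valuation E (1 - ζ) := by
  have hint : IsIntegral ℤ ζ := hζ.isIntegral hr.pos
  refine le_antisymm (val_one_sub_pow_le W ⟨ζ, hint⟩ m) ?_
  have hcop : Nat.Coprime m r := ((Nat.Prime.coprime_iff_not_dvd hr).mpr hm).symm
  obtain ⟨m', -, hm'⟩ := Nat.exists_mul_mod_eq_one_of_coprime hcop hr.one_lt
  have h1 : (ζ ^ m) ^ m' = ζ := by
    rw [← pow_mul, ← Nat.mod_add_div (m * m') r, hm', pow_add, pow_mul, hζ.pow_eq_one, one_pow,
      mul_one, pow_one]
  have hint' : IsIntegral ℤ (ζ ^ m) := hint.pow m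
  have h3 : W.valuation E (1 - (ζ ^ m) ^ m') ≤ W.valuation E (1 - ζ ^ m) :=
    val_one_sub_pow_le W ⟨ζ ^ m, hint'⟩ m'
  rwa [h1] at h3

theorem val_prime_eq (W : HeightOneSpectrum (𝓞 E)) {r : ℕ} (hr : r.Prime) {ζ : E}
    (hζ : IsPrimitiveRoot ζ r) :
    W.valuation E (r : E) = W.valuation E (1 - ζ) ^ (r - 1) := by
  obtain ⟨n, rfl⟩ : ∃ n, r = n + 1 := ⟨r - 1, (Nat.sub_add_cancel hr.pos).symm⟩
  have h := hζ.prod_one_sub_pow_eq_order
  have h2 : ((n + 1 : ℕ) : E) = ∏ k ∈ Finset.range n, (1 - ζ ^ (k + 1)) := by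
    rw [h]
    push_cast
    ring
  rw [h2, map_prod, Nat.add_sub_cancel]
  rw [Finset.prod_congr rfl (fun k hk => val_one_sub_zeta_pow W hr hζ (k + 1) ?_)]
  · rw [Finset.prod_const, Finset.card_range]
  · intro hdvd
    have := Nat.le_of_dvd (Nat.succ_pos k) hdvd
    have := Finset.mem_range.mp hk
    omega

end Basic

section Over

variable {K M : Type*} [Field K] [NumberField K] [Field M] [NumberField M] [Algebra K M]

theorem exists_over (v : HeightOneSpectrum (𝓞 K)) :
    ∃ W : HeightOneSpectrum (𝓞 M), W.asIdeal.LiesOver v.asIdeal := by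
  have : v.asIdeal.IsMaximal := v.isMaximal
  obtain ⟨P, hP, hPv⟩ := Ideal.exists_maximal_ideal_liesOver_of_isIntegral v.asIdeal (S := 𝓞 M)
  exact ⟨⟨P, hP.isPrime, Ideal.ne_bot_of_liesOver_of_ne_bot v.ne_bot P⟩, hPv⟩

theorem val_algebraMap (v : HeightOneSpectrum (𝓞 K)) (W : HeightOneSpectrum (𝓞 M))
    [W.asIdeal.LiesOver v.asIdeal] :
    ∃ e : ℕ, e ≠ 0 ∧ ∀ x : K, W.valuation M (algebraMap K M x) = v.valuation K x ^ e :=
  ⟨v.asIdeal.ramificationIdx' W.asIdeal,
    Ideal.IsDedekindDomain.ramificationIdx'_ne_zero_of_liesOver W.asIdeal v.ne_bot,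
    fun x => (HeightOneSpectrum.valuation_liesOver M v W x).symm⟩

end Over

/-! ### Automorphisms stabilising a prime preserve its valuation -/

section Stab

variable {F E : Type*} [Field F] [Field E] [NumberField E] [Algebra F E]

theorem smul_mem_pow (w : HeightOneSpectrum (𝓞 E)) (σ : E ≃ₐ[F] E)
    (hσ : σ • w.asIdeal = w.asIdeal) (x : 𝓞 E) (n : ℕ) (hx : x ∈ w.asIdeal ^ n) :
    σ • x ∈ w.asIdeal ^ n := by
  have h1 : σ • (w.asIdeal ^ n) = w.asIdeal ^ n := by
    conv_rhs => rw [← hσ]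
    rw [Ideal.pointwise_smul_def, Ideal.pointwise_smul_def, Ideal.map_pow]
  rw [← h1]
  exact Ideal.smul_mem_pointwise_smul σ x _ hx

theorem intValuation_smul_le (w : HeightOneSpectrum (𝓞 E)) (σ : E ≃ₐ[F] E)
    (hσ : σ • w.asIdeal = w.asIdeal) (x : 𝓞 E) :
    w.intValuation (σ • x) ≤ w.intValuation x := by
  apply le_of_forall_exp (w.intValuation_le_one x)
  intro n hn
  rw [HeightOneSpectrum.intValuation_le_pow_iff_mem] at hn ⊢
  exact smul_mem_pow w σ hσ x n hn

theorem intValuation_smul_eq (w : HeightOneSpectrum (𝓞 E)) (σ : E ≃ₐ[F] E)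
    (hσ : σ • w.asIdeal = w.asIdeal) (x : 𝓞 E) :
    w.intValuation (σ • x) = w.intValuation x := by
  refine le_antisymm (intValuation_smul_le w σ hσ x) ?_
  have hσ' : σ⁻¹ • w.asIdeal = w.asIdeal := by
    conv_lhs => rw [← hσ]
    rw [inv_smul_smul]
  have := intValuation_smul_le w σ⁻¹ hσ' (σ • x)
  rwa [inv_smul_smul] at this

theorem valuation_apply_eq (w : HeightOneSpectrum (𝓞 E)) (σ : E ≃ₐ[F] E)
    (hσ : σ • w.asIdeal = w.asIdeal) (a : E) :
    w.valuation E (σ a) = w.valuation E a := by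
  obtain ⟨n, d, hd, rfl⟩ := IsFractionRing.div_surjective (A := 𝓞 E) a
  have h1 : ∀ x : 𝓞 E, σ (algebraMap (𝓞 E) E x) = algebraMap (𝓞 E) E (σ • x) := fun x => rfl
  rw [map_div₀, h1, h1, map_div₀, map_div₀, HeightOneSpectrum.valuation_of_algebraMap,
    HeightOneSpectrum.valuation_of_algebraMap, HeightOneSpectrum.valuation_of_algebraMap,
    HeightOneSpectrum.valuation_of_algebraMap, intValuation_smul_eq w σ hσ,
    intValuation_smul_eq w σ hσ]

end Stab

/-! ### A Frobenius element -/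

theorem exists_frob {K L : Type*} [Field K] [NumberField K] [Field L] [NumberField L]
    [Algebra K L] [IsGalois K L]
    (v : HeightOneSpectrum (𝓞 K)) (w : HeightOneSpectrum (𝓞 L)) [w.asIdeal.LiesOver v.asIdeal] :
    ∃ σ : L ≃ₐ[K] L, σ • w.asIdeal = w.asIdeal ∧
      ∀ a : L, w.valuation L a ≤ 1 →
        w.valuation L (σ a - a ^ (Ideal.absNorm v.asIdeal)) < 1 := by
  obtain ⟨σ, hσ⟩ := IsArithFrobAt.exists_of_isInvariant (𝓞 K) (L ≃ₐ[K] L) w.asIdeal
  have hstab : σ • w.asIdeal = w.asIdeal := MulAction.mem_stabilizer_iff.mp hσ.mem_stabilizer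
  refine ⟨σ, hstab, ?_⟩
  have hcard : Nat.card (𝓞 K ⧸ Ideal.under (𝓞 K) w.asIdeal) = Ideal.absNorm v.asIdeal := by
    rw [← Ideal.over_def w.asIdeal v.asIdeal, Ideal.absNorm_apply, Submodule.cardQuot_apply]
  have hfrob : ∀ x : 𝓞 L, σ • x - x ^ (Ideal.absNorm v.asIdeal) ∈ w.asIdeal := by
    intro x
    have := hσ x
    rw [hcard] at this
    exact this
  intro a ha
  obtain ⟨n, ⟨d, hd⟩, hnd⟩ := HeightOneSpectrum.exists_primeCompl_mul_eq_of_integer w a ha
  have hd1 : w.valuation L (algebraMap (𝓞 L) L d) = 1 :=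
    (HeightOneSpectrum.valuation_eq_one_iff_notMem w).mpr hd
  have hσd : w.valuation L (σ (algebraMap (𝓞 L) L d)) = 1 := by
    rw [valuation_apply_eq w σ hstab]
    exact hd1
  have e3 : ∀ x : 𝓞 L, algebraMap (𝓞 L) L (σ • x) = σ (algebraMap (𝓞 L) L x) := fun x => rfl
  have key : (σ a - a ^ (Ideal.absNorm v.asIdeal)) *
      (σ (algebraMap (𝓞 L) L d) * (algebraMap (𝓞 L) L d) ^ (Ideal.absNorm v.asIdeal)) =
      algebraMap (𝓞 L) L ((σ • n - n ^ (Ideal.absNorm v.asIdeal)) *
        d ^ (Ideal.absNorm v.asIdeal) -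
        n ^ (Ideal.absNorm v.asIdeal) * (σ • d - d ^ (Ideal.absNorm v.asIdeal))) := by
    have e1 : σ a * σ (algebraMap (𝓞 L) L d) = σ (algebraMap (𝓞 L) L n) := by
      rw [← map_mul, hnd]
    have e2 : a ^ (Ideal.absNorm v.asIdeal) *
        (algebraMap (𝓞 L) L d) ^ (Ideal.absNorm v.asIdeal) =
        (algebraMap (𝓞 L) L n) ^ (Ideal.absNorm v.asIdeal) := by
      rw [← mul_pow, hnd]
    simp only [map_sub, map_mul, map_pow, e3]
    linear_combination (algebraMap (𝓞 L) L d) ^ (Ideal.absNorm v.asIdeal) * e1 -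
      σ (algebraMap (𝓞 L) L d) * e2
  have hlt : w.valuation L ((σ a - a ^ (Ideal.absNorm v.asIdeal)) *
      (σ (algebraMap (𝓞 L) L d) * (algebraMap (𝓞 L) L d) ^ (Ideal.absNorm v.asIdeal))) < 1 := by
    rw [key, HeightOneSpectrum.valuation_lt_one_iff_mem]
    exact w.asIdeal.sub_mem (w.asIdeal.mul_mem_right _ (hfrob n))
      (w.asIdeal.mul_mem_left _ (hfrob d))
  rwa [map_mul, map_mul, map_pow, hσd, hd1, one_pow, mul_one, mul_one] at hlt

/-! ### The crossing data -/

section Cross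

variable {p r : ℕ} [Fact r.Prime]
  {K L M : Type*} [Field K] [Field L] [Field M]
  [Algebra K L] [Algebra L M] [Algebra K M] [IsScalarTower K L M]
  {τ0 : L ≃ₐ[K] L} (D : CrossData p r K L M τ0)

theorem exists_expansion [IsCyclotomicExtension {r} L M] (x : M) :
    ∃ a : ℕ → L, x = ∑ i ∈ Finset.range (r - 1), algebraMap L M (a i) * (1 - D.ζ) ^ i := by
  have hr : r.Prime := Fact.out
  have : NeZero r := ⟨hr.ne_zero⟩
  have htop := IsCyclotomicExtension.adjoin_primitive_root_eq_top (A := L) (B := M) D.hζ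
  have hx : x ∈ Algebra.adjoin L ({D.ζ} : Set M) := by rw [htop]; trivial
  rw [Algebra.adjoin_singleton_eq_range_aeval] at hx
  obtain ⟨q, rfl⟩ := hx
  have hΦm : (Polynomial.cyclotomic r L).Monic := Polynomial.cyclotomic.monic r L
  have hroot : Polynomial.aeval D.ζ (Polynomial.cyclotomic r L) = 0 := by
    have := D.hζ.isRoot_cyclotomic hr.pos
    rw [Polynomial.IsRoot.def, ← Polynomial.map_cyclotomic r (algebraMap L M),
      Polynomial.eval_map_algebraMap] at this
    exact this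
  have h1 : Polynomial.aeval D.ζ (q %ₘ Polynomial.cyclotomic r L) = Polynomial.aeval D.ζ q :=
    Polynomial.aeval_modByMonic_eq_self_of_root hroot
  have hΦdeg : (Polynomial.cyclotomic r L).natDegree = r - 1 := by
    rw [Polynomial.natDegree_cyclotomic, Nat.totient_prime hr]
  have hdeg1 : (q %ₘ Polynomial.cyclotomic r L).natDegree < r - 1 := by
    rw [← hΦdeg]
    apply Polynomial.natDegree_modByMonic_lt _ hΦm
    intro h
    have := congrArg Polynomial.natDegree h
    rw [hΦdeg, Polynomial.natDegree_one] at this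
    have := hr.two_le
    omega
  have h2 : Polynomial.aeval (1 - D.ζ)
      ((q %ₘ Polynomial.cyclotomic r L).comp (Polynomial.C 1 - Polynomial.X)) =
      Polynomial.aeval D.ζ (q %ₘ Polynomial.cyclotomic r L) := by
    rw [Polynomial.aeval_comp]
    simp
  have hdeg2 : ((q %ₘ Polynomial.cyclotomic r L).comp
      (Polynomial.C 1 - Polynomial.X)).natDegree < r - 1 := by
    refine lt_of_le_of_lt Polynomial.natDegree_comp_le ?_
    have : (Polynomial.C (1 : L) - Polynomial.X).natDegree ≤ 1 := by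
      refine (Polynomial.natDegree_sub_le _ _).trans ?_
      simp
    calc (q %ₘ Polynomial.cyclotomic r L).natDegree *
          (Polynomial.C (1 : L) - Polynomial.X).natDegree
        ≤ (q %ₘ Polynomial.cyclotomic r L).natDegree * 1 := Nat.mul_le_mul_left _ this
      _ < r - 1 := by rw [mul_one]; exact hdeg1
  refine ⟨fun i => ((q %ₘ Polynomial.cyclotomic r L).comp
      (Polynomial.C 1 - Polynomial.X)).coeff i, ?_⟩
  change Polynomial.aeval D.ζ q = _
  rw [← h1, ← h2, Polynomial.aeval_eq_sum_range' hdeg2]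
  simp [Algebra.smul_def]

omit [Fact r.Prime] in
theorem rho_pow_zeta (j : ℕ) : (D.ρ' ^ j) D.ζ = D.ζ ^ (D.g ^ j) := by
  induction j with
  | zero => simp
  | succ j ih =>
    rw [pow_succ, AlgEquiv.mul_apply, D.ρ'_ζ, map_pow, ih, ← pow_mul, pow_succ]

omit [Fact r.Prime] in
theorem tau_pow_zeta (i : ℕ) : (D.τ' ^ i) D.ζ = D.ζ := by
  induction i with
  | zero => simp
  | succ i ih => rw [pow_succ, AlgEquiv.mul_apply, D.τ'_ζ, ih]

omit [Fact r.Prime] in
theorem tau_pow_L (i : ℕ) (x : L) :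
    (D.τ' ^ i) (algebraMap L M x) = algebraMap L M ((τ0 ^ i) x) := by
  induction i generalizing x with
  | zero => simp
  | succ i ih => rw [pow_succ, AlgEquiv.mul_apply, D.τ'_L, ih, pow_succ, AlgEquiv.mul_apply]

omit [Fact r.Prime] in
theorem rho_pow_L (j : ℕ) (x : L) : (D.ρ' ^ j) (algebraMap L M x) = algebraMap L M x := by
  induction j with
  | zero => simp
  | succ j ih => rw [pow_succ, AlgEquiv.mul_apply, D.ρ'_L, ih]

include D in
omit [Fact r.Prime] in
theorem exists_pow_eq_of_gen [Normal K M] (σ : L ≃ₐ[K] L) : ∃ i : ℕ, σ = τ0 ^ i := by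
  obtain ⟨i, j, hij⟩ := D.gen (σ.liftNormal M)
  refine ⟨i, AlgEquiv.ext fun x => ?_⟩
  apply (algebraMap L M).injective
  rw [← AlgEquiv.liftNormal_commutes σ M x, hij, AlgEquiv.mul_apply, rho_pow_L, tau_pow_L]

include D in
omit [Fact r.Prime] in
theorem tau0_pow_p : τ0 ^ p = 1 := by
  refine AlgEquiv.ext fun x => ?_
  apply (algebraMap L M).injective
  rw [← tau_pow_L, D.τ'_pow]
  simp

theorem g_ne_zero : (D.g : ZMod r) ≠ 0 := by
  have hr : r.Prime := Fact.out
  intro h0
  have h1 := pow_orderOf_eq_one (D.g : ZMod r)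
  rw [D.hg, h0, zero_pow (by have := hr.two_le; omega)] at h1
  exact zero_ne_one h1

theorem g_pow_not_dvd (j : ℕ) : ¬ r ∣ D.g ^ j := by
  intro h
  have h0 : ((D.g : ZMod r)) ^ j = 0 := by
    rw [← Nat.cast_pow]
    exact (ZMod.natCast_eq_zero_iff _ _).mpr h
  exact pow_ne_zero j (g_ne_zero D) h0

theorem prod_rho_pow : ∏ j ∈ Finset.range (r - 1), (D.ρ' ^ j) (1 - D.ζ) = (r : M) := by
  have hr : r.Prime := Fact.out
  have hζr : D.ζ ^ r = 1 := D.hζ.pow_eq_one
  have hmod : ∀ m : ℕ, D.ζ ^ m = D.ζ ^ (m % r) := by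
    intro m
    conv_lhs => rw [← Nat.mod_add_div m r, pow_add, pow_mul, hζr, one_pow, mul_one]
  have hpos : ∀ i, 0 < D.g ^ i % r := by
    intro i
    rcases Nat.eq_zero_or_pos (D.g ^ i % r) with h | h
    · exact absurd (Nat.dvd_of_mod_eq_zero h) (g_pow_not_dvd D i)
    · exact h
  have h1 : ∀ j ∈ Finset.range (r - 1), (D.ρ' ^ j) (1 - D.ζ) =
      1 - D.ζ ^ ((D.g ^ j % r - 1) + 1) := by
    intro j _
    rw [map_sub, map_one, rho_pow_zeta, Nat.sub_add_cancel (hpos j), ← hmod]
  rw [Finset.prod_congr rfl h1]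
  have hD : IsPrimitiveRoot D.ζ ((r - 1) + 1) := by
    rw [Nat.sub_add_cancel hr.pos]
    exact D.hζ
  have h2 := hD.prod_one_sub_pow_eq_order
  have h3 : ((r - 1 : ℕ) : M) + 1 = (r : M) := by
    have : ((r - 1 + 1 : ℕ) : M) = (r : M) := by rw [Nat.sub_add_cancel hr.pos]
    rw [← this]
    push_cast
    ring
  rw [← h3, ← h2]
  have hmaps : ∀ j ∈ Finset.range (r - 1), D.g ^ j % r - 1 ∈ Finset.range (r - 1) := by
    intro j _
    have hlt : D.g ^ j % r < r := Nat.mod_lt _ hr.pos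
    have := hpos j
    rw [Finset.mem_range]
    omega
  have hinj : Set.InjOn (fun j => D.g ^ j % r - 1) (Finset.range (r - 1) : Set ℕ) := by
    intro j hj j' hj' heq
    simp only [Finset.coe_range, Set.mem_Iio] at hj hj'
    have h4 : D.g ^ j % r = D.g ^ j' % r := by
      have := hpos j
      have := hpos j'
      simp only at heq
      omega
    have h5 : (D.g : ZMod r) ^ j = (D.g : ZMod r) ^ j' := by
      rw [← Nat.cast_pow, ← Nat.cast_pow]
      exact (ZMod.natCast_eq_natCast_iff' _ _ _).mpr h4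
    refine pow_injOn_Iio_orderOf ?_ ?_ h5
    · rw [Set.mem_Iio, D.hg]; exact hj
    · rw [Set.mem_Iio, D.hg]; exact hj'
  exact Finset.prod_nbij (fun j => D.g ^ j % r - 1) hmaps hinj
    (Finset.surjOn_of_injOn_of_card_le _ hmaps hinj le_rfl) (fun _ _ => rfl)

end Cross

/-! ### The structure of `M` at a prime above `r` -/

section Local

variable {p r : ℕ} [Fact r.Prime]
  {K L M : Type*} [Field K] [Field L] [NumberField L] [Field M] [NumberField M]
  [Algebra K L] [Algebra L M] [Algebra K M] [IsScalarTower K L M]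
  {τ0 : L ≃ₐ[K] L} (D : CrossData p r K L M τ0)

theorem local_structure (W : HeightOneSpectrum (𝓞 M)) (w : HeightOneSpectrum (𝓞 L))
    [W.asIdeal.LiesOver w.asIdeal] (h1 : (r : 𝓞 L) ∈ w.asIdeal)
    (h2 : (r : 𝓞 L) ∉ w.asIdeal ^ 2) :
    ∃ n : ℤ, 0 < n ∧ W.valuation M (1 - D.ζ) = exp (-n) ∧
      W.valuation M (r : M) = exp (-(((r - 1 : ℕ) : ℤ) * n)) ∧
      ∀ a : L, a ≠ 0 → ∃ t : ℤ,
        W.valuation M (algebraMap L M a) = exp (-(n * (((r - 1 : ℕ) : ℤ) * t))) := by
  have hr : r.Prime := Fact.out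
  obtain ⟨e, he, hval⟩ := val_algebraMap (K := L) (M := M) w W
  have hwr := val_natCast_eq w r h1 h2
  have hWr : W.valuation M (r : M) = exp (-(e : ℤ)) := by
    have hc : (r : M) = algebraMap L M (r : L) := by simp
    rw [hc, hval, hwr, ← exp_nsmul, nsmul_eq_mul, mul_neg, mul_one]
  have hπ0 : (1 : M) - D.ζ ≠ 0 := sub_ne_zero.mpr (D.hζ.ne_one hr.one_lt).symm
  have hVπ : W.valuation M (1 - D.ζ) ≠ 0 := (Valuation.ne_zero_iff _).mpr hπ0
  have hpow := val_prime_eq W hr D.hζ
  have hVπ' : W.valuation M (1 - D.ζ) = exp (-(-log (W.valuation M (1 - D.ζ)))) := by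
    rw [neg_neg, exp_log hVπ]
  have hen : (e : ℤ) = ((r - 1 : ℕ) : ℤ) * (-log (W.valuation M (1 - D.ζ))) := by
    rw [hWr, hVπ', ← exp_nsmul, nsmul_eq_mul, exp_inj] at hpow
    linarith
  have hnpos : 0 < -log (W.valuation M (1 - D.ζ)) := by
    have he' : (0 : ℤ) < e := by exact_mod_cast Nat.pos_of_ne_zero he
    have hr1 : (0 : ℤ) < ((r - 1 : ℕ) : ℤ) := by
      have := hr.two_le
      exact_mod_cast (by omega : 0 < r - 1)
    rw [hen] at he'
    exact pos_of_mul_pos_right he' hr1.le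
  refine ⟨-log (W.valuation M (1 - D.ζ)), hnpos, hVπ', by rw [hWr, hen], ?_⟩
  intro a ha
  have hwa : w.valuation L a ≠ 0 := (Valuation.ne_zero_iff _).mpr ha
  refine ⟨-log (w.valuation L a), ?_⟩
  have h3 : w.valuation L a = exp (log (w.valuation L a)) := (exp_log hwa).symm
  rw [hval]
  conv_lhs => rw [h3]
  rw [← exp_nsmul, nsmul_eq_mul, exp_inj, hen]
  ring

omit [Fact r.Prime] [NumberField L] in
theorem term_cases {n : ℤ} (W : HeightOneSpectrum (𝓞 M))
    (hL : ∀ a : L, a ≠ 0 → ∃ t : ℤ,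
      W.valuation M (algebraMap L M a) = exp (-(n * (((r - 1 : ℕ) : ℤ) * t))))
    (a : L) (ϖ : M) (hϖ : W.valuation M ϖ = exp (-n)) (i : ℕ) :
    algebraMap L M a * ϖ ^ i = 0 ∨ ∃ t : ℤ,
      W.valuation M (algebraMap L M a * ϖ ^ i) = exp (-(n * (((r - 1 : ℕ) : ℤ) * t + i))) := by
  by_cases ha : a = 0
  · left
    rw [ha, map_zero, zero_mul]
  · right
    obtain ⟨t, ht⟩ := hL a ha
    refine ⟨t, ?_⟩
    rw [map_mul, map_pow, ht, hϖ, ← exp_nsmul, ← exp_add, exp_inj, nsmul_eq_mul]
    ring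

omit [Fact r.Prime] [NumberField L] in
theorem expansion_props {n : ℤ} (hn : 0 < n) (W : HeightOneSpectrum (𝓞 M))
    (hπ : W.valuation M (1 - D.ζ) = exp (-n))
    (hL : ∀ a : L, a ≠ 0 → ∃ t : ℤ,
      W.valuation M (algebraMap L M a) = exp (-(n * (((r - 1 : ℕ) : ℤ) * t))))
    (φ : M →+* M) (σ0 : L → L)
    (hφL : ∀ a, φ (algebraMap L M a) = algebraMap L M (σ0 a))
    (hσ0 : ∀ a, W.valuation M (algebraMap L M (σ0 a)) = W.valuation M (algebraMap L M a))
    (hφπ : W.valuation M (φ (1 - D.ζ)) = W.valuation M (1 - D.ζ))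
    (a : ℕ → L) (x : M)
    (hx : x = ∑ i ∈ Finset.range (r - 1), algebraMap L M (a i) * (1 - D.ζ) ^ i) :
    W.valuation M (φ x) = W.valuation M x ∧
      (W.valuation M x = 1 → W.valuation M (algebraMap L M (a 0)) = 1 ∧
        W.valuation M (x - algebraMap L M (a 0)) < 1 ∧
        W.valuation M (φ x - algebraMap L M (σ0 (a 0))) < 1) := by
  have hφx : φ x = ∑ i ∈ Finset.range (r - 1),
      algebraMap L M (σ0 (a i)) * (φ (1 - D.ζ)) ^ i := by
    rw [hx, map_sum]
    refine Finset.sum_congr rfl fun i _ => ?_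
    rw [map_mul, map_pow, hφL]
  have hff' : ∀ i, W.valuation M (algebraMap L M (σ0 (a i)) * (φ (1 - D.ζ)) ^ i) =
      W.valuation M (algebraMap L M (a i) * (1 - D.ζ) ^ i) := by
    intro i
    simp only [map_mul, map_pow, hσ0, hφπ]
  have hfc : ∀ i < r - 1, algebraMap L M (a i) * (1 - D.ζ) ^ i = 0 ∨ ∃ t : ℤ,
      W.valuation M (algebraMap L M (a i) * (1 - D.ζ) ^ i) =
        exp (-(n * (((r - 1 : ℕ) : ℤ) * t + i))) :=
    fun i _ => term_cases W hL (a i) (1 - D.ζ) hπ i
  have hfc' : ∀ i < r - 1, algebraMap L M (σ0 (a i)) * (φ (1 - D.ζ)) ^ i = 0 ∨ ∃ t : ℤ,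
      W.valuation M (algebraMap L M (σ0 (a i)) * (φ (1 - D.ζ)) ^ i) =
        exp (-(n * (((r - 1 : ℕ) : ℤ) * t + i))) := by
    intro i hi
    rcases hfc i hi with h | ⟨t, ht⟩
    · left
      have h0 : W.valuation M (algebraMap L M (σ0 (a i)) * (φ (1 - D.ζ)) ^ i) = 0 := by
        rw [hff', h, map_zero]
      exact (Valuation.zero_iff _).mp h0
    · right
      exact ⟨t, by rw [hff', ht]⟩
  have hsup := val_sum_eq_sup (W.valuation M) (r - 1) n hn
    (fun i => algebraMap L M (a i) * (1 - D.ζ) ^ i) hfc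
  have hsup' := val_sum_eq_sup (W.valuation M) (r - 1) n hn
    (fun i => algebraMap L M (σ0 (a i)) * (φ (1 - D.ζ)) ^ i) hfc'
  have heq : W.valuation M (φ x) = W.valuation M x := by
    rw [hφx, hx, hsup, hsup']
    exact Finset.sup_congr rfl fun i _ => hff' i
  refine ⟨heq, fun h1 => ?_⟩
  have h1' : W.valuation M (∑ i ∈ Finset.range (r - 1),
      algebraMap L M (a i) * (1 - D.ζ) ^ i) = 1 := by
    rw [← hx]
    exact h1
  obtain ⟨hN, h0, hlt⟩ := val_terms_of_unit (W.valuation M) (r - 1) n hn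
    (fun i => algebraMap L M (a i) * (1 - D.ζ) ^ i) hfc h1'
  simp only [pow_zero, mul_one] at h0
  refine ⟨h0, ?_, ?_⟩
  · have := val_sum_sub_lt (W.valuation M) (r - 1)
      (fun i => algebraMap L M (a i) * (1 - D.ζ) ^ i) hlt hN
    simp only [pow_zero, mul_one] at this
    rw [hx]
    exact this
  · have := val_sum_sub_lt (W.valuation M) (r - 1)
      (fun i => algebraMap L M (σ0 (a i)) * (φ (1 - D.ζ)) ^ i)
      (fun i h1 h2 => by rw [hff']; exact hlt i h1 h2) hN
    simp only [pow_zero, mul_one] at this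
    rw [hφx]
    exact this

end Local

end CrossLocal


section Cross

open WithZero

variable (p r : ℕ) [Fact p.Prime] [Fact r.Prime]
  (K L M : Type*) [Field K] [NumberField K] [Field L] [NumberField L] [Field M] [NumberField M]
  [Algebra K L] [Algebra L M] [Algebra K M] [IsScalarTower K L M]
  [IsGalois K L] [IsCyclotomicExtension {r} L M]

variable {p r K L M}
variable {τ0 : L ≃ₐ[K] L} (D : CrossData p r K L M τ0)

theorem CrossData.local_at_r [IsGalois K M] (hdeg : Module.finrank K L = p)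
    (hunr : UnramifiedEverywhere K L)
    (hr : ∀ w : HeightOneSpectrum (𝓞 L), (r : 𝓞 L) ∈ w.asIdeal → (r : 𝓞 L) ∉ w.asIdeal ^ 2)
    (v : HeightOneSpectrum (𝓞 K)) (hv : (r : 𝓞 K) ∈ v.asIdeal) (hv1 : Ideal.absNorm v.asIdeal = r)
    (b c : K) (hb : b ≠ 0) (hc : c ≠ 0) (hbv : ord v b = 0)
    (γ δ : M) (hγ : γ ≠ 0) (hδ : δ ≠ 0)
    (hbγ : ∏ i ∈ Finset.range p, (D.τ' ^ i) γ = algebraMap K M b)
    (hrel : D.ρ' γ / γ = D.τ' δ / δ)
    (hcδ : ∏ j ∈ Finset.range (r - 1), (D.ρ' ^ j) δ = algebraMap K M c) :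
    ∃ x y : 𝓞 K, y ∉ v.asIdeal ∧ x - y ∈ v.asIdeal ∧
      c * (r : K) ^ (- ord v c) * (y : K) = (x : K) := by
  have hrP : r.Prime := Fact.out
  have hpP : p.Prime := Fact.out
  have hr2 := hrP.two_le
  -- the primes
  obtain ⟨W, hWv⟩ := CrossLocal.exists_over (K := K) (M := M) v
  have hWw0 : W.asIdeal.LiesOver (W.asIdeal.under (𝓞 L)) := Ideal.over_under W.asIdeal
  have hwv0 : (W.asIdeal.under (𝓞 L)).LiesOver v.asIdeal :=
    Ideal.LiesOver.tower_bot W.asIdeal (W.asIdeal.under (𝓞 L)) v.asIdeal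
  obtain ⟨w, hw⟩ : ∃ w : HeightOneSpectrum (𝓞 L), w.asIdeal = W.asIdeal.under (𝓞 L) :=
    ⟨⟨W.asIdeal.under (𝓞 L), inferInstance,
      Ideal.ne_bot_of_liesOver_of_ne_bot v.ne_bot (W.asIdeal.under (𝓞 L))⟩, rfl⟩
  have hWw : W.asIdeal.LiesOver w.asIdeal := by rw [hw]; exact hWw0
  have hwv : w.asIdeal.LiesOver v.asIdeal := by rw [hw]; exact hwv0
  -- `r` lies in the primes
  have hrW : (r : 𝓞 M) ∈ W.asIdeal := by
    have h1 : (r : 𝓞 K) ∈ W.asIdeal.under (𝓞 K) := by
      rw [← Ideal.over_def W.asIdeal v.asIdeal]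
      exact hv
    rw [Ideal.under_def, Ideal.mem_comap, map_natCast] at h1
    exact h1
  have hrw : (r : 𝓞 L) ∈ w.asIdeal := by
    rw [hw, Ideal.under_def, Ideal.mem_comap, map_natCast]
    exact hrW
  have hrw2 := hr w hrw
  have hrv2 : (r : 𝓞 K) ∉ v.asIdeal ^ 2 := by
    intro h
    apply hrw2
    have h1 : Ideal.map (algebraMap (𝓞 K) (𝓞 L)) (v.asIdeal ^ 2) ≤ w.asIdeal ^ 2 := by
      rw [Ideal.map_pow]
      apply Ideal.pow_right_mono
      rw [Ideal.map_le_iff_le_comap, ← Ideal.under_def, ← Ideal.over_def w.asIdeal v.asIdeal]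
    have h2 := h1 (Ideal.mem_map_of_mem _ h)
    rwa [map_natCast] at h2
  -- local data
  obtain ⟨n, hn, hπ, hWr, hL⟩ := CrossLocal.local_structure D W w hrw hrw2
  obtain ⟨e1, he1, hval1⟩ := CrossLocal.val_algebraMap (K := L) (M := M) w W
  obtain ⟨e2, he2, hval2⟩ := CrossLocal.val_algebraMap (K := K) (M := M) v W
  have hvr : v.valuation K (r : K) = exp (-1 : ℤ) := CrossLocal.val_natCast_eq v r hv hrv2
  have hπ0 : (1 : M) - D.ζ ≠ 0 := sub_ne_zero.mpr (D.hζ.ne_one hrP.one_lt).symm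
  have hNpos : (0 : ℤ) < ((r - 1 : ℕ) : ℤ) := by exact_mod_cast (by omega : 0 < r - 1)
  have he2n : (e2 : ℤ) = ((r - 1 : ℕ) : ℤ) * n := by
    have h1 : W.valuation M (r : M) = exp (-(e2 : ℤ)) := by
      have hc' : (r : M) = algebraMap K M (r : K) := by simp
      rw [hc', hval2, hvr, ← exp_nsmul, nsmul_eq_mul, mul_neg, mul_one]
    rw [hWr, exp_inj] at h1
    linarith
  -- the valuation of `c`
  have hvc : v.valuation K c = exp (-(ord v c)) := CrossLocal.valuation_eq_exp_neg_ord v hc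
  have hWc : W.valuation M (algebraMap K M c) = exp (-(((r - 1 : ℕ) : ℤ) * n * ord v c)) := by
    rw [hval2, hvc, ← exp_nsmul, nsmul_eq_mul, exp_inj, he2n]
    ring
  -- `ρ'` and expansions
  have hρφπ : ∀ j : ℕ, W.valuation M ((D.ρ' ^ j) (1 - D.ζ)) = W.valuation M (1 - D.ζ) := by
    intro j
    rw [map_sub, map_one, CrossLocal.rho_pow_zeta]
    exact CrossLocal.val_one_sub_zeta_pow W hrP D.hζ _ (CrossLocal.g_pow_not_dvd D j)
  have hρprops : ∀ (j : ℕ) (a : ℕ → L) (x : M),
      x = ∑ i ∈ Finset.range (r - 1), algebraMap L M (a i) * (1 - D.ζ) ^ i →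
      W.valuation M ((D.ρ' ^ j) x) = W.valuation M x ∧
        (W.valuation M x = 1 → W.valuation M (algebraMap L M (a 0)) = 1 ∧
          W.valuation M (x - algebraMap L M (a 0)) < 1 ∧
          W.valuation M ((D.ρ' ^ j) x - algebraMap L M (a 0)) < 1) := by
    intro j a x hx
    exact CrossLocal.expansion_props D hn W hπ hL ((D.ρ' ^ j : M ≃ₐ[K] M) : M →+* M) id
      (fun a => CrossLocal.rho_pow_L D j a) (fun _ => rfl) (hρφπ j) a x hx
  have hρval : ∀ (j : ℕ) (x : M), W.valuation M ((D.ρ' ^ j) x) = W.valuation M x := by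
    intro j x
    obtain ⟨a, ha⟩ := CrossLocal.exists_expansion D x
    exact (hρprops j a x ha).1
  -- the valuation of `δ`
  have hδ0 : W.valuation M δ ≠ 0 := (Valuation.ne_zero_iff _).mpr hδ
  obtain ⟨d, hd⟩ : ∃ d : ℤ, W.valuation M δ = exp d := ⟨_, (exp_log hδ0).symm⟩
  have hdk : d = -(n * ord v c) := by
    have h1 : W.valuation M (algebraMap K M c) = W.valuation M δ ^ (r - 1) := by
      rw [← hcδ, map_prod, Finset.prod_congr rfl (fun j _ => hρval j δ), Finset.prod_const,
        Finset.card_range]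
    rw [hWc, hd, ← exp_nsmul, nsmul_eq_mul, exp_inj] at h1
    have h2 : ((r - 1 : ℕ) : ℤ) * d = ((r - 1 : ℕ) : ℤ) * (-(n * ord v c)) := by linarith
    exact mul_left_cancel₀ hNpos.ne' h2
  -- `ε`
  obtain ⟨ε, hε⟩ : ∃ ε : M, ε = δ / (1 - D.ζ) ^ (ord v c) := ⟨_, rfl⟩
  have hWε : W.valuation M ε = 1 := by
    rw [hε, map_div₀, map_zpow₀, hd, hπ, ← exp_zsmul, ← exp_sub, smul_eq_mul, hdk]
    rw [show -(n * ord v c) - ord v c * -n = (0 : ℤ) by ring, exp_zero]
  have hδε : δ = ε * (1 - D.ζ) ^ (ord v c) := by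
    rw [hε, div_mul_cancel₀ _ (zpow_ne_zero _ hπ0)]
  have hprod : algebraMap K M c / (r : M) ^ (ord v c) =
      ∏ j ∈ Finset.range (r - 1), (D.ρ' ^ j) ε := by
    have h1 : ∀ j ∈ Finset.range (r - 1),
        (D.ρ' ^ j) ε = (D.ρ' ^ j) δ / ((D.ρ' ^ j) (1 - D.ζ)) ^ (ord v c) := by
      intro j _
      rw [hε, map_div₀, map_zpow₀]
    rw [Finset.prod_congr rfl h1, Finset.prod_div_distrib, Finset.prod_zpow, hcδ,
      CrossLocal.prod_rho_pow D]
  -- the expansion of `ε`
  obtain ⟨aε, haε⟩ := CrossLocal.exists_expansion D ε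
  have hε_props := fun j => (hρprops j aε ε haε).2 hWε
  have ha0M : W.valuation M (algebraMap L M (aε 0)) = 1 := (hε_props 0).1
  have hprod_lt : W.valuation M
      (algebraMap K M c / (r : M) ^ (ord v c) - algebraMap L M (aε 0) ^ (r - 1)) < 1 := by
    rw [hprod]
    have := CrossLocal.val_prod_sub_pow_lt (W.valuation M) (algebraMap L M (aε 0)) ha0M.le
      (Finset.range (r - 1)) (fun j => (D.ρ' ^ j) ε) (fun j _ => (hε_props j).2.2)
    rwa [Finset.card_range] at this
  have ha0w : w.valuation L (aε 0) = 1 := by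
    rw [hval1] at ha0M
    exact (pow_eq_one_iff_of_nonneg zero_le he1).mp ha0M
  -- the residue argument
  have hres : w.valuation L (aε 0 ^ (r - 1) - 1) < 1 := by
    obtain ⟨σ, hσstab, hσfrob⟩ := CrossLocal.exists_frob v w
    rw [hv1] at hσfrob
    have hfrob0 := hσfrob (aε 0) ha0w.le
    have hclaim : w.valuation L (σ (aε 0) - aε 0) < 1 := by
      obtain ⟨t, rfl⟩ := CrossLocal.exists_pow_eq_of_gen D σ
      by_cases hτ0 : τ0 • w.asIdeal = w.asIdeal
      · -- `τ0` stabilises `w`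
        have hτval : ∀ (i : ℕ) (a : L), w.valuation L ((τ0 ^ i) a) = w.valuation L a := by
          intro i a
          apply CrossLocal.valuation_apply_eq w (τ0 ^ i)
          have : τ0 ^ i ∈ MulAction.stabilizer (L ≃ₐ[K] L) w.asIdeal :=
            Subgroup.pow_mem _ (MulAction.mem_stabilizer_iff.mpr hτ0) i
          exact MulAction.mem_stabilizer_iff.mp this
        have hτπ : ∀ i : ℕ, (D.τ' ^ i) (1 - D.ζ) = 1 - D.ζ := by
          intro i
          rw [map_sub, map_one, CrossLocal.tau_pow_zeta]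
        have hτprops : ∀ (i : ℕ) (a : ℕ → L) (x : M),
            x = ∑ k ∈ Finset.range (r - 1), algebraMap L M (a k) * (1 - D.ζ) ^ k →
            W.valuation M ((D.τ' ^ i) x) = W.valuation M x ∧
              (W.valuation M x = 1 → W.valuation M (algebraMap L M (a 0)) = 1 ∧
                W.valuation M (x - algebraMap L M (a 0)) < 1 ∧
                W.valuation M ((D.τ' ^ i) x - algebraMap L M ((τ0 ^ i) (a 0))) < 1) := by
          intro i a x hx
          exact CrossLocal.expansion_props D hn W hπ hL ((D.τ' ^ i : M ≃ₐ[K] M) : M →+* M)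
            (fun a => (τ0 ^ i) a) (fun a => CrossLocal.tau_pow_L D i a)
            (fun a => by rw [hval1, hval1, hτval])
            (by
              change W.valuation M ((D.τ' ^ i) (1 - D.ζ)) = _
              rw [hτπ]) a x hx
        have hτvalM : ∀ (i : ℕ) (x : M), W.valuation M ((D.τ' ^ i) x) = W.valuation M x := by
          intro i x
          obtain ⟨a, ha⟩ := CrossLocal.exists_expansion D x
          exact (hτprops i a x ha).1
        -- `γ` is a unit at `W`
        have hWγ : W.valuation M γ = 1 := by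
          have h1 : W.valuation M (algebraMap K M b) = W.valuation M γ ^ p := by
            rw [← hbγ, map_prod, Finset.prod_congr rfl (fun i _ => hτvalM i γ),
              Finset.prod_const, Finset.card_range]
          have h2 : W.valuation M (algebraMap K M b) = 1 := by
            rw [hval2, CrossLocal.valuation_eq_exp_neg_ord v hb, hbv, neg_zero, exp_zero,
              one_pow]
          rw [h2] at h1
          exact (pow_eq_one_iff_of_nonneg zero_le hpP.ne_zero).mp h1.symm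
        have hγ0 : γ ≠ 0 := hγ
        obtain ⟨aγ, haγ⟩ := CrossLocal.exists_expansion D γ
        have hγ1 := (hρprops 1 aγ γ haγ).2 hWγ
        have hργ : W.valuation M (D.ρ' γ - γ) < 1 := by
          have h1 : D.ρ' γ - γ =
              ((D.ρ' ^ 1) γ - algebraMap L M (aγ 0)) - (γ - algebraMap L M (aγ 0)) := by
            rw [pow_one]
            ring
          rw [h1]
          exact lt_of_le_of_lt (Valuation.map_sub _ _ _) (max_lt hγ1.2.2 hγ1.2.1)
        have hrel1 : W.valuation M (D.ρ' γ / γ - 1) < 1 := by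
          have h1 : D.ρ' γ / γ - 1 = (D.ρ' γ - γ) / γ := by
            field_simp
          rw [h1, map_div₀, hWγ, div_one]
          exact hργ
        have hε0 : ε ≠ 0 := by
          intro h
          rw [h, map_zero] at hWε
          exact zero_ne_one hWε
        have hτε : D.τ' δ / δ = D.τ' ε / ε := by
          have h1 : D.τ' δ = D.τ' ε * (1 - D.ζ) ^ (ord v c) := by
            have h2 := hτπ 1
            rw [pow_one] at h2
            rw [hδε, map_mul, map_zpow₀, h2]
          rw [h1]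
          conv_lhs => rw [hδε]
          exact mul_div_mul_right _ _ (zpow_ne_zero _ hπ0)
        have hτε1 : W.valuation M (D.τ' ε - ε) < 1 := by
          have h1 : D.τ' ε - ε = (D.ρ' γ / γ - 1) * ε := by
            rw [hrel, hτε]
            field_simp
          rw [h1, map_mul, hWε, mul_one]
          exact hrel1
        have hε1 := (hτprops 1 aε ε haε).2 hWε
        have hM1 : W.valuation M (algebraMap L M (τ0 (aε 0) - aε 0)) < 1 := by
          have h1 : algebraMap L M (τ0 (aε 0) - aε 0) =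
              (D.τ' ε - ε) - ((D.τ' ^ 1) ε - algebraMap L M ((τ0 ^ 1) (aε 0))) +
                (ε - algebraMap L M (aε 0)) := by
            rw [pow_one, pow_one, map_sub]
            ring
          rw [h1]
          refine lt_of_le_of_lt (Valuation.map_add _ _ _) (max_lt ?_ hε1.2.1)
          exact lt_of_le_of_lt (Valuation.map_sub _ _ _) (max_lt hτε1 hε1.2.2)
        have hw1 : w.valuation L (τ0 (aε 0) - aε 0) < 1 := by
          rw [hval1] at hM1
          exact (pow_lt_one_iff_of_nonneg zero_le he1).mp hM1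
        have hall : ∀ t : ℕ, w.valuation L ((τ0 ^ t) (aε 0) - aε 0) < 1 := by
          intro t
          induction t with
          | zero => simp
          | succ t ih =>
            have h1 : (τ0 ^ (t + 1)) (aε 0) - aε 0 =
                (τ0 ^ t) (τ0 (aε 0) - aε 0) + ((τ0 ^ t) (aε 0) - aε 0) := by
              rw [pow_succ, AlgEquiv.mul_apply, map_sub]
              ring
            rw [h1]
            refine lt_of_le_of_lt (Valuation.map_add _ _ _) (max_lt ?_ ih)
            rw [hτval]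
            exact hw1
        exact hall t
      · -- `τ0` does not stabilise `w`
        have hpt : p ∣ t := by
          by_contra hnd
          have hcop : Nat.Coprime t p := ((Nat.Prime.coprime_iff_not_dvd hpP).mpr hnd).symm
          obtain ⟨s, -, hs⟩ := Nat.exists_mul_mod_eq_one_of_coprime hcop hpP.one_lt
          apply hτ0
          have h1 : (τ0 ^ t) ^ s = τ0 := by
            rw [← pow_mul, ← Nat.mod_add_div (t * s) p, hs, pow_add, pow_mul,
              CrossLocal.tau0_pow_p D, one_pow, mul_one, pow_one]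
          have h2 : (τ0 ^ t) ^ s ∈ MulAction.stabilizer (L ≃ₐ[K] L) w.asIdeal :=
            Subgroup.pow_mem _ (MulAction.mem_stabilizer_iff.mpr hσstab) s
          rw [h1] at h2
          exact MulAction.mem_stabilizer_iff.mp h2
        obtain ⟨k, rfl⟩ := hpt
        have h1 : τ0 ^ (p * k) = 1 := by rw [pow_mul, CrossLocal.tau0_pow_p D, one_pow]
        rw [h1]
        simp
    have h1 : aε 0 * (aε 0 ^ (r - 1) - 1) = -(σ (aε 0) - aε 0 ^ r) + (σ (aε 0) - aε 0) := by
      have h2 : aε 0 ^ r = aε 0 * aε 0 ^ (r - 1) := by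
        rw [← pow_succ', Nat.sub_add_cancel hrP.pos]
      rw [h2]
      ring
    have h2 : w.valuation L (aε 0 * (aε 0 ^ (r - 1) - 1)) < 1 := by
      rw [h1]
      refine lt_of_le_of_lt (Valuation.map_add _ _ _) (max_lt ?_ hclaim)
      rw [Valuation.map_neg]
      exact hfrob0
    rwa [map_mul, ha0w, one_mul] at h2
  have hresM : W.valuation M (algebraMap L M (aε 0) ^ (r - 1) - 1) < 1 := by
    have h1 : algebraMap L M (aε 0) ^ (r - 1) - 1 = algebraMap L M (aε 0 ^ (r - 1) - 1) := by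
      simp
    rw [h1, hval1]
    exact (pow_lt_one_iff_of_nonneg zero_le he1).mpr hres
  have hM : W.valuation M (algebraMap K M c / (r : M) ^ (ord v c) - 1) < 1 := by
    have h1 : algebraMap K M c / (r : M) ^ (ord v c) - 1 =
        (algebraMap K M c / (r : M) ^ (ord v c) - algebraMap L M (aε 0) ^ (r - 1)) +
          (algebraMap L M (aε 0) ^ (r - 1) - 1) := by ring
    rw [h1]
    exact lt_of_le_of_lt (Valuation.map_add _ _ _) (max_lt hprod_lt hresM)
  -- descend to `K`
  have hu : v.valuation K (c * (r : K) ^ (-ord v c) - 1) < 1 := by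
    have h1 : algebraMap K M (c * (r : K) ^ (-ord v c) - 1) =
        algebraMap K M c / (r : M) ^ (ord v c) - 1 := by
      rw [map_sub, map_mul, map_zpow₀, map_natCast, map_one, zpow_neg, div_eq_mul_inv]
    rw [← h1, hval2] at hM
    exact (pow_lt_one_iff_of_nonneg zero_le he2).mp hM
  have hu1 : v.valuation K (c * (r : K) ^ (-ord v c)) ≤ 1 := by
    have h1 : c * (r : K) ^ (-ord v c) = (c * (r : K) ^ (-ord v c) - 1) + 1 := by ring
    rw [h1]
    refine (Valuation.map_add _ _ _).trans (max_le hu.le ?_)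
    rw [map_one]
  obtain ⟨x, ⟨y, hy⟩, hxy⟩ := HeightOneSpectrum.exists_primeCompl_mul_eq_of_integer v _ hu1
  refine ⟨x, y, hy, ?_, hxy⟩
  rw [← HeightOneSpectrum.valuation_lt_one_iff_mem (K := K)]
  have h1 : algebraMap (𝓞 K) K (x - y) = (c * (r : K) ^ (-ord v c) - 1) * algebraMap (𝓞 K) K y := by
    rw [map_sub, ← hxy]
    ring
  change v.valuation K (algebraMap (𝓞 K) K (x - y)) < 1
  rw [h1, map_mul]
  exact mul_lt_one_of_nonneg_of_lt_one_left zero_le hu (HeightOneSpectrum.valuation_le_one v y)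

end Cross

end Fermat.Agent.S14
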