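/-
S14 / first inequality, package [CH]: characters of a finite abelian group.

* `finite_char`  : `Finite (G →* ℂˣ)`.
* `card_char`    : `Fintype.card (G →* ℂˣ) = Nat.card G`.
* `sum_char_eq_zero` : `∑ g, χ g = 0` for `χ ≠ 1`.
* `exists_char_prod_eq` : for `0 ≤ x < 1`, `∏ χ, (1 - χ g * x)⁻¹` is a real number `r ≥ 1`,
  and `r ≥ exp (|G| x)` if `g = 1`.
-/
import Mathlib

open NumberField IsDedekindDomain
open scoped nonZeroDivisors Pointwise

namespace Fermat.Agent.S14.FI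

/-- The character group of a finite abelian group is finite. -/
theorem finite_char (G : Type*) [CommGroup G] [Finite G] : Finite (G →* ℂˣ) := inferInstance

theorem card_char {G : Type*} [CommGroup G] [Finite G] [Fintype (G →* ℂˣ)] :
    Fintype.card (G →* ℂˣ) = Nat.card G := by
  have hexp : NeZero (Monoid.exponent G) := ⟨Monoid.exponent_ne_zero_of_finite⟩
  rw [← Nat.card_eq_fintype_card]
  exact CommGroup.card_monoidHom_of_hasEnoughRootsOfUnity G ℂ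

theorem sum_char_eq_zero {G : Type*} [CommGroup G] [Fintype G] (χ : G →* ℂˣ) (hχ : χ ≠ 1) :
    ∑ g : G, ((χ g : ℂˣ) : ℂ) = 0 := by
  obtain ⟨g₀, hg₀⟩ : ∃ g₀, χ g₀ ≠ 1 := by
    by_contra h
    exact hχ (MonoidHom.ext fun g => not_not.mp fun hg => h ⟨g, hg⟩)
  have h1 : ((χ g₀ : ℂˣ) : ℂ) * ∑ g : G, ((χ g : ℂˣ) : ℂ) = ∑ g : G, ((χ g : ℂˣ) : ℂ) := by
    rw [Finset.mul_sum]
    refine Fintype.sum_equiv (Equiv.mulLeft g₀) _ _ (fun g => ?_)
    simp [map_mul]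
  have h2 : ((χ g₀ : ℂˣ) : ℂ) ≠ 1 := by
    intro h
    exact hg₀ (Units.ext h)
  have h3 : (((χ g₀ : ℂˣ) : ℂ) - 1) * ∑ g : G, ((χ g : ℂˣ) : ℂ) = 0 := by
    rw [sub_mul, h1, one_mul, sub_self]
  rcases mul_eq_zero.mp h3 with h | h
  · exact absurd (sub_eq_zero.mp h) h2
  · exact h

/-- The product over all characters of `1 - χ g * z` is `(1 - z ^ m) ^ k`. -/
theorem exists_prod_one_sub_char_mul {G : Type*} [CommGroup G] [Finite G] [Fintype (G →* ℂˣ)]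
    (g : G) (z : ℂ) :
    ∃ m k : ℕ, 0 < m ∧ ∏ χ : G →* ℂˣ, (1 - ((χ g : ℂˣ) : ℂ) * z) = (1 - z ^ m) ^ k := by
  classical
  let ev : (G →* ℂˣ) →* ℂˣ := MonoidHom.eval g
  have hev : ∀ χ : G →* ℂˣ, ev χ = χ g := fun χ => rfl
  let H : Subgroup ℂˣ := ev.range
  have hfin : Finite H := by
    have : Finite (G →* ℂˣ) := Finite.of_fintype _
    exact Set.finite_range ev
  let m := Nat.card H
  have hm : 0 < m := Nat.card_pos
  have hmz : NeZero m := ⟨hm.ne'⟩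
  have hH : H = rootsOfUnity m ℂ := by
    apply Subgroup.eq_of_le_of_card_ge
    · intro ζ hζ
      rw [mem_rootsOfUnity]
      have h1 : (⟨ζ, hζ⟩ : H) ^ Nat.card H = 1 := pow_card_eq_one'
      have h2 := congrArg (Subtype.val) h1
      exact h2
    · rw [Complex.card_rootsOfUnity]
  let k : ℕ := (Finset.univ.filter (fun χ : G →* ℂˣ => ev χ = 1)).card
  refine ⟨m, k, hm, ?_⟩
  have hstep1 : ∏ χ : G →* ℂˣ, (1 - ((χ g : ℂˣ) : ℂ) * z)
      = ∏ b ∈ (Finset.univ : Finset (G →* ℂˣ)).image ev, (1 - ((b : ℂˣ) : ℂ) * z) ^ k := by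
    have := Finset.prod_comp (s := (Finset.univ : Finset (G →* ℂˣ)))
      (fun b : ℂˣ => (1 - ((b : ℂˣ) : ℂ) * z)) ev
    simp only [hev] at this
    rw [this]
    refine Finset.prod_congr rfl (fun b hb => ?_)
    congr 1
    obtain ⟨χ, -, rfl⟩ := Finset.mem_image.mp hb
    exact MonoidHom.card_fiber_eq_of_mem_range ev (x := ev χ) (y := 1) ⟨χ, rfl⟩ ⟨1, map_one ev⟩
  rw [hstep1, Finset.prod_pow]
  congr 1
  have hprim : IsPrimitiveRoot (Complex.exp (2 * Real.pi * Complex.I / m)) m :=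
    Complex.isPrimitiveRoot_exp m hm.ne'
  have h2 := hprim.pow_sub_pow_eq_prod_sub_mul (1 : ℂ) z hm
  rw [one_pow] at h2
  rw [h2]
  refine Finset.prod_bij (fun b _ => ((b : ℂˣ) : ℂ)) ?_ ?_ ?_ ?_
  · intro b hb
    obtain ⟨χ, -, rfl⟩ := Finset.mem_image.mp hb
    rw [Polynomial.mem_nthRootsFinset hm]
    have hmem : ev χ ∈ H := ⟨χ, rfl⟩
    rw [hH, mem_rootsOfUnity] at hmem
    have := congrArg (Units.val) hmem
    simpa using this
  · intro a _ b _ hab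
    exact Units.ext hab
  · intro ζ hζ
    rw [Polynomial.mem_nthRootsFinset hm] at hζ
    have hζ0 : ζ ≠ 0 := by
      rintro rfl
      rw [zero_pow hm.ne'] at hζ
      exact zero_ne_one hζ
    have hmem : Units.mk0 ζ hζ0 ∈ H := by
      rw [hH, mem_rootsOfUnity]
      exact Units.ext (by simpa using hζ)
    obtain ⟨χ, hχ⟩ := hmem
    exact ⟨Units.mk0 ζ hζ0, Finset.mem_image.mpr ⟨χ, Finset.mem_univ _, hχ⟩, rfl⟩
  · intro b _
    rfl

theorem exists_char_prod_eq {G : Type*} [CommGroup G] [Finite G] [Fintype (G →* ℂˣ)] (g : G)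
    (x : ℝ) (hx0 : 0 ≤ x) (hx1 : x < 1) :
    ∃ r : ℝ, 1 ≤ r ∧ (g = 1 → Real.exp (Nat.card G * x) ≤ r) ∧
      ∏ χ : G →* ℂˣ, (1 - ((χ g : ℂˣ) : ℂ) * (x : ℂ))⁻¹ = (r : ℂ) := by
  obtain ⟨m, k, hm, hprod⟩ := exists_prod_one_sub_char_mul g (x : ℂ)
  have hxm0 : 0 ≤ x ^ m := pow_nonneg hx0 m
  have hxm1 : x ^ m < 1 := pow_lt_one₀ hx0 hx1 hm.ne'
  have hpos : 0 < (1 - x ^ m) ^ k := pow_pos (by linarith) k
  have hle : (1 - x ^ m) ^ k ≤ 1 := pow_le_one₀ (by linarith) (by linarith)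
  have hmain : ∏ χ : G →* ℂˣ, (1 - ((χ g : ℂˣ) : ℂ) * (x : ℂ))⁻¹
      = ((((1 - x ^ m) ^ k)⁻¹ : ℝ) : ℂ) := by
    rw [Finset.prod_inv_distrib, hprod]
    push_cast
    rfl
  refine ⟨((1 - x ^ m) ^ k)⁻¹, (one_le_inv₀ hpos).mpr hle, ?_, hmain⟩
  rintro rfl
  have h1 : ∏ χ : G →* ℂˣ, (1 - ((χ (1 : G) : ℂˣ) : ℂ) * (x : ℂ))⁻¹
      = ((((1 - x)⁻¹) ^ Nat.card G : ℝ) : ℂ) := by
    simp only [map_one, Units.val_one, one_mul, Finset.prod_const, Finset.card_univ, card_char]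
    push_cast
    rfl
  have h2 : ((1 - x ^ m) ^ k)⁻¹ = ((1 - x)⁻¹) ^ Nat.card G := by
    have := hmain.symm.trans h1
    exact_mod_cast this
  rw [h2, mul_comm, Real.exp_mul, Real.rpow_natCast]
  have h3 : Real.exp x ≤ (1 - x)⁻¹ := by
    have h4 : 1 - x ≤ Real.exp (-x) := by
      have := Real.add_one_le_exp (-x)
      linarith
    have h5 : 0 < 1 - x := by linarith
    rw [Real.exp_neg] at h4
    have h6 : 0 < Real.exp x := Real.exp_pos x
    rw [le_inv_comm₀ h6 h5]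
    exact h4
  exact pow_le_pow_left₀ (Real.exp_pos x).le h3 _

end Fermat.Agent.S14.FI
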