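/-
S14 / first inequality, shared definitions for the main assembly:
* `normRpow K s : (Ideal (𝓞 K))⁰ →* ℝ`, `I ↦ N(I)^(-s)`;
* `charRpow K ψ s : (Ideal (𝓞 K))⁰ →* ℂ`, `I ↦ ψ([I]) N(I)^(-s)` for a character `ψ` of the
  class group.
-/
import Mathlib

set_option autoImplicit false

namespace Fermat.Agent.S14.FI

open NumberField IsDedekindDomain
open scoped nonZeroDivisors

/-- `I ↦ N(I)^(-s)` as a monoid homomorphism on the nonzero ideals. -/
noncomputable def normRpow (K : Type*) [Field K] [NumberField K] (s : ℝ) :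
    (Ideal (𝓞 K))⁰ →* ℝ where
  toFun I := (Ideal.absNorm (I : Ideal (𝓞 K)) : ℝ) ^ (-s)
  map_one' := by simp
  map_mul' I J := by
    simp only [Submonoid.coe_mul, map_mul, Nat.cast_mul]
    exact Real.mul_rpow (Nat.cast_nonneg _) (Nat.cast_nonneg _)

theorem normRpow_apply (K : Type*) [Field K] [NumberField K] (s : ℝ) (I : (Ideal (𝓞 K))⁰) :
    normRpow K s I = (Ideal.absNorm (I : Ideal (𝓞 K)) : ℝ) ^ (-s) := rfl

/-- `I ↦ ψ([I]) N(I)^(-s)` for a character `ψ` of the class group. -/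
noncomputable def charRpow (K : Type*) [Field K] [NumberField K] (ψ : ClassGroup (𝓞 K) →* ℂˣ)
    (s : ℝ) : (Ideal (𝓞 K))⁰ →* ℂ :=
  ((Units.coeHom ℂ).comp (ψ.comp ClassGroup.mk0)) *
    ((Complex.ofRealHom : ℝ →+* ℂ).toMonoidHom.comp (normRpow K s))

theorem charRpow_apply (K : Type*) [Field K] [NumberField K] (ψ : ClassGroup (𝓞 K) →* ℂˣ)
    (s : ℝ) (I : (Ideal (𝓞 K))⁰) :
    charRpow K ψ s I = ((ψ (ClassGroup.mk0 I) : ℂˣ) : ℂ) *
      (((Ideal.absNorm (I : Ideal (𝓞 K)) : ℝ) ^ (-s) : ℝ) : ℂ) := rfl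

end Fermat.Agent.S14.FI
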