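/-
S14 / first inequality, slice (M1): the L-series `∑_I ψ([I]) N(I)^(-s)` of a nontrivial character
`ψ` of the class group is bounded on `(1, 2]` (uniformly in `ψ`), from the bounded class-zeta
differences of package BL; plus `‖ψ([I]) N(I)^(-s)‖ = N(I)^(-s)` and norm-summability.
-/
import Fermat.Agent.S14.BLComplex
import Fermat.Agent.S14.FIDefs
import Fermat.Agent.S14.FIChar

set_option autoImplicit false

namespace Fermat.Agent.S14.FI

open NumberField IsDedekindDomain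
open scoped nonZeroDivisors

/-- values of a character of a finite group have norm one -/
theorem norm_char_classGroup (K : Type*) [Field K] [NumberField K]
    (ψ : ClassGroup (𝓞 K) →* ℂˣ) (c : ClassGroup (𝓞 K)) : ‖((ψ c : ℂˣ) : ℂ)‖ = 1 := by
  have h1 : ((ψ c : ℂˣ) : ℂ) ^ Fintype.card (ClassGroup (𝓞 K)) = 1 := by
    rw [← Units.val_pow_eq_pow_val, ← map_pow, pow_card_eq_one, map_one, Units.val_one]
  exact Complex.norm_eq_one_of_pow_eq_one h1 Fintype.card_ne_zero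

theorem norm_charRpow (K : Type*) [Field K] [NumberField K] (ψ : ClassGroup (𝓞 K) →* ℂˣ)
    (s : ℝ) (I : (Ideal (𝓞 K))⁰) :
    ‖charRpow K ψ s I‖ = (Ideal.absNorm (I : Ideal (𝓞 K)) : ℝ) ^ (-s) := by
  rw [charRpow_apply, norm_mul, norm_char_classGroup, one_mul, Complex.norm_real,
    Real.norm_of_nonneg (Real.rpow_nonneg (Nat.cast_nonneg _) _)]

theorem summable_norm_charRpow (K : Type*) [Field K] [NumberField K]
    (ψ : ClassGroup (𝓞 K) →* ℂˣ) {s : ℝ} (hs : 1 < s) :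
    Summable fun I : (Ideal (𝓞 K))⁰ ↦ ‖charRpow K ψ s I‖ := by
  simp_rw [norm_charRpow]
  exact BL.summable_absNorm_rpow K hs

theorem summable_charRpow (K : Type*) [Field K] [NumberField K]
    (ψ : ClassGroup (𝓞 K) →* ℂˣ) {s : ℝ} (hs : 1 < s) :
    Summable fun I : (Ideal (𝓞 K))⁰ ↦ charRpow K ψ s I :=
  (summable_norm_charRpow K ψ hs).of_norm

/-- the L-series of a class character as a combination of class zeta functions -/
theorem tsum_charRpow (K : Type*) [Field K] [NumberField K]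
    (ψ : ClassGroup (𝓞 K) →* ℂˣ) {s : ℝ} (hs : 1 < s) :
    ∑' I : (Ideal (𝓞 K))⁰, charRpow K ψ s I =
      ∑ C : ClassGroup (𝓞 K), ((ψ C : ℂˣ) : ℂ) * ((BL.classZeta K C s : ℝ) : ℂ) := by
  rw [← BL.tsum_classFun_mul_ofReal K (fun C => ((ψ C : ℂˣ) : ℂ)) hs]
  rfl

/-- **(M1)** the L-series of the nontrivial class characters are uniformly bounded on
`(1, 2]`. -/
theorem exists_bound_tsum_charRpow (K : Type*) [Field K] [NumberField K] :
    ∃ B : ℝ, 0 ≤ B ∧ ∀ s : ℝ, 1 < s → s ≤ 2 → ∀ ψ : ClassGroup (𝓞 K) →* ℂˣ, ψ ≠ 1 →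
      ‖∑' I, charRpow K ψ s I‖ ≤ B := by
  obtain ⟨B, hB0, hB⟩ := BL.exists_bound_tsum_classFun_ofReal K
  refine ⟨B * Fintype.card (ClassGroup (𝓞 K)), mul_nonneg hB0 (Nat.cast_nonneg _),
    fun s hs hs2 ψ hψ => ?_⟩
  have h := hB s hs hs2 (fun C => ((ψ C : ℂˣ) : ℂ)) (sum_char_eq_zero ψ hψ)
  have e : ∑ C : ClassGroup (𝓞 K), ‖((ψ C : ℂˣ) : ℂ)‖ = Fintype.card (ClassGroup (𝓞 K)) := by
    simp [norm_char_classGroup, Finset.card_univ]
  rw [e] at h
  exact h

end Fermat.Agent.S14.FI
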