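/-
S14 / first inequality, slice (M4): the real-analysis endgame.

If `c / (s - 1) ≤ zE s`, `0 ≤ zF s ≤ C / (s - 1)` near `1` and `zE s ^ h ≤ K' * zF s ^ n`
on `(1, 2]`, then `h ≤ n`.
-/
import Mathlib

namespace Fermat.Agent.S14.FI

theorem le_of_zeta_pow_le (h n : ℕ) (zE zF : ℝ → ℝ) (c C δ K' : ℝ) (hc : 0 < c) (hC : 0 < C)
    (hδ : 0 < δ) (hE : ∀ s : ℝ, 1 < s → s < 1 + δ → c / (s - 1) ≤ zE s)
    (hF : ∀ s : ℝ, 1 < s → s < 1 + δ → zF s ≤ C / (s - 1)) (hF0 : ∀ s : ℝ, 1 < s → 0 ≤ zF s)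
    (hmain : ∀ s : ℝ, 1 < s → s ≤ 2 → zE s ^ h ≤ K' * zF s ^ n) : h ≤ n := by
  by_contra hlt
  have hlt : n < h := Nat.lt_of_not_le hlt
  obtain ⟨d, hd⟩ : ∃ d : ℕ, h = n + (d + 1) := ⟨h - n - 1, by omega⟩
  have hch : 0 < c ^ h := pow_pos hc h
  -- the test point
  set t : ℝ := max (max (1 / δ) 1) (K' * C ^ n / c ^ h) + 1 with ht
  have ht1 : 1 < t := by
    have : (1 : ℝ) ≤ max (max (1 / δ) 1) (K' * C ^ n / c ^ h) :=
      le_trans (le_max_right _ _) (le_max_left _ _)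
    linarith
  have htδ : 1 / δ < t := by
    have : 1 / δ ≤ max (max (1 / δ) 1) (K' * C ^ n / c ^ h) :=
      le_trans (le_max_left _ _) (le_max_left _ _)
    linarith
  have htK : K' * C ^ n / c ^ h < t := by
    have : K' * C ^ n / c ^ h ≤ max (max (1 / δ) 1) (K' * C ^ n / c ^ h) := le_max_right _ _
    linarith
  have ht0 : 0 < t := by linarith
  have hs1 : 1 < 1 + 1 / t := by
    have : 0 < 1 / t := one_div_pos.mpr ht0
    linarith
  have hsδ : 1 + 1 / t < 1 + δ := by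
    have : 1 / t < δ := by
      rw [div_lt_iff₀ ht0]
      have := (div_lt_iff₀ hδ).mp htδ
      linarith
    linarith
  have hs2 : 1 + 1 / t ≤ 2 := by
    have : 1 / t ≤ 1 := by
      rw [div_le_iff₀ ht0]
      linarith
    linarith
  have hsub : (1 + 1 / t) - 1 = 1 / t := by ring
  have hEt : c * t ≤ zE (1 + 1 / t) := by
    have := hE _ hs1 hsδ
    rwa [hsub, div_div_eq_mul_div, div_one] at this
  have hFt : zF (1 + 1 / t) ≤ C * t := by
    have := hF _ hs1 hsδ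
    rwa [hsub, div_div_eq_mul_div, div_one] at this
  have hF0t : 0 ≤ zF (1 + 1 / t) := hF0 _ hs1
  have hm := hmain _ hs1 hs2
  have hct : 0 < c * t := mul_pos hc ht0
  have h1 : (c * t) ^ h ≤ K' * zF (1 + 1 / t) ^ n :=
    le_trans (pow_le_pow_left₀ hct.le hEt h) hm
  have hpos : 0 < (c * t) ^ h := pow_pos hct h
  rcases lt_or_ge K' 0 with hK | hK
  · have : K' * zF (1 + 1 / t) ^ n ≤ 0 :=
      mul_nonpos_of_nonpos_of_nonneg hK.le (pow_nonneg hF0t n)
    linarith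
  · have h2 : K' * zF (1 + 1 / t) ^ n ≤ K' * (C * t) ^ n :=
      mul_le_mul_of_nonneg_left (pow_le_pow_left₀ hF0t hFt n) hK
    have h3 : (c * t) ^ h ≤ K' * (C * t) ^ n := le_trans h1 h2
    have htn : 0 < t ^ n := pow_pos ht0 n
    have h4 : c ^ h * t ^ (d + 1) * t ^ n ≤ K' * C ^ n * t ^ n := by
      have e1 : (c * t) ^ h = c ^ h * t ^ (d + 1) * t ^ n := by
        rw [hd, mul_pow]
        ring
      have e2 : K' * (C * t) ^ n = K' * C ^ n * t ^ n := by
        rw [mul_pow]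
        ring
      rw [← e1, ← e2]
      exact h3
    have h5 : c ^ h * t ^ (d + 1) ≤ K' * C ^ n := le_of_mul_le_mul_right h4 htn
    have h6 : t ≤ t ^ (d + 1) := by
      have : t ^ 1 ≤ t ^ (d + 1) := pow_le_pow_right₀ ht1.le (by omega)
      simpa using this
    have h7 : c ^ h * t ≤ K' * C ^ n :=
      le_trans (mul_le_mul_of_nonneg_left h6 hch.le) h5
    have h8 : t ≤ K' * C ^ n / c ^ h := by
      rw [le_div_iff₀ hch]
      linarith
    linarith

end Fermat.Agent.S14.FI
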