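/-
S14 / first inequality, slice (M3): the upper bound for the partial Euler products of `ζ_E`
in terms of the degree-one primes of `F`:

`∏_{w ∈ S} (1 - N w ^ (-s))⁻¹ ≤ K₁ * exp ([E : F] * ∑_{v ∈ T} N v ^ (-s))`,

`T` a finite set of primes of `F` each having a prime of the same absolute norm above it.
-/
import Mathlib
import Fermat.Agent.S14.FIEuler
import Fermat.Agent.S14.FIPrimes
import Fermat.Agent.S14.FIZeta

set_option autoImplicit false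

open NumberField IsDedekindDomain
open scoped nonZeroDivisors Pointwise

namespace Fermat.Agent.S14.FI

namespace Upper

/-- `(1 - x)⁻¹ ≤ exp (x + 2 x²)` for `0 ≤ x ≤ 1/2`. -/
theorem inv_one_sub_le_exp {x : ℝ} (hx0 : 0 ≤ x) (hx : x ≤ 1 / 2) :
    (1 - x)⁻¹ ≤ Real.exp (x + 2 * x ^ 2) := by
  have h1 : 0 < 1 - x := by linarith
  have h2 : 1 + (x + 2 * x ^ 2) ≤ Real.exp (x + 2 * x ^ 2) := by
    have := Real.add_one_le_exp (x + 2 * x ^ 2)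
    linarith
  have h3 : 1 ≤ (1 + (x + 2 * x ^ 2)) * (1 - x) := by
    nlinarith [mul_nonneg (sq_nonneg x) (by linarith : (0 : ℝ) ≤ 1 - 2 * x)]
  have h4 : 1 ≤ Real.exp (x + 2 * x ^ 2) * (1 - x) :=
    le_trans h3 (mul_le_mul_of_nonneg_right h2 h1.le)
  rw [inv_le_iff_one_le_mul₀ h1]
  exact h4

variable (K : Type*) [Field K] [NumberField K]

/-- A prime ideal of a number field has absolute norm at least `2`. -/
theorem two_le_absNorm (v : HeightOneSpectrum (𝓞 K)) : (2 : ℝ) ≤ Ideal.absNorm v.asIdeal := by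
  have h0 : Ideal.absNorm v.asIdeal ≠ 0 := by
    rw [Ne, Ideal.absNorm_eq_zero_iff]
    exact v.ne_bot
  have h1 : Ideal.absNorm v.asIdeal ≠ 1 := by
    rw [Ne, Ideal.absNorm_eq_one_iff]
    exact v.isPrime.ne_top
  have h2 : 2 ≤ Ideal.absNorm v.asIdeal := by omega
  exact_mod_cast h2

theorem rpow_neg_nonneg (v : HeightOneSpectrum (𝓞 K)) (s : ℝ) :
    0 ≤ (Ideal.absNorm v.asIdeal : ℝ) ^ (-s) :=
  Real.rpow_nonneg (Nat.cast_nonneg _) _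

/-- `N v ^ (-s) ≤ N v ^ (-t)` for `t ≤ s`. -/
theorem rpow_neg_le_rpow_neg (v : HeightOneSpectrum (𝓞 K)) {s t : ℝ} (hts : t ≤ s) :
    (Ideal.absNorm v.asIdeal : ℝ) ^ (-s) ≤ (Ideal.absNorm v.asIdeal : ℝ) ^ (-t) :=
  Real.rpow_le_rpow_of_exponent_le (by linarith [two_le_absNorm K v]) (by linarith)

/-- `N v ^ (-s) ≤ 1/2` for `1 ≤ s`. -/
theorem rpow_neg_le_half (v : HeightOneSpectrum (𝓞 K)) {s : ℝ} (hs : 1 ≤ s) :
    (Ideal.absNorm v.asIdeal : ℝ) ^ (-s) ≤ 1 / 2 := by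
  have h2 := two_le_absNorm K v
  have h1 : (Ideal.absNorm v.asIdeal : ℝ) ^ (-s) ≤ (Ideal.absNorm v.asIdeal : ℝ) ^ (-(1 : ℝ)) :=
    rpow_neg_le_rpow_neg K v hs
  have h3 : (Ideal.absNorm v.asIdeal : ℝ) ^ (-(1 : ℝ)) = ((Ideal.absNorm v.asIdeal : ℝ))⁻¹ := by
    rw [Real.rpow_neg (by linarith), Real.rpow_one]
  have h4 : ((Ideal.absNorm v.asIdeal : ℝ))⁻¹ ≤ 1 / 2 := by
    rw [inv_le_comm₀ (by linarith) (by norm_num)]
    simpa using h2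
  linarith

/-- `(N v ^ (-s))² ≤ N v ^ (-2)` for `1 ≤ s`. -/
theorem sq_rpow_neg_le (v : HeightOneSpectrum (𝓞 K)) {s : ℝ} (hs : 1 ≤ s) :
    ((Ideal.absNorm v.asIdeal : ℝ) ^ (-s)) ^ 2 ≤ (Ideal.absNorm v.asIdeal : ℝ) ^ (-(2 : ℝ)) := by
  have h2 := two_le_absNorm K v
  have hpos : (0 : ℝ) ≤ Ideal.absNorm v.asIdeal := by linarith
  have h1 : ((Ideal.absNorm v.asIdeal : ℝ) ^ (-s)) ^ 2 = (Ideal.absNorm v.asIdeal : ℝ) ^ (-(2 * s)) := by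
    rw [← Real.rpow_natCast, ← Real.rpow_mul hpos]
    congr 1
    push_cast
    ring
  rw [h1]
  exact rpow_neg_le_rpow_neg K v (by linarith)

/-- A finite sum of `N v ^ (-2)` over distinct primes is bounded by the sum over all ideals. -/
theorem sum_primes_le_tsum (T : Finset (HeightOneSpectrum (𝓞 K))) :
    ∑ v ∈ T, (Ideal.absNorm v.asIdeal : ℝ) ^ (-(2 : ℝ)) ≤
      ∑' I : (Ideal (𝓞 K))⁰, (Ideal.absNorm (I : Ideal (𝓞 K)) : ℝ) ^ (-(2 : ℝ)) := by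
  classical
  have hsum := summable_absNorm_rpow K (s := 2) (by norm_num)
  have hinj : Function.Injective
      (primeIdeal₀ : HeightOneSpectrum (𝓞 K) → (Ideal (𝓞 K))⁰) := by
    intro u v h
    have h' : ((primeIdeal₀ u : (Ideal (𝓞 K))⁰) : Ideal (𝓞 K)) =
        ((primeIdeal₀ v : (Ideal (𝓞 K))⁰) : Ideal (𝓞 K)) := by rw [h]
    exact HeightOneSpectrum.ext h'
  have h1 : ∑ v ∈ T, (Ideal.absNorm v.asIdeal : ℝ) ^ (-(2 : ℝ)) =
      ∑ I ∈ T.image primeIdeal₀, (Ideal.absNorm (I : Ideal (𝓞 K)) : ℝ) ^ (-(2 : ℝ)) := by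
    rw [Finset.sum_image (fun u _ v _ h => hinj h)]
    rfl
  rw [h1]
  exact hsum.sum_le_tsum _ (fun I _ => Real.rpow_nonneg (Nat.cast_nonneg _) _)

end Upper

open Upper in
theorem exists_prod_le_mul_exp (F E : Type*) [Field F] [NumberField F] [Field E] [NumberField E] [Algebra F E] : ∃ K₁ : ℝ, 0 < K₁ ∧ ∀ s : ℝ, 1 < s → s ≤ 2 → ∀ S : Finset (HeightOneSpectrum (𝓞 E)), ∃ T : Finset (HeightOneSpectrum (𝓞 F)), (∀ v ∈ T, ∃ w : HeightOneSpectrum (𝓞 E), w.asIdeal.comap (algebraMap (𝓞 F) (𝓞 E)) = v.asIdeal ∧ Ideal.absNorm w.asIdeal = Ideal.absNorm v.asIdeal) ∧ ∏ w ∈ S, (1 - (Ideal.absNorm w.asIdeal : ℝ) ^ (-s))⁻¹ ≤ K₁ * Real.exp (Module.finrank F E * ∑ v ∈ T, (Ideal.absNorm v.asIdeal : ℝ) ^ (-s)) := by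
  set ZF : ℝ := ∑' I : (Ideal (𝓞 F))⁰, (Ideal.absNorm (I : Ideal (𝓞 F)) : ℝ) ^ (-(2 : ℝ)) with hZF
  set ZE : ℝ := ∑' I : (Ideal (𝓞 E))⁰, (Ideal.absNorm (I : Ideal (𝓞 E)) : ℝ) ^ (-(2 : ℝ)) with hZE
  refine ⟨Real.exp ((Module.finrank F E : ℝ) * ZF + 2 * ZE), Real.exp_pos _, fun s hs1 hs2 S => ?_⟩
  obtain ⟨T₁, T₂, hT₁, hle⟩ := exists_finset_primes_le F E s (by linarith) S
  refine ⟨T₁, hT₁, ?_⟩
  have hs1' : (1 : ℝ) ≤ s := hs1.le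
  have h1 : ∏ w ∈ S, (1 - (Ideal.absNorm w.asIdeal : ℝ) ^ (-s))⁻¹ ≤
      ∏ w ∈ S, Real.exp ((Ideal.absNorm w.asIdeal : ℝ) ^ (-s) +
        2 * ((Ideal.absNorm w.asIdeal : ℝ) ^ (-s)) ^ 2) := by
    refine Finset.prod_le_prod (fun w _ => ?_) (fun w _ => ?_)
    · have := rpow_neg_le_half E w hs1'
      exact inv_nonneg.mpr (by linarith)
    · exact inv_one_sub_le_exp (rpow_neg_nonneg E w s) (rpow_neg_le_half E w hs1')
  rw [← Real.exp_sum] at h1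
  rw [← Real.exp_add]
  refine le_trans h1 (Real.exp_le_exp.mpr ?_)
  rw [Finset.sum_add_distrib, ← Finset.mul_sum]
  have hB : ∑ v ∈ T₂, (Ideal.absNorm v.asIdeal : ℝ) ^ (-(2 * s)) ≤ ZF :=
    le_trans (Finset.sum_le_sum fun v _ => rpow_neg_le_rpow_neg F v (by linarith))
      (sum_primes_le_tsum F T₂)
  have hC : ∑ w ∈ S, ((Ideal.absNorm w.asIdeal : ℝ) ^ (-s)) ^ 2 ≤ ZE :=
    le_trans (Finset.sum_le_sum fun w _ => sq_rpow_neg_le E w hs1') (sum_primes_le_tsum E S)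
  have hn : (0 : ℝ) ≤ (Module.finrank F E : ℝ) := Nat.cast_nonneg _
  have hB' := mul_le_mul_of_nonneg_left hB hn
  rw [mul_add] at hle
  linarith

end Fermat.Agent.S14.FI
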