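/-
S14 / analytic first inequality in the shape of the S14 blueprint (`first_inequality`):
for an everywhere unramified Galois extension `E/F` of number fields of degree `p`, a subgroup
`H` of the class group of `F` containing the classes of all completely split primes has index
at most `p`.

Adapter on top of the general norm index inequality `Ineq.index_le_finrank` (helper29) and of
`FI.decomposition_trivial_of_absNorm_eq` (a prime with a degree-one prime above it splits
completely in an unramified Galois extension).
-/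
import Mathlib
import Fermat.Agent.S14.Defs
import Fermat.Agent.S14.Ineq
import Fermat.Agent.S14.FIDecomp

set_option autoImplicit false

namespace Fermat.Agent.S14

open NumberField IsDedekindDomain
open scoped nonZeroDivisors Pointwise

/-- **Analytic first inequality** (statement of the S14 blueprint). -/
theorem first_inequality (p : ℕ) [Fact p.Prime]
    (F E : Type*) [Field F] [NumberField F] [Field E] [NumberField E] [Algebra F E] [IsGalois F E]
    (hdeg : Module.finrank F E = p) (hunr : UnramifiedEverywhere F E)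
    (H : Subgroup (ClassGroup (𝓞 F)))
    (hH : ∀ v : HeightOneSpectrum (𝓞 F),
      (∀ w : HeightOneSpectrum (𝓞 E), w.asIdeal.comap (algebraMap (𝓞 F) (𝓞 E)) = v.asIdeal →
        ∀ σ : E ≃ₐ[F] E, σ • w.asIdeal = w.asIdeal → σ = 1) →
      ClassGroup.mk0 ⟨v.asIdeal, mem_nonZeroDivisors_of_ne_zero v.ne_bot⟩ ∈ H) :
    H.index ≤ p := by
  rw [← hdeg]
  refine Ineq.index_le_finrank F E H fun q P hP hP0 hPq hN => ?_
  have hq0 : (q : Ideal (𝓞 F)) ≠ ⊥ := nonZeroDivisors.coe_ne_zero q
  have hqprime : (q : Ideal (𝓞 F)).IsPrime := by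
    rw [← hPq]
    exact Ideal.IsPrime.under (𝓞 F) P
  let v : HeightOneSpectrum (𝓞 F) := ⟨(q : Ideal (𝓞 F)), hqprime, hq0⟩
  let w : HeightOneSpectrum (𝓞 E) := ⟨P, hP, hP0⟩
  have hw : w.asIdeal.comap (algebraMap (𝓞 F) (𝓞 E)) = v.asIdeal := hPq
  have hmem := hH v (FI.decomposition_trivial_of_absNorm_eq F E hunr v w hw hN)
  have hqv : (⟨v.asIdeal, mem_nonZeroDivisors_of_ne_zero v.ne_bot⟩ : (Ideal (𝓞 F))⁰) = q :=
    Subtype.ext rfl
  rwa [hqv] at hmem

end Fermat.Agent.S14
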