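import Fermat.Agent.S14.Defs

/-!
# S14/HM : the abstract norm-index theorem (pure algebra)

`herbrand_main` : for a "unit / element / divisor" sequence `0 → U → A → Dv` of modules over a
cyclic group of order `p` with `H¹(A) = 0` (Hilbert 90), `H¹(Dv) = 0`, finite class group
`Dv / dv(A)` and Herbrand quotient of `U` equal to `1/p`, the norm index
`[Dv^τ : dv(A^τ) + N Dv]` is at least `p`, and if it is at most `p` then every `τ`-fixed element
of `A` whose divisor is a norm is itself a norm.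
-/

set_option autoImplicit false

namespace Fermat.Agent.S14

namespace HM

open AddSubgroup

/-- enlarging the ambient group by a subgroup of `H` does not change the relative index -/
theorem relIndex_sup_of_le {G : Type*} [AddCommGroup G] (H K M : AddSubgroup G) (hM : M ≤ H) :
    H.relIndex (K ⊔ M) = H.relIndex K := by
  have h1 := AddSubgroup.relIndex_map_map (QuotientAddGroup.mk' M) H K
  have h2 := AddSubgroup.relIndex_comap (H.map (QuotientAddGroup.mk' M)) (QuotientAddGroup.mk' M) K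
  rw [AddSubgroup.comap_map_eq, QuotientAddGroup.ker_mk', sup_eq_left.mpr hM] at h2
  rw [QuotientAddGroup.ker_mk', sup_eq_left.mpr hM] at h1
  rw [h2, h1]

/-- the abstract form of `herbrand_main`, for arbitrary pairs `(δ, ν)` playing the roles of
`τ - 1` and of the norm -/
theorem main_aux {U A Dv : Type*} [AddCommGroup U] [AddCommGroup A] [AddCommGroup Dv]
    (p : ℕ) (hp : 0 < p)
    (δU νU : U →+ U) (δA νA : A →+ A) (δD νD : Dv →+ Dv)
    (ι : U →+ A) (dv : A →+ Dv)
    (hι : Function.Injective ι) (hex : ι.range = dv.ker)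
    (hιδ : ∀ u, ι (δU u) = δA (ι u)) (hιν : ∀ u, ι (νU u) = νA (ι u))
    (hdδ : ∀ a, dv (δA a) = δD (dv a)) (hdν : ∀ a, dv (νA a) = νD (dv a))
    (hνδA : ∀ a, νA (δA a) = 0) (hδνA : ∀ a, δA (νA a) = 0)
    (hνδD : ∀ x, νD (δD x) = 0) (hδνD : ∀ x, δD (νD x) = 0)
    (h90 : ∀ a, νA a = 0 → ∃ c, a = δA c) (hD : ∀ x, νD x = 0 → ∃ y, x = δD y)
    (hcl : dv.range.index ≠ 0)
    (h0 : νU.range.relIndex δU.ker ≠ 0)
    (h1 : δU.range.relIndex νU.ker = p * νU.range.relIndex δU.ker) :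
    p ≤ (δA.ker.map dv ⊔ νD.range).relIndex δD.ker ∧
    ((δA.ker.map dv ⊔ νD.range).relIndex δD.ker ≤ p →
      ∀ b : A, δA b = 0 → dv b ∈ νD.range → ∃ c, b = νA c) := by
  have kerνA : νA.ker = δA.range := by
    ext a; constructor
    · intro ha; obtain ⟨c, hc⟩ := h90 a ha; exact ⟨c, hc.symm⟩
    · rintro ⟨c, rfl⟩; exact hνδA c
  have kerνD : νD.ker = δD.range := by
    ext a; constructor
    · intro ha; obtain ⟨c, hc⟩ := hD a ha; exact ⟨c, hc.symm⟩
    · rintro ⟨c, rfl⟩; exact hνδD c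
  -- images of `ι.range`
  have mapδ : (ι.range).map δA = δU.range.map ι := by
    ext x; constructor
    · rintro ⟨_, ⟨u, rfl⟩, rfl⟩; exact ⟨δU u, ⟨u, rfl⟩, hιδ u⟩
    · rintro ⟨_, ⟨u, rfl⟩, rfl⟩; exact ⟨ι u, ⟨u, rfl⟩, (hιδ u).symm⟩
  have mapν : (ι.range).map νA = νU.range.map ι := by
    ext x; constructor
    · rintro ⟨_, ⟨u, rfl⟩, rfl⟩; exact ⟨νU u, ⟨u, rfl⟩, hιν u⟩
    · rintro ⟨_, ⟨u, rfl⟩, rfl⟩; exact ⟨ι u, ⟨u, rfl⟩, (hιν u).symm⟩
  -- (I1) `[P^τ : dv(A^τ)] = h¹(U)`
  have I1 : (δA.ker.map dv).relIndex (dv.range ⊓ δD.ker) = δU.range.relIndex νU.ker := by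
    have e1 : dv.range ⊓ δD.ker = (δD.ker.comap dv).map dv := (AddSubgroup.map_comap_eq dv _).symm
    have e2 : δD.ker.comap dv = (ι.range).comap δA := by
      ext a
      rw [AddSubgroup.mem_comap, AddSubgroup.mem_comap, AddMonoidHom.mem_ker, hex,
        AddMonoidHom.mem_ker, hdδ]
    have e3 : ((ι.range).comap δA).map δA = νU.ker.map ι := by
      rw [AddSubgroup.map_comap_eq, ← kerνA]
      ext x; constructor
      · rintro ⟨hx1, ⟨u, rfl⟩⟩
        refine ⟨u, ?_, rfl⟩
        apply hι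
        rw [hιν, map_zero]; exact hx1
      · rintro ⟨u, hu, rfl⟩
        refine ⟨?_, ⟨u, rfl⟩⟩
        show νA (ι u) = 0
        rw [← hιν, (hu : νU u = 0), map_zero]
    have e5 : δA.ker ⊔ dv.ker = ((ι.range).map δA).comap δA := by
      rw [AddSubgroup.comap_map_eq, hex, sup_comm]
    have e6 : dv.ker ≤ δD.ker.comap dv := fun a ha => by
      show δD (dv a) = 0
      rw [(ha : dv a = 0), map_zero]
    rw [e1, AddSubgroup.relIndex_map_map, sup_eq_left.mpr e6, e5, AddSubgroup.relIndex_comap, e2, e3,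
      mapδ, AddSubgroup.relIndex_map_map_of_injective _ _ hι]
  -- (I2) `h¹(P) = [ι⁻¹(N A) : N U]`
  have I2 : (dv.range.map δD).relIndex (νD.ker ⊓ dv.range) =
      νU.range.relIndex ((νA.range).comap ι) := by
    have e1 : dv.range.map δD = δA.range.map dv := by
      ext x; constructor
      · rintro ⟨_, ⟨a, rfl⟩, rfl⟩; exact ⟨δA a, ⟨a, rfl⟩, hdδ a⟩
      · rintro ⟨_, ⟨a, rfl⟩, rfl⟩; exact ⟨dv a, ⟨a, rfl⟩, (hdδ a).symm⟩
    have e2 : νD.ker ⊓ dv.range = (νD.ker.comap dv).map dv := by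
      rw [AddSubgroup.map_comap_eq, inf_comm]
    have e3 : νD.ker.comap dv = (ι.range).comap νA := by
      ext a
      rw [AddSubgroup.mem_comap, AddSubgroup.mem_comap, AddMonoidHom.mem_ker, hex,
        AddMonoidHom.mem_ker, hdν]
    have e4 : dv.ker ≤ νD.ker.comap dv := fun a ha => by
      show νD (dv a) = 0
      rw [(ha : dv a = 0), map_zero]
    have e5 : δA.range ⊔ dv.ker = ((ι.range).map νA).comap νA := by
      rw [AddSubgroup.comap_map_eq, hex, kerνA, sup_comm]
    have e7 : ((ι.range).comap νA).map νA = ((νA.range).comap ι).map ι := by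
      rw [AddSubgroup.map_comap_eq, AddSubgroup.map_comap_eq, inf_comm]
    rw [e1, e2, AddSubgroup.relIndex_map_map, sup_eq_left.mpr e4, e5, AddSubgroup.relIndex_comap,
      e3, e7, mapν, AddSubgroup.relIndex_map_map_of_injective _ _ hι]
  -- (I3) `[Cl^τ : im Dv^τ] = h¹(P)`
  have I3 : (δD.ker ⊔ dv.range).relIndex (dv.range.comap δD) =
      (dv.range.map δD).relIndex (νD.ker ⊓ dv.range) := by
    have e1 : δD.ker ⊔ dv.range = (dv.range.map δD).comap δD := by
      rw [AddSubgroup.comap_map_eq, sup_comm]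
    rw [e1, AddSubgroup.relIndex_comap, AddSubgroup.map_comap_eq, kerνD]
  -- inclusions
  have hPZ : dv.range ≤ dv.range.comap δD := by
    rintro _ ⟨a, rfl⟩; exact ⟨δA a, hdδ a⟩
  have hPW : dv.range ≤ dv.range.comap νD := by
    rintro _ ⟨a, rfl⟩; exact ⟨νA a, hdν a⟩
  have hMZ : νD.range ≤ dv.range.comap δD := by
    rintro _ ⟨x, rfl⟩
    show δD (νD x) ∈ dv.range
    rw [hδνD]; exact zero_mem _
  have hδW : δD.range ≤ dv.range.comap νD := by
    rintro _ ⟨x, rfl⟩
    show νD (δD x) ∈ dv.range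
    rw [hνδD]; exact zero_mem _
  have hMDT : νD.range ≤ δD.ker := by
    rintro _ ⟨x, rfl⟩; exact hδνD x
  have hDTZ : δD.ker ≤ dv.range.comap δD := fun x hx => by
    show δD x ∈ dv.range
    rw [(hx : δD x = 0)]; exact zero_mem _
  -- (I4) Herbrand quotient of the finite group `Cl` is `1`
  have I4 : (dv.range ⊔ νD.range).relIndex (dv.range.comap δD) =
        (dv.range ⊔ δD.range).relIndex (dv.range.comap νD) ∧
      (dv.range ⊔ νD.range).relIndex (dv.range.comap δD) ≠ 0 := by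
    have a1 : (dv.range.comap δD).index = dv.range.relIndex (dv.range ⊔ δD.range) := by
      rw [AddSubgroup.index_comap, sup_comm, AddSubgroup.relIndex_sup_right]
    have a2 : (dv.range.comap νD).index = dv.range.relIndex (dv.range ⊔ νD.range) := by
      rw [AddSubgroup.index_comap, sup_comm, AddSubgroup.relIndex_sup_right]
    have c1 := AddSubgroup.relIndex_mul_index (sup_le hPW hδW)
    have c2 := AddSubgroup.relIndex_mul_index (le_sup_left : dv.range ≤ dv.range ⊔ δD.range)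
    have c3 := AddSubgroup.relIndex_mul_index (sup_le hPZ hMZ)
    have c4 := AddSubgroup.relIndex_mul_index (le_sup_left : dv.range ≤ dv.range ⊔ νD.range)
    rw [a2] at c1
    rw [a1] at c3
    rw [← c1] at c2
    rw [← c3] at c4
    have hne : dv.range.relIndex (dv.range ⊔ δD.range) *
        ((dv.range ⊔ δD.range).relIndex (dv.range.comap νD) *
          dv.range.relIndex (dv.range ⊔ νD.range)) ≠ 0 := by rw [c2]; exact hcl
    have ha : dv.range.relIndex (dv.range ⊔ δD.range) ≠ 0 := left_ne_zero_of_mul hne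
    have hb : dv.range.relIndex (dv.range ⊔ νD.range) ≠ 0 :=
      right_ne_zero_of_mul (right_ne_zero_of_mul hne)
    have hx : (dv.range ⊔ δD.range).relIndex (dv.range.comap νD) ≠ 0 :=
      left_ne_zero_of_mul (right_ne_zero_of_mul hne)
    have heq : (dv.range ⊔ νD.range).relIndex (dv.range.comap δD) =
        (dv.range ⊔ δD.range).relIndex (dv.range.comap νD) := by
      have h := c4.trans c2.symm
      have h' : (dv.range.relIndex (dv.range ⊔ δD.range) * dv.range.relIndex (dv.range ⊔ νD.range)) *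
          (dv.range ⊔ νD.range).relIndex (dv.range.comap δD) =
          (dv.range.relIndex (dv.range ⊔ δD.range) * dv.range.relIndex (dv.range ⊔ νD.range)) *
          (dv.range ⊔ δD.range).relIndex (dv.range.comap νD) := by
        linear_combination h
      exact Nat.eq_of_mul_eq_mul_left (Nat.pos_of_ne_zero (mul_ne_zero ha hb)) h'
    exact ⟨heq, heq ▸ hx⟩
  -- (I5) the comparison group
  have I5 : (dv.range.map νD).relIndex (dv.range ⊓ νD.range) =
      (dv.range ⊔ δD.range).relIndex (dv.range.comap νD) := by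
    have e1 : dv.range ⊓ νD.range = (dv.range.comap νD).map νD := by
      rw [AddSubgroup.map_comap_eq, inf_comm]
    have e2 : νD.ker ≤ dv.range.comap νD := fun x hx => by
      show νD x ∈ dv.range
      rw [(hx : νD x = 0)]; exact zero_mem _
    rw [e1, AddSubgroup.relIndex_map_map, sup_eq_left.mpr e2, kerνD]
  have hNP : dv.range.map νD ≤ δA.ker.map dv ⊓ νD.range := by
    rintro _ ⟨_, ⟨a, rfl⟩, rfl⟩
    exact ⟨⟨νA a, hδνA a, hdν a⟩, ⟨dv a, rfl⟩⟩
  have hBP : δA.ker.map dv ≤ dv.range ⊓ δD.ker := by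
    rintro _ ⟨a, ha, rfl⟩
    refine ⟨⟨a, rfl⟩, ?_⟩
    show δD (dv a) = 0
    rw [← hdδ, (ha : δA a = 0), map_zero]
  have hBM : δA.ker.map dv ⊓ νD.range ≤ dv.range ⊓ νD.range :=
    inf_le_inf_right _ (hBP.trans inf_le_left)
  have I5' := AddSubgroup.relIndex_mul_relIndex _ _ _ hNP hBM
  -- chain in `U`
  have hUV : νU.range ≤ (νA.range).comap ι := by
    rintro _ ⟨u, rfl⟩; exact ⟨ι u, (hιν u).symm⟩
  have hVT : (νA.range).comap ι ≤ δU.ker := by
    rintro v ⟨a, ha⟩
    apply hι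
    rw [hιδ, ← ha, hδνA, map_zero]
  have hU' := AddSubgroup.relIndex_mul_relIndex _ _ _ hUV hVT
  -- (I6a)
  have I6a : (dv.range ⊓ δD.ker ⊔ νD.range).relIndex δD.ker *
      νU.range.relIndex ((νA.range).comap ι) =
      (dv.range ⊔ νD.range).relIndex (dv.range.comap δD) := by
    have e1 : dv.range ⊓ δD.ker ⊔ νD.range = (dv.range ⊔ νD.range) ⊓ δD.ker := by
      rw [sup_comm, sup_comm dv.range, sup_inf_assoc_of_le _ hMDT]
    have e2 : (dv.range ⊔ νD.range).relIndex δD.ker =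
        (dv.range ⊔ νD.range).relIndex (δD.ker ⊔ dv.range) :=
      (relIndex_sup_of_le _ _ _ le_sup_left).symm
    rw [e1, AddSubgroup.inf_relIndex_right, e2, ← I2, ← I3]
    exact AddSubgroup.relIndex_mul_relIndex _ _ _
      (sup_le le_sup_right (hMDT.trans le_sup_left)) (sup_le hDTZ hPZ)
  -- (I6b)
  have I6b : (δA.ker.map dv ⊓ νD.range).relIndex (dv.range ⊓ νD.range) *
      (δA.ker.map dv ⊔ νD.range).relIndex (dv.range ⊓ δD.ker ⊔ νD.range) =
      δU.range.relIndex νU.ker := by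
    have e1 : (δA.ker.map dv ⊔ νD.range).relIndex (dv.range ⊓ δD.ker ⊔ νD.range) =
        (δA.ker.map dv ⊔ νD.range ⊓ (dv.range ⊓ δD.ker)).relIndex (dv.range ⊓ δD.ker) := by
      rw [relIndex_sup_of_le _ _ _ le_sup_right, ← AddSubgroup.inf_relIndex_right,
        sup_inf_assoc_of_le _ hBP]
    have e2 : νD.range ⊓ (dv.range ⊓ δD.ker) = dv.range ⊓ νD.range := by
      rw [inf_comm dv.range, ← inf_assoc, inf_eq_left.mpr hMDT, inf_comm]
    have e3 : (δA.ker.map dv ⊓ νD.range).relIndex (dv.range ⊓ νD.range) =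
        (δA.ker.map dv).relIndex (δA.ker.map dv ⊔ dv.range ⊓ νD.range) := by
      rw [AddSubgroup.relIndex_sup_left, ← AddSubgroup.inf_relIndex_right (δA.ker.map dv),
        ← inf_assoc, inf_eq_left.mpr (hBP.trans inf_le_left)]
    rw [e1, e2, e3, ← I1]
    exact AddSubgroup.relIndex_mul_relIndex _ _ _ le_sup_left
      (sup_le hBP (le_inf inf_le_left (inf_le_right.trans hMDT)))
  -- the target index
  have hchain : (δA.ker.map dv ⊔ νD.range).relIndex (dv.range ⊓ δD.ker ⊔ νD.range) *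
      (dv.range ⊓ δD.ker ⊔ νD.range).relIndex δD.ker =
      (δA.ker.map dv ⊔ νD.range).relIndex δD.ker :=
    AddSubgroup.relIndex_mul_relIndex _ _ _ (sup_le_sup_right hBP _)
      (sup_le inf_le_right hMDT)
  -- arithmetic
  set I := (δA.ker.map dv ⊔ νD.range).relIndex δD.ker with hI
  set i1 := (δA.ker.map dv ⊔ νD.range).relIndex (dv.range ⊓ δD.ker ⊔ νD.range) with hi1
  set i2 := (dv.range ⊓ δD.ker ⊔ νD.range).relIndex δD.ker with hi2
  set h0' := νU.range.relIndex ((νA.range).comap ι) with hh0'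
  set e := ((νA.range).comap ι).relIndex δU.ker with he
  set H0 := (dv.range ⊔ νD.range).relIndex (dv.range.comap δD) with hH0
  set T := (δA.ker.map dv ⊓ νD.range).relIndex (dv.range ⊓ νD.range) with hT
  set k := (dv.range.map νD).relIndex (δA.ker.map dv ⊓ νD.range) with hk
  set q0 := νU.range.relIndex δU.ker with hq0
  -- hU' : h0' * e = q0 ; I6a : i2 * h0' = H0 ; I6b : T * i1 = p * q0 ; I5' : k * T = H0 ; hchain : i1 * i2 = I
  rw [← I4.1] at I5
  rw [I5] at I5'
  rw [h1] at I6b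
  have hH0 : H0 ≠ 0 := I4.2
  have hh0'ne : h0' ≠ 0 := fun h => h0 (by rw [← hU', h, zero_mul])
  have hene : e ≠ 0 := fun h => h0 (by rw [← hU', h, mul_zero])
  have hkne : k ≠ 0 := fun h => hH0 (by rw [← I5', h, zero_mul])
  have hTne : T ≠ 0 := fun h => hH0 (by rw [← I5', h, mul_zero])
  have key : I * (h0' * T) = (p * (e * k)) * (h0' * T) := by
    have : I * (h0' * T) = (T * i1) * (i2 * h0') := by rw [← hchain]; ring
    rw [this, I6b, I6a, ← I5', ← hU']; ring
  have hIeq : I = p * (e * k) :=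
    Nat.eq_of_mul_eq_mul_right (Nat.pos_of_ne_zero (mul_ne_zero hh0'ne hTne)) key
  have hek : 1 ≤ e * k := Nat.pos_of_ne_zero (mul_ne_zero hene hkne)
  refine ⟨by rw [hIeq]; exact Nat.le_mul_of_pos_right p hek, fun hle b hb hbM => ?_⟩
  rw [hIeq] at hle
  have hek1 : e * k = 1 := by
    have : p * (e * k) ≤ p * 1 := by rwa [mul_one]
    exact le_antisymm (Nat.le_of_mul_le_mul_left this hp) hek
  have he1 : e = 1 := Nat.eq_one_of_mul_eq_one_right hek1
  have hk1 : k = 1 := Nat.eq_one_of_mul_eq_one_left hek1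
  have hTV : δU.ker ≤ (νA.range).comap ι := AddSubgroup.relIndex_eq_one.mp he1
  have hBN : δA.ker.map dv ⊓ νD.range ≤ dv.range.map νD := AddSubgroup.relIndex_eq_one.mp hk1
  obtain ⟨_, ⟨a, rfl⟩, ha⟩ := hBN ⟨⟨b, hb, rfl⟩, hbM⟩
  have hker : b - νA a ∈ dv.ker := by
    show dv (b - νA a) = 0
    rw [map_sub, hdν, ha, sub_self]
  rw [← hex] at hker
  obtain ⟨u, hu⟩ := hker
  have huT : u ∈ δU.ker := by
    show δU u = 0
    apply hι
    rw [hιδ, hu, map_sub, hb, hδνA, sub_self, map_zero]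
  obtain ⟨a', ha'⟩ := hTV huT
  refine ⟨a + a', ?_⟩
  rw [map_add, ha', hu]; abel

section EndLemmas

variable {X Y : Type*} [AddCommGroup X] [AddCommGroup Y]

theorem end_sum_apply {κ : Type*} (s : Finset κ) (g : κ → AddMonoid.End X) (x : X) :
    (∑ i ∈ s, g i) x = ∑ i ∈ s, g i x := by
  classical
  induction s using Finset.induction_on with
  | empty => rfl
  | insert a s ha ih =>
    rw [Finset.sum_insert ha, Finset.sum_insert ha]
    show g a x + (∑ i ∈ s, g i) x = _
    rw [ih]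

theorem norm_sub_one_apply (τ : AddMonoid.End X) (p : ℕ) (h : τ ^ p = 1) (x : X) :
    (∑ i ∈ Finset.range p, τ ^ i) ((τ - 1) x) = 0 := by
  have h0 : (∑ i ∈ Finset.range p, τ ^ i) * (τ - 1) = 0 := by rw [geom_sum_mul, h, sub_self]
  exact congrArg (fun f : AddMonoid.End X => f x) h0

theorem sub_one_norm_apply (τ : AddMonoid.End X) (p : ℕ) (h : τ ^ p = 1) (x : X) :
    (τ - 1) ((∑ i ∈ Finset.range p, τ ^ i) x) = 0 := by
  have h0 : (τ - 1) * (∑ i ∈ Finset.range p, τ ^ i) = 0 := by rw [mul_geom_sum, h, sub_self]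
  exact congrArg (fun f : AddMonoid.End X => f x) h0

theorem map_pow_apply (f : X →+ Y) (σ : AddMonoid.End X) (σ' : AddMonoid.End Y)
    (h : ∀ x, f (σ x) = σ' (f x)) (i : ℕ) (x : X) : f ((σ ^ i) x) = (σ' ^ i) (f x) := by
  induction i generalizing x with
  | zero => rfl
  | succ n ih =>
    rw [pow_succ, pow_succ]
    show f ((σ ^ n) (σ x)) = (σ' ^ n) (σ' (f x))
    rw [ih, h]

theorem map_norm_apply (f : X →+ Y) (σ : AddMonoid.End X) (σ' : AddMonoid.End Y)
    (h : ∀ x, f (σ x) = σ' (f x)) (p : ℕ) (x : X) :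
    f ((∑ i ∈ Finset.range p, σ ^ i) x) = (∑ i ∈ Finset.range p, σ' ^ i) (f x) := by
  rw [end_sum_apply, end_sum_apply, map_sum]
  exact Finset.sum_congr rfl fun i _ => map_pow_apply f σ σ' h i x

theorem map_sub_one_apply (f : X →+ Y) (σ : AddMonoid.End X) (σ' : AddMonoid.End Y)
    (h : ∀ x, f (σ x) = σ' (f x)) (x : X) : f ((σ - 1) x) = (σ' - 1) (f x) := by
  show f (σ x - x) = σ' (f x) - f x
  rw [map_sub, h]

end EndLemmas

end HM

/-- **The abstract norm-index theorem** (statement verbatim from the S14 blueprint). -/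
theorem herbrand_main (p : ℕ) [Fact p.Prime]
    {U A Dv : Type*} [AddCommGroup U] [AddCommGroup A] [AddCommGroup Dv]
    (τU : AddMonoid.End U) (τA : AddMonoid.End A) (τD : AddMonoid.End Dv)
    (hτU : τU ^ p = 1) (hτA : τA ^ p = 1) (hτD : τD ^ p = 1)
    (ι : U →+ A) (dv : A →+ Dv)
    (hι : Function.Injective ι) (hex : ι.range = dv.ker)
    (hιτ : ∀ u, ι (τU u) = τA (ι u)) (hdτ : ∀ a, dv (τA a) = τD (dv a))
    (h90 : ∀ a, (∑ i ∈ Finset.range p, τA ^ i) a = 0 → ∃ c, a = τA c - c)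
    (hD : ∀ x, (∑ i ∈ Finset.range p, τD ^ i) x = 0 → ∃ y, x = τD y - y)
    (hcl : Finite (Dv ⧸ dv.range))
    (hU : (AddMonoidHom.range (∑ i ∈ Finset.range p, τU ^ i)).relIndex (AddMonoidHom.ker (τU - 1)) ≠ 0 ∧
      (AddMonoidHom.range (τU - 1)).relIndex (AddMonoidHom.ker (∑ i ∈ Finset.range p, τU ^ i)) =
        p * (AddMonoidHom.range (∑ i ∈ Finset.range p, τU ^ i)).relIndex (AddMonoidHom.ker (τU - 1))) :
    p ≤ ((AddMonoidHom.ker (τA - 1)).map dv ⊔
        AddMonoidHom.range (∑ i ∈ Finset.range p, τD ^ i)).relIndex (AddMonoidHom.ker (τD - 1)) ∧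
    (((AddMonoidHom.ker (τA - 1)).map dv ⊔
        AddMonoidHom.range (∑ i ∈ Finset.range p, τD ^ i)).relIndex (AddMonoidHom.ker (τD - 1)) ≤ p →
      ∀ b : A, τA b = b → dv b ∈ AddMonoidHom.range (∑ i ∈ Finset.range p, τD ^ i) →
        ∃ c, b = (∑ i ∈ Finset.range p, τA ^ i) c) := by
  have hp : 0 < p := (Fact.out : p.Prime).pos
  have key := HM.main_aux p hp (τU - 1) (∑ i ∈ Finset.range p, τU ^ i) (τA - 1)
    (∑ i ∈ Finset.range p, τA ^ i) (τD - 1) (∑ i ∈ Finset.range p, τD ^ i) ι dv hι hex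
    (HM.map_sub_one_apply ι τU τA hιτ) (HM.map_norm_apply ι τU τA hιτ p)
    (HM.map_sub_one_apply dv τA τD hdτ) (HM.map_norm_apply dv τA τD hdτ p)
    (HM.norm_sub_one_apply τA p hτA) (HM.sub_one_norm_apply τA p hτA)
    (HM.norm_sub_one_apply τD p hτD) (HM.sub_one_norm_apply τD p hτD)
    h90 hD AddSubgroup.index_ne_zero_of_finite hU.1 hU.2
  refine ⟨key.1, fun hle b hb hbM => key.2 hle b ?_ hbM⟩
  show τA b - b = 0
  rw [hb, sub_self]

end Fermat.Agent.S14
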