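/-
S14 / package Ineq, adapter: the first inequality in the blueprint (skeleton) shape.

`E/F` Galois of prime degree `p`, unramified everywhere; `H ≤ Cl(F)` contains the class of every
prime `v` of `F` all of whose primes `w` above have trivial decomposition group.  Then
`[Cl(F) : H] ≤ p`.   (From `Ineq.index_le_finrank` and `FI.decomposition_trivial_of_absNorm_eq`.)
-/
import Fermat.Agent.S14.Ineq
import Fermat.Agent.S14.FIDecomp

set_option autoImplicit false

open NumberField IsDedekindDomain
open scoped nonZeroDivisors Pointwise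

namespace Fermat.Agent.S14.Ineq

/-- **First inequality**, blueprint shape. -/
theorem first_inequality (p : ℕ) [Fact p.Prime]
    (F E : Type*) [Field F] [NumberField F] [Field E] [NumberField E] [Algebra F E] [IsGalois F E]
    (hdeg : Module.finrank F E = p) (hunr : UnramifiedEverywhere F E)
    (H : Subgroup (ClassGroup (𝓞 F)))
    (hH : ∀ v : HeightOneSpectrum (𝓞 F),
      (∀ w : HeightOneSpectrum (𝓞 E), w.asIdeal.comap (algebraMap (𝓞 F) (𝓞 E)) = v.asIdeal →
        ∀ σ : E ≃ₐ[F] E, σ • w.asIdeal = w.asIdeal → σ = 1) →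
      ClassGroup.mk0 ⟨v.asIdeal, mem_nonZeroDivisors_of_ne_zero v.ne_bot⟩ ∈ H) :
    H.index ≤ p := by
  rw [← hdeg]
  refine index_le_finrank F E H ?_
  intro q P hP hP0 hu hN
  -- the primes as height one primes
  let w : HeightOneSpectrum (𝓞 E) := ⟨P, hP, hP0⟩
  let v : HeightOneSpectrum (𝓞 F) := FI.PR.below F E w
  have hv : v.asIdeal = (q : Ideal (𝓞 F)) := hu
  have hw : w.asIdeal.comap (algebraMap (𝓞 F) (𝓞 E)) = v.asIdeal := rfl
  have hf : Ideal.absNorm w.asIdeal = Ideal.absNorm v.asIdeal := by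
    rw [hv]
    exact hN
  have hmem := hH v (FI.decomposition_trivial_of_absNorm_eq F E hunr v w hw hf)
  have hq : (⟨v.asIdeal, mem_nonZeroDivisors_of_ne_zero v.ne_bot⟩ : (Ideal (𝓞 F))⁰) = q :=
    Subtype.ext hv
  rw [hq] at hmem
  exact hmem

end Fermat.Agent.S14.Ineq
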