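import Fermat.Agent.S14.Jacobi

/-!
# S14/JacobiCor : consumer-shaped corollaries of `exists_jacobi`

* `Jacobi.exists_jacobi_sum` : the Jacobi element `J` with
  `∑ᶠ w, t w * ord w J = ∑ a ∈ Icc 1 ((p-1)/2), t (σ_a⁻¹ v)` for every weight `t`, and every
  prime in the support of `J` has absolute norm `q`;
* `Jacobi.not_dvd_sum_Icc` : `p ∤ ∑_{0 < a < p/2} a`;
* `Jacobi.dvd_of_dvd_sum` : the final arithmetic step of the core argument.
-/

set_option autoImplicit false

namespace Fermat.Agent.S14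

open NumberField IsDedekindDomain
open scoped nonZeroDivisors Pointwise

namespace Jacobi

theorem two_mul_sum_Icc (m : ℕ) : 2 * ∑ a ∈ Finset.Icc 1 m, (a : ℤ) = (m : ℤ) * (m + 1) := by
  induction m with
  | zero => simp
  | succ n ih =>
    rw [Finset.sum_Icc_succ_top (by omega), mul_add, ih]
    push_cast
    ring

theorem not_dvd_sum_Icc {p : ℕ} [hp : Fact p.Prime] (hp2 : p ≠ 2) :
    ¬ (p : ℤ) ∣ ∑ a ∈ Finset.Icc 1 ((p - 1) / 2), (a : ℤ) := by
  intro h
  obtain ⟨m, hm⟩ := hp.out.odd_of_ne_two hp2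
  have hm' : (p - 1) / 2 = m := by omega
  rw [hm'] at h
  have h2 : (p : ℤ) ∣ (m : ℤ) * (m + 1) := by
    rw [← two_mul_sum_Icc]
    exact Dvd.dvd.mul_left h 2
  have hpm : 0 < m := by have := hp.out.two_le; omega
  rcases (Nat.prime_iff_prime_int.mp hp.out).dvd_or_dvd h2 with h3 | h3
  · have := Int.le_of_dvd (by exact_mod_cast hpm) h3
    omega
  · have := Int.le_of_dvd (by positivity) h3
    omega

theorem dvd_of_dvd_sum {p : ℕ} [hp : Fact p.Prime] (hp2 : p ≠ 2) (t0 : ℤ) (f : ℕ → ℤ)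
    (hf : ∀ a ∈ Finset.Icc 1 ((p - 1) / 2), (p : ℤ) ∣ f a - a * t0)
    (h : (p : ℤ) ∣ ∑ a ∈ Finset.Icc 1 ((p - 1) / 2), f a) : (p : ℤ) ∣ t0 := by
  have h1 : (p : ℤ) ∣ ∑ a ∈ Finset.Icc 1 ((p - 1) / 2), (f a - a * t0) := Finset.dvd_sum hf
  rw [Finset.sum_sub_distrib, ← Finset.sum_mul] at h1
  have h2 : (p : ℤ) ∣ (∑ a ∈ Finset.Icc 1 ((p - 1) / 2), (a : ℤ)) * t0 := by
    have := dvd_sub h h1
    rwa [sub_sub_cancel] at this
  rcases (Nat.prime_iff_prime_int.mp hp.out).dvd_or_dvd h2 with h3 | h3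
  · exact absurd h3 (not_dvd_sum_Icc hp2)
  · exact h3

open scoped Classical in
/-- **Jacobi sums, summed form**: the Jacobi element `J` of `v`, with the weighted sum of its
divisor against any `t`, and the absolute norms of the primes in its support. -/
theorem exists_jacobi_sum (p : ℕ) [Fact p.Prime] (hp2 : p ≠ 2)
    (K : Type*) [Field K] [NumberField K] [IsCyclotomicExtension {p} ℚ K]
    (v : HeightOneSpectrum (𝓞 K)) (q : ℕ) (hq : q.Prime) (hqp : q ≠ p)
    (hv : Ideal.absNorm v.asIdeal = q) :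
    ∃ J : K, J ≠ 0 ∧
      (∀ w : HeightOneSpectrum (𝓞 K), ord w J ≠ 0 → Ideal.absNorm w.asIdeal = q) ∧
      ∀ t : HeightOneSpectrum (𝓞 K) → ℤ,
        ∑ᶠ w : HeightOneSpectrum (𝓞 K), t w * ord w J =
          ∑ a ∈ Finset.Icc 1 ((p - 1) / 2), t (conj (sig p K a)⁻¹ v) := by
  obtain ⟨J, hJ⟩ := exists_span_eq_prod hp2 v q hq hqp hv
  have hord := ord_of_span_eq_prod J _ (fun a => conj (sig p K a)⁻¹ v) hJ
  refine ⟨algebraMap (𝓞 K) K J, ?_, fun w hw => ?_, fun t => ?_⟩
  · rw [Ne, FaithfulSMul.algebraMap_eq_zero_iff]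
    rintro rfl
    rw [Ideal.span_singleton_eq_bot.mpr rfl] at hJ
    obtain ⟨a, -, ha⟩ := Finset.prod_eq_zero_iff.mp hJ.symm
    exact (conj (sig p K a)⁻¹ v).ne_bot ha
  · rw [hord w] at hw
    have hne : ((Finset.Icc 1 ((p - 1) / 2)).filter
        (fun a => conj (sig p K a)⁻¹ v = w)).Nonempty := by
      rw [← Finset.card_pos]
      exact Nat.pos_of_ne_zero (by exact_mod_cast hw)
    obtain ⟨a, ha⟩ := hne
    rw [Finset.mem_filter] at ha
    rw [← ha.2, conj_asIdeal, absNorm_smul, hv]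
  · have h1 : ∀ w : HeightOneSpectrum (𝓞 K), t w * ord w (algebraMap (𝓞 K) K J) =
        ∑ a ∈ Finset.Icc 1 ((p - 1) / 2),
          (if conj (sig p K a)⁻¹ v = w then t (conj (sig p K a)⁻¹ v) else 0) := by
      intro w
      rw [hord w, Finset.card_filter, Nat.cast_sum, Finset.mul_sum]
      refine Finset.sum_congr rfl fun a _ => ?_
      by_cases h : conj (sig p K a)⁻¹ v = w
      · rw [if_pos h, if_pos h, h]; simp
      · rw [if_neg h, if_neg h]; simp
    simp_rw [h1]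
    rw [finsum_sum_comm]
    · refine Finset.sum_congr rfl fun a _ => ?_
      rw [finsum_eq_single _ (conj (sig p K a)⁻¹ v) (fun w hw => if_neg (Ne.symm hw)), if_pos rfl]
    · intro a _
      refine (Set.finite_singleton (conj (sig p K a)⁻¹ v)).subset fun w hw => ?_
      rw [Function.mem_support] at hw
      by_contra h
      exact hw (if_neg (fun h' => h (by rw [Set.mem_singleton_iff]; exact h'.symm)))

end Jacobi

end Fermat.Agent.S14
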