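/-
S14 / JacobiRes (helper22): the residue-field half of the Jacobi-sum factorisation.

For `K = ℚ(ζ_p)` and a prime `v` of `𝓞 K` of prime norm `q ≠ p`, the Jacobi sums
`J = J(χ, χ)` and `J' = J(χ⁻¹, χ⁻¹)` of the `p`-th power residue character `χ` at `v`
satisfy `J * J' = q`, and the conjugates `σ_a J` (`0 < a < p/2`), `σ_a J'` (`p/2 < a < p`)
lie in `v`.  Mathlib only.
-/
import Mathlib

set_option autoImplicit false

namespace Fermat.Agent.S14.JacobiRes

open Finset NumberField IsDedekindDomain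

section FiniteField

variable {k : Type*} [Field k] [Fintype k]

/-- The character-sum vanishing: `∑ x, x^m (1-x)^m = 0` in a finite field with more than
`2m + 1` elements. -/
theorem sum_pow_mul_one_sub_pow (m : ℕ) (hm : 2 * m < Fintype.card k - 1) :
    ∑ x : k, x ^ m * (1 - x) ^ m = 0 := by
  have h1 : ∀ x : k, x ^ m * (1 - x) ^ m =
      ∑ j ∈ range (m + 1), ((-1 : k) ^ j * (m.choose j : k)) * x ^ (m + j) := by
    intro x
    have h2 : (1 - x) ^ m = ∑ j ∈ range (m + 1), (-x) ^ j * 1 ^ (m - j) * (m.choose j : k) := by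
      rw [← add_pow]
      congr 1
      ring
    rw [h2, Finset.mul_sum]
    refine Finset.sum_congr rfl fun j _ => ?_
    rw [neg_pow, one_pow, pow_add]
    ring
  simp_rw [h1]
  rw [Finset.sum_comm]
  refine Finset.sum_eq_zero fun j hj => ?_
  rw [← Finset.mul_sum, FiniteField.sum_pow_lt_card_sub_one, mul_zero]
  have := Finset.mem_range.mp hj
  omega

end FiniteField

section Abstract

variable {A k : Type*} [CommRing A] [Field k]

/-- Existence of the `p`-th power residue character with values in `A`. -/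
theorem exists_mulChar [Fintype k] [DecidableEq k] (π : A →+* k) (p : ℕ) [Fact p.Prime] (ζ : A) (hζ : ζ ^ p = 1)
    (hζ1 : π ζ ≠ 1) :
    ∃ (n : ℕ) (χ : MulChar k A), p * n = Fintype.card k - 1 ∧ 0 < n ∧
      (∀ x : k, π (χ x) = x ^ n) ∧ (∀ x : k, x ≠ 0 → χ x ^ p = 1) ∧
      ∃ u : kˣ, χ u ≠ 1 ∧ (p ≠ 2 → χ u ^ 2 ≠ 1) := by
  have hp : p.Prime := Fact.out
  have hz : (π ζ) ^ p = 1 := by rw [← map_pow, hζ, map_one]
  have hz0 : π ζ ≠ 0 := by
    intro h0
    rw [h0, zero_pow hp.ne_zero] at hz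
    exact zero_ne_one hz
  have hord : orderOf (π ζ) = p := orderOf_eq_prime hz hζ1
  have hdvd : p ∣ Fintype.card k - 1 := by
    rw [← hord]
    exact orderOf_dvd_of_pow_eq_one (FiniteField.pow_card_sub_one_eq_one _ hz0)
  obtain ⟨n, hn⟩ := hdvd
  have hq1 : 0 < Fintype.card k - 1 := by
    have := Fintype.one_lt_card (α := k)
    omega
  have hnpos : 0 < n := by
    rcases Nat.eq_zero_or_pos n with h | h
    · rw [h, mul_zero] at hn
      omega
    · exact h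
  obtain ⟨γ, hγ⟩ := IsCyclic.exists_generator (α := kˣ)
  have hγp : ((γ : k) ^ n) ^ p = 1 := by
    rw [← pow_mul, mul_comm, ← hn]
    exact FiniteField.pow_card_sub_one_eq_one _ γ.ne_zero
  have hprim : IsPrimitiveRoot (π ζ) p := hord ▸ IsPrimitiveRoot.orderOf (π ζ)
  have : NeZero p := ⟨hp.ne_zero⟩
  obtain ⟨j, -, hj⟩ := hprim.eq_pow_of_pow_eq_one hγp
  have hζjp : (ζ ^ j) ^ p = 1 := by rw [← pow_mul, mul_comm, pow_mul, hζ, one_pow]
  have hζjq : (ζ ^ j) ^ (Fintype.card k - 1) = 1 := by rw [hn, pow_mul, hζjp, one_pow]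
  set ζu : Aˣ := Units.ofPowEqOne (ζ ^ j) (Fintype.card k - 1) hζjq hq1.ne' with hζu_def
  have hζuval : (ζu : A) = ζ ^ j := rfl
  have hζu : ζu ∈ rootsOfUnity (Fintype.card kˣ) A := by
    rw [mem_rootsOfUnity, Fintype.card_units]
    exact Units.ext (by rw [Units.val_pow_eq_pow_val, hζuval, hζjq, Units.val_one])
  set χ : MulChar k A := MulChar.ofRootOfUnity hζu hγ with hχ_def
  have hχγ : χ (γ : k) = ζ ^ j := by
    rw [hχ_def, MulChar.ofRootOfUnity_spec]
    exact hζuval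
  have hrep : ∀ x : k, x ≠ 0 → ∃ i : ℕ, x = (γ : k) ^ i := by
    intro x hx
    have h1 := hγ (Units.mk0 x hx)
    rw [← mem_powers_iff_mem_zpowers, Submonoid.mem_powers_iff] at h1
    obtain ⟨i, hi⟩ := h1
    refine ⟨i, ?_⟩
    have h2 := congrArg Units.val hi
    rw [Units.val_pow_eq_pow_val, Units.val_mk0] at h2
    exact h2.symm
  have hγn : (γ : k) ^ n ≠ 1 := by
    intro h1
    have h2 : γ ^ n = 1 := Units.ext (by rw [Units.val_pow_eq_pow_val, h1, Units.val_one])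
    have h3 : orderOf γ ∣ n := orderOf_dvd_of_pow_eq_one h2
    rw [orderOf_eq_card_of_forall_mem_zpowers hγ, Nat.card_eq_fintype_card, Fintype.card_units,
      hn] at h3
    have h4 := Nat.le_of_dvd hnpos h3
    have h5 : 2 * n ≤ p * n := Nat.mul_le_mul_right n hp.two_le
    omega
  have hζj1 : ζ ^ j ≠ 1 := by
    intro h1
    apply hγn
    rw [← hj, ← map_pow, h1, map_one]
  refine ⟨n, χ, hn.symm, hnpos, ?_, ?_, γ, ?_, ?_⟩
  · intro x
    by_cases hx : x = 0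
    · subst hx
      rw [MulChar.map_zero, map_zero, zero_pow hnpos.ne']
    · obtain ⟨i, rfl⟩ := hrep x hx
      rw [map_pow χ, hχγ, map_pow, map_pow, hj, ← pow_mul, ← pow_mul, mul_comm]
  · intro x hx
    obtain ⟨i, rfl⟩ := hrep x hx
    rw [map_pow χ, hχγ, ← pow_mul, mul_comm, pow_mul, hζjp, one_pow]
  · rw [hχγ]
    exact hζj1
  · intro hp2
    rw [hχγ]
    intro h2
    apply hζj1
    obtain ⟨m, hm⟩ := hp.odd_of_ne_two hp2
    have h3 : (ζ ^ j) ^ p = ((ζ ^ j) ^ 2) ^ m * ζ ^ j := by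
      rw [hm, pow_succ, pow_mul]
    rw [hζjp, h2, one_pow, one_mul] at h3
    exact h3.symm

/-- The twisted Jacobi-type sum `∑ x, χ(x)^e χ(1-x)^e`. -/
noncomputable def ysum [Fintype k] (χ : MulChar k A) (e : ℕ) : A := ∑ x : k, χ x ^ e * χ (1 - x) ^ e

theorem map_ysum [Fintype k] (π : A →+* k) {n : ℕ} (χ : MulChar k A) (hχ : ∀ x : k, π (χ x) = x ^ n)
    (e : ℕ) : π (ysum χ e) = ∑ x : k, x ^ (n * e) * (1 - x) ^ (n * e) := by
  unfold ysum
  rw [map_sum]
  refine Finset.sum_congr rfl fun x _ => ?_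
  rw [map_mul, map_pow, map_pow, hχ, hχ, ← pow_mul, ← pow_mul]

/-- The vanishing of the twisted sums modulo the prime. -/
theorem map_ysum_eq_zero [Fintype k] (π : A →+* k) {p n : ℕ} (hn : p * n = Fintype.card k - 1)
    (hnpos : 0 < n) (χ : MulChar k A) (hχ : ∀ x : k, π (χ x) = x ^ n)
    (e b t : ℕ) (he : e = b + p * t) (hb : 0 < b) (hb2 : 2 * b < p) :
    π (ysum χ e) = 0 := by
  rw [map_ysum π χ hχ]
  have h1 : ∀ x : k, x ^ (n * e) = x ^ (n * b) := by
    intro x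
    by_cases hx : x = 0
    · subst hx
      rw [zero_pow, zero_pow]
      · exact (Nat.mul_pos hnpos hb).ne'
      · rw [he]
        have : 0 < n * (b + p * t) := Nat.mul_pos hnpos (by omega)
        exact this.ne'
    · have h2 : n * e = n * b + (Fintype.card k - 1) * t := by
        rw [he, ← hn]
        ring
      rw [h2, pow_add, pow_mul x (Fintype.card k - 1), FiniteField.pow_card_sub_one_eq_one x hx,
        one_pow, mul_one]
  have h3 : ∀ x : k, x ^ (n * e) * (1 - x) ^ (n * e) = x ^ (n * b) * (1 - x) ^ (n * b) := by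
    intro x
    rw [h1 x, h1 (1 - x)]
  simp_rw [h3]
  apply sum_pow_mul_one_sub_pow
  rw [← hn]
  have : 2 * (n * b) = n * (2 * b) := by ring
  rw [this, mul_comm p n]
  exact Nat.mul_lt_mul_of_pos_left hb2 hnpos

theorem jacobiSum_eq_ysum [Fintype k] (χ : MulChar k A) : jacobiSum χ χ = ysum χ 1 := by
  unfold jacobiSum ysum
  simp

theorem inv_eq_pow (χ : MulChar k A) {p : ℕ} (hp : 2 ≤ p) (hχ : ∀ x : k, x ≠ 0 → χ x ^ p = 1) :
    χ⁻¹ = χ ^ (p - 1) := by
  have h1 : χ ^ p = 1 := by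
    refine MulChar.ext fun u => ?_
    rw [MulChar.pow_apply_coe, MulChar.one_apply_coe]
    exact hχ u u.ne_zero
  have h2 : χ * χ ^ (p - 1) = 1 := by
    rw [← pow_succ', Nat.sub_add_cancel (by omega), h1]
  exact inv_eq_of_mul_eq_one_right h2

theorem jacobiSum_inv_eq_ysum [Fintype k] (χ : MulChar k A) {p : ℕ} (hp : 2 ≤ p)
    (hχ : ∀ x : k, x ≠ 0 → χ x ^ p = 1) : jacobiSum χ⁻¹ χ⁻¹ = ysum χ (p - 1) := by
  rw [inv_eq_pow χ hp hχ]
  unfold jacobiSum ysum
  refine Finset.sum_congr rfl fun x _ => ?_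
  rw [MulChar.pow_apply' χ (by omega), MulChar.pow_apply' χ (by omega)]

end Abstract

section NumberField

variable (p : ℕ) [Fact p.Prime] (K : Type*) [Field K] [NumberField K]
  [IsCyclotomicExtension {p} ℚ K]

/-- **Residue-field half of the Jacobi-sum factorisation.** -/
theorem exists_jacobi_elt (hp2 : p ≠ 2) (v : HeightOneSpectrum (𝓞 K)) (q : ℕ) (hq : q.Prime)
    (hqp : q ≠ p) (hv : Ideal.absNorm v.asIdeal = q) :
    ∃ J J' : 𝓞 K, J * J' = (q : 𝓞 K) ∧
      (∀ (g : K ≃ₐ[ℚ] K) (a : ℕ), 0 < a → 2 * a < p → (∀ ζ : K, ζ ^ p = 1 → g ζ = ζ ^ a) →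
        ∃ y ∈ v.asIdeal, g (J : K) = (y : K)) ∧
      (∀ (g : K ≃ₐ[ℚ] K) (a : ℕ), p < 2 * a → a < p → (∀ ζ : K, ζ ^ p = 1 → g ζ = ζ ^ a) →
        ∃ y ∈ v.asIdeal, g (J' : K) = (y : K)) := by
  classical
  have hp : p.Prime := Fact.out
  have : v.asIdeal.IsMaximal := v.isMaximal
  let _ : Field (𝓞 K ⧸ v.asIdeal) := Ideal.Quotient.field v.asIdeal
  have : Finite (𝓞 K ⧸ v.asIdeal) := Ideal.finiteQuotientOfFreeOfNeBot v.asIdeal v.ne_bot
  let _ : Fintype (𝓞 K ⧸ v.asIdeal) := Fintype.ofFinite _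
  set π : 𝓞 K →+* (𝓞 K ⧸ v.asIdeal) := Ideal.Quotient.mk v.asIdeal with hπ
  have hcard : Fintype.card (𝓞 K ⧸ v.asIdeal) = q := by
    rw [← Nat.card_eq_fintype_card, ← hv, Ideal.absNorm_apply, Submodule.cardQuot_apply]
  obtain ⟨ζK, hζK⟩ := IsCyclotomicExtension.exists_isPrimitiveRoot ℚ K (Set.mem_singleton p)
    hp.ne_zero
  set ζ : 𝓞 K := hζK.toInteger with hζdef
  have hζ : ζ ^ p = 1 := hζK.toInteger_isPrimitiveRoot.pow_eq_one
  have hqk : ((q : ℕ) : 𝓞 K ⧸ v.asIdeal) = 0 := by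
    rw [← hcard]
    exact Nat.cast_card_eq_zero _
  have hζ1 : π ζ ≠ 1 := by
    intro h1
    have h2 : ζ - 1 ∈ v.asIdeal := by
      rw [← Ideal.Quotient.eq_zero_iff_mem, map_sub, map_one]
      exact sub_eq_zero.mpr h1
    have h3 : ((p : ℕ) : 𝓞 K) ∈ v.asIdeal :=
      Ideal.mem_of_dvd _ hζK.toInteger_sub_one_dvd_prime' h2
    have h4 : ((p : ℕ) : 𝓞 K ⧸ v.asIdeal) = 0 := by
      have := Ideal.Quotient.eq_zero_iff_mem.mpr h3
      simpa using this
    have hcop : IsCoprime (q : ℤ) (p : ℤ) :=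
      Nat.isCoprime_iff_coprime.mpr ((Nat.coprime_primes hq hp).mpr hqp)
    obtain ⟨a, b, hab⟩ := hcop
    have h5 := congrArg (Int.cast : ℤ → 𝓞 K ⧸ v.asIdeal) hab
    push_cast at h5
    rw [hqk, h4, mul_zero, mul_zero, add_zero] at h5
    exact zero_ne_one h5
  obtain ⟨n, χ, hn, hnpos, hχ1, hχ2, u, hu1, hu2⟩ := exists_mulChar π p ζ hζ hζ1
  have hgχ : ∀ (g : K ≃ₐ[ℚ] K) (a : ℕ), 0 < a → (∀ ζ : K, ζ ^ p = 1 → g ζ = ζ ^ a) →
      ∀ x : 𝓞 K ⧸ v.asIdeal, g (algebraMap (𝓞 K) K (χ x)) = algebraMap (𝓞 K) K (χ x) ^ a := by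
    intro g a ha hg x
    by_cases hx : x = 0
    · subst hx
      rw [MulChar.map_zero, map_zero, map_zero, zero_pow ha.ne']
    · apply hg
      rw [← map_pow, hχ2 x hx, map_one]
  have hgy : ∀ (g : K ≃ₐ[ℚ] K) (a : ℕ), 0 < a → (∀ ζ : K, ζ ^ p = 1 → g ζ = ζ ^ a) →
      ∀ e : ℕ, g (algebraMap (𝓞 K) K (ysum χ e)) = algebraMap (𝓞 K) K (ysum χ (e * a)) := by
    intro g a ha hg e
    unfold ysum
    rw [map_sum, map_sum, map_sum]
    refine Finset.sum_congr rfl fun x _ => ?_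
    rw [map_mul, map_mul, map_pow, map_pow, map_mul, map_pow, map_pow, hgχ g a ha hg x,
      hgχ g a ha hg (1 - x), ← pow_mul, ← pow_mul, mul_comm a e, map_pow, map_pow]
  refine ⟨jacobiSum χ χ, jacobiSum χ⁻¹ χ⁻¹, ?_, ?_, ?_⟩
  · have hf : Function.Injective (algebraMap (𝓞 K) K) := RingOfIntegers.coe_injective
    apply hf
    have hχne : χ.ringHomComp (algebraMap (𝓞 K) K) ≠ 1 := by
      rw [MulChar.ringHomComp_ne_one_iff hf]
      intro h
      apply hu1
      rw [h, MulChar.one_apply_coe]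
    have hχχne : χ.ringHomComp (algebraMap (𝓞 K) K) * χ.ringHomComp (algebraMap (𝓞 K) K) ≠ 1 := by
      rw [← MulChar.ringHomComp_mul, MulChar.ringHomComp_ne_one_iff hf]
      intro h
      apply hu2 hp2
      have h6 := congrArg (fun ψ : MulChar (𝓞 K ⧸ v.asIdeal) (𝓞 K) => ψ (u : 𝓞 K ⧸ v.asIdeal)) h
      simp only [MulChar.mul_apply, MulChar.one_apply_coe] at h6
      rw [pow_two]
      exact h6
    have hchar : ringChar K ≠ ringChar (𝓞 K ⧸ v.asIdeal) := by
      rw [ringChar.eq_zero]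
      intro h0
      have h7 := (ringChar.spec (𝓞 K ⧸ v.asIdeal) q).mp hqk
      rw [← h0] at h7
      exact hq.ne_zero (zero_dvd_iff.mp h7)
    have key := jacobiSum_mul_jacobiSum_inv hchar hχne hχne hχχne
    rw [MulChar.ringHomComp_inv, jacobiSum_ringHomComp, jacobiSum_ringHomComp, hcard] at key
    rw [map_mul, key, map_natCast]
  · intro g a ha ha2 hg
    refine ⟨ysum χ (1 * a), ?_, ?_⟩
    · rw [← Ideal.Quotient.eq_zero_iff_mem]
      exact map_ysum_eq_zero π hn hnpos χ hχ1 (1 * a) a 0 (by ring) ha ha2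
    · rw [jacobiSum_eq_ysum]
      exact hgy g a ha hg 1
  · intro g a ha2 hap hg
    have ha : 0 < a := by omega
    refine ⟨ysum χ ((p - 1) * a), ?_, ?_⟩
    · rw [← Ideal.Quotient.eq_zero_iff_mem]
      refine map_ysum_eq_zero π hn hnpos χ hχ1 ((p - 1) * a) (p - a) (a - 1) ?_ (by omega)
        (by omega)
      obtain ⟨a', rfl⟩ : ∃ a', a = a' + 1 := ⟨a - 1, by omega⟩
      obtain ⟨p', rfl⟩ : ∃ p', p = p' + 1 + (a' + 1) := ⟨p - 1 - (a' + 1), by omega⟩
      have e1 : p' + 1 + (a' + 1) - 1 = p' + 1 + a' := by omega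
      have e2 : p' + 1 + (a' + 1) - (a' + 1) = p' + 1 := by omega
      have e3 : a' + 1 - 1 = a' := by omega
      rw [e1, e2, e3]
      ring
    · rw [jacobiSum_inv_eq_ysum χ hp.two_le hχ2]
      exact hgy g a ha hg (p - 1)

end NumberField

end Fermat.Agent.S14.JacobiRes
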