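import Fermat.Agent.S14.NFNormFin
import Fermat.Agent.S14.Ineq
import Fermat.Agent.S14.FIDecomp

/-!
# S14 / NFNorm : the Hasse norm theorem for unramified cyclic extensions of odd prime degree

`hasse_norm` (skeleton statement): for `E/F` Galois of odd prime degree `p`, unramified
everywhere, an element `b ≠ 0` of `F` whose valuation is divisible by `p` at every non-split
prime of `E` is a norm from `E`.

Inputs: `NFNormFin.hasse_norm_of_first` (the algebraic norm-index theorem) and the analytic
first inequality `Ineq.index_le_finrank`, adapted by `FI.decomposition_trivial_of_absNorm_eq`.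
-/

set_option autoImplicit false

namespace Fermat.Agent.S14

open NumberField IsDedekindDomain
open scoped nonZeroDivisors Pointwise

namespace NFNorm

/-- the first inequality in the shape needed by `NFNormFin.hasse_norm_of_first` -/
theorem index_le (p : ℕ) (F E : Type*) [Field F] [NumberField F] [Field E] [NumberField E]
    [Algebra F E] [IsGalois F E]
    (hdeg : Module.finrank F E = p) (hunr : UnramifiedEverywhere F E)
    (H : Subgroup (ClassGroup (𝓞 F)))
    (hH : ∀ v : HeightOneSpectrum (𝓞 F),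
      (∀ w : HeightOneSpectrum (𝓞 E), w.asIdeal.comap (algebraMap (𝓞 F) (𝓞 E)) = v.asIdeal →
        ∀ σ : E ≃ₐ[F] E, σ • w.asIdeal = w.asIdeal → σ = 1) →
      ClassGroup.mk0 ⟨v.asIdeal, mem_nonZeroDivisors_of_ne_zero v.ne_bot⟩ ∈ H) :
    H.index ≤ p := by
  rw [← hdeg]
  refine Ineq.index_le_finrank (F := F) (E := E) H ?_
  intro q P hP hP0 hPq hN
  have hq0 : (q : Ideal (𝓞 F)) ≠ ⊥ := nonZeroDivisors.coe_ne_zero q
  have hqP : (q : Ideal (𝓞 F)).IsPrime := by
    rw [← hPq]
    exact Ideal.comap_isPrime _ _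
  have h := hH ⟨q, hqP, hq0⟩
    (FI.decomposition_trivial_of_absNorm_eq F E hunr ⟨q, hqP, hq0⟩ ⟨P, hP, hP0⟩ hPq hN)
  exact h

end NFNorm

/-- **Hasse norm theorem** for an everywhere unramified Galois extension of odd prime degree. -/
theorem hasse_norm (p : ℕ) [Fact p.Prime] (hp2 : p ≠ 2)
    (F E : Type*) [Field F] [NumberField F] [Field E] [NumberField E] [Algebra F E] [IsGalois F E]
    (hdeg : Module.finrank F E = p) (hunr : UnramifiedEverywhere F E)
    (b : F) (hb : b ≠ 0)
    (hloc : ∀ v : HeightOneSpectrum (𝓞 E), (∃ σ : E ≃ₐ[F] E, σ ≠ 1 ∧ σ • v.asIdeal = v.asIdeal) →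
      (p : ℤ) ∣ ord v (algebraMap F E b)) :
    ∃ γ : E, Algebra.norm F γ = b :=
  NFNormFin.hasse_norm_of_first p F E hp2 hdeg hunr
    (fun H hH => NFNorm.index_le p F E hdeg hunr H hH) b hb hloc

end Fermat.Agent.S14
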