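import Mathlib

/-!
# Permutation-module algebra for the norm-index package (S14 / NFNorm)

`X` is a set (the primes of `E`), `s : Equiv.Perm X` a permutation with `s ^ p = 1`
(`p` prime).  `tau s` is the induced endomorphism of the divisor group `X →₀ ℤ`.

* `h1_vanish`  : `ker N = range (τ - 1)`  (`Ĥ⁻¹ = 0`),
* `exists_norm_decomp`, `mem_range_norm_of_dvd`, `ker_le_range_norm_of_free` :
  description of `ker (τ - 1)` modulo `range N`,
* `norm_single*` : the norm of a point,
* `pullback` : pull-back of divisors along an orbit map `π : X → Y`.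
-/

set_option autoImplicit false

namespace Fermat.Agent.S14.NFNormAlg

open Finset

variable {X : Type*}

theorem end_add_apply {M : Type*} [AddCommGroup M] (f g : AddMonoid.End M) (m : M) :
    (f + g) m = f m + g m := rfl

theorem end_sub_apply {M : Type*} [AddCommGroup M] (f g : AddMonoid.End M) (m : M) :
    (f - g) m = f m - g m := rfl

theorem end_mul_apply {M : Type*} [AddCommGroup M] (f g : AddMonoid.End M) (m : M) :
    (f * g) m = f (g m) := rfl

theorem end_one_apply {M : Type*} [AddCommGroup M] (m : M) :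
    (1 : AddMonoid.End M) m = m := rfl

theorem end_zero_apply {M : Type*} [AddCommGroup M] (m : M) :
    (0 : AddMonoid.End M) m = 0 := rfl

/-- the endomorphism of `X →₀ ℤ` induced by a permutation of `X` -/
noncomputable def tau (s : Equiv.Perm X) : AddMonoid.End (X →₀ ℤ) :=
  Finsupp.mapDomain.addMonoidHom (s : X → X)

theorem tau_apply (s : Equiv.Perm X) (d : X →₀ ℤ) (x : X) : tau s d x = d (s.symm x) :=
  Finsupp.mapDomain_equiv_apply (f := s) d x

theorem tau_apply_apply (s : Equiv.Perm X) (d : X →₀ ℤ) (x : X) : tau s d (s x) = d x := by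
  simp [tau_apply]

theorem tau_single (s : Equiv.Perm X) (x : X) (n : ℤ) :
    tau s (Finsupp.single x n) = Finsupp.single (s x) n :=
  Finsupp.mapDomain_single

theorem tau_one : tau (1 : Equiv.Perm X) = 1 := by
  ext d x
  rw [tau_apply]
  rfl

theorem tau_mul (s t : Equiv.Perm X) : tau (s * t) = tau s * tau t := by
  ext d x
  rw [end_mul_apply, tau_apply, tau_apply, tau_apply]
  rfl

theorem tau_pow (s : Equiv.Perm X) (i : ℕ) : tau s ^ i = tau (s ^ i) := by
  induction i with
  | zero => simp [tau_one]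
  | succ i ih => rw [pow_succ, pow_succ, ih, tau_mul]

theorem tau_pow_p {s : Equiv.Perm X} {p : ℕ} (hs : s ^ p = 1) : tau s ^ p = 1 := by
  rw [tau_pow, hs, tau_one]

theorem sum_apply (s : Equiv.Perm X) (n : ℕ) (d : X →₀ ℤ) :
    (∑ i ∈ range n, tau s ^ i) d = ∑ i ∈ range n, tau (s ^ i) d := by
  induction n with
  | zero => simp
  | succ n ih =>
    rw [Finset.sum_range_succ, Finset.sum_range_succ, end_add_apply, ih, tau_pow]

theorem norm_apply (s : Equiv.Perm X) (n : ℕ) (d : X →₀ ℤ) (x : X) :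
    ((∑ i ∈ range n, tau s ^ i) d) x = ∑ i ∈ range n, d ((s ^ i).symm x) := by
  rw [sum_apply, Finsupp.finsetSum_apply]
  exact Finset.sum_congr rfl fun i _ => tau_apply _ _ _

theorem norm_single (s : Equiv.Perm X) (n : ℕ) (x : X) (c : ℤ) :
    (∑ i ∈ range n, tau s ^ i) (Finsupp.single x c) =
      ∑ i ∈ range n, Finsupp.single ((s ^ i) x) c := by
  rw [sum_apply]
  exact Finset.sum_congr rfl fun i _ => tau_single _ _ _

/-- `N ∘ (τ - 1) = 0` -/
theorem norm_sub {s : Equiv.Perm X} {p : ℕ} (hs : s ^ p = 1) (y : X →₀ ℤ) :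
    (∑ i ∈ range p, tau s ^ i) (tau s y - y) = 0 := by
  have h := geom_sum_mul (tau s) p
  rw [tau_pow_p hs, sub_self] at h
  have h2 := congrArg (fun f : AddMonoid.End (X →₀ ℤ) => f y) h
  simpa only [end_mul_apply, end_sub_apply, end_one_apply, end_zero_apply] using h2

/-- `(τ - 1) ∘ N = 0` -/
theorem tau_norm {s : Equiv.Perm X} {p : ℕ} (hs : s ^ p = 1) (y : X →₀ ℤ) :
    tau s ((∑ i ∈ range p, tau s ^ i) y) = (∑ i ∈ range p, tau s ^ i) y := by
  have h := mul_geom_sum (tau s) p
  rw [tau_pow_p hs, sub_self] at h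
  have h2 := congrArg (fun f : AddMonoid.End (X →₀ ℤ) => f y) h
  simp only [end_mul_apply, end_sub_apply, end_one_apply, end_zero_apply] at h2
  exact sub_eq_zero.1 h2

/-! ### orbit representatives -/

/-- a chosen representative of the `s`-orbit of `x` -/
noncomputable def rep (s : Equiv.Perm X) (x : X) : X :=
  Quotient.out (Quotient.mk (Equiv.Perm.SameCycle.setoid s) x)

theorem rep_sameCycle (s : Equiv.Perm X) (x : X) : s.SameCycle (rep s x) x :=
  Quotient.mk_out (s := Equiv.Perm.SameCycle.setoid s) x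

theorem rep_eq_of_sameCycle (s : Equiv.Perm X) {x y : X} (h : s.SameCycle x y) :
    rep s x = rep s y := by
  unfold rep
  exact congrArg Quotient.out (Quotient.sound (s := Equiv.Perm.SameCycle.setoid s) h)

theorem rep_rep (s : Equiv.Perm X) (x : X) : rep s (rep s x) = rep s x :=
  rep_eq_of_sameCycle s (rep_sameCycle s x)

theorem rep_pow_apply (s : Equiv.Perm X) (i : ℕ) (x : X) : rep s ((s ^ i) x) = rep s x :=
  rep_eq_of_sameCycle s ⟨-(i : ℤ), by simp⟩

theorem rep_pow_symm_apply (s : Equiv.Perm X) (i : ℕ) (x : X) :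
    rep s ((s ^ i).symm x) = rep s x := by
  conv_rhs => rw [← (s ^ i).apply_symm_apply x]
  exact (rep_pow_apply s i _).symm

theorem zpow_eq_pow {G : Type*} [Group G] {g : G} {p : ℕ} (hp : 0 < p) (hg : g ^ p = 1) (i : ℤ) :
    ∃ k < p, g ^ i = g ^ k := by
  have hp' : (0 : ℤ) < p := by exact_mod_cast hp
  refine ⟨(i % p).toNat, ?_, ?_⟩
  · have := Int.emod_lt_of_pos i hp'
    omega
  · have h1 : i = ((i % p).toNat : ℤ) + p * (i / p) := by
      rw [Int.toNat_of_nonneg (Int.emod_nonneg i hp'.ne')]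
      exact (Int.emod_add_mul_ediv i p).symm
    conv_lhs => rw [h1]
    rw [zpow_add, zpow_mul, zpow_natCast, zpow_natCast, hg, one_zpow, mul_one]

theorem exists_pow_rep {s : Equiv.Perm X} {p : ℕ} (hp : 0 < p) (hs : s ^ p = 1) (x : X) :
    ∃ k < p, (s ^ k) (rep s x) = x := by
  obtain ⟨i, hi⟩ := rep_sameCycle s x
  obtain ⟨k, hk, hik⟩ := zpow_eq_pow hp hs i
  exact ⟨k, hk, by rw [← hik]; exact hi⟩

/-- every divisor is congruent modulo `range (τ - 1)` to one supported on the representatives -/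
theorem exists_reduce {s : Equiv.Perm X} {p : ℕ} (hp : 0 < p) (hs : s ^ p = 1) (d : X →₀ ℤ) :
    ∃ y : X →₀ ℤ, ∀ x, rep s x ≠ x → (d - (tau s y - y)) x = 0 := by
  classical
  induction d using Finsupp.induction_linear with
  | zero => exact ⟨0, fun x _ => by simp⟩
  | add d₁ d₂ h₁ h₂ =>
    obtain ⟨y₁, hy₁⟩ := h₁
    obtain ⟨y₂, hy₂⟩ := h₂
    refine ⟨y₁ + y₂, fun x hx => ?_⟩
    have e : d₁ + d₂ - (tau s (y₁ + y₂) - (y₁ + y₂)) =
        (d₁ - (tau s y₁ - y₁)) + (d₂ - (tau s y₂ - y₂)) := by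
      rw [map_add]; abel
    rw [e, Finsupp.add_apply, hy₁ x hx, hy₂ x hx, add_zero]
  | single x n =>
    obtain ⟨k, -, hk⟩ := exists_pow_rep hp hs x
    refine ⟨(∑ j ∈ range k, tau s ^ j) (Finsupp.single (rep s x) n), fun x' hx' => ?_⟩
    have h := mul_geom_sum (tau s) k
    have h2 := congrArg (fun f : AddMonoid.End (X →₀ ℤ) => f (Finsupp.single (rep s x) n)) h
    simp only [end_mul_apply, end_sub_apply, end_one_apply] at h2
    rw [h2, tau_pow, tau_single, hk, sub_sub_cancel, Finsupp.single_apply, if_neg]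
    rintro rfl
    exact hx' (rep_rep s x)

/-- `Ĥ⁻¹` of a permutation module vanishes: `ker N = range (τ - 1)`.
This is hypothesis `hD` of `herbrand_main` for `τD := tau s`. -/
theorem h1_vanish {s : Equiv.Perm X} {p : ℕ} (hp : 0 < p) (hs : s ^ p = 1) (d : X →₀ ℤ)
    (hd : (∑ i ∈ range p, tau s ^ i) d = 0) : ∃ y, d = tau s y - y := by
  classical
  obtain ⟨y, hy⟩ := exists_reduce hp hs d
  refine ⟨y, ?_⟩
  have hN : (∑ i ∈ range p, tau s ^ i) (d - (tau s y - y)) = 0 := by
    rw [map_sub, hd, norm_sub hs, sub_zero]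
  suffices h0 : d - (tau s y - y) = 0 from sub_eq_zero.1 h0
  ext x
  rw [Finsupp.zero_apply]
  by_cases hx : rep s x = x
  · have h1 := congrArg (fun f : X →₀ ℤ => f x) hN
    simp only [norm_apply, Finsupp.zero_apply] at h1
    have h2 : ∀ i ∈ range p, (d - (tau s y - y)) ((s ^ i).symm x) =
        if (s ^ i).symm x = x then (d - (tau s y - y)) x else 0 := by
      intro i _
      split_ifs with h
      · rw [h]
      · refine hy _ fun h' => h ?_
        rw [← h', rep_pow_symm_apply, hx]
    rw [Finset.sum_congr rfl h2, Finset.sum_ite, Finset.sum_const_zero, add_zero,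
      Finset.sum_const, nsmul_eq_mul] at h1
    rcases mul_eq_zero.1 h1 with h3 | h3
    · exfalso
      have hmem : (0 : ℕ) ∈ (range p).filter fun i => (s ^ i).symm x = x := by
        rw [Finset.mem_filter, Finset.mem_range, pow_zero]
        exact ⟨hp, rfl⟩
      have := Finset.card_pos.2 ⟨0, hmem⟩
      simp only [Nat.cast_eq_zero] at h3
      omega
    · exact h3
  · exact hy x hx

/-! ### free orbits -/

theorem pow_apply_ne {s : Equiv.Perm X} {p : ℕ} [Fact p.Prime] (hs : s ^ p = 1) {x : X}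
    (hx : s x ≠ x) {m : ℕ} (hm0 : 0 < m) (hmp : m < p) : (s ^ m) x ≠ x := by
  intro h
  have hp : p.Prime := Fact.out
  have hcop : Nat.Coprime m p := (Nat.coprime_of_lt_prime hm0.ne' hmp hp).symm
  obtain ⟨a, -, ha⟩ := Nat.exists_mul_mod_eq_one_of_coprime hcop hp.one_lt
  have h1 : (s ^ (m * a)) x = x := by
    rw [pow_mul]
    exact Equiv.Perm.pow_apply_eq_self_of_apply_eq_self h a
  rw [pow_eq_pow_mod (m * a) hs, ha, pow_one] at h1
  exact hx h1

/-- on a free orbit the `p` points `s ^ i x`, `i < p`, are distinct -/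
theorem pow_apply_inj {s : Equiv.Perm X} {p : ℕ} [Fact p.Prime] (hs : s ^ p = 1) {x : X}
    (hx : s x ≠ x) {i j : ℕ} (hi : i < p) (hj : j < p) (h : (s ^ i) x = (s ^ j) x) : i = j := by
  wlog hij : i ≤ j generalizing i j
  · exact (this hj hi h.symm (le_of_not_ge hij)).symm
  by_contra hne
  have hlt : i < j := lt_of_le_of_ne hij hne
  refine pow_apply_ne hs hx (m := j - i) (by omega) (by omega) ?_
  have h2 : (s ^ i) ((s ^ (j - i)) x) = (s ^ i) x := by
    rw [← Equiv.Perm.mul_apply, ← pow_add, Nat.add_sub_cancel' hij, h]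
  exact (s ^ i).injective h2

theorem fixed_iff_of_commute {s t : Equiv.Perm X} (h : Commute s t) (x : X) :
    s (t x) = t x ↔ s x = x := by
  have e : s (t x) = t (s x) := by
    rw [← Equiv.Perm.mul_apply, h.eq, Equiv.Perm.mul_apply]
  rw [e]
  exact t.injective.eq_iff

theorem fixed_pow_iff (s : Equiv.Perm X) (i : ℕ) (x : X) :
    s ((s ^ i) x) = (s ^ i) x ↔ s x = x :=
  fixed_iff_of_commute (Commute.self_pow s i) x

theorem fixed_pow_symm_iff (s : Equiv.Perm X) (i : ℕ) (x : X) :
    s ((s ^ i).symm x) = (s ^ i).symm x ↔ s x = x := by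
  conv_rhs => rw [← (s ^ i).apply_symm_apply x]
  exact (fixed_pow_iff s i _).symm

theorem pow_symm_apply_of_fixed {s : Equiv.Perm X} {x : X} (hx : s x = x) (i : ℕ) :
    (s ^ i).symm x = x := by
  rw [Equiv.symm_apply_eq]
  exact (Equiv.Perm.pow_apply_eq_self_of_apply_eq_self hx i).symm

/-- an invariant divisor is constant along orbits -/
theorem apply_pow_symm_of_invariant {s : Equiv.Perm X} {d : X →₀ ℤ} (hd : tau s d = d) (i : ℕ)
    (x : X) : d ((s ^ i).symm x) = d x := by
  have h : tau (s ^ i) d = d := by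
    rw [← tau_pow]
    induction i with
    | zero => rfl
    | succ i ih => rw [pow_succ, end_mul_apply, hd, ih]
  conv_rhs => rw [← h]
  exact (tau_apply _ _ _).symm

theorem apply_pow_of_invariant {s : Equiv.Perm X} {d : X →₀ ℤ} (hd : tau s d = d) (i : ℕ)
    (x : X) : d ((s ^ i) x) = d x := by
  have h := apply_pow_symm_of_invariant hd i ((s ^ i) x)
  rw [Equiv.symm_apply_apply] at h
  exact h.symm

theorem norm_apply_of_fixed (s : Equiv.Perm X) (n : ℕ) (d : X →₀ ℤ) {x : X} (hx : s x = x) :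
    ((∑ i ∈ range n, tau s ^ i) d) x = n * d x := by
  rw [norm_apply]
  rw [Finset.sum_congr rfl fun i _ => by rw [pow_symm_apply_of_fixed hx i]]
  rw [Finset.sum_const, Finset.card_range, nsmul_eq_mul]

/-- an invariant divisor is a norm away from the fixed points -/
theorem exists_norm_decomp {s : Equiv.Perm X} {p : ℕ} [Fact p.Prime] (hs : s ^ p = 1)
    (d : X →₀ ℤ) (hd : tau s d = d) :
    ∃ e : X →₀ ℤ, (∀ x, s x = x → e x = 0) ∧
      ∀ x, s x ≠ x → ((∑ i ∈ range p, tau s ^ i) e) x = d x := by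
  classical
  have hp : p.Prime := Fact.out
  refine ⟨d.filter fun x => rep s x = x ∧ s x ≠ x, fun x hx => ?_, fun x hx => ?_⟩
  · rw [Finsupp.filter_apply, if_neg]
    exact fun h => h.2 hx
  · rw [norm_apply]
    obtain ⟨k, hk, hkx⟩ := exists_pow_rep hp.pos hs x
    have hrep : s (rep s x) ≠ rep s x := by
      intro h
      apply hx
      rw [← hkx]
      exact (fixed_pow_iff s k _).2 h
    have h2 : ∀ i ∈ range p, (d.filter fun x => rep s x = x ∧ s x ≠ x) ((s ^ i).symm x) =
        if i = k then d x else 0 := by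
      intro i hi
      rw [Finsupp.filter_apply, rep_pow_symm_apply, apply_pow_symm_of_invariant hd]
      by_cases hik : i = k
      · rw [if_pos hik, if_pos]
        refine ⟨?_, fun h => hx ((fixed_pow_symm_iff s i x).1 h)⟩
        rw [hik, eq_comm, Equiv.symm_apply_eq]
        exact hkx.symm
      · rw [if_neg hik, if_neg]
        rintro ⟨h1, -⟩
        apply hik
        refine pow_apply_inj hs hrep (Finset.mem_range.1 hi) hk ?_
        rw [hkx, h1, Equiv.apply_symm_apply]
    rw [Finset.sum_congr rfl h2, Finset.sum_ite_eq' (range p) k, if_pos (Finset.mem_range.2 hk)]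

/-- an invariant divisor whose values at the fixed points are divisible by `p` is a norm -/
theorem mem_range_norm_of_dvd {s : Equiv.Perm X} {p : ℕ} [Fact p.Prime] (hs : s ^ p = 1)
    (d : X →₀ ℤ) (hd : tau s d = d) (hdvd : ∀ x, s x = x → (p : ℤ) ∣ d x) :
    ∃ e : X →₀ ℤ, d = (∑ i ∈ range p, tau s ^ i) e := by
  classical
  obtain ⟨e₁, he₁, he₁'⟩ := exists_norm_decomp hs d hd
  refine ⟨e₁ + (d.mapRange (· / (p : ℤ)) (Int.zero_ediv _)).filter fun x => s x = x, ?_⟩
  ext x
  rw [map_add, Finsupp.add_apply]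
  by_cases hx : s x = x
  · rw [norm_apply_of_fixed s p _ hx, norm_apply_of_fixed s p _ hx, he₁ x hx, mul_zero, zero_add,
      Finsupp.filter_apply, if_pos hx, Finsupp.mapRange_apply]
    exact (Int.mul_ediv_cancel' (hdvd x hx)).symm
  · rw [he₁' x hx, norm_apply, Finset.sum_eq_zero, add_zero]
    intro i _
    rw [Finsupp.filter_apply, if_neg]
    exact fun h => hx ((fixed_pow_symm_iff s i x).1 h)

/-- if `s` has no fixed point, every invariant divisor is a norm -/
theorem ker_le_range_norm_of_free {s : Equiv.Perm X} {p : ℕ} [Fact p.Prime] (hs : s ^ p = 1)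
    (hfree : ∀ x, s x ≠ x) :
    AddMonoidHom.ker (tau s - 1) ≤ AddMonoidHom.range (∑ i ∈ range p, tau s ^ i) := by
  intro d hd
  have hd' : tau s d - d = 0 := AddMonoidHom.mem_ker.1 hd
  obtain ⟨e, he⟩ := mem_range_norm_of_dvd hs d (sub_eq_zero.1 hd')
    fun x hx => absurd hx (hfree x)
  exact ⟨e, he.symm⟩

theorem mem_ker_sub_one_iff (s : Equiv.Perm X) (d : X →₀ ℤ) :
    d ∈ AddMonoidHom.ker (tau s - 1) ↔ tau s d = d := by
  rw [AddMonoidHom.mem_ker]
  exact (sub_eq_zero : tau s d - d = 0 ↔ tau s d = d)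

/-! ### the norm of a point -/

theorem norm_single_of_fixed (s : Equiv.Perm X) (n : ℕ) {x : X} (hx : s x = x) (c : ℤ) :
    (∑ i ∈ range n, tau s ^ i) (Finsupp.single x c) = Finsupp.single x (n * c) := by
  rw [norm_single]
  rw [Finset.sum_congr rfl fun i _ => by
    rw [Equiv.Perm.pow_apply_eq_self_of_apply_eq_self hx i]]
  rw [Finset.sum_const, Finset.card_range, Finsupp.smul_single, nsmul_eq_mul]

open Classical in
theorem norm_single_apply_of_free {s : Equiv.Perm X} {p : ℕ} [Fact p.Prime] (hs : s ^ p = 1)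
    {x : X} (hx : s x ≠ x) (c : ℤ) (y : X) :
    ((∑ i ∈ range p, tau s ^ i) (Finsupp.single x c)) y =
      if ∃ i : ℤ, (s ^ i) x = y then c else 0 := by
  have hp : p.Prime := Fact.out
  rw [norm_single, Finsupp.finsetSum_apply]
  split_ifs with h
  · obtain ⟨i, hi⟩ := h
    obtain ⟨k, hk, hik⟩ := zpow_eq_pow hp.pos hs i
    rw [hik] at hi
    rw [Finset.sum_eq_single k, hi, Finsupp.single_eq_same]
    · intro j hj hjk
      rw [Finsupp.single_apply, if_neg]
      intro h'
      exact hjk (pow_apply_inj hs hx (Finset.mem_range.1 hj) hk (h'.trans hi.symm))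
    · intro hk'
      exact absurd (Finset.mem_range.2 hk) hk'
  · refine Finset.sum_eq_zero fun j _ => ?_
    rw [Finsupp.single_apply, if_neg]
    intro h'
    exact h ⟨(j : ℤ), by rw [zpow_natCast]; exact h'⟩

/-! ### pull-back along an orbit map -/

section Pullback

variable {Y : Type*}

/-- the fibres of a map whose fibres are contained in `s`-orbits are finite -/
theorem finite_fiber {s : Equiv.Perm X} {p : ℕ} (hp : 0 < p) (hs : s ^ p = 1) (π : X → Y)
    (hπ : ∀ x x', π x = π x' → ∃ i : ℤ, (s ^ i) x = x') (v : Y) : (π ⁻¹' {v}).Finite := by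
  classical
  by_cases hne : ∃ x₀, π x₀ = v
  · obtain ⟨x₀, hx₀⟩ := hne
    refine Set.Finite.subset (Finset.finite_toSet ((range p).image fun i => (s ^ i) x₀)) ?_
    intro x hx
    have hx' : π x = v := hx
    obtain ⟨i, hi⟩ := hπ x₀ x (hx₀.trans hx'.symm)
    obtain ⟨k, hk, hik⟩ := zpow_eq_pow hp hs i
    rw [hik] at hi
    rw [Finset.mem_coe, Finset.mem_image]
    exact ⟨k, Finset.mem_range.2 hk, hi⟩
  · convert Set.finite_empty
    ext x
    simp only [Set.mem_preimage, Set.mem_singleton_iff, Set.mem_empty_iff_false, iff_false]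
    exact fun h => hne ⟨x, h⟩

/-- pull-back of divisors along a map with finite fibres: `(pullback π hfin d) x = d (π x)` -/
noncomputable def pullback (π : X → Y) (hfin : ∀ v, (π ⁻¹' {v}).Finite) :
    (Y →₀ ℤ) →+ (X →₀ ℤ) where
  toFun d := Finsupp.ofSupportFinite (fun x => d (π x)) (by
    refine Set.Finite.subset
      (Set.Finite.biUnion d.support.finite_toSet fun v _ => hfin v) ?_
    intro x hx
    rw [Function.mem_support] at hx
    rw [Set.mem_iUnion₂]
    exact ⟨π x, Finsupp.mem_support_iff.2 hx, rfl⟩)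
  map_zero' := by
    ext x
    rfl
  map_add' d₁ d₂ := by
    ext x
    rfl

theorem pullback_apply (π : X → Y) (hfin : ∀ v, (π ⁻¹' {v}).Finite) (d : Y →₀ ℤ) (x : X) :
    pullback π hfin d x = d (π x) := rfl

theorem pullback_injective (π : X → Y) (hfin : ∀ v, (π ⁻¹' {v}).Finite)
    (hsurj : Function.Surjective π) : Function.Injective (pullback π hfin) := by
  intro d₁ d₂ h
  ext v
  obtain ⟨x, rfl⟩ := hsurj v
  exact congrArg (fun f : X →₀ ℤ => f x) h

theorem tau_pullback {s : Equiv.Perm X} (π : X → Y) (hfin : ∀ v, (π ⁻¹' {v}).Finite)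
    (hπs : ∀ x, π (s x) = π x) (d : Y →₀ ℤ) : tau s (pullback π hfin d) = pullback π hfin d := by
  ext x
  rw [tau_apply, pullback_apply, pullback_apply]
  congr 1
  have h := hπs (s.symm x)
  rw [Equiv.apply_symm_apply] at h
  exact h.symm

theorem zpow_apply_of_invariant {s : Equiv.Perm X} {p : ℕ} (hp : 0 < p) (hs : s ^ p = 1)
    {e : X →₀ ℤ} (he : tau s e = e) (i : ℤ) (x : X) : e ((s ^ i) x) = e x := by
  obtain ⟨k, -, hik⟩ := zpow_eq_pow hp hs i
  rw [hik]
  exact apply_pow_of_invariant he k x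

theorem exists_pullback_eq {s : Equiv.Perm X} {p : ℕ} (hp : 0 < p) (hs : s ^ p = 1) (π : X → Y)
    (hfin : ∀ v, (π ⁻¹' {v}).Finite) (hπ : ∀ x x', π x = π x' → ∃ i : ℤ, (s ^ i) x = x')
    (hsurj : Function.Surjective π) (e : X →₀ ℤ) (he : tau s e = e) :
    ∃ d : Y →₀ ℤ, pullback π hfin d = e := by
  classical
  have hfs : (Function.support fun v => e (Function.surjInv hsurj v)).Finite := by
    refine Set.Finite.subset (Finset.finite_toSet (e.support.image π)) ?_
    intro v hv
    rw [Function.mem_support] at hv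
    rw [Finset.mem_coe, Finset.mem_image]
    exact ⟨Function.surjInv hsurj v, Finsupp.mem_support_iff.2 hv, Function.surjInv_eq hsurj v⟩
  refine ⟨Finsupp.ofSupportFinite _ hfs, ?_⟩
  ext x
  rw [pullback_apply]
  change e (Function.surjInv hsurj (π x)) = e x
  obtain ⟨i, hi⟩ := hπ _ _ (Function.surjInv_eq hsurj (π x))
  have h2 := zpow_apply_of_invariant hp hs he i (Function.surjInv hsurj (π x))
  rw [hi] at h2
  exact h2.symm

/-- the invariant divisors are exactly the pull-backs -/
theorem range_pullback {s : Equiv.Perm X} {p : ℕ} (hp : 0 < p) (hs : s ^ p = 1) (π : X → Y)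
    (hfin : ∀ v, (π ⁻¹' {v}).Finite) (hπs : ∀ x, π (s x) = π x)
    (hπ : ∀ x x', π x = π x' → ∃ i : ℤ, (s ^ i) x = x') (hsurj : Function.Surjective π) :
    (pullback π hfin).range = AddMonoidHom.ker (tau s - 1) := by
  ext e
  rw [mem_ker_sub_one_iff]
  constructor
  · rintro ⟨d, rfl⟩
    exact tau_pullback π hfin hπs d
  · intro he
    obtain ⟨d, hd⟩ := exists_pullback_eq hp hs π hfin hπ hsurj e he
    exact ⟨d, hd⟩

theorem map_zpow_apply {s : Equiv.Perm X} (π : X → Y) (hπs : ∀ x, π (s x) = π x) (i : ℤ)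
    (x : X) : π ((s ^ i) x) = π x := by
  have hnat : ∀ (n : ℕ) (x : X), π ((s ^ n) x) = π x := by
    intro n
    induction n with
    | zero => intro x; rfl
    | succ n ih => intro x; rw [pow_succ', Equiv.Perm.mul_apply, hπs, ih]
  cases i with
  | ofNat n => exact hnat n x
  | negSucc n =>
    have h := hnat (n + 1) ((s ^ Int.negSucc n) x)
    rw [← Equiv.Perm.mul_apply, ← zpow_natCast, ← zpow_add, Int.negSucc_eq] at h
    have h0 : ((n + 1 : ℕ) : ℤ) + -((n : ℤ) + 1) = 0 := by push_cast; ring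
    rw [h0, zpow_zero, Equiv.Perm.one_apply] at h
    rw [Int.negSucc_eq]
    exact h.symm

/-- over a free orbit the pull-back of a point is the norm of a point above -/
theorem pullback_single_of_free {s : Equiv.Perm X} {p : ℕ} [Fact p.Prime] (hs : s ^ p = 1)
    (π : X → Y) (hfin : ∀ v, (π ⁻¹' {v}).Finite) (hπs : ∀ x, π (s x) = π x)
    (hπ : ∀ x x', π x = π x' → ∃ i : ℤ, (s ^ i) x = x') {x : X} (hx : s x ≠ x) (c : ℤ) :
    pullback π hfin (Finsupp.single (π x) c) =
      (∑ i ∈ range p, tau s ^ i) (Finsupp.single x c) := by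
  classical
  ext y
  rw [pullback_apply, norm_single_apply_of_free hs hx, Finsupp.single_apply]
  refine if_congr ⟨fun h => hπ x y h, ?_⟩ rfl rfl
  rintro ⟨i, rfl⟩
  exact (map_zpow_apply π hπs i x).symm

/-- over a fixed point the pull-back of a point is the point above -/
theorem pullback_single_of_fixed {s : Equiv.Perm X} (π : X → Y)
    (hfin : ∀ v, (π ⁻¹' {v}).Finite) (hπ : ∀ x x', π x = π x' → ∃ i : ℤ, (s ^ i) x = x')
    {x : X} (hx : s x = x) (c : ℤ) :
    pullback π hfin (Finsupp.single (π x) c) = Finsupp.single x c := by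
  classical
  ext y
  rw [pullback_apply, Finsupp.single_apply, Finsupp.single_apply]
  refine if_congr ⟨fun h => ?_, fun h => by rw [h]⟩ rfl rfl
  obtain ⟨i, hi⟩ := hπ x y h
  rw [Equiv.Perm.zpow_apply_eq_self_of_apply_eq_self hx] at hi
  exact hi

/-- **Index bridge.**  `Dv^τ / (P + N Dv)` is a quotient of the class group `G` of the base by a
subgroup containing the classes of all points with a free fibre; so any bound on the index of such
subgroups bounds the relative index. -/
theorem relIndex_le_of_forall {s : Equiv.Perm X} {p : ℕ} [Fact p.Prime] (hs : s ^ p = 1)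
    (π : X → Y) (hfin : ∀ v, (π ⁻¹' {v}).Finite) (hπs : ∀ x, π (s x) = π x)
    (hπ : ∀ x x', π x = π x' → ∃ i : ℤ, (s ^ i) x = x') (hsurj : Function.Surjective π)
    {G : Type*} [CommGroup G] (cl : (Y →₀ ℤ) →+ Additive G) (hcl : Function.Surjective cl)
    (P : AddSubgroup (X →₀ ℤ)) (hP : (AddMonoidHom.ker cl).map (pullback π hfin) ≤ P) (n : ℕ)
    (hn : ∀ H : Subgroup G,
      (∀ v : Y, (∀ x, π x = v → s x ≠ x) → Additive.toMul (cl (Finsupp.single v 1)) ∈ H) →
        H.index ≤ n) :
    (P ⊔ AddMonoidHom.range (∑ i ∈ range p, tau s ^ i)).relIndex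
      (AddMonoidHom.ker (tau s - 1)) ≤ n := by
  have hp : p.Prime := Fact.out
  rw [← range_pullback hp.pos hs π hfin hπs hπ hsurj, ← AddSubgroup.index_comap]
  set T : AddSubgroup (Y →₀ ℤ) :=
    (P ⊔ AddMonoidHom.range (∑ i ∈ range p, tau s ^ i)).comap (pullback π hfin) with hT
  have hker : AddMonoidHom.ker cl ≤ T := by
    intro d hd
    rw [hT, AddSubgroup.mem_comap]
    exact AddSubgroup.mem_sup_left (hP (AddSubgroup.mem_map_of_mem _ hd))
  have hidx : (T.map cl).index = T.index := AddSubgroup.index_map_eq T hcl hker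
  rw [← hidx]
  have key := hn (Subgroup.toAddSubgroup.symm (T.map cl)) ?_
  · exact key
  · intro v hv
    change cl (Finsupp.single v 1) ∈ T.map cl
    refine AddSubgroup.mem_map_of_mem _ ?_
    rw [hT, AddSubgroup.mem_comap]
    obtain ⟨x, rfl⟩ := hsurj v
    rw [pullback_single_of_free hs π hfin hπs hπ (hv x rfl)]
    exact AddSubgroup.mem_sup_right ⟨_, rfl⟩

end Pullback

end Fermat.Agent.S14.NFNormAlg
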