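import Fermat.Agent.S14.NFNormIdx
import Fermat.Agent.S14.HM

/-!
# S14 / NFNorm : the two deductions from `herbrand_main`

`E/F` Galois of prime degree `p`, `τ` a generator of the Galois group.  Taking Hilbert 90 for
`tauA` (`h90`), the Herbrand quotient of the units (`hU`) and (for the norm statement) the
conclusion of the first inequality (`hfirst`) as hypotheses:

* `exists_not_split_of` : some prime of `E` has a non-trivial stabiliser,
* `exists_eq_norm_of`   : an element of `Fˣ` whose divisor is locally a norm is a norm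
  (in the additive language of `NFNormDefs`).
-/

set_option autoImplicit false
set_option linter.unusedSectionVars false

namespace Fermat.Agent.S14.NFNormCore

open NumberField IsDedekindDomain
open scoped nonZeroDivisors Pointwise
open Fermat.Agent.S14.NFNormDefs

variable (p : ℕ) [Fact p.Prime] (F E : Type*) [Field F] [NumberField F] [Field E] [NumberField E]
  [Algebra F E] [IsGalois F E]

/-- `herbrand_main` for `0 → (𝓞 E)ˣ → Eˣ → Div(E)` -/
theorem main (hdeg : Module.finrank F E = p) (τ : E ≃ₐ[F] E)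
    (h90 : ∀ a : Additive Eˣ, (∑ i ∈ Finset.range p, tauA F E τ ^ i) a = 0 →
      ∃ c, a = tauA F E τ c - c)
    (hU : (AddMonoidHom.range (∑ i ∈ Finset.range p, UnitRank.unitEnd F E τ ^ i)).relIndex
        (AddMonoidHom.ker (UnitRank.unitEnd F E τ - 1)) ≠ 0 ∧
      (AddMonoidHom.range (UnitRank.unitEnd F E τ - 1)).relIndex
        (AddMonoidHom.ker (∑ i ∈ Finset.range p, UnitRank.unitEnd F E τ ^ i)) =
        p * (AddMonoidHom.range (∑ i ∈ Finset.range p, UnitRank.unitEnd F E τ ^ i)).relIndex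
          (AddMonoidHom.ker (UnitRank.unitEnd F E τ - 1))) :
    p ≤ ((AddMonoidHom.ker (tauA F E τ - 1)).map (divHom E) ⊔
        AddMonoidHom.range (∑ i ∈ Finset.range p, tauD F E τ ^ i)).relIndex
          (AddMonoidHom.ker (tauD F E τ - 1)) ∧
    (((AddMonoidHom.ker (tauA F E τ - 1)).map (divHom E) ⊔
        AddMonoidHom.range (∑ i ∈ Finset.range p, tauD F E τ ^ i)).relIndex
          (AddMonoidHom.ker (tauD F E τ - 1)) ≤ p →
      ∀ b : Additive Eˣ, tauA F E τ b = b →
        divHom E b ∈ AddMonoidHom.range (∑ i ∈ Finset.range p, tauD F E τ ^ i) →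
        ∃ c, b = (∑ i ∈ Finset.range p, tauA F E τ ^ i) c) :=
  herbrand_main p (UnitRank.unitEnd F E τ) (tauA F E τ) (tauD F E τ)
    (hdeg ▸ UnitRank.unitEnd_pow_finrank F E τ) (hdeg ▸ tauA_pow_finrank F E τ)
    (hdeg ▸ tauD_pow_finrank F E τ) (unitToField E) (divHom E) (unitToField_injective E)
    (range_unitToField E) (unitToField_unitEnd F E τ) (divHom_tauA F E τ) h90
    (fun x hx => NFNormAlg.h1_vanish (Fact.out : p.Prime).pos
      (hdeg ▸ galPerm_pow_finrank F E τ) x hx)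
    (DivCl.finite_quotient_range_divHom E) hU

/-- some prime of `E` is fixed by `τ` -/
theorem exists_fixed (hdeg : Module.finrank F E = p) (τ : E ≃ₐ[F] E)
    (h90 : ∀ a : Additive Eˣ, (∑ i ∈ Finset.range p, tauA F E τ ^ i) a = 0 →
      ∃ c, a = tauA F E τ c - c)
    (hU : (AddMonoidHom.range (∑ i ∈ Finset.range p, UnitRank.unitEnd F E τ ^ i)).relIndex
        (AddMonoidHom.ker (UnitRank.unitEnd F E τ - 1)) ≠ 0 ∧
      (AddMonoidHom.range (UnitRank.unitEnd F E τ - 1)).relIndex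
        (AddMonoidHom.ker (∑ i ∈ Finset.range p, UnitRank.unitEnd F E τ ^ i)) =
        p * (AddMonoidHom.range (∑ i ∈ Finset.range p, UnitRank.unitEnd F E τ ^ i)).relIndex
          (AddMonoidHom.ker (UnitRank.unitEnd F E τ - 1))) :
    ∃ w : HeightOneSpectrum (𝓞 E), galPerm F E τ w = w := by
  by_contra hno
  have hfree : ∀ w : HeightOneSpectrum (𝓞 E), galPerm F E τ w ≠ w := fun w hw => hno ⟨w, hw⟩
  have hle : AddMonoidHom.ker (tauD F E τ - 1) ≤
      AddMonoidHom.range (∑ i ∈ Finset.range p, tauD F E τ ^ i) :=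
    NFNormAlg.ker_le_range_norm_of_free (NFNormIdx.galPerm_pow_eq_one p F E hdeg τ) hfree
  have h1 := (main p F E hdeg τ h90 hU).1
  rw [AddSubgroup.relIndex_eq_one.2 (le_trans hle le_sup_right)] at h1
  exact absurd h1 (not_le.2 (Fact.out : p.Prime).one_lt)

/-- `exists_not_split`, given Hilbert 90 and the Herbrand quotient of the units -/
theorem exists_not_split_of (hdeg : Module.finrank F E = p) (τ : E ≃ₐ[F] E)
    (hτ : ∀ σ : E ≃ₐ[F] E, σ ∈ Subgroup.zpowers τ)
    (h90 : ∀ a : Additive Eˣ, (∑ i ∈ Finset.range p, tauA F E τ ^ i) a = 0 →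
      ∃ c, a = tauA F E τ c - c)
    (hU : (AddMonoidHom.range (∑ i ∈ Finset.range p, UnitRank.unitEnd F E τ ^ i)).relIndex
        (AddMonoidHom.ker (UnitRank.unitEnd F E τ - 1)) ≠ 0 ∧
      (AddMonoidHom.range (UnitRank.unitEnd F E τ - 1)).relIndex
        (AddMonoidHom.ker (∑ i ∈ Finset.range p, UnitRank.unitEnd F E τ ^ i)) =
        p * (AddMonoidHom.range (∑ i ∈ Finset.range p, UnitRank.unitEnd F E τ ^ i)).relIndex
          (AddMonoidHom.ker (UnitRank.unitEnd F E τ - 1))) :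
    ∃ v : HeightOneSpectrum (𝓞 E), ∃ σ : E ≃ₐ[F] E, σ ≠ 1 ∧ σ • v.asIdeal = v.asIdeal := by
  obtain ⟨w, hw⟩ := exists_fixed p F E hdeg τ h90 hU
  exact ⟨w, (NFNormIdx.fixed_iff p F E hdeg τ hτ w).1 hw⟩

/-- `hasse_norm` in additive form, given Hilbert 90, the Herbrand quotient of the units and the
first inequality -/
theorem exists_eq_norm_of (hdeg : Module.finrank F E = p) (hunr : UnramifiedEverywhere F E)
    (τ : E ≃ₐ[F] E) (hτ : ∀ σ : E ≃ₐ[F] E, σ ∈ Subgroup.zpowers τ)
    (h90 : ∀ a : Additive Eˣ, (∑ i ∈ Finset.range p, tauA F E τ ^ i) a = 0 →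
      ∃ c, a = tauA F E τ c - c)
    (hU : (AddMonoidHom.range (∑ i ∈ Finset.range p, UnitRank.unitEnd F E τ ^ i)).relIndex
        (AddMonoidHom.ker (UnitRank.unitEnd F E τ - 1)) ≠ 0 ∧
      (AddMonoidHom.range (UnitRank.unitEnd F E τ - 1)).relIndex
        (AddMonoidHom.ker (∑ i ∈ Finset.range p, UnitRank.unitEnd F E τ ^ i)) =
        p * (AddMonoidHom.range (∑ i ∈ Finset.range p, UnitRank.unitEnd F E τ ^ i)).relIndex
          (AddMonoidHom.ker (UnitRank.unitEnd F E τ - 1)))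
    (hfirst : ∀ H : Subgroup (ClassGroup (𝓞 F)),
      (∀ v : HeightOneSpectrum (𝓞 F),
        (∀ w : HeightOneSpectrum (𝓞 E), w.asIdeal.comap (algebraMap (𝓞 F) (𝓞 E)) = v.asIdeal →
          ∀ σ : E ≃ₐ[F] E, σ • w.asIdeal = w.asIdeal → σ = 1) →
        ClassGroup.mk0 ⟨v.asIdeal, mem_nonZeroDivisors_of_ne_zero v.ne_bot⟩ ∈ H) →
      H.index ≤ p)
    (b : Fˣ)
    (hloc : ∀ v : HeightOneSpectrum (𝓞 E),
      (∃ σ : E ≃ₐ[F] E, σ ≠ 1 ∧ σ • v.asIdeal = v.asIdeal) →
        (p : ℤ) ∣ ord v (algebraMap F E (b : F))) :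
    ∃ c : Additive Eˣ,
      fieldIncl F E (Additive.ofMul b) = (∑ i ∈ Finset.range p, tauA F E τ ^ i) c := by
  have hidx := NFNormIdx.relIndex_le p F E hdeg hunr τ hτ hfirst
  refine (main p F E hdeg τ h90 hU).2 hidx (fieldIncl F E (Additive.ofMul b))
    (tauA_fieldIncl F E τ _) ?_
  have hinv : NFNormAlg.tau (galPerm F E τ) (divHom E (fieldIncl F E (Additive.ofMul b))) =
      divHom E (fieldIncl F E (Additive.ofMul b)) := by
    rw [← tauD_def, ← divHom_tauA, tauA_fieldIncl]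
  obtain ⟨e, he⟩ := NFNormAlg.mem_range_norm_of_dvd (NFNormIdx.galPerm_pow_eq_one p F E hdeg τ)
    (divHom E (fieldIncl F E (Additive.ofMul b))) hinv (fun w hw => by
      have h1 := hloc w ((NFNormIdx.fixed_iff p F E hdeg τ hτ w).1 hw)
      have h2 : divHom E (fieldIncl F E (Additive.ofMul b)) w =
          ord w (algebraMap F E (b : F)) :=
        divHom_apply E (Additive.toMul (fieldIncl F E (Additive.ofMul b))) w
      rw [h2]
      exact h1)
  exact ⟨e, he.symm⟩

end Fermat.Agent.S14.NFNormCore
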