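/-
S14, package UnitRank: infinite places and unit ranks in a Galois extension of odd degree, and the
Galois action on the unit group (blueprint of helper2; first two statements verbatim).

* `card_infinitePlace_of_odd` : `#places(E) = [E:F] * #places(F)` when `[E:F]` is odd.
* `finrank_units` : `finrank ℤ (Additive (𝓞 M)ˣ) = Units.rank M`.
* `unitEnd F E σ` : the endomorphism of `Additive (𝓞 E)ˣ` induced by `σ ∈ Gal(E/F)`.
* `exists_unit_of_fixed` : a unit of `𝓞 E` fixed by `Gal(E/F)` comes from a unit of `𝓞 F`.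
* `finrank_units_add_one_eq` : the rank hypothesis `hr` of `herbrand_lattice` for
  `U := Additive (𝓞 E)ˣ`, `τ := unitEnd F E σ`, `σ` a generator of `Gal(E/F)`.
Owner: helper12.
-/
import Mathlib
import Fermat.Agent.S14.Defs

set_option autoImplicit false

namespace Fermat.Agent.S14

open NumberField IsDedekindDomain
open scoped nonZeroDivisors Pointwise

theorem card_infinitePlace_of_odd (F E : Type*) [Field F] [NumberField F] [Field E] [NumberField E]
    [Algebra F E] [IsGalois F E] (hodd : Odd (Module.finrank F E)) :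
    Fintype.card (InfinitePlace E) = Module.finrank F E * Fintype.card (InfinitePlace F) := by
  classical
  have hall : ∀ w : InfinitePlace F, w.IsUnramifiedIn E := by
    intro w
    by_contra hw
    exact (Nat.not_even_iff_odd.mpr hodd) (InfinitePlace.even_finrank_of_not_isUnramifiedIn hw)
  have h := InfinitePlace.card_eq_card_isUnramifiedIn F E
  have h1 : (Finset.univ.filter (fun w : InfinitePlace F => w.IsUnramifiedIn E)) = Finset.univ := by
    ext w
    simp [hall w]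
  rw [h1, Finset.compl_univ, Finset.card_empty, zero_mul, add_zero, Finset.card_univ] at h
  rw [h, mul_comm]

theorem finrank_units (M : Type*) [Field M] [NumberField M] :
    Module.finrank ℤ (Additive (𝓞 M)ˣ) = NumberField.Units.rank M :=
  NumberField.Units.finrank_eq M

namespace UnitRank

section

variable (F E : Type*) [Field F] [NumberField F] [Field E] [NumberField E] [Algebra F E]

/-- The endomorphism of the (additively written) unit group of `𝓞 E` induced by `σ`. -/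
noncomputable def unitEnd (σ : E ≃ₐ[F] E) : AddMonoid.End (Additive (𝓞 E)ˣ) :=
  MonoidHom.toAdditive
    (Units.map ((MulSemiringAction.toRingHom (E ≃ₐ[F] E) (𝓞 E) σ : 𝓞 E →+* 𝓞 E) : 𝓞 E →* 𝓞 E))

theorem unitEnd_apply (σ : E ≃ₐ[F] E) (u : (𝓞 E)ˣ) :
    (((unitEnd F E σ (Additive.ofMul u)).toMul : (𝓞 E)ˣ) : 𝓞 E) = σ • (u : 𝓞 E) := rfl

theorem unitEnd_apply_coe (σ : E ≃ₐ[F] E) (u : (𝓞 E)ˣ) :
    ((((unitEnd F E σ (Additive.ofMul u)).toMul : (𝓞 E)ˣ) : 𝓞 E) : E) = σ ((u : 𝓞 E) : E) := rfl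

theorem unitEnd_one : unitEnd F E 1 = 1 := by
  refine AddMonoidHom.ext fun u => ?_
  have h : (Additive.toMul (unitEnd F E 1 u) : (𝓞 E)ˣ) = Additive.toMul u :=
    Units.ext (one_smul (E ≃ₐ[F] E) ((Additive.toMul u : (𝓞 E)ˣ) : 𝓞 E))
  exact h

theorem unitEnd_mul (σ τ : E ≃ₐ[F] E) : unitEnd F E (σ * τ) = unitEnd F E σ * unitEnd F E τ := by
  refine AddMonoidHom.ext fun u => ?_
  have h : (Additive.toMul (unitEnd F E (σ * τ) u) : (𝓞 E)ˣ) =
      Additive.toMul (unitEnd F E σ (unitEnd F E τ u)) :=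
    Units.ext (mul_smul σ τ ((Additive.toMul u : (𝓞 E)ˣ) : 𝓞 E))
  exact h

theorem unitEnd_pow (σ : E ≃ₐ[F] E) (n : ℕ) : unitEnd F E (σ ^ n) = unitEnd F E σ ^ n := by
  induction n with
  | zero => rw [pow_zero, pow_zero, unitEnd_one]
  | succ n ih => rw [pow_succ, pow_succ, unitEnd_mul, ih]

/-- `τ ^ [E:F] = 1` for the endomorphism induced by any `σ` (finite Galois extension). -/
theorem unitEnd_pow_finrank [IsGalois F E] (σ : E ≃ₐ[F] E) :
    unitEnd F E σ ^ Module.finrank F E = 1 := by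
  rw [← unitEnd_pow, ← IsGalois.card_aut_eq_finrank F E, pow_card_eq_one', unitEnd_one]

theorem mem_ker_unitEnd_sub_one_iff (σ : E ≃ₐ[F] E) (u : Additive (𝓞 E)ˣ) :
    u ∈ AddMonoidHom.ker (unitEnd F E σ - 1) ↔
      σ • ((Additive.toMul u : (𝓞 E)ˣ) : 𝓞 E) = ((Additive.toMul u : (𝓞 E)ˣ) : 𝓞 E) := by
  rw [AddMonoidHom.mem_ker]
  show unitEnd F E σ u - u = 0 ↔ _
  rw [sub_eq_zero]
  constructor
  · intro h
    have h1 := congrArg (fun x : Additive (𝓞 E)ˣ => ((Additive.toMul x : (𝓞 E)ˣ) : 𝓞 E)) h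
    exact h1
  · intro h
    have h2 : (Additive.toMul (unitEnd F E σ u) : (𝓞 E)ˣ) = Additive.toMul u := Units.ext h
    exact h2

/-- A unit of `𝓞 E` fixed by the whole Galois group comes from a unit of `𝓞 F`. -/
theorem exists_unit_of_fixed [IsGalois F E] (u : (𝓞 E)ˣ)
    (h : ∀ σ : E ≃ₐ[F] E, σ • (u : 𝓞 E) = (u : 𝓞 E)) :
    ∃ u' : (𝓞 F)ˣ, algebraMap (𝓞 F) (𝓞 E) (u' : 𝓞 F) = (u : 𝓞 E) := by
  have hinj : Function.Injective (algebraMap F E) := (algebraMap F E).injective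
  have key : ∀ x : 𝓞 E, (∀ σ : E ≃ₐ[F] E, σ • x = x) →
      ∃ y : 𝓞 F, algebraMap (𝓞 F) (𝓞 E) y = x := by
    intro x hx
    have hfix : ∀ σ : E ≃ₐ[F] E, σ (x : E) = (x : E) := fun σ =>
      congrArg (fun z : 𝓞 E => (z : E)) (hx σ)
    obtain ⟨y, hy⟩ := (IsGalois.mem_range_algebraMap_iff_fixed (F := F) (E := E) (x : E)).mpr hfix
    have hyint : IsIntegral ℤ y := by
      have h1 : IsIntegral ℤ (algebraMap F E y) := by
        rw [hy]
        exact RingOfIntegers.isIntegral_coe x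
      exact (isIntegral_algebraMap_iff hinj).mp h1
    refine ⟨⟨y, hyint⟩, ?_⟩
    apply Subtype.ext
    exact hy
  obtain ⟨y, hy⟩ := key (u : 𝓞 E) h
  have hinv : ∀ σ : E ≃ₐ[F] E, σ • ((u⁻¹ : (𝓞 E)ˣ) : 𝓞 E) = ((u⁻¹ : (𝓞 E)ˣ) : 𝓞 E) := by
    intro σ
    have h1 : σ • ((u⁻¹ : (𝓞 E)ˣ) : 𝓞 E) * (u : 𝓞 E) = 1 := by
      conv_lhs => rw [← h σ]
      rw [← smul_mul', Units.inv_mul, smul_one]
    have h2 : ((u⁻¹ : (𝓞 E)ˣ) : 𝓞 E) * (u : 𝓞 E) = 1 := Units.inv_mul u
    exact mul_right_cancel₀ (Units.ne_zero u) (h1.trans h2.symm)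
  obtain ⟨z, hz⟩ := key ((u⁻¹ : (𝓞 E)ˣ) : 𝓞 E) hinv
  have hinj' : Function.Injective (algebraMap (𝓞 F) (𝓞 E)) :=
    FaithfulSMul.algebraMap_injective (𝓞 F) (𝓞 E)
  have hyz : y * z = 1 := by
    apply hinj'
    rw [map_mul, hy, hz, map_one, Units.mul_inv]
  exact ⟨⟨y, z, hyz, by rw [mul_comm, hyz]⟩, hy⟩

/-- The inclusion of unit groups `(𝓞 F)ˣ → (𝓞 E)ˣ`, written additively. -/
noncomputable def unitIncl : Additive (𝓞 F)ˣ →+ Additive (𝓞 E)ˣ :=
  MonoidHom.toAdditive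
    (Units.map ((algebraMap (𝓞 F) (𝓞 E) : 𝓞 F →+* 𝓞 E) : 𝓞 F →* 𝓞 E))

theorem unitIncl_apply (u : (𝓞 F)ˣ) :
    (((unitIncl F E (Additive.ofMul u)).toMul : (𝓞 E)ˣ) : 𝓞 E) =
      algebraMap (𝓞 F) (𝓞 E) (u : 𝓞 F) := rfl

theorem unitIncl_injective : Function.Injective (unitIncl F E) := by
  have hinj' : Function.Injective (algebraMap (𝓞 F) (𝓞 E)) :=
    FaithfulSMul.algebraMap_injective (𝓞 F) (𝓞 E)
  intro a b hab
  have h1 : ((((unitIncl F E a).toMul : (𝓞 E)ˣ) : 𝓞 E)) =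
      ((((unitIncl F E b).toMul : (𝓞 E)ˣ) : 𝓞 E)) := by rw [hab]
  have h2 : algebraMap (𝓞 F) (𝓞 E) ((Additive.toMul a : (𝓞 F)ˣ) : 𝓞 F) =
      algebraMap (𝓞 F) (𝓞 E) ((Additive.toMul b : (𝓞 F)ˣ) : 𝓞 F) := h1
  have h3 : (Additive.toMul a : (𝓞 F)ˣ) = Additive.toMul b := Units.ext (hinj' h2)
  exact h3

theorem smul_algebraMap (σ : E ≃ₐ[F] E) (a : 𝓞 F) :
    σ • algebraMap (𝓞 F) (𝓞 E) a = algebraMap (𝓞 F) (𝓞 E) a := by
  apply Subtype.ext
  show σ (algebraMap (𝓞 F) (𝓞 E) a : E) = (algebraMap (𝓞 F) (𝓞 E) a : E)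
  have h1 : (algebraMap (𝓞 F) (𝓞 E) a : E) = algebraMap F E (a : F) := rfl
  rw [h1, AlgEquiv.commutes]

/-- If `σ` generates `Gal(E/F)`, the units fixed by `σ` are exactly the units of `𝓞 F`. -/
theorem range_unitIncl [IsGalois F E] (σ : E ≃ₐ[F] E)
    (hσ : ∀ g : E ≃ₐ[F] E, g ∈ Subgroup.zpowers σ) :
    (unitIncl F E).range = AddMonoidHom.ker (unitEnd F E σ - 1) := by
  ext u
  rw [mem_ker_unitEnd_sub_one_iff]
  constructor
  · rintro ⟨a, rfl⟩
    exact smul_algebraMap F E σ _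
  · intro hu
    have hall : ∀ g : E ≃ₐ[F] E,
        g • ((Additive.toMul u : (𝓞 E)ˣ) : 𝓞 E) = ((Additive.toMul u : (𝓞 E)ˣ) : 𝓞 E) := by
      intro g
      obtain ⟨k, rfl⟩ := Subgroup.mem_zpowers_iff.mp (hσ g)
      have hstab : σ ∈ MulAction.stabilizer (E ≃ₐ[F] E)
          ((Additive.toMul u : (𝓞 E)ˣ) : 𝓞 E) := hu
      exact (Subgroup.zpow_mem _ hstab k)
    obtain ⟨u', hu'⟩ := exists_unit_of_fixed F E (Additive.toMul u) hall
    refine ⟨Additive.ofMul u', ?_⟩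
    have h2 : (Additive.toMul (unitIncl F E (Additive.ofMul u')) : (𝓞 E)ˣ) = Additive.toMul u :=
      Units.ext hu'
    exact h2

/-- The units fixed by a generator `σ` of `Gal(E/F)` have the rank of the units of `F`. -/
theorem finrank_ker_unitEnd_sub_one [IsGalois F E] (σ : E ≃ₐ[F] E)
    (hσ : ∀ g : E ≃ₐ[F] E, g ∈ Subgroup.zpowers σ) :
    Module.finrank ℤ (AddMonoidHom.ker (unitEnd F E σ - 1)) = NumberField.Units.rank F := by
  have e1 : Additive (𝓞 F)ˣ ≃+ (unitIncl F E).range :=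
    AddMonoidHom.ofInjective (unitIncl_injective F E)
  have e2 : (unitIncl F E).range ≃+ AddMonoidHom.ker (unitEnd F E σ - 1) :=
    AddEquiv.addSubgroupCongr (range_unitIncl F E σ hσ)
  rw [← finrank_units F]
  exact (LinearEquiv.finrank_eq (e1.trans e2).toIntLinearEquiv).symm

/-- The rank hypothesis of `herbrand_lattice` for the unit group of `E`, `E/F` Galois of odd
degree with `Gal(E/F)` generated by `σ`. -/
theorem finrank_units_add_one_eq [IsGalois F E] (hodd : Odd (Module.finrank F E))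
    (σ : E ≃ₐ[F] E) (hσ : ∀ g : E ≃ₐ[F] E, g ∈ Subgroup.zpowers σ) :
    Module.finrank ℤ (Additive (𝓞 E)ˣ) + 1 =
      Module.finrank F E * (Module.finrank ℤ (AddMonoidHom.ker (unitEnd F E σ - 1)) + 1) := by
  rw [finrank_ker_unitEnd_sub_one F E σ hσ, finrank_units E]
  unfold NumberField.Units.rank
  have hF : 0 < Fintype.card (InfinitePlace F) := Fintype.card_pos
  have hE : 0 < Fintype.card (InfinitePlace E) := Fintype.card_pos
  rw [Nat.sub_add_cancel hF, Nat.sub_add_cancel hE]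
  exact card_infinitePlace_of_odd F E hodd

end

end UnitRank

end Fermat.Agent.S14
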