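import Fermat.Agent.S14.GalDiv
import Fermat.Agent.S14.DivCl
import Fermat.Agent.S14.UnitRank
import Fermat.Agent.S14.NFNormAlg

/-!
# S14 / NFNorm : shared definitions for the norm-index package

For a Galois extension `E/F` of number fields and `σ : E ≃ₐ[F] E`:

* `galPerm F E σ`  : the permutation of the primes of `E` induced by `σ`,
* `tauD F E σ`     : the induced endomorphism of the divisor group of `E`,
* `tauA F E σ`     : the induced endomorphism of `Additive Eˣ`,
* `unitToField E`  : `Additive (𝓞 E)ˣ →+ Additive Eˣ`,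
* `fieldIncl F E`  : `Additive Fˣ →+ Additive Eˣ`,

together with the compatibilities needed to feed `herbrand_main`
(`U := Additive (𝓞 E)ˣ`, `A := Additive Eˣ`, `Dv := HeightOneSpectrum (𝓞 E) →₀ ℤ`,
`τU := UnitRank.unitEnd F E σ`, `τA := tauA F E σ`, `τD := tauD F E σ`,
`ι := unitToField E`, `dv := divHom E`).
-/

set_option autoImplicit false
set_option linter.unusedSectionVars false

namespace Fermat.Agent.S14.NFNormDefs

open NumberField IsDedekindDomain
open scoped nonZeroDivisors Pointwise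

variable (F E : Type*) [Field F] [NumberField F] [Field E] [NumberField E] [Algebra F E]

/-- the permutation action of the Galois group on the primes of `E` -/
noncomputable def galPerm : (E ≃ₐ[F] E) →* Equiv.Perm (HeightOneSpectrum (𝓞 E)) where
  toFun σ :=
    { toFun := galPrime F E σ
      invFun := galPrime F E σ⁻¹
      left_inv := galPrime_inv_galPrime F E σ
      right_inv := galPrime_galPrime_inv F E σ }
  map_one' := Equiv.ext fun w => galPrime_one F E w
  map_mul' σ τ := Equiv.ext fun w => galPrime_mul F E σ τ w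

theorem galPerm_apply (σ : E ≃ₐ[F] E) (w : HeightOneSpectrum (𝓞 E)) :
    galPerm F E σ w = galPrime F E σ w := rfl

theorem galPerm_symm_apply (σ : E ≃ₐ[F] E) (w : HeightOneSpectrum (𝓞 E)) :
    (galPerm F E σ).symm w = galPrime F E σ⁻¹ w := rfl

theorem galPerm_apply_eq_iff (σ : E ≃ₐ[F] E) (w : HeightOneSpectrum (𝓞 E)) :
    galPerm F E σ w = w ↔ σ • w.asIdeal = w.asIdeal := by
  rw [galPerm_apply, ← galPrime_asIdeal]
  exact ⟨fun h => congrArg HeightOneSpectrum.asIdeal h, fun h => HeightOneSpectrum.ext h⟩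

theorem galPerm_pow_finrank [IsGalois F E] (σ : E ≃ₐ[F] E) :
    galPerm F E σ ^ Module.finrank F E = 1 := by
  rw [← map_pow, ← IsGalois.card_aut_eq_finrank F E, pow_card_eq_one', map_one]

/-- the endomorphism of the divisor group of `E` induced by `σ` -/
noncomputable def tauD (σ : E ≃ₐ[F] E) : AddMonoid.End (HeightOneSpectrum (𝓞 E) →₀ ℤ) :=
  NFNormAlg.tau (galPerm F E σ)

theorem tauD_def (σ : E ≃ₐ[F] E) : tauD F E σ = NFNormAlg.tau (galPerm F E σ) := rfl

theorem tauD_apply (σ : E ≃ₐ[F] E) (d : HeightOneSpectrum (𝓞 E) →₀ ℤ)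
    (w : HeightOneSpectrum (𝓞 E)) : tauD F E σ d w = d (galPrime F E σ⁻¹ w) :=
  NFNormAlg.tau_apply _ d w

theorem tauD_pow_finrank [IsGalois F E] (σ : E ≃ₐ[F] E) :
    tauD F E σ ^ Module.finrank F E = 1 :=
  NFNormAlg.tau_pow_p (galPerm_pow_finrank F E σ)

/-- the endomorphism of `Additive Eˣ` induced by `σ` -/
noncomputable def tauA (σ : E ≃ₐ[F] E) : AddMonoid.End (Additive Eˣ) :=
  MonoidHom.toAdditive (Units.map ((σ : E →+* E) : E →* E))

theorem tauA_apply (σ : E ≃ₐ[F] E) (x : Eˣ) :
    ((Additive.toMul (tauA F E σ (Additive.ofMul x)) : Eˣ) : E) = σ (x : E) := rfl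

theorem tauA_apply' (σ : E ≃ₐ[F] E) (a : Additive Eˣ) :
    ((Additive.toMul (tauA F E σ a) : Eˣ) : E) = σ ((Additive.toMul a : Eˣ) : E) := rfl

theorem tauA_one : tauA F E 1 = 1 := by
  refine AddMonoidHom.ext fun a => ?_
  have h : (Additive.toMul (tauA F E 1 a) : Eˣ) = Additive.toMul a := Units.ext rfl
  exact h

theorem tauA_mul (σ τ : E ≃ₐ[F] E) : tauA F E (σ * τ) = tauA F E σ * tauA F E τ := by
  refine AddMonoidHom.ext fun a => ?_
  have h : (Additive.toMul (tauA F E (σ * τ) a) : Eˣ) =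
      Additive.toMul (tauA F E σ (tauA F E τ a)) := Units.ext rfl
  exact h

theorem tauA_pow (σ : E ≃ₐ[F] E) (n : ℕ) : tauA F E (σ ^ n) = tauA F E σ ^ n := by
  induction n with
  | zero => rw [pow_zero, pow_zero, tauA_one]
  | succ n ih => rw [pow_succ, pow_succ, tauA_mul, ih]

theorem tauA_pow_finrank [IsGalois F E] (σ : E ≃ₐ[F] E) :
    tauA F E σ ^ Module.finrank F E = 1 := by
  rw [← tauA_pow, ← IsGalois.card_aut_eq_finrank F E, pow_card_eq_one', tauA_one]

theorem mem_ker_tauA_sub_one_iff (σ : E ≃ₐ[F] E) (a : Additive Eˣ) :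
    a ∈ AddMonoidHom.ker (tauA F E σ - 1) ↔
      σ ((Additive.toMul a : Eˣ) : E) = ((Additive.toMul a : Eˣ) : E) := by
  rw [AddMonoidHom.mem_ker]
  show tauA F E σ a - a = 0 ↔ _
  rw [sub_eq_zero]
  constructor
  · intro h
    exact congrArg (fun x : Additive Eˣ => ((Additive.toMul x : Eˣ) : E)) h
  · intro h
    have h2 : (Additive.toMul (tauA F E σ a) : Eˣ) = Additive.toMul a := Units.ext h
    exact h2

/-- `ι` : the inclusion of the units of `𝓞 E` into `Eˣ`, written additively -/
noncomputable def unitToField : Additive (𝓞 E)ˣ →+ Additive Eˣ :=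
  MonoidHom.toAdditive (Units.map ((algebraMap (𝓞 E) E : 𝓞 E →+* E) : 𝓞 E →* E))

theorem unitToField_apply (u : (𝓞 E)ˣ) :
    ((Additive.toMul (unitToField E (Additive.ofMul u)) : Eˣ) : E) = ((u : 𝓞 E) : E) := rfl

/-- `hι` of `herbrand_main` -/
theorem unitToField_injective : Function.Injective (unitToField E) := by
  intro a b hab
  have h1 : ((Additive.toMul (unitToField E a) : Eˣ) : E) =
      ((Additive.toMul (unitToField E b) : Eˣ) : E) := by rw [hab]
  have h2 : (((Additive.toMul a : (𝓞 E)ˣ) : 𝓞 E) : E) = (((Additive.toMul b : (𝓞 E)ˣ) : 𝓞 E) : E) :=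
    h1
  have h3 : (Additive.toMul a : (𝓞 E)ˣ) = Additive.toMul b :=
    Units.ext (RingOfIntegers.coe_injective h2)
  exact h3

/-- `hex` of `herbrand_main` -/
theorem range_unitToField : (unitToField E).range = (divHom E).ker := by
  ext a
  rw [AddMonoidHom.mem_ker]
  have ha : divHom E a = divHom E (Additive.ofMul (Additive.toMul a)) := rfl
  rw [ha, divHom_eq_zero_iff]
  constructor
  · rintro ⟨u, rfl⟩
    exact ⟨Additive.toMul u, rfl⟩
  · rintro ⟨u, hu⟩
    refine ⟨Additive.ofMul u, ?_⟩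
    have h : (Additive.toMul (unitToField E (Additive.ofMul u)) : Eˣ) = Additive.toMul a :=
      Units.ext hu
    exact h

/-- `hιτ` of `herbrand_main` -/
theorem unitToField_unitEnd (σ : E ≃ₐ[F] E) (u : Additive (𝓞 E)ˣ) :
    unitToField E (UnitRank.unitEnd F E σ u) = tauA F E σ (unitToField E u) := by
  have h : (Additive.toMul (unitToField E (UnitRank.unitEnd F E σ u)) : Eˣ) =
      Additive.toMul (tauA F E σ (unitToField E u)) := Units.ext rfl
  exact h

/-- `hdτ` of `herbrand_main` -/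
theorem divHom_tauA (σ : E ≃ₐ[F] E) (a : Additive Eˣ) :
    divHom E (tauA F E σ a) = tauD F E σ (divHom E a) := by
  ext w
  rw [tauD_apply]
  have h1 : divHom E (tauA F E σ a) w =
      ord w (σ ((Additive.toMul a : Eˣ) : E)) :=
    divHom_apply E (Additive.toMul (tauA F E σ a)) w
  have h2 : divHom E a (galPrime F E σ⁻¹ w) =
      ord (galPrime F E σ⁻¹ w) ((Additive.toMul a : Eˣ) : E) :=
    divHom_apply E (Additive.toMul a) _
  rw [h1, h2, ← ord_galPrime F E σ (galPrime F E σ⁻¹ w), galPrime_galPrime_inv]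

/-- the inclusion `Fˣ → Eˣ`, written additively -/
noncomputable def fieldIncl : Additive Fˣ →+ Additive Eˣ :=
  MonoidHom.toAdditive (Units.map ((algebraMap F E : F →+* E) : F →* E))

theorem fieldIncl_apply (b : Fˣ) :
    ((Additive.toMul (fieldIncl F E (Additive.ofMul b)) : Eˣ) : E) = algebraMap F E (b : F) := rfl

theorem fieldIncl_apply' (b : Additive Fˣ) :
    ((Additive.toMul (fieldIncl F E b) : Eˣ) : E) =
      algebraMap F E ((Additive.toMul b : Fˣ) : F) := rfl

/-- elements of `F` are fixed by the Galois group -/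
theorem tauA_fieldIncl (σ : E ≃ₐ[F] E) (b : Additive Fˣ) :
    tauA F E σ (fieldIncl F E b) = fieldIncl F E b := by
  have h : (Additive.toMul (tauA F E σ (fieldIncl F E b)) : Eˣ) =
      Additive.toMul (fieldIncl F E b) := by
    apply Units.ext
    rw [tauA_apply', fieldIncl_apply', AlgEquiv.commutes]
  exact h

theorem fieldIncl_mem_ker (σ : E ≃ₐ[F] E) (b : Additive Fˣ) :
    fieldIncl F E b ∈ AddMonoidHom.ker (tauA F E σ - 1) := by
  rw [mem_ker_tauA_sub_one_iff, fieldIncl_apply', AlgEquiv.commutes]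

end Fermat.Agent.S14.NFNormDefs
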