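import Fermat.Agent.S14.NFNormDefs
import Fermat.Agent.S14.NFNormCore
import Fermat.Agent.S14.HQ
import Fermat.Agent.S14.Hilbert90

/-!
# S14 / NFNorm : the "field" hypotheses of `herbrand_main`

`E/F` a Galois extension of number fields of prime degree `p`, `τ` a generator of the Galois
group.  With the shared definitions of `NFNormDefs`:

* `orderOf_eq`, `ne_one`      : `τ` has order `p`;
* `sum_tauA_apply`            : the norm element `∑ τA ^ i` computes `∏ (τ ^ i) x`;
* `h90`                       : Hilbert 90 for `tauA` (hypothesis `h90` of `herbrand_main`);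
* `norm_eq`, `norm_eq_of_eq`  : `∑ τA ^ i` is the field norm `Algebra.norm F`;
* `hU`                        : the Herbrand quotient hypothesis for the unit group;
* `exists_generator`          : the Galois group is generated by one element;
* `exists_not_split`          : some prime of `E` has a non-trivial stabiliser (skeleton shape);
* `hasse_norm_of_first`       : the Hasse norm statement (skeleton shape), with the conclusion of
  the first inequality as the hypothesis `hfirst`.
-/

set_option autoImplicit false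
set_option linter.unusedSectionVars false

namespace Fermat.Agent.S14.NFNormHyp

open NumberField IsDedekindDomain Fermat.Agent.S14.NFNormDefs
open scoped nonZeroDivisors Pointwise

variable (p : ℕ) [Fact p.Prime]
variable (F E : Type*) [Field F] [NumberField F] [Field E] [NumberField E] [Algebra F E]

/-- a generator of the Galois group of an extension of prime degree `p` has order `p` -/
theorem orderOf_eq [IsGalois F E] (hdeg : Module.finrank F E = p) (τ : E ≃ₐ[F] E)
    (hτ : ∀ σ : E ≃ₐ[F] E, σ ∈ Subgroup.zpowers τ) : orderOf τ = p := by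
  have h1 : Subgroup.zpowers τ = ⊤ := (Subgroup.eq_top_iff' _).mpr hτ
  rw [← Nat.card_zpowers, h1, Subgroup.card_top, IsGalois.card_aut_eq_finrank, hdeg]

theorem ne_one [IsGalois F E] (hdeg : Module.finrank F E = p) (τ : E ≃ₐ[F] E)
    (hτ : ∀ σ : E ≃ₐ[F] E, σ ∈ Subgroup.zpowers τ) : τ ≠ 1 := by
  intro h
  have h1 := orderOf_eq p F E hdeg τ hτ
  rw [h, orderOf_one] at h1
  exact (Fact.out : p.Prime).one_lt.ne h1

/-- the norm element of `Additive Eˣ` computes the product of the conjugates -/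
theorem sum_tauA_apply (τ : E ≃ₐ[F] E) (n : ℕ) (a : Additive Eˣ) :
    ((Additive.toMul ((∑ i ∈ Finset.range n, tauA F E τ ^ i) a) : Eˣ) : E) =
      ∏ i ∈ Finset.range n, (τ ^ i) ((Additive.toMul a : Eˣ) : E) := by
  induction n with
  | zero =>
    rw [Finset.sum_range_zero, Finset.prod_range_zero]
    rfl
  | succ n ih =>
    rw [Finset.sum_range_succ, Finset.prod_range_succ, ← ih, ← tauA_pow]
    rfl

/-- **Hilbert 90** for `tauA` : hypothesis `h90` of `herbrand_main`. -/
theorem h90 [IsGalois F E] (hdeg : Module.finrank F E = p) (τ : E ≃ₐ[F] E)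
    (hτ : ∀ σ : E ≃ₐ[F] E, σ ∈ Subgroup.zpowers τ) :
    ∀ a : Additive Eˣ, (∑ i ∈ Finset.range p, tauA F E τ ^ i) a = 0 →
      ∃ c, a = tauA F E τ c - c := by
  intro a ha
  have hord := orderOf_eq p F E hdeg τ hτ
  have hprod : ∏ i ∈ Finset.range p, (τ ^ i) ((Additive.toMul a : Eˣ) : E) = 1 := by
    rw [← sum_tauA_apply, ha]
    rfl
  obtain ⟨δ, hδ, hx⟩ := Hilbert90.exists_div_of_prod_eq_one τ p hord
    (Fact.out : p.Prime).pos _ hprod
  refine ⟨Additive.ofMul (Units.mk0 δ hδ), ?_⟩
  have h : (Additive.toMul a : Eˣ) =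
      Additive.toMul (tauA F E τ (Additive.ofMul (Units.mk0 δ hδ))
        - Additive.ofMul (Units.mk0 δ hδ)) := by
    apply Units.ext
    rw [hx]
    show τ δ / δ = τ δ * δ⁻¹
    rw [div_eq_mul_inv]
  exact h

/-- the norm element of `Additive Eˣ` is the field norm -/
theorem norm_eq [IsGalois F E] (hdeg : Module.finrank F E = p) (τ : E ≃ₐ[F] E)
    (hτ : ∀ σ : E ≃ₐ[F] E, σ ∈ Subgroup.zpowers τ) (c : Additive Eˣ) :
    ((Additive.toMul ((∑ i ∈ Finset.range p, tauA F E τ ^ i) c) : Eˣ) : E) =
      algebraMap F E (Algebra.norm F ((Additive.toMul c : Eˣ) : E)) := by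
  classical
  rw [sum_tauA_apply, Algebra.norm_eq_prod_automorphisms]
  have hord := orderOf_eq p F E hdeg τ hτ
  have hinj : Set.InjOn (fun i : ℕ => τ ^ i) (Finset.range p : Set ℕ) := by
    intro i hi j hj hij
    rw [Finset.coe_range, ← hord] at hi hj
    exact pow_injOn_Iio_orderOf hi hj hij
  have himg : (Finset.range p).image (fun i : ℕ => τ ^ i) = Finset.univ := by
    apply Finset.eq_univ_of_card
    rw [Finset.card_image_of_injOn hinj, Finset.card_range, ← Nat.card_eq_fintype_card,
      IsGalois.card_aut_eq_finrank, hdeg]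
  rw [← himg, Finset.prod_image hinj]

/-- if `b ∈ Fˣ` is a norm element in `Additive Eˣ`, it is a field norm -/
theorem norm_eq_of_eq [IsGalois F E] (hdeg : Module.finrank F E = p) (τ : E ≃ₐ[F] E)
    (hτ : ∀ σ : E ≃ₐ[F] E, σ ∈ Subgroup.zpowers τ) (b : Additive Fˣ) (c : Additive Eˣ)
    (h : fieldIncl F E b = (∑ i ∈ Finset.range p, tauA F E τ ^ i) c) :
    Algebra.norm F ((Additive.toMul c : Eˣ) : E) = ((Additive.toMul b : Fˣ) : F) := by
  apply (algebraMap F E).injective
  rw [← norm_eq p F E hdeg τ hτ c, ← h]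
  rfl

/-- the Herbrand-quotient hypothesis `hU` of `herbrand_main` for the unit group of `E` -/
theorem hU [IsGalois F E] (hp2 : p ≠ 2) (hdeg : Module.finrank F E = p) (τ : E ≃ₐ[F] E)
    (hτ : ∀ σ : E ≃ₐ[F] E, σ ∈ Subgroup.zpowers τ) :
    (AddMonoidHom.range (∑ i ∈ Finset.range p, UnitRank.unitEnd F E τ ^ i)).relIndex
        (AddMonoidHom.ker (UnitRank.unitEnd F E τ - 1)) ≠ 0 ∧
    (AddMonoidHom.range (UnitRank.unitEnd F E τ - 1)).relIndex
        (AddMonoidHom.ker (∑ i ∈ Finset.range p, UnitRank.unitEnd F E τ ^ i)) =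
      p * (AddMonoidHom.range (∑ i ∈ Finset.range p, UnitRank.unitEnd F E τ ^ i)).relIndex
        (AddMonoidHom.ker (UnitRank.unitEnd F E τ - 1)) := by
  have hodd : Odd (Module.finrank F E) := by
    rw [hdeg]
    exact (Fact.out : p.Prime).odd_of_ne_two hp2
  refine herbrand_lattice p (UnitRank.unitEnd F E τ) ?_ ?_
  · have := UnitRank.unitEnd_pow_finrank F E τ
    rwa [hdeg] at this
  · have := UnitRank.finrank_units_add_one_eq F E hodd τ hτ
    rwa [hdeg] at this

/-- the Galois group of an extension of prime degree is generated by one element -/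
theorem exists_generator [IsGalois F E] (hdeg : Module.finrank F E = p) :
    ∃ τ : E ≃ₐ[F] E, ∀ σ : E ≃ₐ[F] E, σ ∈ Subgroup.zpowers τ := by
  have hcard : Nat.card (E ≃ₐ[F] E) = p := by
    rw [IsGalois.card_aut_eq_finrank, hdeg]
  haveI : IsCyclic (E ≃ₐ[F] E) := isCyclic_of_prime_card hcard
  exact IsCyclic.exists_generator

/-- **`exists_not_split`** (skeleton shape): an unramified... in fact any Galois extension of
number fields of odd prime degree has a prime with non-trivial stabiliser. -/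
theorem exists_not_split [IsGalois F E] (hp2 : p ≠ 2) (hdeg : Module.finrank F E = p) :
    ∃ v : HeightOneSpectrum (𝓞 E), ∃ σ : E ≃ₐ[F] E, σ ≠ 1 ∧ σ • v.asIdeal = v.asIdeal := by
  obtain ⟨τ, hτ⟩ := exists_generator p F E hdeg
  exact NFNormCore.exists_not_split_of p F E hdeg τ hτ (h90 p F E hdeg τ hτ)
    (hU p F E hp2 hdeg τ hτ)

/-- **`hasse_norm`** (skeleton shape), with the conclusion of the first inequality for `E/F`
as a hypothesis. -/
theorem hasse_norm_of_first [IsGalois F E] (hp2 : p ≠ 2) (hdeg : Module.finrank F E = p)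
    (hunr : UnramifiedEverywhere F E)
    (hfirst : ∀ H : Subgroup (ClassGroup (𝓞 F)),
      (∀ v : HeightOneSpectrum (𝓞 F),
        (∀ w : HeightOneSpectrum (𝓞 E), w.asIdeal.comap (algebraMap (𝓞 F) (𝓞 E)) = v.asIdeal →
          ∀ σ : E ≃ₐ[F] E, σ • w.asIdeal = w.asIdeal → σ = 1) →
        ClassGroup.mk0 ⟨v.asIdeal, mem_nonZeroDivisors_of_ne_zero v.ne_bot⟩ ∈ H) →
      H.index ≤ p)
    (b : F) (hb : b ≠ 0)
    (hloc : ∀ v : HeightOneSpectrum (𝓞 E), (∃ σ : E ≃ₐ[F] E, σ ≠ 1 ∧ σ • v.asIdeal = v.asIdeal) →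
      (p : ℤ) ∣ ord v (algebraMap F E b)) :
    ∃ γ : E, Algebra.norm F γ = b := by
  obtain ⟨τ, hτ⟩ := exists_generator p F E hdeg
  obtain ⟨c, hc⟩ := NFNormCore.exists_eq_norm_of p F E hdeg hunr τ hτ (h90 p F E hdeg τ hτ)
    (hU p F E hp2 hdeg τ hτ) hfirst (Units.mk0 b hb) hloc
  exact ⟨((Additive.toMul c : Eˣ) : E),
    norm_eq_of_eq p F E hdeg τ hτ (Additive.ofMul (Units.mk0 b hb)) c hc⟩

end Fermat.Agent.S14.NFNormHyp
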