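import Fermat.Agent.S14.NFNormDefs

/-!
# S14 / NFNorm : the index bound `[Dv^τ : dv(A^τ) + N Dv] ≤ p` from the first inequality

`E/F` Galois of prime degree `p`, unramified everywhere, `τ` a generator of the Galois group.
The orbit map is `primeBelow F E`; invariant divisors of `E` are pull-backs of divisors of `F`,
principal divisors of `F` pull back to divisors of `τ`-fixed elements, and the pull-back of a
split prime is a norm.  Hence the quotient is a quotient of `Cl(F)` by a subgroup containing the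
classes of all split primes, and the first inequality bounds its order by `p`.
-/

set_option autoImplicit false
set_option linter.unusedSectionVars false

namespace Fermat.Agent.S14.NFNormIdx

open NumberField IsDedekindDomain
open scoped nonZeroDivisors Pointwise
open Fermat.Agent.S14.NFNormDefs

variable (p : ℕ) [Fact p.Prime] (F E : Type*) [Field F] [NumberField F] [Field E] [NumberField E]
  [Algebra F E] [IsGalois F E]

theorem card_aut (hdeg : Module.finrank F E = p) : Nat.card (E ≃ₐ[F] E) = p := by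
  rw [IsGalois.card_aut_eq_finrank F E, hdeg]

theorem orderOf_eq (hdeg : Module.finrank F E = p) (τ : E ≃ₐ[F] E)
    (hτ : ∀ σ : E ≃ₐ[F] E, σ ∈ Subgroup.zpowers τ) : orderOf τ = p := by
  rw [orderOf_eq_card_of_forall_mem_zpowers hτ, card_aut p F E hdeg]

theorem ne_one (hdeg : Module.finrank F E = p) (τ : E ≃ₐ[F] E)
    (hτ : ∀ σ : E ≃ₐ[F] E, σ ∈ Subgroup.zpowers τ) : τ ≠ 1 := by
  intro h
  have h1 := orderOf_eq p F E hdeg τ hτ
  rw [h, orderOf_one] at h1
  exact (Fact.out : p.Prime).one_lt.ne h1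

theorem galPerm_pow_eq_one (hdeg : Module.finrank F E = p) (τ : E ≃ₐ[F] E) :
    galPerm F E τ ^ p = 1 := hdeg ▸ galPerm_pow_finrank F E τ

theorem primeBelow_galPerm (τ : E ≃ₐ[F] E) (w : HeightOneSpectrum (𝓞 E)) :
    primeBelow F E (galPerm F E τ w) = primeBelow F E w := primeBelow_galPrime F E τ w

theorem exists_zpow_galPerm (τ : E ≃ₐ[F] E) (hτ : ∀ σ : E ≃ₐ[F] E, σ ∈ Subgroup.zpowers τ)
    (w w' : HeightOneSpectrum (𝓞 E)) (h : primeBelow F E w = primeBelow F E w') :
    ∃ i : ℤ, (galPerm F E τ ^ i) w = w' := by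
  obtain ⟨σ, hσ⟩ := exists_galPrime_eq F E w w' h
  obtain ⟨i, rfl⟩ := Subgroup.mem_zpowers_iff.1 (hτ σ)
  exact ⟨i, by rw [← map_zpow]; exact hσ⟩

theorem finite_fiber (hdeg : Module.finrank F E = p) (τ : E ≃ₐ[F] E)
    (hτ : ∀ σ : E ≃ₐ[F] E, σ ∈ Subgroup.zpowers τ) (v : HeightOneSpectrum (𝓞 F)) :
    ((primeBelow F E) ⁻¹' {v}).Finite :=
  NFNormAlg.finite_fiber (Fact.out : p.Prime).pos (galPerm_pow_eq_one p F E hdeg τ)
    (primeBelow F E) (exists_zpow_galPerm F E τ hτ) v

/-- a prime `w` of `E` is fixed by the generator `τ` iff its stabiliser is non-trivial -/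
theorem fixed_iff (hdeg : Module.finrank F E = p) (τ : E ≃ₐ[F] E)
    (hτ : ∀ σ : E ≃ₐ[F] E, σ ∈ Subgroup.zpowers τ) (w : HeightOneSpectrum (𝓞 E)) :
    galPerm F E τ w = w ↔ ∃ σ : E ≃ₐ[F] E, σ ≠ 1 ∧ σ • w.asIdeal = w.asIdeal := by
  constructor
  · intro h
    exact ⟨τ, ne_one p F E hdeg τ hτ, (galPerm_apply_eq_iff F E τ w).1 h⟩
  · rintro ⟨σ, hσ1, hσ⟩
    rw [galPerm_apply_eq_iff]
    have htop : Subgroup.zpowers σ = ⊤ := zpowers_eq_top_of_prime_card (card_aut p F E hdeg) hσ1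
    have hmem : τ ∈ Subgroup.zpowers σ := by rw [htop]; exact Subgroup.mem_top τ
    obtain ⟨k, rfl⟩ := Subgroup.mem_zpowers_iff.1 hmem
    have hstab : σ ∈ MulAction.stabilizer (E ≃ₐ[F] E) w.asIdeal := hσ
    exact Subgroup.zpow_mem _ hstab k

/-- a prime `w` of `E` is moved by the generator `τ` iff its stabiliser is trivial -/
theorem moved_iff (hdeg : Module.finrank F E = p) (τ : E ≃ₐ[F] E)
    (hτ : ∀ σ : E ≃ₐ[F] E, σ ∈ Subgroup.zpowers τ) (w : HeightOneSpectrum (𝓞 E)) :
    galPerm F E τ w ≠ w ↔ ∀ σ : E ≃ₐ[F] E, σ • w.asIdeal = w.asIdeal → σ = 1 := by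
  rw [Ne, fixed_iff p F E hdeg τ hτ w]
  constructor
  · intro h σ hσ
    by_contra hne
    exact h ⟨σ, hne, hσ⟩
  · rintro h ⟨σ, hσ1, hσ⟩
    exact hσ1 (h σ hσ)

/-- unramified: the divisor of an element of `F` is the pull-back of its divisor over `F` -/
theorem divHom_fieldIncl (hunr : UnramifiedEverywhere F E)
    (hfin : ∀ v : HeightOneSpectrum (𝓞 F), ((primeBelow F E) ⁻¹' {v}).Finite) (b : Additive Fˣ) :
    divHom E (fieldIncl F E b) = NFNormAlg.pullback (primeBelow F E) hfin (divHom F b) := by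
  ext w
  rw [NFNormAlg.pullback_apply]
  have h1 : divHom E (fieldIncl F E b) w =
      ord w (algebraMap F E ((Additive.toMul b : Fˣ) : F)) :=
    divHom_apply E (Additive.toMul (fieldIncl F E b)) w
  have h2 : divHom F b (primeBelow F E w) =
      ord (primeBelow F E w) ((Additive.toMul b : Fˣ) : F) :=
    divHom_apply F (Additive.toMul b) _
  rw [h1, h2]
  exact ord_algebraMap F E w (hunr w.asIdeal w.isPrime w.ne_bot) _

/-- **The index bound.**  The hypothesis `hfirst` is the conclusion of `first_inequality`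
for `E/F`. -/
theorem relIndex_le (hdeg : Module.finrank F E = p) (hunr : UnramifiedEverywhere F E)
    (τ : E ≃ₐ[F] E) (hτ : ∀ σ : E ≃ₐ[F] E, σ ∈ Subgroup.zpowers τ)
    (hfirst : ∀ H : Subgroup (ClassGroup (𝓞 F)),
      (∀ v : HeightOneSpectrum (𝓞 F),
        (∀ w : HeightOneSpectrum (𝓞 E), w.asIdeal.comap (algebraMap (𝓞 F) (𝓞 E)) = v.asIdeal →
          ∀ σ : E ≃ₐ[F] E, σ • w.asIdeal = w.asIdeal → σ = 1) →
        ClassGroup.mk0 ⟨v.asIdeal, mem_nonZeroDivisors_of_ne_zero v.ne_bot⟩ ∈ H) →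
      H.index ≤ p) :
    ((AddMonoidHom.ker (tauA F E τ - 1)).map (divHom E) ⊔
        AddMonoidHom.range (∑ i ∈ Finset.range p, tauD F E τ ^ i)).relIndex
      (AddMonoidHom.ker (tauD F E τ - 1)) ≤ p := by
  have hs := galPerm_pow_eq_one p F E hdeg τ
  have hfin := finite_fiber p F E hdeg τ hτ
  refine NFNormAlg.relIndex_le_of_forall hs (primeBelow F E) hfin (primeBelow_galPerm F E τ)
    (exists_zpow_galPerm F E τ hτ) (exists_primeBelow_eq F E) (clHom F) (clHom_surjective F)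
    _ ?_ p ?_
  · rintro _ ⟨d, hd, rfl⟩
    have hd' : d ∈ (clHom F).ker := hd
    rw [ker_clHom] at hd'
    obtain ⟨b, rfl⟩ := hd'
    exact ⟨fieldIncl F E b, fieldIncl_mem_ker F E τ b, divHom_fieldIncl F E hunr hfin b⟩
  · intro H hH
    refine hfirst H fun v hv => ?_
    have h := hH v (fun w hw => (moved_iff p F E hdeg τ hτ w).2 (hv w ?_))
    · rwa [clHom_single, toMul_ofMul] at h
    · rw [← hw]
      rfl

end Fermat.Agent.S14.NFNormIdx
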