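/-
S14, package UnitRank (corollary file): the "fixed units descend" statement in the shape used by
NFNorm (everything stated inside the fields `F`, `E`).
Owner: helper12.
-/
import Mathlib
import Fermat.Agent.S14.UnitRank

set_option autoImplicit false

namespace Fermat.Agent.S14

open NumberField IsDedekindDomain
open scoped nonZeroDivisors Pointwise

namespace UnitRank

variable (F E : Type*) [Field F] [NumberField F] [Field E] [NumberField E] [Algebra F E]

/-- A unit of `𝓞 E` fixed (as an element of `E`) by `Gal(E/F)` is the image of a unit of `𝓞 F`. -/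
theorem exists_unit_of_fixed' [IsGalois F E] (u : (𝓞 E)ˣ)
    (hu : ∀ σ : E ≃ₐ[F] E, σ ((u : 𝓞 E) : E) = ((u : 𝓞 E) : E)) :
    ∃ u₀ : (𝓞 F)ˣ, algebraMap F E ((u₀ : 𝓞 F) : F) = ((u : 𝓞 E) : E) := by
  obtain ⟨u', hu'⟩ := exists_unit_of_fixed F E u (fun σ => Subtype.ext (hu σ))
  refine ⟨u', ?_⟩
  have h := congrArg (fun z : 𝓞 E => (z : E)) hu'
  exact h

/-- The same for elements of the additive unit group killed by `unitEnd σ - 1`, `σ` a generator. -/
theorem exists_unit_of_mem_ker [IsGalois F E] (σ : E ≃ₐ[F] E)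
    (hσ : ∀ g : E ≃ₐ[F] E, g ∈ Subgroup.zpowers σ) (u : Additive (𝓞 E)ˣ)
    (hu : u ∈ AddMonoidHom.ker (unitEnd F E σ - 1)) :
    ∃ u₀ : (𝓞 F)ˣ, unitIncl F E (Additive.ofMul u₀) = u := by
  rw [← range_unitIncl F E σ hσ] at hu
  obtain ⟨a, ha⟩ := hu
  exact ⟨Additive.toMul a, ha⟩

end UnitRank

end Fermat.Agent.S14
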